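import Mathlib

/-!
# Eigenvectors and eigensystems modulo a valuation

Commuting operators on a finite-dimensional space have an eigenvector for every system vanishing
on their relations; an eigensystem modulo the maximal ideal of a valuation ring which vanishes on
the relations of a lattice is realised in the reduction of the lattice.
-/

set_option autoImplicit false

noncomputable section

namespace Fermat.RM

/-- A system of values vanishing on the relations has an eigenvector. -/
theorem exists_eigenvector {k : Type*} [Field k] {A : Type*} [CommRing A] {M : Type*}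
    [AddCommGroup M] [Module k M] [FiniteDimensional k M] (ρ : A →+* Module.End k M)
    (θ : A →+* k) (hsc : ∀ c : k, ∃ a, ρ a = c • 1 ∧ θ a = c)
    (h : ∀ a, ρ a = 0 → θ a = 0) : ∃ x : M, x ≠ 0 ∧ ∀ a, ρ a x = θ a • x := by
  classical
  -- B = ρ(A) is a commutative artinian k-algebra acting on M
  let B : Subalgebra k (Module.End k M) :=
    { ρ.range with
      algebraMap_mem' := fun c => by
        obtain ⟨a, ha, -⟩ := hsc c
        exact ⟨a, by rw [ha, Algebra.algebraMap_eq_smul_one]⟩ }
  let : CommRing B := { (inferInstance : Ring B) with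
    mul_comm := by
      rintro ⟨_, a, rfl⟩ ⟨_, b, rfl⟩
      exact Subtype.ext (by change ρ a * ρ b = ρ b * ρ a; rw [← map_mul, mul_comm, map_mul]) }
  have : Module.Finite k B := Module.Finite.equiv (LinearEquiv.refl k (Subalgebra.toSubmodule B))
  have : IsArtinianRing B := IsArtinianRing.of_finite k B
  let f : A →+* B := ρ.codRestrict B fun a => ⟨a, rfl⟩
  have hf : Function.Surjective f := by
    rintro ⟨_, a, rfl⟩
    exact ⟨a, rfl⟩
  have hker : RingHom.ker f ≤ RingHom.ker θ := fun a ha =>
    h a (congrArg Subtype.val (RingHom.mem_ker.mp ha))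
  -- θ descends to θ' : B → k; its kernel P is a maximal ideal
  let θ' : B →+* k := f.liftOfSurjective hf ⟨θ, hker⟩
  have hθ' : ∀ a, θ' (f a) = θ a := fun a => f.liftOfRightInverse_comp_apply _ _ ⟨θ, hker⟩ a
  have hsurj : Function.Surjective θ' := fun c => by
    obtain ⟨a, -, ha⟩ := hsc c
    exact ⟨f a, by rw [hθ', ha]⟩
  set P := RingHom.ker θ' with hP
  have hPmax : P.IsMaximal := RingHom.ker_isMaximal_of_surjective θ' hsurj
  have : Module.Finite B M := Module.Finite.of_restrictScalars_finite k B M
  -- M is faithful over B, so P is associated: P is the annihilator of some x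
  have hann : Module.annihilator B M = ⊥ := by
    rw [eq_bot_iff]
    intro a ha
    rw [Submodule.mem_bot]
    exact Subtype.ext (LinearMap.ext fun v => Module.mem_annihilator.mp ha v)
  have hmin : P ∈ (Module.annihilator B M).minimalPrimes := by
    rw [hann]
    refine ⟨⟨hPmax.isPrime, bot_le⟩, fun J hJ hJP => ?_⟩
    have := hJ.1
    exact ((IsArtinianRing.isMaximal_of_isPrime J).eq_of_le hPmax.ne_top hJP).ge
  obtain ⟨-, x, hx⟩ := isAssociatedPrime_iff.mp
    (Module.associatedPrimes.minimalPrimes_annihilator_subset_associatedPrimes B M hmin)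
  refine ⟨x, ?_, fun a => ?_⟩
  · rintro rfl
    exact hPmax.ne_top (hx.trans (by simp))
  -- a - c ∈ P kills x, so x is an eigenvector
  · obtain ⟨c, hc, hθc⟩ := hsc (θ a)
    have h1 : f (a - c) ∈ P := by
      rw [hP, RingHom.mem_ker, hθ', map_sub, hθc, sub_self]
    rw [hx, Submodule.mem_colon_singleton, Submodule.mem_bot] at h1
    have h2 : ρ (a - c) x = 0 := h1
    rw [map_sub, LinearMap.sub_apply, sub_eq_zero, hc] at h2
    exact h2

/-- A system of values vanishing on the operators which kill an invariant subspace has an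
eigenvector in it. -/
theorem exists_eigenvector_mem {k : Type*} [Field k] {A : Type*} [CommRing A] {V : Type*}
    [AddCommGroup V] [Module k V] (ρ : A →+* Module.End k V) (θ : A →+* k) (S : Submodule k V)
    [FiniteDimensional k S] (hS : ∀ a, ∀ x ∈ S, ρ a x ∈ S)
    (hsc : ∀ c : k, ∃ a, ρ a = c • 1 ∧ θ a = c) (h : ∀ a, (∀ x ∈ S, ρ a x = 0) → θ a = 0) :
    ∃ x ∈ S, x ≠ 0 ∧ ∀ a, ρ a x = θ a • x := by
  let ρS : A →+* Module.End k S :=
    { toFun := fun a => (ρ a).restrict (hS a)
      map_one' := LinearMap.ext fun x => Subtype.ext (by simp)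
      map_mul' := fun a b => LinearMap.ext fun x => Subtype.ext (by simp)
      map_zero' := LinearMap.ext fun x => Subtype.ext (by simp)
      map_add' := fun a b => LinearMap.ext fun x => Subtype.ext (by simp) }
  obtain ⟨x, hx0, hx⟩ := exists_eigenvector ρS θ (fun c => by
      obtain ⟨a, ha, hθ⟩ := hsc c
      exact ⟨a, LinearMap.ext fun x => Subtype.ext (LinearMap.congr_fun ha x.1), hθ⟩)
    fun a ha => h a fun x hx => congrArg Subtype.val (LinearMap.congr_fun ha ⟨x, hx⟩)
  exact ⟨x, x.2, fun h0 => hx0 (Subtype.ext h0), fun a => congrArg Subtype.val (hx a)⟩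

section Lattice

variable {V : Type*} [CommRing V] [IsDomain V] [ValuationRing V] {k : Type*} [Field k] {r : V →+* k}
  {A : Type*} [CommRing A] {L : Type*} [AddCommGroup L] [Module V L] [Module.Finite V L]
  [Module.IsTorsionFree V L]

/-- A finite torsion-free module over a valuation ring is free. -/
theorem free_of_torsionFree : Module.Free V L := by
  have : Module.Flat V L := Module.Flat.flat_iff_torsion_eq_bot_of_isBezout.mpr
    (Submodule.isTorsionFree_iff_torsion_eq_bot.mp inferInstance)
  exact Module.free_of_flat_of_isLocalRing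

/-- An eigensystem modulo the maximal ideal which kills the relations of a lattice is realised in
its reduction. -/
theorem exists_eigen_reduction (hr : Function.Surjective r) (ρ : A →+* Module.End V L)
    (θ : A →+* k) (hsc : ∀ c : V, ∃ a, ρ a = c • 1 ∧ θ a = r c)
    (h : ∀ a, ρ a = 0 → θ a = 0) :
    ∃ x : L, x ∉ RingHom.ker r • (⊤ : Submodule V L) ∧
      ∀ a c, r c = θ a → ρ a x - c • x ∈ RingHom.ker r • (⊤ : Submodule V L) := by
  classical
  have := free_of_torsionFree (V := V) (L := L)
  let n := Module.Free.ChooseBasisIndex V L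
  let b : Module.Basis n V L := Module.Free.chooseBasis V L
  let red : (Matrix n n V) →+* Module.End k (n → k) :=
    (Matrix.toLinAlgEquiv' : Matrix n n k ≃ₐ[k] _).toAlgHom.toRingHom.comp r.mapMatrix
  let ρ' : A →+* Module.End k (n → k) :=
    red.comp ((LinearMap.toMatrixAlgEquiv b).toAlgHom.toRingHom.comp ρ)
  have hρ' : ∀ a (x : L), ρ' a (fun i => r (b.repr x i)) = fun i => r (b.repr (ρ a x) i) := by
    intro a x
    funext i
    rw [← LinearMap.toMatrix_mulVec_repr b b (ρ a) x]
    simp [ρ', red, Matrix.toLinAlgEquiv'_apply, Matrix.mulVec, dotProduct,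
      LinearMap.toMatrixAlgEquiv, map_sum]
  have hsc' : ∀ c : k, ∃ a, ρ' a = c • 1 ∧ θ a = c := by
    intro c
    obtain ⟨c, rfl⟩ := hr c
    obtain ⟨a, ha, hθ⟩ := hsc c
    refine ⟨a, ?_, hθ⟩
    refine (Pi.basisFun k n).ext fun j => funext fun i => ?_
    have := congrFun (hρ' a (b j)) i
    rw [ha] at this
    simp only [Module.Basis.repr_self, LinearMap.smul_apply, Module.End.one_apply, map_smul,
      Finsupp.smul_apply, smul_eq_mul, map_mul] at this
    have hb : (fun i => r ((Finsupp.single j (1 : V) : n →₀ V) i)) = Pi.single j 1 := by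
      funext i
      rcases eq_or_ne i j with rfl | hij
      · simp
      · simp [hij]
    rw [hb] at this
    simp only [Pi.basisFun_apply, LinearMap.smul_apply, Module.End.one_apply, Pi.smul_apply,
      smul_eq_mul]
    rw [this, ← congrFun hb i]
  obtain ⟨y, hy0, hy⟩ := exists_eigenvector ρ' θ hsc' fun a ha => by
    -- a power of `a` lies in `𝔪` times the image of `A`
    have hmem : ∀ i j, r (LinearMap.toMatrix b b (ρ a) i j) = 0 := fun i j => by
      have := congrFun (LinearMap.congr_fun ha (fun i => r (b.repr (b j) i))) i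
      rw [hρ'] at this
      simpa [LinearMap.toMatrix_apply] using this
    set M := LinearMap.toMatrix b b (ρ a)
    set P := M.charpoly
    have hP : P.map r = Polynomial.X ^ Fintype.card n := by
      rw [← Matrix.charpoly_map, show M.map r = 0 from Matrix.ext hmem, Matrix.charpoly_zero]
    choose g hg hgθ using hsc
    set e := ∑ i ∈ Finset.range (P.natDegree + 1), g (P.coeff i) * a ^ i
    have he : ρ e = 0 := by
      have h0 : Polynomial.aeval (ρ a) P = 0 := by
        rw [show P = (ρ a).charpoly from (LinearMap.charpoly_toMatrix (ρ a) b)]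
        exact LinearMap.aeval_self_charpoly _
      rw [Polynomial.aeval_eq_sum_range] at h0
      rw [map_sum, ← h0]
      exact Finset.sum_congr rfl fun i _ => by rw [map_mul, map_pow, hg, smul_one_mul]
    have hθ : θ a ^ Fintype.card n = 0 := by
      have h1 := h e he
      rw [map_sum] at h1
      have h2 : (P.map r).eval (θ a) = 0 := by
        rw [Polynomial.eval_map, Polynomial.eval₂_eq_sum_range, ← h1]
        exact Finset.sum_congr rfl fun i _ => by rw [map_mul, map_pow, hgθ]
      simpa [hP] using h2
    exact eq_zero_of_pow_eq_zero hθ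
  choose s hs using hr
  have hrepr : ∀ (g : n → V) i, b.repr (b.equivFun.symm g) i = g i := fun g i => by
    rw [← Module.Basis.equivFun_apply, LinearEquiv.apply_symm_apply]
  refine ⟨b.equivFun.symm fun i => s (y i), fun hmem => hy0 ?_, fun a c hc => ?_⟩
  · funext i
    have : ∀ z ∈ RingHom.ker r • (⊤ : Submodule V L), ∀ i, r (b.repr z i) = 0 := by
      intro z hz i
      refine Submodule.smul_induction_on hz (fun c hc w _ => ?_) fun z w h1 h2 => by
        simp [h1, h2]
      simp [RingHom.mem_ker.mp hc]
    have h1 := this _ hmem i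
    rwa [hrepr, hs] at h1
  · set x := b.equivFun.symm fun i => s (y i)
    have hx : (fun i => r (b.repr x i)) = y := by
      funext i
      show r (b.repr x i) = y i
      rw [hrepr, hs]
    rw [← b.sum_repr (ρ a x - c • x)]
    refine Submodule.sum_mem _ fun i _ => Submodule.smul_mem_smul ?_ trivial
    have := congrFun (hρ' a x) i
    rw [hx, hy a] at this
    simp only [Pi.smul_apply, smul_eq_mul] at this
    rw [RingHom.mem_ker, map_sub, map_smul, Finsupp.sub_apply, Finsupp.smul_apply, smul_eq_mul,
      map_sub, map_mul, hc, ← this, ← congrFun hx i, sub_self]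

end Lattice

end Fermat.RM
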