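import Fermat.Agent.HM.Corr
import Fermat.Agent.HM.RepsOps

/-!
# A normal pair of levels and its nice operators

For `Γ` normal in `Top`, `Top` acts on `Homs R Γ` by conjugation; a nice operator is a family of
matrices permuted by `Top` such that the permutation elements agree with the given one modulo `Γ`.
It commutes with the action and with the traces, and acts by its degree on the kernels of
restriction.
-/

set_option autoImplicit false

noncomputable section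

namespace Fermat.RM

open scoped MatrixGroups
open Fermat.HM

/-- A level normal in a larger one. -/
structure IsNormalPair (Γ Top : Subgroup SL(2, ℤ)) : Prop where
  /-- `Γ` is contained in `Top`. -/
  le : Γ ≤ Top
  /-- `Top` normalises `Γ`. -/
  conj_mem : ∀ g ∈ Top, ∀ γ ∈ Γ, g * γ * g⁻¹ ∈ Γ

namespace IsNormalPair

variable {Γ Top Δ : Subgroup SL(2, ℤ)} (h : IsNormalPair Γ Top)

include h in
/-- The smaller level is normal in every intermediate one. -/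
theorem mono (hΓΔ : Γ ≤ Δ) (hΔ : Δ ≤ Top) : IsNormalPair Γ Δ :=
  ⟨hΓΔ, fun g hg => h.conj_mem g (hΔ hg)⟩

include h in
/-- The smaller level is stable under conjugation by inverses. -/
theorem conj_mem' {g : SL(2, ℤ)} (hg : g ∈ Top) {γ : SL(2, ℤ)} (hγ : γ ∈ Γ) :
    g⁻¹ * γ * g ∈ Γ := by simpa using h.conj_mem g⁻¹ (inv_mem hg) γ hγ

include h in
/-- The smaller level is a normal subgroup of the larger. -/
theorem normal_subgroupOf : (Γ.subgroupOf Top).Normal :=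
  ⟨fun γ hγ g => by simpa [Subgroup.mem_subgroupOf] using h.conj_mem g g.2 γ hγ⟩

/-- Conjugation of the small level. -/
def conjHom (g : Top) : Γ →* Γ where
  toFun γ := ⟨(g : SL(2, ℤ))⁻¹ * γ * g, h.conj_mem' g.2 γ.2⟩
  map_one' := Subtype.ext (by simp)
  map_mul' a b := Subtype.ext (by simp [mul_assoc])

variable {R : Type*} [CommRing R]

/-- The action of the large level on homomorphisms of the small one. -/
def act : Top →* Module.End R (Homs R Γ) where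
  toFun g :=
    { toFun := fun φ => φ.comp (MonoidHom.toAdditive (h.conjHom g))
      map_add' := fun _ _ => rfl
      map_smul' := fun _ _ => rfl }
  map_one' := LinearMap.ext fun φ => AddMonoidHom.ext fun γ => congrArg φ
    (congrArg Additive.ofMul (Subtype.ext (by simp [conjHom]) :
      h.conjHom 1 (Additive.toMul γ) = Additive.toMul γ))
  map_mul' a b := LinearMap.ext fun φ => AddMonoidHom.ext fun γ => congrArg φ
    (congrArg Additive.ofMul (Subtype.ext (by simp [conjHom, mul_assoc]) :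
      h.conjHom (a * b) (Additive.toMul γ) = h.conjHom b (h.conjHom a (Additive.toMul γ))))

/-- The value of a conjugated homomorphism. -/
theorem act_apply (g : Top) (φ : Homs R Γ) (γ : Γ) :
    h.act g φ (Additive.ofMul γ)
      = φ (Additive.ofMul ⟨(g : SL(2, ℤ))⁻¹ * γ * g, h.conj_mem' g.2 γ.2⟩) := rfl

/-- The smaller level acts trivially. -/
theorem act_of_mem (g : Top) (hg : (g : SL(2, ℤ)) ∈ Γ) (φ : Homs R Γ) : h.act g φ = φ := by
  refine AddMonoidHom.ext fun γ => ?_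
  obtain ⟨γ, rfl⟩ := Additive.ofMul.surjective γ
  rw [act_apply, show (⟨(g : SL(2, ℤ))⁻¹ * γ * g, h.conj_mem' g.2 γ.2⟩ : Γ)
    = ⟨g, hg⟩⁻¹ * γ * ⟨g, hg⟩ from Subtype.ext rfl]
  simp only [ofMul_mul, ofMul_inv, map_add, map_neg]
  abel

/-- Conjugation commutes with a change of coefficients. -/
theorem mapCoeff_act {R' : Type*} [CommRing R'] (f : R →+* R') (g : Top) (φ : Homs R Γ) :
    mapCoeff f (h.act g φ) = h.act g (mapCoeff f φ) := rfl

/-- Conjugation as a correspondence. -/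
def conjCorr (g : Top) : Corr Γ Γ Unit Unit where
  B _ := gq (g : SL(2, ℤ))
  det_B _ := by
    rw [coe_gq, show ((g : SL(2, ℤ)) : Matrix (Fin 2) (Fin 2) ℤ).map (fun x : ℤ => (x : ℚ))
        = (Int.castRingHom ℚ).mapMatrix (g : SL(2, ℤ)).1 from rfl, ← RingHom.map_det,
      (g : SL(2, ℤ)).2, map_one]
    exact one_pos
  rperm γ hγ _ := ⟨(), (g : SL(2, ℤ)) * γ * (g : SL(2, ℤ))⁻¹, h.conj_mem g g.2 γ hγ, by
    rw [map_mul, map_mul, map_inv, inv_mul_cancel_right]⟩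
  uniqB _ _ _ _ _ := rfl
  C _ := gq (g : SL(2, ℤ))⁻¹
  cover _ d hd := ⟨(), (g : SL(2, ℤ))⁻¹ * d * g, h.conj_mem' g.2 hd, by
    rw [← map_inv, ← map_mul, ← map_mul, mul_inv_cancel_right]⟩
  cover' _ γ hγ := ⟨(), (g : SL(2, ℤ)) * γ * (g : SL(2, ℤ))⁻¹, h.conj_mem g g.2 γ hγ, by
    rw [← map_inv, ← map_mul, ← map_mul, mul_assoc (g : SL(2, ℤ)), inv_mul_cancel_left]⟩
  uniqC _ _ _ _ _ := rfl

/-- The correspondence of `g` acts as conjugation by `g⁻¹`. -/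
theorem homMap_conjCorr (g : Top) (φ : Homs R Γ) :
    (h.conjCorr g).toReps.homMap φ = h.act g⁻¹ φ := by
  refine AddMonoidHom.ext fun γ => ?_
  obtain ⟨γ, rfl⟩ := Additive.ofMul.surjective γ
  rw [Reps.homMap_apply, act_apply, Fintype.sum_unique]
  congr 2
  refine ((h.conjCorr g).toReps.eq_of_decomp (k := ()) ?_).2.symm
  change gq (g : SL(2, ℤ)) * gq (γ : SL(2, ℤ))
    = gq (((g⁻¹ : Top) : SL(2, ℤ))⁻¹ * γ * (g⁻¹ : Top)) * gq (g : SL(2, ℤ))
  rw [← map_mul, ← map_mul, Subgroup.coe_inv, inv_inv, inv_mul_cancel_right]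

/-- The symbol of a functional after conjugation. -/
theorem dualToSymb_act (g : Top) (f : Module.Dual R (Homs R Γ)) (a b : Cusp) :
    (dualToSymb R Γ (f ∘ₗ h.act g)).1 a b
      = (dualToSymb R Γ f).1 (gq (g : SL(2, ℤ)) • a) (gq (g : SL(2, ℤ)) • b) := by
  have e : f ∘ₗ h.act g = f ∘ₗ (h.conjCorr g⁻¹).toReps.homMap :=
    LinearMap.ext fun φ => by
      rw [LinearMap.comp_apply, LinearMap.comp_apply, homMap_conjCorr, inv_inv]
  rw [e, Corr.dualToSymb_comp, Fintype.sum_unique]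
  change (dualToSymb R Γ f).1 (gq ((g⁻¹ : Top) : SL(2, ℤ))⁻¹ • a)
    (gq ((g⁻¹ : Top) : SL(2, ℤ))⁻¹ • b) = _
  rw [Subgroup.coe_inv, inv_inv]

/-- The classes of the small level in an intermediate one. -/
abbrev Classes (Γ Δ : Subgroup SL(2, ℤ)) : Type := Δ ⧸ Γ.subgroupOf Δ

variable [Γ.FiniteIndex]

/-- There are finitely many classes. -/
instance : Finite (Classes Γ Δ) := Subgroup.finite_quotient_of_finiteIndex

/-- The classes as a `Fintype`. -/
instance : Fintype (Classes Γ Δ) := Fintype.ofFinite _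

omit [Γ.FiniteIndex] in
include h in
/-- A product of representatives differs from the representative of the product by the smaller
level. -/
theorem mk_out_mul (hΔ : Δ ≤ Top) (q : Classes Γ Δ) (γ : Δ) :
    (q.out * γ : Δ).1 * ((QuotientGroup.mk (q.out * γ) : Classes Γ Δ).out : Δ).1⁻¹ ∈ Γ := by
  set a := q.out * γ
  have h1 : a⁻¹ * (QuotientGroup.mk a : Classes Γ Δ).out ∈ Γ.subgroupOf Δ :=
    QuotientGroup.eq.mp (QuotientGroup.out_eq' _).symm
  rw [Subgroup.mem_subgroupOf, Subgroup.coe_mul, Subgroup.coe_inv] at h1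
  have h2 := h.conj_mem _ (hΔ a.2) _ (inv_mem h1)
  simpa [mul_assoc] using h2

/-- The trace to an intermediate level, as a correspondence. -/
def trCorr (hΓΔ : Γ ≤ Δ) (hΔ : Δ ≤ Top) : Corr Γ Δ (Classes Γ Δ) Unit where
  B q := gq (q.out : SL(2, ℤ))
  det_B q := ((h.mono hΓΔ hΔ).conjCorr q.out).det_B ()
  rperm γ hγ q := ⟨QuotientGroup.mk (q.out * ⟨γ, hγ⟩), _, h.mk_out_mul hΔ q ⟨γ, hγ⟩, by
    rw [← map_mul, ← map_mul, inv_mul_cancel_right]; rfl⟩
  uniqB i k d hd e := by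
    rw [← map_mul] at e
    have e' : d * (i.out : SL(2, ℤ)) = k.out := Reps.gq_injective e
    rw [← QuotientGroup.out_eq' i, ← QuotientGroup.out_eq' k, QuotientGroup.eq,
      Subgroup.mem_subgroupOf, Subgroup.coe_mul, Subgroup.coe_inv, ← e', ← mul_assoc]
    exact h.conj_mem' (hΔ i.out.2) hd
  C _ := 1
  cover i d hd := ⟨(), (i.out : SL(2, ℤ))⁻¹ * d, mul_mem (inv_mem i.out.2) (hΓΔ hd), by
    rw [mul_one, map_mul, map_inv]⟩
  cover' _ γ hγ := by
    set q : Classes Γ Δ := QuotientGroup.mk (⟨γ, hγ⟩⁻¹ : Δ)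
    have h1 : ((⟨γ, hγ⟩⁻¹ : Δ))⁻¹ * q.out ∈ Γ.subgroupOf Δ :=
      QuotientGroup.eq.mp (QuotientGroup.out_eq' _).symm
    rw [inv_inv, Subgroup.mem_subgroupOf, Subgroup.coe_mul] at h1
    refine ⟨q, (q.out : SL(2, ℤ)) * γ, ?_, by rw [map_mul, mul_one, inv_mul_cancel_left]⟩
    simpa [mul_assoc] using h.conj_mem' (hΔ hγ) h1
  uniqC _ _ _ _ _ := rfl

/-- The trace from `Γ` to `Δ`, by representatives inside `Top`. -/
def tr (hΓΔ : Γ ≤ Δ) (hΔ : Δ ≤ Top) : Homs R Γ →ₗ[R] Homs R Δ :=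
  (h.trCorr hΓΔ hΔ).toReps.homMap

/-- Restriction of homomorphisms from `Δ` to `Γ`. -/
def res (hΓΔ : Γ ≤ Δ) : Homs R Δ →ₗ[R] Homs R Γ where
  toFun φ := φ.comp (MonoidHom.toAdditive (Subgroup.inclusion hΓΔ))
  map_add' _ _ := rfl
  map_smul' _ _ := rfl

omit [Γ.FiniteIndex] in
/-- The value of a restriction. -/
theorem res_apply (hΓΔ : Γ ≤ Δ) (φ : Homs R Δ) (γ : Γ) :
    res hΓΔ φ (Additive.ofMul γ) = φ (Additive.ofMul (Subgroup.inclusion hΓΔ γ)) := rfl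

/-- Restriction after trace is the norm. -/
theorem res_tr (hΓΔ : Γ ≤ Δ) (hΔ : Δ ≤ Top) (φ : Homs R Γ) :
    res hΓΔ (h.tr hΓΔ hΔ φ) = ∑ q : Classes Γ Δ, h.act ⟨(q.out : SL(2, ℤ)), hΔ q.out.2⟩⁻¹ φ := by
  refine AddMonoidHom.ext fun γ => ?_
  obtain ⟨γ, rfl⟩ := Additive.ofMul.surjective γ
  rw [res_apply, tr, Reps.homMap_apply, AddMonoidHom.finsetSum_apply]
  refine Finset.sum_congr rfl fun q _ => ?_
  rw [act_apply]
  congr 2
  refine ((h.trCorr hΓΔ hΔ).toReps.eq_of_decomp (k := q) ?_).2.symm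
  change gq (q.out : SL(2, ℤ)) * gq (γ : SL(2, ℤ)) = gq _ * gq (q.out : SL(2, ℤ))
  rw [← map_mul, ← map_mul]
  simp [mul_assoc]

/-- Over a field, the kernel of the trace is spanned by the elements `g x - x`. -/
theorem mem_span_of_tr_eq_zero {k : Type*} [Field k] (hΓΔ : Γ ≤ Δ) (hΔ : Δ ≤ Top)
    (hgΔ : GoodLevel k Δ) (hgΓ : GoodLevel k Γ) {x : Homs k Γ} (hx : h.tr hΓΔ hΔ x = 0) :
    x ∈ Submodule.span k
      (Set.range fun a : Δ × Homs k Γ => h.act ⟨a.1, hΔ a.1.2⟩ a.2 - a.2) := by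
  by_contra hmem
  obtain ⟨F, hF, hFr⟩ := Submodule.exists_dual_map_eq_bot_of_notMem hmem inferInstance
  have hinv : ∀ g : Δ, F ∘ₗ h.act ⟨g, hΔ g.2⟩ = F := fun g => LinearMap.ext fun z => by
    have h1 : F (h.act ⟨g, hΔ g.2⟩ z - z) ∈ (Submodule.span k
        (Set.range fun a : Δ × Homs k Γ => h.act ⟨a.1, hΔ a.1.2⟩ a.2 - a.2)).map F :=
      ⟨_, Submodule.subset_span ⟨(g, z), rfl⟩, rfl⟩
    rwa [hFr, Submodule.mem_bot, map_sub, sub_eq_zero] at h1
  set S := dualToSymb k Γ F with hS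
  let S₀ : symbols k Δ := ⟨S.1, S.2.1, fun γ hγ a b => by
    have h1 := h.dualToSymb_act ⟨γ, hΔ hγ⟩ F a b
    rw [hinv ⟨γ, hγ⟩] at h1
    exact h1.symm⟩
  set f := hgΔ.dualEquiv.symm S₀
  have hf : F = f ∘ₗ h.tr hΓΔ hΔ := by
    refine hgΓ.dualEquiv.injective (Subtype.ext (funext fun a => funext fun b => ?_))
    change (dualToSymb k Γ F).1 a b = (dualToSymb k Γ (f ∘ₗ h.tr hΓΔ hΔ)).1 a b
    rw [tr, Corr.dualToSymb_comp, Fintype.sum_unique]
    change _ = (dualToSymb k Δ f).1 ((1 : GL (Fin 2) ℚ) • a) ((1 : GL (Fin 2) ℚ) • b)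
    rw [show dualToSymb k Δ f = S₀ from hgΔ.dualEquiv.apply_symm_apply S₀, one_smul, one_smul]
  exact hF (by rw [hf, LinearMap.comp_apply, hx, map_zero])

end IsNormalPair

/-! ## Nice operators -/

/-- Matrices permuted by `Top` whose permutation elements are congruent to the given one. -/
structure NiceOp (Γ Top : Subgroup SL(2, ℤ)) : Type 1 where
  /-- The index type of the representatives. -/
  ι : Type
  /-- The index type is finite. -/
  [instFintype : Fintype ι]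
  /-- The representatives, permuted by `Top`. -/
  P : Reps Top Top ι
  /-- Each permutation element is congruent to the given one modulo `Γ`. -/
  nice : ∀ (γ : Top) (i : ι), ((P.elt γ i : SL(2, ℤ))) * (γ : SL(2, ℤ))⁻¹ ∈ Γ

attribute [instance] NiceOp.instFintype

namespace NiceOp

variable {Γ Top Δ : Subgroup SL(2, ℤ)} (o : NiceOp Γ Top) {R : Type*} [CommRing R]

/-- The permutation elements of an intermediate level stay in it. -/
theorem elt_mem (hΓΔ : Γ ≤ Δ) (γ : Top) (hγ : (γ : SL(2, ℤ)) ∈ Δ) (i : o.ι) :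
    (o.P.elt γ i : SL(2, ℤ)) ∈ Δ := by
  simpa using mul_mem (hΓΔ (o.nice γ i)) hγ

/-- The matrices at an intermediate level. -/
def restrict (hΓΔ : Γ ≤ Δ) (hΔ : Δ ≤ Top) : Reps Δ Δ o.ι where
  B := o.P.B
  det_B := o.P.det_B
  rperm γ hγ i :=
    have hk := o.P.mul_gq ⟨γ, hΔ hγ⟩ i
    ⟨o.P.perm ⟨γ, hΔ hγ⟩ i, (o.P.elt ⟨γ, hΔ hγ⟩ i : SL(2, ℤ)),
      o.elt_mem hΓΔ ⟨γ, hΔ hγ⟩ hγ i, hk⟩
  uniqB i k d hd e := o.P.uniqB i k d (hΔ hd) e

/-- The restricted operator has the same matrices. -/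
theorem restrict_B (hΓΔ : Γ ≤ Δ) (hΔ : Δ ≤ Top) (i : o.ι) :
    (o.restrict hΓΔ hΔ).B i = o.P.B i := rfl

/-- The restricted operator has the same permutation elements. -/
theorem restrict_elt (hΓΔ : Γ ≤ Δ) (hΔ : Δ ≤ Top) (γ : Δ) (i : o.ι) :
    ((o.restrict hΓΔ hΔ).elt γ i : SL(2, ℤ)) = o.P.elt ⟨γ, hΔ γ.2⟩ i := by
  set γ₀ : Top := ⟨γ, hΔ γ.2⟩
  have e : (o.restrict hΓΔ hΔ).B i * gq (γ : SL(2, ℤ))
      = gq ((⟨(o.P.elt γ₀ i : SL(2, ℤ)), o.elt_mem hΓΔ γ₀ γ.2 i⟩ : Δ) : SL(2, ℤ))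
        * (o.restrict hΓΔ hΔ).B (o.P.perm γ₀ i) := by
    rw [restrict_B, restrict_B]
    exact o.P.mul_gq γ₀ i
  rw [← ((o.restrict hΓΔ hΔ).eq_of_decomp e).2]

/-- The operator at an intermediate level. -/
def op (hΓΔ : Γ ≤ Δ) (hΔ : Δ ≤ Top) : Module.End R (Homs R Δ) := (o.restrict hΓΔ hΔ).homMap

/-- The value of an operator. -/
theorem op_apply (hΓΔ : Γ ≤ Δ) (hΔ : Δ ≤ Top) (φ : Homs R Δ) (γ : Δ) :
    o.op hΓΔ hΔ φ (Additive.ofMul γ) = ∑ i, φ (Additive.ofMul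
      ⟨o.P.elt ⟨γ, hΔ γ.2⟩ i, o.elt_mem hΓΔ ⟨γ, hΔ γ.2⟩ γ.2 i⟩) := by
  rw [op, Reps.homMap_apply]
  exact Finset.sum_congr rfl fun i _ =>
    congrArg φ (congrArg Additive.ofMul (Subtype.ext (o.restrict_elt hΓΔ hΔ γ i)))

/-- Operators commute with a change of coefficients. -/
theorem mapCoeff_op {R' : Type*} [CommRing R'] (f : R →+* R') (hΓΔ : Γ ≤ Δ) (hΔ : Δ ≤ Top)
    (φ : Homs R Δ) : mapCoeff f (o.op hΓΔ hΔ φ) = o.op hΓΔ hΔ (mapCoeff f φ) :=
  Reps.mapCoeff_homMap _ f φ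

/-- Operators commute with conjugation. -/
theorem op_act (h : IsNormalPair Γ Top) (g : Top) (φ : Homs R Γ) :
    o.op le_rfl h.le (h.act g φ) = h.act g (o.op le_rfl h.le φ) := by
  refine AddMonoidHom.ext fun γ => ?_
  obtain ⟨γ, rfl⟩ := Additive.ofMul.surjective γ
  rw [op_apply, IsNormalPair.act_apply, op_apply]
  simp only [IsNormalPair.act_apply]
  set x : Top := g⁻¹
  set γ' : Top := ⟨γ, h.le γ.2⟩
  -- conjugation by `x` permutes the elements
  have key : ∀ i, ∃ m, ∃ c c' : Γ, m = (o.P.perm (x * γ' * x⁻¹) i) ∧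
      c = ⟨(o.P.elt x i : SL(2, ℤ)) * (x : SL(2, ℤ))⁻¹, o.nice x i⟩ ∧
      c' = ⟨(o.P.elt x m : SL(2, ℤ)) * (x : SL(2, ℤ))⁻¹, o.nice x m⟩ ∧
      (o.P.elt (x * γ' * x⁻¹) i : SL(2, ℤ))
        = (c : SL(2, ℤ)) * ((x : SL(2, ℤ)) * o.P.elt γ' (o.P.perm x i) * (x : SL(2, ℤ))⁻¹)
          * (c' : SL(2, ℤ))⁻¹ := by
    intro i
    refine ⟨_, _, _, rfl, rfl, rfl, ?_⟩
    set j := o.P.perm x i
    set l := o.P.perm γ' j
    obtain ⟨m, hm⟩ := (o.P.perm_bijective x).2 l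
    have hinv : o.P.B l * (gq (x : SL(2, ℤ)))⁻¹
        = (gq (o.P.elt x m : SL(2, ℤ)))⁻¹ * o.P.B m := by
      rw [mul_inv_eq_iff_eq_mul, mul_assoc, eq_inv_mul_iff_mul_eq, o.P.mul_gq, hm]
    have hd := o.P.eq_of_decomp (γ := x * γ' * x⁻¹) (i := i) (k := m)
      (d := o.P.elt x i * o.P.elt γ' j * (o.P.elt x m)⁻¹) (by
      simp only [Subgroup.coe_mul, Subgroup.coe_inv, map_mul, map_inv]
      rw [← mul_assoc (o.P.B i), ← mul_assoc (o.P.B i), o.P.mul_gq x i,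
        mul_assoc (gq (o.P.elt x i : SL(2, ℤ))) (o.P.B j), o.P.mul_gq γ' j]
      simp only [mul_assoc]
      rw [hinv])
    rw [← hd.2, ← hd.1]
    simp [mul_assoc]
  choose m c c' hm hc hc' he using key
  have hperm : Function.Bijective m := by
    rw [show m = o.P.perm (x * γ' * x⁻¹) from funext hm]
    exact o.P.perm_bijective _
  have hval : ∀ i, φ (Additive.ofMul (⟨o.P.elt (x * γ' * x⁻¹) i,
        o.elt_mem le_rfl (x * γ' * x⁻¹) (by
          simpa [x, γ'] using h.conj_mem' g.2 γ.2) i⟩ : Γ))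
      = φ (Additive.ofMul (c i)) + φ (Additive.ofMul (⟨(x : SL(2, ℤ)) *
          o.P.elt γ' (o.P.perm x i) * (x : SL(2, ℤ))⁻¹, h.conj_mem x x.2 _
            (o.elt_mem le_rfl γ' γ.2 _)⟩ : Γ)) - φ (Additive.ofMul (c' i)) := by
    intro i
    rw [sub_eq_add_neg, ← map_neg, ← map_add, ← map_add, ← ofMul_inv, ← ofMul_mul, ← ofMul_mul]
    exact congrArg φ (congrArg Additive.ofMul (Subtype.ext (he i)))
  have hcc : ∀ i, φ (Additive.ofMul (c' i)) = φ (Additive.ofMul (c (m i))) := fun i => by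
    rw [hc', hc]
  have e : (⟨(g : SL(2, ℤ))⁻¹ * γ * g, h.le (h.conj_mem' g.2 γ.2)⟩ : Top) = x * γ' * x⁻¹ :=
    Subtype.ext (by simp [x, γ'])
  have lhs : ∀ j, φ (Additive.ofMul (⟨(g : SL(2, ℤ))⁻¹ * o.P.elt γ' j * g,
      h.conj_mem' g.2 (o.elt_mem le_rfl γ' γ.2 j)⟩ : Γ)) =
      φ (Additive.ofMul (⟨(x : SL(2, ℤ)) * o.P.elt γ' j * (x : SL(2, ℤ))⁻¹,
        h.conj_mem x x.2 _ (o.elt_mem le_rfl γ' γ.2 _)⟩ : Γ)) := fun j =>
    congrArg φ (congrArg Additive.ofMul (Subtype.ext (by simp [x])))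
  calc _ = ∑ j, φ (Additive.ofMul (⟨(x : SL(2, ℤ)) * o.P.elt γ' j * (x : SL(2, ℤ))⁻¹,
        h.conj_mem x x.2 _ (o.elt_mem le_rfl γ' γ.2 _)⟩ : Γ)) :=
      Finset.sum_congr rfl fun j _ => lhs j
    _ = ∑ i, φ (Additive.ofMul (⟨o.P.elt (x * γ' * x⁻¹) i,
        o.elt_mem le_rfl (x * γ' * x⁻¹) (by
          simpa [x, γ'] using h.conj_mem' g.2 γ.2) i⟩ : Γ)) := by
      simp only [hval, hcc, Finset.sum_sub_distrib, Finset.sum_add_distrib]
      rw [Fintype.sum_bijective m hperm (fun i => φ (Additive.ofMul (c (m i))))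
        (fun i => φ (Additive.ofMul (c i))) fun _ => rfl,
        add_comm, add_sub_cancel_right]
      exact (Fintype.sum_bijective _ (o.P.perm_bijective x) _ _ fun _ => rfl).symm
    _ = _ := by simp only [e]

variable [Γ.FiniteIndex]

/-- Operators commute with the traces. -/
theorem op_tr (h : IsNormalPair Γ Top) (hΓΔ : Γ ≤ Δ) (hΔ : Δ ≤ Top) (φ : Homs R Γ) :
    o.op hΓΔ hΔ (h.tr hΓΔ hΔ φ) = h.tr hΓΔ hΔ (o.op le_rfl h.le φ) := by
  set P := o.restrict (le_refl Γ) h.le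
  set Q := o.restrict hΓΔ hΔ
  set S := (h.trCorr hΓΔ hΔ).toReps
  -- a class representative can be moved past those of o, at the cost of Γ
  have swap : ∀ (j : o.ι) (q : IsNormalPair.Classes Γ Δ),
      ∃ d ∈ Γ, o.P.B j * gq (q.out : SL(2, ℤ))
        = gq d * (gq (q.out : SL(2, ℤ)) * o.P.B (o.P.perm ⟨q.out, hΔ q.out.2⟩ j)) := by
    intro j q
    set t : Top := ⟨(q.out : SL(2, ℤ)), hΔ q.out.2⟩
    refine ⟨(o.P.elt t j : SL(2, ℤ)) * (t : SL(2, ℤ))⁻¹, o.nice t j, ?_⟩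
    have hm := o.P.mul_gq t j
    rw [← mul_assoc, ← map_mul, show (q.out : SL(2, ℤ)) = (t : SL(2, ℤ)) from rfl,
      inv_mul_cancel_right]
    exact hm
  -- both kinds of products of representatives have distinct Γ-cosets
  have u1 : ∀ i k : IsNormalPair.Classes Γ Δ × o.ι, ∀ d ∈ Γ,
      gq d * (S.B i.1 * Q.B i.2) = S.B k.1 * Q.B k.2 → i = k := by
    rintro ⟨a, i⟩ ⟨b, k⟩ d hd e
    have e' : gq ((b.out : SL(2, ℤ))⁻¹ * d * a.out) * o.P.B i = o.P.B k := by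
      rw [map_mul, map_mul, map_inv, mul_assoc, mul_assoc, inv_mul_eq_iff_eq_mul]
      exact e
    have hik := o.P.uniqB i k _ (mul_mem (mul_mem (inv_mem (hΔ b.out.2)) (h.le hd)) (hΔ a.out.2)) e'
    subst hik
    have h1 : ((b.out : SL(2, ℤ))⁻¹ * d * a.out) = 1 := by
      refine Reps.gq_injective ?_
      rw [map_one]
      exact mul_eq_right.mp e'
    refine Prod.ext (S.uniqB a b d hd ?_) rfl
    change gq d * gq (a.out : SL(2, ℤ)) = gq (b.out : SL(2, ℤ))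
    rw [mul_assoc] at h1
    rw [← map_mul, ← inv_mul_eq_one.mp h1]
  have u2 : ∀ i k : o.ι × IsNormalPair.Classes Γ Δ, ∀ d ∈ Γ,
      gq d * (P.B i.1 * S.B i.2) = P.B k.1 * S.B k.2 → i = k := by
    rintro ⟨i, a⟩ ⟨k, b⟩ d hd e
    obtain ⟨c, hc, hca⟩ := swap i a
    obtain ⟨c', hc', hcb⟩ := swap k b
    have e2 : gq (c'⁻¹ * d * c) * (S.B a * Q.B (o.P.perm ⟨a.out, hΔ a.out.2⟩ i))
        = S.B b * Q.B (o.P.perm ⟨b.out, hΔ b.out.2⟩ k) := by
      rw [map_mul, map_mul, map_inv, mul_assoc, mul_assoc, inv_mul_eq_iff_eq_mul]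
      change gq d * (gq c * (gq (a.out : SL(2, ℤ)) * o.P.B (o.P.perm ⟨a.out, hΔ a.out.2⟩ i))) =
        gq c' * (gq (b.out : SL(2, ℤ)) * o.P.B (o.P.perm ⟨b.out, hΔ b.out.2⟩ k))
      rw [← hca, ← hcb]
      exact e
    have := u1 (a, _) (b, _) _ (mul_mem (mul_mem (inv_mem hc') hd) hc) e2
    obtain rfl := congrArg Prod.fst this
    exact Prod.ext ((o.P.perm_bijective _).1 (congrArg Prod.snd this)) rfl
  -- both sides are homMaps of these products, matched by swap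
  have h1 := Reps.homMap_comp S Q u1 φ
  have h2 := Reps.homMap_comp P S u2 φ
  refine (h1.symm.trans ?_).trans h2
  refine Reps.homMap_congr _ _ (fun i => ?_) (by simp [Fintype.card_prod, mul_comm]) φ
  obtain ⟨j, hj⟩ := (o.P.perm_bijective ⟨i.1.out, hΔ i.1.out.2⟩).2 i.2
  obtain ⟨c, hc, hca⟩ := swap j i.1
  refine ⟨(j, i.1), c⁻¹, inv_mem hc, ?_⟩
  change gq (i.1.out : SL(2, ℤ)) * o.P.B i.2 = gq c⁻¹ * (o.P.B j * gq (i.1.out : SL(2, ℤ)))
  rw [hca, hj, map_inv, inv_mul_cancel_left]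

omit [Γ.FiniteIndex] in
/-- On the kernel of restriction an operator acts by its degree. -/
theorem op_of_res_eq_zero (hΓΔ : Γ ≤ Δ) (hΔ : Δ ≤ Top) {φ : Homs R Δ}
    (hφ : IsNormalPair.res hΓΔ φ = 0) : o.op hΓΔ hΔ φ = Fintype.card o.ι • φ := by
  refine AddMonoidHom.ext fun γ => ?_
  obtain ⟨γ, rfl⟩ := Additive.ofMul.surjective γ
  rw [op_apply, AddMonoidHom.nsmul_apply, ← Finset.card_univ, ← Finset.sum_const]
  refine Finset.sum_congr rfl fun i _ => ?_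
  have h1 : φ (Additive.ofMul (⟨o.P.elt ⟨γ, hΔ γ.2⟩ i * (γ : SL(2, ℤ))⁻¹,
      hΓΔ (o.nice ⟨γ, hΔ γ.2⟩ i)⟩ : Δ)) = 0 :=
    DFunLike.congr_fun hφ (Additive.ofMul ⟨_, o.nice ⟨γ, hΔ γ.2⟩ i⟩)
  rw [← sub_eq_zero, ← map_sub, ← h1]
  exact congrArg φ (congrArg Additive.ofMul (Subtype.ext (by simp [div_eq_mul_inv])))

end NiceOp

end Fermat.RM
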