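import Fermat.Agent.RM.Export
import Fermat.Agent.RM.Pair
import Fermat.Agent.HM.Neat

/-!
# The levels of residual modularity at `3`

`pm Γ` adjoins `-1`; `topLevel E₁` then maps onto `SL₂(ℤ/E₂)`, and `pm (lowLevel E₁ E₂)` is normal
in `Γ₀(27 E₁)`.
-/

set_option autoImplicit false

noncomputable section

namespace Fermat.RM

open scoped MatrixGroups
open CongruenceSubgroup ModularGroup Matrix Fermat.MC.Lvl

/-- A level with `-1` adjoined. -/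
def pm (Γ : Subgroup SL(2, ℤ)) : Subgroup SL(2, ℤ) where
  carrier := {g | g ∈ Γ ∨ -g ∈ Γ}
  one_mem' := Or.inl (one_mem Γ)
  mul_mem' := by
    rintro a b (ha | ha) (hb | hb)
    · exact Or.inl (mul_mem ha hb)
    · exact Or.inr (by simpa using mul_mem ha hb)
    · exact Or.inr (by simpa using mul_mem ha hb)
    · exact Or.inl (by simpa using mul_mem ha hb)
  inv_mem' := by
    rintro a (ha | ha)
    · exact Or.inl (inv_mem ha)
    · refine Or.inr ?_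
      have e : (-a : SL(2, ℤ))⁻¹ = -a⁻¹ := inv_eq_of_mul_eq_one_right (by simp)
      exact e ▸ inv_mem ha

/-- A level lies in `±` itself. -/
theorem le_pm (Γ : Subgroup SL(2, ℤ)) : Γ ≤ pm Γ := fun _ h => Or.inl h

/-- `-1` lies in every `pm Γ`. -/
theorem neg_one_mem_pm (Γ : Subgroup SL(2, ℤ)) : -1 ∈ pm Γ := Or.inr (by simp)

/-- A level containing `Γ` and `-1` contains `pm Γ`. -/
theorem pm_le {Γ Top : Subgroup SL(2, ℤ)} (hneg : -1 ∈ Top) (h : Γ ≤ Top) : pm Γ ≤ Top := by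
  rintro g (hg | hg)
  · exact h hg
  · simpa using mul_mem hneg (h hg)

/-- `pm` is monotone. -/
theorem pm_mono {Γ Top : Subgroup SL(2, ℤ)} (h : Γ ≤ Top) : pm Γ ≤ pm Top :=
  fun _ hg => hg.imp (@h _) (@h _)

/-- Adjoining `-1` to the smaller level of a normal pair keeps it normal. -/
theorem isNormalPair_pm {Γ Top : Subgroup SL(2, ℤ)} (hneg : -1 ∈ Top) (h : IsNormalPair Γ Top) :
    IsNormalPair (pm Γ) Top :=
  ⟨pm_le hneg h.le, fun g hg γ hγ => hγ.imp (h.conj_mem g hg γ) fun hγ => by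
    simpa using h.conj_mem g hg _ hγ⟩

/-- `pm Γ` has finite index if `Γ` has. -/
instance finiteIndex_pm {Γ : Subgroup SL(2, ℤ)} [Γ.FiniteIndex] : (pm Γ).FiniteIndex :=
  Subgroup.finiteIndex_of_le (le_pm Γ)

/-- `Γ₀(N)` lies in `Γ₀(M)` for `M ∣ N`. -/
theorem Gamma0_le_of_dvd {M N : ℕ} (h : M ∣ N) : Gamma0 N ≤ Gamma0 M := fun g hg => by
  rw [Gamma0_mem] at hg ⊢
  simpa using congrArg (ZMod.castHom h (ZMod M)) hg

/-- `Γ(N)` lies in `Γ₁(N)`. -/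
theorem Gamma_le_Gamma1 (N : ℕ) : Gamma N ≤ Gamma1 N := fun g hg => by
  obtain ⟨h1, -, h3, h4⟩ := Gamma_mem.mp hg
  exact (Gamma1_mem N g).mpr ⟨h1, h4, h3⟩

/-- `Γ(N)` lies in `Γ₀(N)`. -/
theorem Gamma_le_Gamma0 (N : ℕ) : Gamma N ≤ Gamma0 N := fun _ hg =>
  Gamma0_mem.mpr (Gamma_mem.mp hg).2.2.1

variable {E₁ E₂ : ℕ}

/-- `-1` is not in the top level, as `-1 ≢ 1` modulo `27`. -/
theorem neg_one_notMem_topLevel : -1 ∉ topLevel E₁ := fun h => by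
  have h1 := ((Gamma1_mem 27 _).mp h.1).1
  simp only [SpecialLinearGroup.coe_neg] at h1
  revert h1
  decide

/-- `Γ(27 E₁ E₂)` lies in the lower level. -/
theorem Gamma_le_lowLevel : Gamma (27 * E₁ * E₂) ≤ lowLevel E₁ E₂ := fun g hg =>
  ⟨⟨Gamma_le_Gamma1 _ (Gamma_le_of_dvd ⟨E₁ * E₂, by ring⟩ hg),
    Gamma_le_Gamma0 _ (Gamma_le_of_dvd ⟨27 * E₂, by ring⟩ hg)⟩,
    Gamma_le_of_dvd ⟨27 * E₁, by ring⟩ hg⟩

/-- The lower level lies in the top one. -/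
theorem lowLevel_le_topLevel : lowLevel E₁ E₂ ≤ topLevel E₁ := fun _ h => h.1

/-- The lower level has finite index. -/
theorem finiteIndex_lowLevel [NeZero E₁] [NeZero E₂] : (lowLevel E₁ E₂).FiniteIndex :=
  haveI : NeZero (27 * E₁ * E₂) := ⟨by simp [NeZero.ne]⟩
  Subgroup.finiteIndex_of_le Gamma_le_lowLevel

/-- The top level lies in `Γ₀(27 E₁)` for `E₁` prime to `27`. -/
theorem topLevel_le_Gamma0 (hE : Nat.Coprime 27 E₁) :
    topLevel E₁ ≤ Gamma0 (27 * E₁) := fun g hg => by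
  have h1 : ((27 : ℕ) : ℤ) ∣ g 1 0 :=
    (ZMod.intCast_zmod_eq_zero_iff_dvd _ _).mp ((Gamma1_mem 27 g).mp hg.1).2.2
  have h2 : (E₁ : ℤ) ∣ g 1 0 := (ZMod.intCast_zmod_eq_zero_iff_dvd _ _).mp (Gamma0_mem.mp hg.2)
  rw [Gamma0_mem, ZMod.intCast_zmod_eq_zero_iff_dvd]
  rw [Int.natCast_dvd] at h1 h2 ⊢
  exact hE.mul_dvd_of_dvd_of_dvd h1 h2

/-- The elements of `Γ₀(27 E₁)` with upper left entry `±1` modulo `27` lie in `±topLevel`. -/
theorem mem_pm_topLevel {g : SL(2, ℤ)} (hg : g ∈ Gamma0 (27 * E₁))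
    (ha : ((g 0 0 : ℤ) : ZMod 27) = 1 ∨ ((g 0 0 : ℤ) : ZMod 27) = -1) : g ∈ pm (topLevel E₁) := by
  have h27 : g ∈ Gamma0 27 := Gamma0_le_of_dvd ⟨E₁, rfl⟩ hg
  have hE : g ∈ Gamma0 E₁ := Gamma0_le_of_dvd ⟨27, by ring⟩ hg
  have hd := Gamma0_entries h27
  have hc : ((g 1 0 : ℤ) : ZMod 27) = 0 := Gamma0_mem.mp h27
  rcases ha with h | h
  · refine Or.inl ⟨(Gamma1_mem 27 g).mpr ⟨h, ?_, hc⟩, hE⟩
    rw [h, one_mul] at hd
    exact hd
  · refine Or.inr ⟨(Gamma1_mem 27 _).mpr ⟨?_, ?_, ?_⟩, by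
      simpa using mul_mem (SL2.neg_one_mem_Gamma0 E₁) hE⟩
    · simp [SpecialLinearGroup.coe_neg, h]
    · rw [h, neg_one_mul] at hd
      simp [SpecialLinearGroup.coe_neg, hd]
    · simp [SpecialLinearGroup.coe_neg, hc]

open scoped Classical in
/-- The element of `topLevel` equal to `±g`. -/
def sgnPart : pm (topLevel E₁) →* topLevel E₁ where
  toFun g := if h : (g : SL(2, ℤ)) ∈ topLevel E₁ then ⟨g, h⟩
    else ⟨-(g : SL(2, ℤ)), g.2.resolve_left h⟩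
  map_one' := dif_pos (one_mem _)
  map_mul' a b := by
    have hn : ∀ x : SL(2, ℤ), x ∈ topLevel E₁ → -x ∉ topLevel E₁ := fun x hx hnx =>
      neg_one_notMem_topLevel (by simpa using mul_mem hnx (inv_mem hx))
    by_cases ha : (a : SL(2, ℤ)) ∈ topLevel E₁ <;> by_cases hb : (b : SL(2, ℤ)) ∈ topLevel E₁
    · rw [dif_pos ha, dif_pos hb, dif_pos (show ((a * b : pm _) : SL(2, ℤ)) ∈ _ from mul_mem ha hb)]
      rfl
    · have h : ((a * b : pm (topLevel E₁)) : SL(2, ℤ)) ∉ topLevel E₁ := fun h =>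
        hb (by simpa using mul_mem (inv_mem ha) h)
      rw [dif_pos ha, dif_neg hb, dif_neg h]
      exact Subtype.ext (by simp)
    · have h : ((a * b : pm (topLevel E₁)) : SL(2, ℤ)) ∉ topLevel E₁ := fun h =>
        ha (by simpa using mul_mem h (inv_mem hb))
      rw [dif_neg ha, dif_pos hb, dif_neg h]
      exact Subtype.ext (by simp)
    · have h : ((a * b : pm (topLevel E₁)) : SL(2, ℤ)) ∈ topLevel E₁ := by
        simpa using mul_mem (a.2.resolve_left ha) (b.2.resolve_left hb)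
      rw [dif_neg ha, dif_neg hb, dif_pos h]
      exact Subtype.ext (by simp)

/-- The sign part is `± g`. -/
theorem sgnPart_eq (g : pm (topLevel E₁)) :
    (sgnPart g : SL(2, ℤ)) = g ∨ (sgnPart g : SL(2, ℤ)) = -(g : SL(2, ℤ)) := by
  classical
  by_cases h : (g : SL(2, ℤ)) ∈ topLevel E₁
  · exact Or.inl (congrArg Subtype.val (dif_pos h))
  · exact Or.inr (congrArg Subtype.val (dif_neg h))

/-- The sign part of an element of the top level is itself. -/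
theorem sgnPart_of_mem (g : topLevel E₁) : sgnPart ⟨g, le_pm _ g.2⟩ = g := dif_pos g.2

/-- An element is in `±` the lower level iff its sign part is in the lower level. -/
theorem mem_pm_lowLevel_iff (g : pm (topLevel E₁)) :
    (g : SL(2, ℤ)) ∈ pm (lowLevel E₁ E₂) ↔ (sgnPart g : SL(2, ℤ)) ∈ lowLevel E₁ E₂ := by
  refine ⟨fun h => ?_, fun h => ?_⟩
  · classical
    by_cases hg : (g : SL(2, ℤ)) ∈ topLevel E₁
    · have e : (sgnPart g : SL(2, ℤ)) = g := congrArg Subtype.val (dif_pos hg)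
      rw [e]
      refine h.resolve_right fun h' => neg_one_notMem_topLevel (E₁ := E₁) ?_
      simpa using mul_mem (show -(g : SL(2, ℤ)) ∈ topLevel E₁ from h'.1) (inv_mem hg)
    · have e : (sgnPart g : SL(2, ℤ)) = -(g : SL(2, ℤ)) := congrArg Subtype.val (dif_neg hg)
      rw [e]
      exact h.resolve_left fun h' => hg h'.1
  · rcases sgnPart_eq g with e | e <;> rw [e] at h
    · exact Or.inl h
    · exact Or.inr h

/-- The entries of a product. -/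
theorem entry_mul (a b : SL(2, ℤ)) (i j : Fin 2) :
    ((a * b) i j : ℤ) = a i 0 * b 0 j + a i 1 * b 1 j := by
  change ((a : Matrix (Fin 2) (Fin 2) ℤ) * (b : Matrix (Fin 2) (Fin 2) ℤ)) i j = _
  simp [Matrix.mul_apply, Fin.sum_univ_two]

/-- The entries of an inverse. -/
theorem entries_inv (a : SL(2, ℤ)) :
    (a⁻¹ 0 0 : ℤ) = a 1 1 ∧ (a⁻¹ 0 1 : ℤ) = -a 0 1 ∧ (a⁻¹ 1 0 : ℤ) = -a 1 0 ∧
      (a⁻¹ 1 1 : ℤ) = a 0 0 := by
  refine ⟨?_, ?_, ?_, ?_⟩ <;>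
  · change (a : Matrix (Fin 2) (Fin 2) ℤ).adjugate _ _ = _
    simp [Matrix.adjugate_fin_two]

/-- `Γ₁(N)` is normalised by `Γ₀(N)`. -/
theorem conj_mem_Gamma1 {N : ℕ} {g γ : SL(2, ℤ)} (hg : g ∈ Gamma0 N) (hγ : γ ∈ Gamma1 N) :
    g * γ * g⁻¹ ∈ Gamma1 N := by
  obtain ⟨ha, hd, hc⟩ := (Gamma1_mem N γ).mp hγ
  have he := Gamma0_entries hg
  have hg0 := Gamma0_mem.mp hg
  refine (Gamma1_mem N _).mpr ⟨?_, ?_, ?_⟩ <;>
    simp [Matrix.mul_apply, Fin.sum_univ_two, Matrix.adjugate_fin_two, ha, hd, hc, hg0] <;>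
    linear_combination he

/-- `±` the lower level is normal in `Γ₀(27 E₁)`. -/
theorem isNormalPair_pm_lowLevel (hE : Nat.Coprime 27 E₁) :
    IsNormalPair (pm (lowLevel E₁ E₂)) (Gamma0 (27 * E₁)) := by
  refine isNormalPair_pm (SL2.neg_one_mem_Gamma0 _)
    ⟨lowLevel_le_topLevel.trans (topLevel_le_Gamma0 hE), fun g hg γ hγ => ?_⟩
  have hgE : g ∈ Gamma0 E₁ := Gamma0_le_of_dvd ⟨27, by ring⟩ hg
  exact ⟨⟨conj_mem_Gamma1 (Gamma0_le_of_dvd ⟨E₁, rfl⟩ hg) hγ.1.1,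
    (Gamma0 E₁).mul_mem ((Gamma0 E₁).mul_mem hgE hγ.1.2) ((Gamma0 E₁).inv_mem hgE)⟩,
    (Gamma_normal _).conj_mem γ hγ.2 g⟩

/-- `±` the top level lies in `Γ₀(27 E₁)`. -/
theorem pm_topLevel_le (hE : Nat.Coprime 27 E₁) : pm (topLevel E₁) ≤ Gamma0 (27 * E₁) :=
  pm_le (SL2.neg_one_mem_Gamma0 _) (topLevel_le_Gamma0 hE)

/-- `±` the lower level is normal in `±` the top level. -/
theorem isNormalPair_pm_top (hE : Nat.Coprime 27 E₁) :
    IsNormalPair (pm (lowLevel E₁ E₂)) (pm (topLevel E₁)) :=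
  (isNormalPair_pm_lowLevel hE).mono (pm_mono lowLevel_le_topLevel) (pm_topLevel_le hE)

/-! ## Lifts -/

/-- `(1 0; x 1)`. -/
def lowerT (x : ℤ) : SL(2, ℤ) := ⟨!![1, 0; x, 1], by simp [Matrix.det_fin_two_of]⟩

/-- `(1 0; x 1)` is in the top level for `x` divisible by `27 E₁`. -/
theorem lowerT_mem_topLevel {x : ℤ} (h : ((27 * E₁ : ℕ) : ℤ) ∣ x) : lowerT x ∈ topLevel E₁ := by
  have h27 : ((27 : ℕ) : ℤ) ∣ x := (Int.natCast_dvd_natCast.mpr (dvd_mul_right 27 E₁)).trans h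
  have hE : (E₁ : ℤ) ∣ x := (Int.natCast_dvd_natCast.mpr (dvd_mul_left E₁ 27)).trans h
  refine ⟨(Gamma1_mem 27 _).mpr ⟨?_, ?_, ?_⟩, Gamma0_mem.mpr ?_⟩
  · simp [lowerT]
  · simp [lowerT]
  · simpa [lowerT] using (ZMod.intCast_zmod_eq_zero_iff_dvd x 27).mpr h27
  · simpa [lowerT] using (ZMod.intCast_zmod_eq_zero_iff_dvd x E₁).mpr hE

/-- The translations are in the top level. -/
theorem T_zpow_mem_topLevel (b : ℤ) : T ^ b ∈ topLevel E₁ := by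
  refine ⟨(Gamma1_mem 27 _).mpr ⟨?_, ?_, ?_⟩, Gamma0_mem.mpr ?_⟩ <;> simp [coe_T_zpow]

/-- The reduction of a translation. -/
theorem modEqMat_T (b : ℤ) : ModEqMat E₂ (T ^ b) !![1, (b : ZMod E₂); 0, 1] := by
  rw [ModEqMat, coe_T_zpow]
  ext i j
  fin_cases i <;> fin_cases j <;> simp

/-- Reductions multiply. -/
theorem modEqMat_mul {γ δ : SL(2, ℤ)} {g h : Matrix (Fin 2) (Fin 2) (ZMod E₂)}
    (hγ : ModEqMat E₂ γ g) (hδ : ModEqMat E₂ δ h) : ModEqMat E₂ (γ * δ) (g * h) := by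
  rw [ModEqMat] at *
  rw [← hγ, ← hδ]
  exact (Matrix.map_mul (f := Int.castRingHom (ZMod E₂)))

/-- `S` lifts to the top level. -/
theorem exists_lift_S (h : Nat.Coprime (27 * E₁) E₂) :
    ∃ γ : topLevel E₁, ModEqMat E₂ γ !![0, -1; 1, 0] := by
  obtain ⟨e, he, he'⟩ : ∃ e : ℤ, ((27 * E₁ : ℕ) : ℤ) ∣ e ∧ (e : ZMod E₂) = 1 := by
    set u : (ZMod E₂)ˣ := ZMod.unitOfCoprime _ h
    refine ⟨((27 * E₁ : ℕ) : ℤ) * ((u⁻¹ : (ZMod E₂)ˣ) : ZMod E₂).val, dvd_mul_right _ _, ?_⟩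
    rcases eq_or_ne E₂ 0 with rfl | hE
    · have h27 : 27 * E₁ = 1 := by simp at h
      omega
    have : NeZero E₂ := ⟨hE⟩
    rw [Int.cast_mul, Int.cast_natCast, Int.cast_natCast, ZMod.natCast_zmod_val]
    exact u.mul_inv
  refine ⟨⟨T ^ (-e) * lowerT e * T ^ (-e),
    mul_mem (mul_mem (T_zpow_mem_topLevel _) (lowerT_mem_topLevel he)) (T_zpow_mem_topLevel _)⟩, ?_⟩
  refine (modEqMat_mul (modEqMat_mul (modEqMat_T (-e)) rfl) (modEqMat_T (-e))).trans ?_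
  ext i j
  fin_cases i <;> fin_cases j <;>
    simp [lowerT, Matrix.mul_apply, Matrix.vecMul, dotProduct, Fin.sum_univ_two, he']

end Fermat.RM
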