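import Fermat.Agent.RM.EtaSeries
import Fermat.Agent.RM.Levels

/-!
# The form `η(z)³ / η(3z)` of weight one

It is invariant under `Γ₁(27)`, bounded at every cusp, and congruent to one modulo three.
-/

set_option autoImplicit false

noncomputable section

namespace Fermat.RM

open scoped MatrixGroups ModularForm Real Manifold Topology
open UpperHalfPlane hiding I
open Complex Filter Function CongruenceSubgroup ModularGroup

local notation "𝕢" => Periodic.qParam

/-- The form as a function on `ℂ`. -/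
def bC (z : ℂ) : ℂ := etaQuot 1 (𝕢 1 z)

/-- **The weight one form congruent to one.** -/
def bFun (τ : ℍ) : ℂ := bC τ

/-- A power of the parameter is the parameter at a multiple. -/
theorem qParam_pow (h : ℝ) (n : ℕ) (z : ℂ) : 𝕢 h z ^ n = 𝕢 h ((n : ℂ) * z) := by
  simp only [Periodic.qParam, ← Complex.exp_nat_mul]
  congr 1
  ring

/-- `η` is `q ^ (1 / 24)` times the Euler product. -/
theorem eta_eq (z : ℂ) : ModularForm.eta z = 𝕢 24 z * eulerP (𝕢 1 z) := rfl

/-- `b z = η z ^ 3 / η (3 z)`. -/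
theorem bC_eq (z : ℂ) : bC z = ModularForm.eta z ^ 3 / ModularForm.eta (3 * z) := by
  have h3 : 𝕢 24 z ^ 3 = 𝕢 24 (3 * z) := qParam_pow _ 3 z
  rw [bC, etaQuot, eta_eq, eta_eq, eulerE, eulerE, pow_one, mul_pow, h3, mul_one,
    qParam_pow 1 3 z, mul_div_mul_left _ _ (Periodic.qParam_ne_zero (3 * z))]
  rfl

/-- The parameter of width one has period one. -/
theorem qParam_one_add_int (z : ℂ) (n : ℤ) : 𝕢 1 (z + n) = 𝕢 1 z := by
  simp only [Periodic.qParam, ofReal_one, div_one]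
  rw [mul_add, Complex.exp_add, mul_comm (2 * (π : ℂ) * I) (n : ℂ),
    Complex.exp_int_mul_two_pi_mul_I, mul_one]

/-- `η` gains a root of unity of order `24` under integral translations. -/
theorem eta_add_int (z : ℂ) (n : ℤ) :
    ModularForm.eta (z + n) = cexp (2 * π * I * n / 24) * ModularForm.eta z := by
  rw [eta_eq, eta_eq, qParam_one_add_int, ← mul_assoc]
  congr 1
  simp only [Periodic.qParam, ← Complex.exp_add]
  congr 1
  push_cast
  ring

/-- `b` has period one. -/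
theorem bC_add_int (z : ℂ) (n : ℤ) : bC (z + n) = bC z := by
  rw [bC, bC, qParam_one_add_int]

/-- The principal square root is multiplicative when a factor is a positive real. -/
theorem sqrt_ofReal_mul {r : ℝ} (hr : 0 < r) {z : ℂ} (hz : z ≠ 0) :
    Complex.sqrt ((r : ℂ) * z) = Complex.sqrt r * Complex.sqrt z := by
  have hr' : (r : ℂ) ≠ 0 := ofReal_ne_zero.mpr hr.ne'
  simp only [Complex.sqrt]
  rw [cpow_def_of_ne_zero (mul_ne_zero hr' hz), cpow_def_of_ne_zero hr', cpow_def_of_ne_zero hz,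
    log_ofReal_mul hr hz, ← Complex.exp_add, ofReal_log hr.le]
  congr 1
  ring

/-- The square of the principal square root. -/
theorem csqrt_sq (z : ℂ) : Complex.sqrt z ^ 2 = z := by
  simp [Complex.sqrt]

/-- The square root of a nonzero number is not zero. -/
theorem csqrt_ne_zero {z : ℂ} (hz : z ≠ 0) : Complex.sqrt z ≠ 0 := fun h => hz (by
  rw [← csqrt_sq z, h]; simp)

/-- The transformation of `η`. -/
theorem eta_neg_inv {z : ℂ} (hz : 0 < z.im) :
    ModularForm.eta (-1 / z) = (Complex.sqrt I)⁻¹ * (Complex.sqrt z * ModularForm.eta z) :=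
  ModularForm.eta_comp_eq_csqrt_I_inv hz

/-- `b` under `S`. -/
theorem bC_neg_inv {z : ℂ} (hz : 0 < z.im) :
    bC (-1 / z) = (Complex.sqrt I)⁻¹ ^ 2 * Complex.sqrt (3 : ℝ) * z *
      (ModularForm.eta z ^ 3 / ModularForm.eta (z / 3)) := by
  have hz0 : z ≠ 0 := fun h => by simp [h] at hz
  have hz3 : 0 < (z / 3).im := by simpa using div_pos hz (by norm_num : (0 : ℝ) < 3)
  have h30 : z / 3 ≠ 0 := fun h => by simp [h] at hz3
  have hs : Complex.sqrt z = Complex.sqrt (3 : ℝ) * Complex.sqrt (z / 3) := by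
    rw [← sqrt_ofReal_mul (by norm_num) h30]
    congr 1
    push_cast
    ring
  rw [bC_eq, show 3 * (-1 / z) = -1 / (z / 3) by field_simp, eta_neg_inv hz, eta_neg_inv hz3]
  have hc : Complex.sqrt I ≠ 0 := csqrt_ne_zero I_ne_zero
  have ht : Complex.sqrt (z / 3) ≠ 0 := csqrt_ne_zero h30
  have he : ModularForm.eta (z / 3) ≠ 0 := ModularForm.eta_ne_zero hz3
  have e2 : z = Complex.sqrt z ^ 2 := (csqrt_sq z).symm
  field_simp
  linear_combination (ModularForm.eta z ^ 3 * Complex.sqrt z ^ 2) * hs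
    - (Complex.sqrt (3 : ℝ) * Complex.sqrt (z / 3) * ModularForm.eta z ^ 3) * e2

/-- `b` under the lower unipotent matrices of level three. -/
theorem bC_lower {τ : ℂ} (hτ : 0 < τ.im) (n : ℤ) :
    bC (τ / (3 * n * τ + 1)) = cexp (-(2 * π * I * n) / 3) * (3 * n * τ + 1) * bC τ := by
  have hτ0 : τ ≠ 0 := fun h => by simp [h] at hτ
  set w : ℂ := -1 / τ with hw
  have hwim : 0 < w.im := by
    rw [hw, neg_div, one_div, neg_im, inv_im, neg_div, neg_neg]
    exact div_pos hτ (normSq_pos.mpr hτ0)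
  set v : ℂ := w + ((-(3 * n) : ℤ) : ℂ) with hv
  have hvim : 0 < v.im := by simpa [hv] using hwim
  have hv0 : v ≠ 0 := fun h => by simp [h] at hvim
  have hwτ : w * τ = -1 := by rw [hw]; field_simp
  -- the point is `-1 / v`, with `v = -1 / τ - 3n`
  have hden : 3 * (n : ℂ) * τ + 1 = -(v * τ) := by
    rw [hv, add_mul, hwτ]
    push_cast
    ring
  have hpt : τ / (3 * n * τ + 1) = -1 / v := by
    rw [hden]
    field_simp
  -- translation multiplies the eta quotient by a cube root of unity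
  have he : ModularForm.eta v ^ 3 / ModularForm.eta (v / 3)
      = cexp (-(2 * π * I * n) / 3) * (ModularForm.eta w ^ 3 / ModularForm.eta (w / 3)) := by
    have h3 : v / 3 = w / 3 + ((-n : ℤ) : ℂ) := by
      rw [hv]; push_cast; ring
    rw [h3, hv, eta_add_int, eta_add_int, mul_pow, ← Complex.exp_nat_mul, mul_div_mul_comm,
      ← Complex.exp_sub]
    congr 2
    push_cast
    ring
  have hτw : τ = -1 / w := by rw [hw]; field_simp
  -- and inversion is known on both sides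
  have hτb : bC τ = (Complex.sqrt I)⁻¹ ^ 2 * Complex.sqrt (3 : ℝ) * w *
      (ModularForm.eta w ^ 3 / ModularForm.eta (w / 3)) := by
    conv_lhs => rw [hτw]
    exact bC_neg_inv hwim
  rw [hpt, bC_neg_inv hvim, he, hden, hτb]
  linear_combination ((Complex.sqrt I)⁻¹ ^ 2 * Complex.sqrt (3 : ℝ) * v *
    cexp (-(2 * π * I * n) / 3) * (ModularForm.eta w ^ 3 / ModularForm.eta (w / 3))) * hwτ

/-- The entries of `(1 0; x 1)`. -/
theorem lowerT_apply (x : ℤ) : ((lowerT x) 0 0 : ℤ) = 1 ∧ ((lowerT x) 0 1 : ℤ) = 0 ∧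
    ((lowerT x) 1 0 : ℤ) = x ∧ ((lowerT x) 1 1 : ℤ) = 1 := ⟨rfl, rfl, rfl, rfl⟩

/-- `3 a b / 3 = a b` for integers. -/
theorem three_mul_mul_ediv (a b : ℤ) : 3 * a * b / 3 = a * b := by
  rw [mul_assoc, Int.mul_ediv_cancel_left _ (by norm_num : (3 : ℤ) ≠ 0)]

/-- The multiplier: a sign times a cube root of unity. -/
def eps3 (γ : SL(2, ℤ)) : ℂ :=
  (if ((γ 1 1 : ℤ) : ZMod 3) = 1 then 1 else -1) *
    cexp (-(2 * π * I * ((γ 1 0 * γ 1 1 / 3 : ℤ) : ℂ)) / 3)

/-- The cube root of unity depends only on the exponent modulo three. -/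
theorem cexp_third_congr {a b : ℤ} (h : (3 : ℤ) ∣ a - b) :
    cexp (-(2 * π * I * a) / 3) = cexp (-(2 * π * I * b) / 3) := by
  obtain ⟨k, hk⟩ := h
  rw [show a = b + 3 * k by omega, Complex.exp_eq_exp_iff_exists_int]
  exact ⟨-k, by push_cast; ring⟩

/-- `b` is invariant under translations. -/
theorem bFun_slash_T (n : ℤ) : bFun ∣[(1 : ℤ)] (T ^ n) = bFun := by
  funext τ
  rw [ModularForm.SL_slash_apply, modular_T_zpow_smul]
  have hden : denom ((T ^ n : SL(2, ℤ)) : GL (Fin 2) ℝ) τ = 1 := by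
    rw [denom]
    simp [ModularGroup.coe_T_zpow, -map_zpow]
  rw [hden, one_zpow, mul_one]
  change bC _ = bC _
  rw [coe_vadd, add_comm]
  push_cast
  exact bC_add_int _ _

/-- The eta quotient transforms by a cube root of unity under lower translations by multiples of
three. -/
theorem bFun_slash_lower (n : ℤ) :
    bFun ∣[(1 : ℤ)] (lowerT (3 * n)) = cexp (-(2 * π * I * n) / 3) • bFun := by
  funext τ
  rw [ModularForm.SL_slash_apply, Pi.smul_apply, smul_eq_mul]
  have hden : denom ((lowerT (3 * n) : SL(2, ℤ)) : GL (Fin 2) ℝ) τ = 3 * (n : ℂ) * τ + 1 := by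
    rw [ModularGroup.denom_apply, (lowerT_apply _).2.2.1, (lowerT_apply _).2.2.2]
    push_cast
    ring
  have hne : 3 * (n : ℂ) * (τ : ℂ) + 1 ≠ 0 := hden ▸ denom_ne_zero _ τ
  change bC _ * _ = _ * bC _
  rw [hden, zpow_neg_one, UpperHalfPlane.coe_specialLinearGroup_apply]
  simp only [lowerT]
  have e : bC ((τ : ℂ) / (3 * n * τ + 1)) * (3 * (n : ℂ) * τ + 1)⁻¹
      = cexp (-(2 * π * I * n) / 3) * bC τ := by
    rw [bC_lower τ.im_pos n, mul_right_comm _ _ (bC τ), mul_inv_cancel_right₀ hne]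
  refine Eq.trans ?_ e
  simp

/-- In weight one slashing by `-γ` is minus slashing by `γ`. -/
theorem weight_one_slash_neg {f : ℍ → ℂ} (γ : SL(2, ℤ)) :
    f ∣[(1 : ℤ)] (-γ) = -(f ∣[(1 : ℤ)] γ) := by
  funext τ
  rw [Pi.neg_apply, ModularForm.SL_slash_apply, ModularForm.SL_slash_apply,
      ModularGroup.SL_neg_smul]
  have hden : denom ((-γ : SL(2, ℤ)) : GL (Fin 2) ℝ) τ = -denom (γ : GL (Fin 2) ℝ) τ := by
    simp [denom, Matrix.SpecialLinearGroup.coe_neg]
    ring
  rw [hden, zpow_neg_one, zpow_neg_one, inv_neg, mul_neg]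

/-- The multiplier is unchanged by translations on the right. -/
theorem eps3_mul_T {γ : SL(2, ℤ)} (hγ : γ ∈ Gamma0 3) (n : ℤ) : eps3 (γ * T ^ n) = eps3 γ := by
  have hc : (γ * T ^ n : SL(2, ℤ)) 1 0 = γ 1 0 := by simp [entry_mul, coe_T_zpow]
  have hd : (γ * T ^ n : SL(2, ℤ)) 1 1 = γ 1 0 * n + γ 1 1 := by simp [entry_mul, coe_T_zpow]
  obtain ⟨t, ht⟩ : (3 : ℤ) ∣ γ 1 0 :=
    (ZMod.intCast_zmod_eq_zero_iff_dvd _ 3).mp (Gamma0_mem.mp hγ)
  rw [eps3, eps3, hc, hd, Int.cast_add, Int.cast_mul, Gamma0_mem.mp hγ, zero_mul, zero_add]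
  congr 1
  refine cexp_third_congr ?_
  rw [ht, three_mul_mul_ediv, three_mul_mul_ediv]
  exact ⟨t * t * n, by ring⟩

/-- `eps3` gains the same cube root of unity under lower translations by multiples of three. -/
theorem eps3_mul_lower {γ : SL(2, ℤ)} (hγ : γ ∈ Gamma0 3) (n : ℤ) :
    eps3 (γ * lowerT (3 * n)) = eps3 γ * cexp (-(2 * π * I * n) / 3) := by
  have hc : (γ * lowerT (3 * n) : SL(2, ℤ)) 1 0 = γ 1 0 + γ 1 1 * (3 * n) := by
    simp [entry_mul, lowerT_apply]
  have hd : (γ * lowerT (3 * n) : SL(2, ℤ)) 1 1 = γ 1 1 := by simp [entry_mul, lowerT_apply]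
  obtain ⟨t, ht⟩ : (3 : ℤ) ∣ γ 1 0 :=
    (ZMod.intCast_zmod_eq_zero_iff_dvd _ 3).mp (Gamma0_mem.mp hγ)
  have hsq : (3 : ℤ) ∣ γ 1 1 * γ 1 1 - 1 := by
    refine (ZMod.intCast_zmod_eq_zero_iff_dvd _ 3).mp ?_
    have hd := Fermat.MC.Lvl.Gamma0_entries hγ
    push_cast
    generalize ((γ 1 1 : ℤ) : ZMod 3) = x at hd ⊢
    generalize ((γ 0 0 : ℤ) : ZMod 3) = y at hd
    revert hd
    revert x y
    decide
  rw [eps3, eps3, hc, hd, mul_assoc _ _ (cexp _), ← Complex.exp_add]
  congr 1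
  rw [← add_div, ← neg_add, ← mul_add, ← Int.cast_add]
  refine cexp_third_congr ?_
  rw [ht, show 3 * t + γ 1 1 * (3 * n) = 3 * (t + γ 1 1 * n) by ring, three_mul_mul_ediv,
    three_mul_mul_ediv]
  obtain ⟨k, hk⟩ := hsq
  exact ⟨n * k, by linear_combination n * hk⟩

/-- Division with remainder of absolute value at most half the divisor. -/
theorem exists_two_abs_le (d c : ℤ) (hc : c ≠ 0) : ∃ n : ℤ, 2 * |d + n * c| ≤ |c| := by
  have h0 := Int.emod_nonneg d hc
  have h1 := Int.emod_lt_abs d hc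
  have h2 := Int.emod_add_mul_ediv d c
  rcases le_or_gt (2 * (d % c)) |c| with h | h
  · exact ⟨-(d / c), by rw [show d + -(d / c) * c = d % c by linarith, abs_of_nonneg h0]; exact h⟩
  · rcases abs_choice c with e | e
    · exact ⟨-(d / c) - 1, by
        rw [show d + (-(d / c) - 1) * c = d % c - |c| by rw [e]; linarith,
          abs_of_nonpos (by linarith)]
        linarith⟩
    · exact ⟨-(d / c) + 1, by
        rw [show d + (-(d / c) + 1) * c = d % c - |c| by rw [e]; linarith,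
          abs_of_nonpos (by linarith)]
        linarith⟩

/-- The eta quotient transforms under `Γ₀(3)` by `eps3`. -/
theorem bFun_slash {γ : SL(2, ℤ)} (hγ : γ ∈ Gamma0 3) : bFun ∣[(1 : ℤ)] γ = eps3 γ • bFun := by
  induction hn : (γ 1 0).natAbs using Nat.strong_induction_on generalizing γ with
  | _ N ih =>
  by_cases hc : γ 1 0 = 0
  -- c = 0: γ is, up to sign, a power of T
  · have hdet := γ.2
    rw [Matrix.det_fin_two, hc, mul_zero, sub_zero] at hdet
    rcases Int.eq_one_or_neg_one_of_mul_eq_one' hdet with ⟨ha, hd⟩ | ⟨ha, hd⟩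
    · have e : γ = T ^ (γ 0 1) := by
        ext i j
        fin_cases i <;> fin_cases j <;> simp [coe_T_zpow, ha, hd, hc]
      conv_lhs => rw [e]
      rw [bFun_slash_T, eps3, hc, hd]
      simp
    · have e : γ = -(T ^ (-γ 0 1)) := by
        ext i j
        fin_cases i <;> fin_cases j <;> simp [coe_T_zpow, ha, hd, hc]
      conv_lhs => rw [e]
      rw [weight_one_slash_neg, bFun_slash_T, eps3, hc, hd]
      simp [show ¬ ((-1 : ZMod 3) = 1) by decide]
  -- c ≠ 0: multiply by T ^ n and lowerT (3 * m) to shrink |c|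
  · obtain ⟨n, hn'⟩ := exists_two_abs_le (γ 1 1) (γ 1 0) hc
    set γ₁ := γ * T ^ n with hγ₁
    have h1mem : γ₁ ∈ Gamma0 3 := mul_mem hγ (Gamma0_mem.mpr (by simp [coe_T_zpow]))
    have h1d : γ₁ 1 1 = γ 1 1 + n * γ 1 0 := by simp [hγ₁, entry_mul, coe_T_zpow]; ring
    have hd0 : γ₁ 1 1 ≠ 0 := fun h => by
      have := Fermat.MC.Lvl.Gamma0_entries h1mem
      simp [h] at this
    obtain ⟨m, hm⟩ := exists_two_abs_le (γ₁ 1 0) (3 * γ₁ 1 1) (by simpa using hd0)
    set γ₂ := γ₁ * lowerT (3 * m) with hγ₂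
    have h2mem : γ₂ ∈ Gamma0 3 :=
      mul_mem h1mem (Gamma0_mem.mpr (by simp [lowerT_apply, show (3 : ZMod 3) = 0 by decide]))
    have h2c : γ₂ 1 0 = γ₁ 1 0 + m * (3 * γ₁ 1 1) := by simp [hγ₂, entry_mul, lowerT_apply]; ring
    have hlt : (γ₂ 1 0).natAbs < N := by
      rw [← hn]
      zify
      rw [h2c]
      rw [abs_mul, abs_of_pos (by norm_num : (0 : ℤ) < 3)] at hm
      rw [← h1d] at hn'
      have := abs_pos.mpr hc
      linarith
    have h := ih _ hlt h2mem rfl
    -- undo the two moves and compare the values of eps3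
    have e : γ = γ₂ * lowerT (3 * -m) * T ^ (-n) := by
      have e1 : lowerT (3 * m) * lowerT (3 * -m) = 1 := by
        ext i j
        fin_cases i <;> fin_cases j <;> simp [entry_mul, lowerT_apply]
      rw [hγ₂, mul_assoc γ₁, e1, mul_one, hγ₁, mul_assoc, ← zpow_add, add_neg_cancel, zpow_zero,
        mul_one]
    have heps : eps3 γ = eps3 γ₂ * cexp (-(2 * π * I * ((-m : ℤ) : ℂ)) / 3) := by
      conv_lhs => rw [e]
      rw [eps3_mul_T (mul_mem h2mem
        (Gamma0_mem.mpr (by simp [lowerT_apply, show (3 : ZMod 3) = 0 by decide]))),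
        eps3_mul_lower h2mem]
    conv_lhs => rw [e]
    rw [SlashAction.slash_mul, SlashAction.slash_mul, h, ModularForm.SL_smul_slash,
      ModularForm.SL_smul_slash, bFun_slash_lower, ModularForm.SL_smul_slash,
      bFun_slash_T, smul_smul,
      heps]

/-- **Invariance.** The weight one function `bFun` is invariant under `Γ₁(27)`. -/
theorem bFun_slash_of_mem {γ : SL(2, ℤ)} (hγ : γ ∈ Gamma1 27) : bFun ∣[(1 : ℤ)] γ = bFun := by
  obtain ⟨-, hd, hc⟩ := (Gamma1_mem 27 γ).mp hγ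
  have h27 : γ ∈ Gamma0 27 := Gamma0_mem.mpr hc
  rw [bFun_slash (Gamma0_le_of_dvd (by norm_num) h27), eps3]
  have h3 : ((γ 1 1 : ℤ) : ZMod 3) = 1 := by
    have := congrArg (ZMod.castHom (show 3 ∣ 27 by norm_num) (ZMod 3)) hd
    rwa [map_intCast, map_one] at this
  obtain ⟨t, ht⟩ := (ZMod.intCast_zmod_eq_zero_iff_dvd _ 27).mp hc
  rw [if_pos h3, one_mul, ht, cexp_third_congr (b := 0) ?_]
  · simp
  · rw [show ((27 : ℕ) : ℤ) * t * γ 1 1 = 3 * (9 * t * γ 1 1) by push_cast; ring,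
      Int.mul_ediv_cancel_left _ (by norm_num : (3 : ℤ) ≠ 0), sub_zero]
    exact ⟨3 * t * γ 1 1, by ring⟩

/-! ## Cusps -/

/-- `b` is bounded at `∞`. -/
theorem isBounded_bFun : IsBoundedAtImInfty bFun := by
  have h := (((differentiableOn_etaQuot one_pos).differentiableAt
    disc_mem_nhds).continuousAt.tendsto).comp
    (UpperHalfPlane.qParam_tendsto_atImInfty one_pos)
  exact h.isBigO_one ℝ

/-- Every matrix is in `Γ₀(3)` or in `Γ₀(3) S T ^ j` for some `j`. -/
theorem exists_S_decomp (δ : SL(2, ℤ)) :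
    δ ∈ Gamma0 3 ∨ ∃ γ ∈ Gamma0 3, ∃ j : ℤ, δ = γ * ModularGroup.S * T ^ j := by
  by_cases hc : ((δ 1 0 : ℤ) : ZMod 3) = 0
  · exact Or.inl (Gamma0_mem.mpr hc)
  · have : Fact (Nat.Prime 3) := ⟨Nat.prime_three⟩
    set x : ZMod 3 := ((δ 1 1 : ℤ) : ZMod 3) / ((δ 1 0 : ℤ) : ZMod 3)
    refine Or.inr ⟨δ * T ^ (-(x.val : ℤ)) * ModularGroup.S⁻¹, Gamma0_mem.mpr ?_, (x.val : ℤ),
      by simp [mul_assoc]⟩
    obtain ⟨i00, i01, i10, i11⟩ := entries_inv ModularGroup.S
    simp only [entry_mul, i00, i10, coe_T_zpow]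
    simp [ModularGroup.S]
    rw [show x = ((δ 1 1 : ℤ) : ZMod 3) / ((δ 1 0 : ℤ) : ZMod 3) from rfl]
    field_simp
    ring

/-- `b` slashed by `S` is a multiple of `η(τ) ^ 3 / η(τ / 3)`. -/
theorem bFun_slash_S : bFun ∣[(1 : ℤ)] ModularGroup.S = fun τ : ℍ =>
    (Complex.sqrt I)⁻¹ ^ 2 * Complex.sqrt (3 : ℝ) *
      (ModularForm.eta τ ^ 3 / ModularForm.eta ((τ : ℂ) / 3)) := by
  funext τ
  rw [ModularForm.SL_slash_apply, UpperHalfPlane.modular_S_smul]
  have hden : denom ((ModularGroup.S : SL(2, ℤ)) : GL (Fin 2) ℝ) τ = (τ : ℂ) := by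
    rw [ModularGroup.denom_apply]
    simp [ModularGroup.S]
  change bC ((-(τ : ℂ))⁻¹) * _ = _
  rw [hden, zpow_neg_one, show (-(τ : ℂ))⁻¹ = -1 / (τ : ℂ) by ring, bC_neg_inv τ.im_pos]
  field_simp [τ.ne_zero]

/-- The eta quotient is bounded at the cusp `0`. -/
theorem isBounded_bFun_S : IsBoundedAtImInfty (bFun ∣[(1 : ℤ)] ModularGroup.S) := by
  rw [bFun_slash_S]
  have e : ∀ τ : ℍ, ModularForm.eta τ ^ 3 / ModularForm.eta ((τ : ℂ) / 3) =
      𝕢 9 τ * (eulerE 3 (𝕢 3 τ) ^ 3 / eulerP (𝕢 3 τ)) := fun τ => by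
    have h1 : 𝕢 1 ((τ : ℂ) / 3) = 𝕢 3 τ := by
      simp only [Periodic.qParam]; congr 1; push_cast; ring
    have h2 : 𝕢 3 (τ : ℂ) ^ 3 = 𝕢 1 τ := by
      rw [qParam_pow]; simp only [Periodic.qParam]; congr 1; push_cast; ring
    have h3 : 𝕢 24 (τ : ℂ) ^ 3 = 𝕢 9 τ * 𝕢 24 ((τ : ℂ) / 3) := by
      rw [qParam_pow]; simp only [Periodic.qParam, ← Complex.exp_add]; congr 1; push_cast; ring
    rw [eta_eq, eta_eq, mul_pow, h1, h3, eulerE, h2, mul_assoc, mul_comm (𝕢 24 ((τ : ℂ) / 3)),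
      ← mul_assoc, mul_div_assoc, mul_assoc]
    congr 1
    field_simp [Periodic.qParam_ne_zero]
  have hc : ContinuousAt (fun x => eulerE 3 x ^ 3 / eulerP x) 0 :=
    (((differentiableOn_eulerE (by norm_num)).differentiableAt
      disc_mem_nhds).continuousAt.pow 3).div
      (differentiableOn_eulerP.differentiableAt disc_mem_nhds).continuousAt (by simp [eulerP_zero])
  have h := ((UpperHalfPlane.qParam_tendsto_atImInfty (show (0 : ℝ) < 9 by norm_num)).mul
    (hc.tendsto.comp (UpperHalfPlane.qParam_tendsto_atImInfty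
      (show (0 : ℝ) < 3 by norm_num)))).const_mul
      ((Complex.sqrt I)⁻¹ ^ 2 * Complex.sqrt (3 : ℝ))
  refine Asymptotics.IsBigO.congr_left (h.isBigO_one ℝ) fun τ => ?_
  simp only [Function.comp_apply, e τ]

/-- Boundedness at `∞` is preserved by translations. -/
theorem isBounded_slash_T {f : ℍ → ℂ} (hf : IsBoundedAtImInfty f) (j : ℤ) :
    IsBoundedAtImInfty (f ∣[(1 : ℤ)] (T ^ j)) := by
  obtain ⟨C, A, hC⟩ := isBoundedAtImInfty_iff.mp hf
  refine isBoundedAtImInfty_iff.mpr ⟨C, A, fun z hz => ?_⟩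
  rw [ModularForm.SL_slash_apply, modular_T_zpow_smul]
  have hden : denom ((T ^ j : SL(2, ℤ)) : GL (Fin 2) ℝ) z = 1 := by
    rw [denom]
    simp [ModularGroup.coe_T_zpow, -map_zpow]
  rw [hden, one_zpow, mul_one]
  exact hC _ (by rwa [vadd_im])

/-- `b` is bounded at every cusp. -/
theorem isBounded_bFun_slash (δ : SL(2, ℤ)) : IsBoundedAtImInfty (bFun ∣[(1 : ℤ)] δ) := by
  rcases exists_S_decomp δ with h | ⟨γ, hγ, j, rfl⟩
  · rw [bFun_slash h]
    exact isBounded_bFun.const_mul_left _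
  · rw [SlashAction.slash_mul, SlashAction.slash_mul, bFun_slash hγ, ModularForm.SL_smul_slash,
      ModularForm.SL_smul_slash]
    exact (isBounded_slash_T isBounded_bFun_S j).const_mul_left _

/-- `b` is holomorphic. -/
theorem mdifferentiable_bFun : MDiff bFun := by
  rw [UpperHalfPlane.mdifferentiable_iff]
  have h : DifferentiableOn ℂ bC upperHalfPlaneSet := (differentiableOn_etaQuot one_pos).comp
    (Periodic.differentiable_qParam.differentiableOn) fun z hz => by
      simpa using norm_qParam_lt_one 1 ⟨z, hz⟩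
  refine h.congr fun z hz => ?_
  simp [bFun, ofComplex_apply_of_im_pos hz]

/-! ## The series -/

/-- `b` in the parameter of width `E` is the eta quotient `etaQuot E`. -/
theorem etaQuot_qParam {E : ℕ} (hE : 0 < E) (z : ℂ) : etaQuot E (𝕢 (E : ℝ) z) = bC z := by
  have hE' : (E : ℂ) ≠ 0 := by exact_mod_cast hE.ne'
  have h : 𝕢 (E : ℝ) z ^ E = 𝕢 1 z := by
    rw [qParam_pow]; simp only [Periodic.qParam]; congr 1; push_cast; field_simp
  rw [bC, etaQuot, etaQuot, eulerE, eulerE, eulerE, eulerE, mul_comm 3 E, pow_mul, h, pow_one,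
    mul_one]

/-- Near `0` the cusp function of width `E` of the eta quotient is `etaQuot E`. -/
theorem cuspFunction_bFun {E : ℕ} (hE : 0 < E) :
    cuspFunction (E : ℝ) bFun =ᶠ[𝓝 0] etaQuot E := by
  have hE' : (0 : ℝ) < E := Nat.cast_pos.mpr hE
  have h1 : ∀ q ∈ disc, q ≠ 0 → cuspFunction (E : ℝ) bFun q = etaQuot E q := fun q hq hq0 => by
    have him := Periodic.im_invQParam_pos_of_norm_lt_one hE' (mem_ball_zero_iff.mp hq) hq0
    rw [cuspFunction, Periodic.cuspFunction_eq_of_nonzero _ _ hq0]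
    simp only [Function.comp_apply, ofComplex_apply_of_im_pos him, bFun]
    change bC (Periodic.invQParam (E : ℝ) q) = _
    rw [← etaQuot_qParam hE, Periodic.qParam_right_inv hE'.ne' hq0]
  filter_upwards [disc_mem_nhds] with q hq
  rcases eq_or_ne q 0 with rfl | hq0
  · rw [cuspFunction, Periodic.cuspFunction_zero_eq_limUnder_nhds_ne]
    refine (Tendsto.congr' ?_ ((((differentiableOn_etaQuot hE).differentiableAt
      disc_mem_nhds).continuousAt.tendsto).mono_left nhdsWithin_le_nhds)).limUnder_eq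
    filter_upwards [self_mem_nhdsWithin, mem_nhdsWithin_of_mem_nhds disc_mem_nhds] with x hx hx'
    exact (h1 x hx' hx).symm
  · exact h1 q hq hq0

/-- The cusp function of `b` is analytic at `0`. -/
theorem analyticAt_cuspFunction_bFun {E : ℕ} (hE : 0 < E) :
    AnalyticAt ℂ (cuspFunction (E : ℝ) bFun) 0 :=
  (((differentiableOn_etaQuot hE).analyticAt disc_mem_nhds)).congr (cuspFunction_bFun hE).symm

/-- **The series of `b`.** The expansion of `bFun` in the parameter of width `E` is the integral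
series `etaInt E`. -/
theorem qExpansion_bFun {E : ℕ} (hE : 0 < E) :
    qExpansion (E : ℝ) bFun = PowerSeries.map (Int.castRingHom ℂ) (etaInt E) := by
  rw [← tser_etaQuot hE, ← tser_congr (cuspFunction_bFun hE)]
  ext n
  rw [qExpansion_coeff, coeff_tser]

end Fermat.RM
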