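import Fermat.Agent.LT.Targets
import Mathlib.NumberTheory.ModularForms.CongruenceSubgroups
import Mathlib.NumberTheory.ModularForms.QExpansion

/-!
# The weight one input of residual modularity at `3`

`WeightOneData ρ` is what the theta lift from `K` delivers: at the primes of `E₂` the forms are
indexed by the functions on `(ℤ/E₂)[X]/(X² - X + 1)`, on which `SL₂` acts through the Weil
representation of the norm form and the norm one units act through cube roots of unity; at the
primes of `E₁` the level is exactly `ℓ`; at `3` it is `Γ₁(27)`.  It is made in `LT3/Main` and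
consumed by `RM/Main`.
-/

set_option autoImplicit false

noncomputable section

open scoped MatrixGroups ModularForm Real
open CongruenceSubgroup UpperHalfPlane

local notation "Γℚ" => (AlgebraicClosure ℚ ≃ₐ[ℚ] AlgebraicClosure ℚ)

namespace Fermat.RM

/-- `(ℤ/E)[X]/(X² - X + 1)` with coordinates on `1, X`. -/
abbrev QR (E : ℕ) := ZMod E × ZMod E

variable {E : ℕ}

/-- Product in `(ℤ/E)[X]/(X² - X + 1)`. -/
def qmul (x y : QR E) : QR E :=
  (x.1 * y.1 - x.2 * y.2, x.1 * y.2 + x.2 * y.1 + x.2 * y.2)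

/-- The norm form. -/
def qnorm (x : QR E) : ZMod E := x.1 ^ 2 + x.1 * x.2 + x.2 ^ 2

/-- The bilinear form of `qnorm`. -/
def qpair (x y : QR E) : ZMod E := qnorm (x + y) - qnorm x - qnorm y

/-- `exp (2 π i a / E)`. -/
def eE (a : ZMod E) : ℂ := Complex.exp (2 * π * Complex.I * (a.val : ℂ) / (E : ℂ))

/-- The group in which the operators of the Weil module live. -/
def topLevel (E₁ : ℕ) : Subgroup SL(2, ℤ) := Gamma1 27 ⊓ Gamma0 E₁

/-- The level of the forms. -/
def lowLevel (E₁ E₂ : ℕ) : Subgroup SL(2, ℤ) := topLevel E₁ ⊓ Gamma E₂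

/-- `γ` reduces to `g` modulo `E`. -/
def ModEqMat (E : ℕ) (γ : SL(2, ℤ)) (g : Matrix (Fin 2) (Fin 2) (ZMod E)) : Prop :=
  ((γ : SL(2, ℤ)) : Matrix (Fin 2) (Fin 2) ℤ).map (fun x : ℤ => (x : ZMod E)) = g

/-- **Weight one data of `ρ`.**  For squarefree `E₁ E₂` prime to three:
a nonzero theta lift from the functions on `QR E₂` to the weight one cusp forms on
`Γ₁(27) ∩ Γ₀(E₁) ∩ Γ(E₂)`, equivariant for the Weil representation and with a cube root of unity
for each norm one unit, on whose values `T_p` acts by the lifted trace of `ρ` at Frobenius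
(for `p ≡ 1` modulo `27 E₁ E₂` with Frobenius in the quaternion group). -/
structure WeightOneData (ρ : Γℚ →* GL (Fin 2) (ZMod 3)) : Type where
  /-- The part of the level which enters through `Γ₀`. -/
  E₁ : ℕ
  /-- The modulus of the quadratic space `QR E₂`. -/
  E₂ : ℕ
  /-- The two factors are squarefree and coprime. -/
  squarefree : Squarefree (E₁ * E₂)
  /-- Their product is prime to three. -/
  not_three : ¬ 3 ∣ E₁ * E₂
  /-- The scalars by which the norm one units act on the theta lift. -/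
  chr : QR E₂ → ℂ
  /-- They are cube roots of unity. -/
  chr_cube : ∀ u, qnorm u = 1 → chr u ^ 3 = 1
  /-- The Weil representation on the functions on `QR E₂`. -/
  weil : topLevel E₁ →* Module.End ℂ (QR E₂ → ℂ)
  /-- The representation is trivial on `Γ(E₂)`. -/
  weil_one : ∀ γ : topLevel E₁, (γ : SL(2, ℤ)) ∈ Gamma E₂ → weil γ = 1
  /-- The constant of the quadratic exponentials by which translations act. -/
  cst : (ZMod E₂)ˣ
  /-- A translation modulo `E₂` acts by a quadratic exponential. -/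
  weil_T : ∀ (γ : topLevel E₁) (b : ZMod E₂), ModEqMat E₂ γ !![1, b; 0, 1] →
    ∀ φ x, weil γ φ x = eE ((cst : ZMod E₂) * b * qnorm x) * φ x
  /-- A diagonal element modulo `E₂` acts by a scaling of the argument. -/
  weil_diag : ∀ (γ : topLevel E₁) (t u : ZMod E₂), ModEqMat E₂ γ !![t, 0; 0, u] →
    ∃ s : (ZMod E₂)ˣ, ∀ φ x, weil γ φ x = φ ((s : ZMod E₂) * x.1, (s : ZMod E₂) * x.2)
  /-- The sign of the Fourier transform by which the inversion acts. -/
  sgn : ℂ
  /-- The sign is a fourth root of unity. -/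
  sgn_pow : sgn ^ 4 = 1
  /-- The inversion modulo `E₂` acts by a signed Fourier transform. -/
  weil_S : ∀ γ : topLevel E₁, ModEqMat E₂ γ !![0, -1; 1, 0] →
    ∃ c : (ZMod E₂)ˣ, ∀ φ x, weil γ φ x =
      sgn / (E₂ : ℂ) * ∑ᶠ y : QR E₂, eE ((c : ZMod E₂) * qpair x y) * φ y
  /-- The theta lift of functions on `QR E₂` to cusp forms of weight one. -/
  theta : (QR E₂ → ℂ) →ₗ[ℂ]
    CuspForm ((lowLevel E₁ E₂).map (Matrix.SpecialLinearGroup.mapGL ℝ)) 1
  /-- The lift intertwines the representation with the slash action. -/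
  theta_equivariant : ∀ (γ : topLevel E₁) (φ : QR E₂ → ℂ),
    ⇑(theta (weil γ φ)) = (⇑(theta φ)) ∣[(1 : ℤ)] ((γ : SL(2, ℤ))⁻¹)
  /-- The lift has character `chr` for the norm one units. -/
  theta_chr : ∀ u, qnorm u = 1 → ∀ φ : QR E₂ → ℂ,
    theta (fun x => φ (qmul u x)) = chr u • theta φ
  /-- The lift is nonzero. -/
  theta_ne_zero : ∃ φ, theta φ ≠ 0
  /-- At `p ≡ 1` with Frobenius in the quaternion group, `T_p` acts by the lifted trace. -/
  hecke : ∀ p : ℕ, p.Prime → (p : ZMod (27 * E₁ * E₂)) = 1 →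
    ∀ A : ValuationSubring (AlgebraicClosure ℚ), A.LiesOverPrime p →
      ∀ σ : Γℚ, A.IsFrobeniusAt σ p → LT.InQ8 (ρ σ) → ∀ (φ : QR E₂ → ℂ) (n : ℕ),
        (qExpansion (E₂ : ℝ) ⇑(theta φ)).coeff (p * n) +
            (if p ∣ n then (qExpansion (E₂ : ℝ) ⇑(theta φ)).coeff (n / p) else 0) =
          (LT.liftTr (ρ σ) : ℂ) * (qExpansion (E₂ : ℝ) ⇑(theta φ)).coeff n

/-- **Existence of weight one data**, for every `ρ` into `GL₂(𝔽₃)` with the properties `LT.RhoData`
and the fields `K ⊆ L` cut out by it (`LT.FieldData`). -/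
def WeightOneDataStatement (K L : Type) [Field K] [NumberField K] [Field L] [NumberField L]
    [Algebra K L] : Prop :=
  ∀ (ρ : Γℚ →* GL (Fin 2) (ZMod 3)) (ι : L →+* AlgebraicClosure ℚ),
    LT.RhoData ρ → LT.FieldData K L ρ ι → Nonempty (WeightOneData ρ)

end Fermat.RM
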