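import Fermat.Agent.RM.QEight
import Fermat.Agent.GR.RT.Residual
import Fermat.Agent.GR.RT.Attach
import Fermat.Agent.SW.Surj

/-!
# The residual representation of a congruent eigen system

An eigen system with the eigenvalues of the lift at the primes `1` modulo the level whose Frobenius
lands in `Q₈` has residual representation `ρ`, or `ρ` twisted by the character of `ℚ(√-3)`.
-/

set_option autoImplicit false
set_option linter.unusedSectionVars false

noncomputable section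

namespace Fermat.RM

open IsLocalRing Matrix
open Fermat.GR Fermat.GR.RT

local notation "ℚbar" => AlgebraicClosure ℚ
local notation "Γℚ" => (AlgebraicClosure ℚ ≃ₐ[ℚ] AlgebraicClosure ℚ)
local notation "M2" R => Matrix (Fin 2) (Fin 2) R
local notation "M23" => Matrix (Fin 2) (Fin 2) (ZMod 3)
local notation "GL23" => GL (Fin 2) (ZMod 3)

/-- `qX` is not an involution. -/
theorem qX_mul_self_ne : qX * qX ≠ 1 := by decide +kernel

/-- `qY` is in `Q₈`. -/
theorem qY_mem : qY ∈ q8List := by decide +kernel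

/-- `4` is not zero modulo three. -/
theorem four_ne_zero_three : (4 : ZMod 3) ≠ 0 := by decide

/-- The units modulo three are `± 1`. -/
theorem units_three : ∀ a : (ZMod 3)ˣ, a = 1 ∨ (a : ZMod 3) = -1 := by decide

variable [Fact (Nat.Prime 3)] (ρ : Γℚ →* GL23) (N : ℕ)

/-- The primes `q ≡ 1` modulo `N` with a place and a Frobenius in `Q₈` (there the weight one form
has the eigenvalues of the lift). -/
def Idx : Type :=
  {q : ℕ × ValuationSubring ℚbar × Γℚ // q.1.Prime ∧ (q.1 : ZMod N) = 1 ∧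
    q.2.1.LiesOverPrime q.1 ∧ q.2.1.IsFrobeniusAt q.2.2 q.1 ∧ LT.InQ8 (ρ q.2.2)}

variable {ρ N}

/-- The prime of a place. -/
def Idx.prime (i : Idx ρ N) : ℕ := i.1.1

/-- The prime of a place is prime. -/
instance Idx.fact_prime (i : Idx ρ N) : Fact i.prime.Prime := ⟨i.2.1⟩

/-- The prime of a place is `1` modulo the level. -/
theorem Idx.cast_prime (i : Idx ρ N) : (i.prime : ZMod N) = 1 := i.2.2.1

/-- The place over the prime. -/
def Idx.place (i : Idx ρ N) : ValuationSubring ℚbar := i.1.2.1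

/-- The Frobenius element at the place. -/
def Idx.frob (i : Idx ρ N) : Γℚ := i.1.2.2

/-- The place lies over the prime. -/
theorem Idx.liesOverPrime (i : Idx ρ N) : i.place.LiesOverPrime i.prime := i.2.2.2.1

/-- The chosen element is a Frobenius at the place. -/
theorem Idx.isFrobeniusAt (i : Idx ρ N) : i.place.IsFrobeniusAt i.frob i.prime := i.2.2.2.2.1

/-- The Frobenius element maps into `Q₈`. -/
theorem Idx.inQ8 (i : Idx ρ N) : LT.InQ8 (ρ i.frob) := i.2.2.2.2.2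

/-- The eigenvalue of the lift. -/
def Idx.tr (i : Idx ρ N) : ℤ := LT.liftTr (ρ i.frob)

/-- The elements fixing the level whose image is in `Q₈`. -/
def smallGroup (ρ : Γℚ →* GL23) (N : ℕ) [NeZero N] : Subgroup Γℚ :=
  (cycK N).ker ⊓ q8Sub.comap ρ

/-- Membership in the small group. -/
theorem mem_smallGroup [NeZero N] {σ : Γℚ} :
    σ ∈ smallGroup ρ N ↔ cycK N σ = 1 ∧ LT.InQ8 (ρ σ) := Iff.rfl

/-- The cyclotomic character modulo `N` has open kernel. -/
theorem isOpen_ker_cycK (N : ℕ) [NeZero N] : IsOpen ((cycK N).ker : Set Γℚ) := by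
  obtain ⟨L, hL, h⟩ := cycK_cont N
  exact Fermat.CFT.isOpen_ker_of_forall _ L h

/-- A commutator is killed by maps to commutative groups. -/
theorem map_commutator_eq_one {G C : Type*} [Group G] [CommGroup C] (f : G →* C) (a b : G) :
    f (a * b * a⁻¹ * b⁻¹) = 1 := by
  simp

/-- A conjugate of an element of a kernel is in the kernel. -/
theorem map_conj_eq_one {G C : Type*} [Group G] [Group C] (f : G →* C) {a c : G} (h : f c = 1) :
    f (a * c * a⁻¹) = 1 := by
  simp [h]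

/-- The small group has elements mapping to `qX` and `qY`. -/
theorem exists_generators [NeZero N] (hs : Function.Surjective ρ) :
    ∃ u ∈ smallGroup ρ N, ∃ v ∈ smallGroup ρ N, (ρ u : M23) = qX ∧ (ρ v : M23) = qY := by
  obtain ⟨a, b, hu, hv⟩ := exists_commutator_lifts ρ hs
  have hc : cycK N (a * b * a⁻¹ * b⁻¹) = 1 := map_commutator_eq_one (cycK N) a b
  have hmem : a * b * a⁻¹ * b⁻¹ ∈ smallGroup ρ N :=
    mem_smallGroup.mpr ⟨hc, (inQ8_iff_mem _).mpr (by rw [hu]; exact qX_mem)⟩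
  set c := a * b * a⁻¹ * b⁻¹ with hcdef
  clear_value c
  have hc' : cycK N (a * c * a⁻¹) = 1 := map_conj_eq_one (cycK N) (a := a) (c := c) hc
  have hq : LT.InQ8 (ρ (a * c * a⁻¹)) := (inQ8_iff_mem _).mpr (by rw [hv]; exact qY_mem)
  exact ⟨c, hmem, a * c * a⁻¹, mem_smallGroup.mpr ⟨hc', hq⟩, hu, hv⟩

/-- **A place for which the lift has trace zero.** -/
theorem exists_idx_tr_zero [NeZero N] (hρ : IsSemistableResidual 3 ρ) :
    ∃ i : Idx ρ N, ((i.tr : ℤ) : ZMod 3) = 0 := by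
  -- `u` has trivial cyclotomic image and maps to `qX`
  obtain ⟨u, hu, -, -, huX, -⟩ := exists_generators (N := N) hρ.surjective
  let f : Γℚ →* GL23 × (ZMod N)ˣ := ρ.prod (cycK N)
  have hf : IsOpen (f.ker : Set Γℚ) :=
    Subgroup.isOpen_mono (H₁ := ρ.ker ⊓ (cycK N).ker)
      (fun σ hσ => MonoidHom.mem_ker.mpr (Prod.ext hσ.1 hσ.2))
      (hρ.isOpen_ker.inter (isOpen_ker_cycK N))
  -- realise it by a Frobenius, up to generating the same subgroup
  obtain ⟨ℓ, hℓ, hT, A, hA, -, φ, hφ, hz⟩ :=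
    Fermat.CFT.exists_frobenius_map_zpowers_eq f hf u N.primeFactors
  have hcop : ℓ.Coprime N := hℓ.coprime_iff_not_dvd.mpr fun h =>
    hT (Nat.mem_primeFactors.mpr ⟨hℓ, h, NeZero.ne N⟩)
  have hφu : f φ ∈ Subgroup.zpowers (f u) := hz ▸ Subgroup.mem_zpowers _
  rw [← mem_powers_iff_mem_zpowers] at hφu
  obtain ⟨j, hj⟩ := hφu
  have hj1 : ρ φ = ρ u ^ j := (congrArg Prod.fst hj).symm
  have hj2 : cycK N φ = 1 := by
    have h2 : cycK N u ^ j = cycK N φ := congrArg Prod.snd hj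
    rw [← h2, (mem_smallGroup.mp hu).1, one_pow]
  have hQ : LT.InQ8 (ρ φ) := mem_q8Sub.mp (hj1 ▸ pow_mem (mem_q8Sub.mpr (mem_smallGroup.mp hu).2) j)
  have hℓ1 : (ℓ : ZMod N) = 1 := by
    rw [← ZMod.coe_unitOfCoprime ℓ hcop, ← cycK_frobenius hℓ hcop hA hφ, hj2, Units.val_one]
  refine ⟨⟨(ℓ, A, φ), hℓ, hℓ1, hA, hφ, hQ⟩, ?_⟩
  change ((LT.liftTr (ρ φ) : ℤ) : ZMod 3) = 0
  rw [liftTr_cast hQ]
  -- odd powers of `qX` have trace `0`; an even one would square to `1`
  refine trace_eq_zero_of_powers j (by rw [hj1, Units.val_pow_eq_pow_val, huX]) fun h1 => ?_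
  have h2 : ρ φ * ρ φ = 1 := Units.ext h1
  have hu' : ρ u ∈ Subgroup.zpowers (ρ φ) := by
    have h3 : f u ∈ Subgroup.zpowers (f φ) := hz.symm ▸ Subgroup.mem_zpowers _
    obtain ⟨z, hz'⟩ := h3
    exact ⟨z, congrArg Prod.fst hz'⟩
  obtain ⟨z, hz'⟩ := hu'
  have h4 : qX * qX = 1 := by
    have h5 : ρ u * ρ u = 1 := by
      rw [← hz', ← _root_.zpow_add, ← two_mul, _root_.zpow_mul, zpow_two, h2, _root_.one_zpow]
    rw [← huX, ← Units.val_mul, h5, Units.val_one]
  exact qX_mul_self_ne h4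

variable {O : Type} [CommRing O] [IsLocalRing O] [Finite (ResidueField O)]

/-- Reduction of a matrix representation. -/
def redRep (r : Γℚ →* M2 O) : Γℚ →* M2 (ResidueField O) := (residue O).mapMatrix.toMonoidHom.comp r

/-- The trace of the reduction is the reduced trace. -/
theorem trace_redRep (r : Γℚ →* M2 O) (σ : Γℚ) : (redRep r σ).trace = residue O (r σ).trace :=
  (AddMonoidHom.map_trace (residue O).toAddMonoidHom _).symm

/-- The determinant of the reduction is the reduced determinant. -/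
theorem det_redRep (r : Γℚ →* M2 O) (σ : Γℚ) : (redRep r σ).det = residue O (r σ).det :=
  (RingHom.map_det (residue O) _).symm

/-- A continuous representation reduces to one with open kernel. -/
theorem isOpen_ker_redRep {r : Γℚ →* M2 O} (hr : MatCont r) :
    IsOpen ((redRep r).toHomUnits.ker : Set Γℚ) := by
  obtain ⟨L, hL, h⟩ := hr 1
  refine Fermat.CFT.isOpen_ker_of_forall _ L fun τ hτ => Units.ext (Matrix.ext fun i j => ?_)
  have h1 := h τ hτ i j
  rw [pow_one, ← residue_eq_zero_iff, Matrix.sub_apply, map_sub, sub_eq_zero] at h1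
  change residue O (r τ i j) = (1 : M2 (ResidueField O)) i j
  rw [h1, Matrix.one_apply, Matrix.one_apply]
  split_ifs <;> simp

variable {K : ℕ} [NeZero K] [NeZero N]

/-- At the full group of units the character of an eigen system is trivial. -/
theorem eVal_eq_one {H : Subgroup (ZMod K)ˣ} {x : MvPolynomial (Nat.Primes ⊕ (ZMod K)ˣ) ℤ →+* O}
    (hH : H = ⊤) (hx : IsPoint K H x) {ℓ : ℕ} (hℓ : ℓ.Coprime K) : eVal x ℓ = 1 := by
  subst hH
  rw [eVal, dif_pos hℓ]
  exact hx.dia_eq_one (Subgroup.mem_top _)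

/-- A representation modulo `3` with values extended along `c`. -/
private def mapRep {k : Type} [CommRing k] (c : ZMod 3 →+* k) (ρ : Γℚ →* GL23) : Γℚ →* M2 k :=
  c.mapMatrix.toMonoidHom.comp ((Units.coeHom M23).comp ρ)

/-- Every element acts in both representations like a power of a Frobenius; in the small group if it
lies there. -/
private theorem exists_frobenius_power (hρ : IsSemistableResidual 3 ρ)
    (hbad : ∀ ℓ : ℕ, ℓ.Prime → ℓ ∣ K * 3 → ℓ ∣ N) {r : Γℚ →* M2 O} (hr : MatCont r) (σ : Γℚ) :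
    ∃ ℓ : ℕ, ℓ.Prime ∧ ¬ ℓ ∣ K * 3 ∧ ℓ.Coprime N ∧ ∃ A : ValuationSubring ℚbar,
      A.LiesOverPrime ℓ ∧ ∃ φ, A.IsFrobeniusAt φ ℓ ∧ ∃ j : ℕ,
        redRep r σ = redRep r φ ^ j ∧ ρ σ = ρ φ ^ j ∧
          (σ ∈ smallGroup ρ N → φ ∈ smallGroup ρ N) := by
  set k := ResidueField O
  let f : Γℚ →* (M2 k)ˣ × GL23 × (ZMod N)ˣ := (redRep r).toHomUnits.prod (ρ.prod (cycK N))
  have hf : IsOpen (f.ker : Set Γℚ) :=
    Subgroup.isOpen_mono (H₁ := (redRep r).toHomUnits.ker ⊓ ρ.ker ⊓ (cycK N).ker)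
      (fun σ hσ => MonoidHom.mem_ker.mpr (Prod.ext hσ.1.1 (Prod.ext hσ.1.2 hσ.2)))
      (((isOpen_ker_redRep hr).inter hρ.isOpen_ker).inter (isOpen_ker_cycK N))
  obtain ⟨ℓ, hℓ, hT, A, hA, -, φ, hφ, hz⟩ :=
    Fermat.CFT.exists_frobenius_map_zpowers_eq f hf σ N.primeFactors
  have hndvd : ¬ ℓ ∣ N := fun h => hT (Nat.mem_primeFactors.mpr ⟨hℓ, h, NeZero.ne N⟩)
  have hσφ : f σ ∈ Subgroup.zpowers (f φ) := hz.symm ▸ Subgroup.mem_zpowers _
  rw [← mem_powers_iff_mem_zpowers] at hσφ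
  obtain ⟨j, hj⟩ := hσφ
  refine ⟨ℓ, hℓ, fun h => hndvd (hbad ℓ hℓ h), hℓ.coprime_iff_not_dvd.mpr hndvd, A, hA, φ, hφ,
    j, ?_, (congrArg (fun u : (M2 k)ˣ × GL23 × (ZMod N)ˣ => u.2.1) hj).symm, fun hσ => ?_⟩
  · exact (congrArg (fun u : (M2 k)ˣ × GL23 × (ZMod N)ˣ => (u.1 : M2 k)) hj).symm.trans
      (Units.val_pow_eq_pow_val _ _)
  · have hφσ : f φ ∈ Subgroup.zpowers (f σ) := hz ▸ Subgroup.mem_zpowers _
    rw [← mem_powers_iff_mem_zpowers] at hφσ
    obtain ⟨i, hi⟩ := hφσ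
    have hi1 : ρ σ ^ i = ρ φ := congrArg (fun u : (M2 k)ˣ × GL23 × (ZMod N)ˣ => u.2.1) hi
    have hi2 : cycK N σ ^ i = cycK N φ :=
      congrArg (fun u : (M2 k)ˣ × GL23 × (ZMod N)ˣ => u.2.2) hi
    exact mem_smallGroup.mpr ⟨by rw [← hi2, (mem_smallGroup.mp hσ).1, one_pow],
      mem_q8Sub.mp (hi1 ▸ pow_mem (mem_q8Sub.mpr (mem_smallGroup.mp hσ).2) i)⟩

/-- At a good Frobenius the determinants agree. -/
private theorem det_redRep_frobenius (hρ : IsSemistableResidual 3 ρ) (c : ZMod 3 →+* ResidueField O)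
    {x : MvPolynomial (Nat.Primes ⊕ (ZMod K)ˣ) ℤ →+* O} (hx : IsPoint K ⊤ x) {r : Γℚ →* M2 O}
    (hr : IsAttached 3 x r) {ℓ : ℕ} (hℓ : ℓ.Prime) (hK : ¬ ℓ ∣ K * 3) {A : ValuationSubring ℚbar}
    (hA : A.LiesOverPrime ℓ) {φ : Γℚ} (hφ : A.IsFrobeniusAt φ ℓ) :
    (redRep r φ).det = c (ρ φ : M23).det := by
  have hℓ3 : ℓ ≠ 3 := fun e => hK (e ▸ dvd_mul_left 3 K)
  rw [det_redRep, (hr.frobenius ℓ hℓ hK A hA φ hφ).2,
    eVal_eq_one rfl hx (hℓ.coprime_iff_not_dvd.mpr fun hd => hK (dvd_mul_of_dvd_left hd _)),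
    mul_one, map_natCast, hρ.det_eq, Fermat.CFT.cycChar_frobenius hℓ hℓ3 hA hφ, map_natCast]

/-- The determinants agree everywhere. -/
private theorem det_redRep_eq (hρ : IsSemistableResidual 3 ρ) (c : ZMod 3 →+* ResidueField O)
    (hbad : ∀ ℓ : ℕ, ℓ.Prime → ℓ ∣ K * 3 → ℓ ∣ N)
    {x : MvPolynomial (Nat.Primes ⊕ (ZMod K)ˣ) ℤ →+* O} (hx : IsPoint K ⊤ x) {r : Γℚ →* M2 O}
    (hr : IsAttached 3 x r) (σ : Γℚ) : (redRep r σ).det = c (ρ σ : M23).det := by
  obtain ⟨ℓ, hℓ, hK, -, A, hA, φ, hφ, j, hj1, hj2, -⟩ :=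
    exists_frobenius_power (N := N) hρ hbad hr.cont σ
  rw [hj1, hj2, Matrix.det_pow, Units.val_pow_eq_pow_val, Matrix.det_pow, map_pow,
    det_redRep_frobenius hρ c hx hr hℓ hK hA hφ]

/-- The traces agree on the small group. -/
private theorem trace_redRep_eq (hρ : IsSemistableResidual 3 ρ) (c : ZMod 3 →+* ResidueField O)
    (hbad : ∀ ℓ : ℕ, ℓ.Prime → ℓ ∣ K * 3 → ℓ ∣ N)
    {x : MvPolynomial (Nat.Primes ⊕ (ZMod K)ˣ) ℤ →+* O} (hx : IsPoint K ⊤ x) {r : Γℚ →* M2 O}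
    (hr : IsAttached 3 x r)
    (htr : ∀ i : Idx ρ N, residue O (tVal x i.prime) = (i.tr : ResidueField O))
    {σ : Γℚ} (hσ : σ ∈ smallGroup ρ N) : (mapRep c ρ σ).trace = (redRep r σ).trace := by
  obtain ⟨ℓ, hℓ, hK, hcop, A, hA, φ, hφ, j, hj1, hj2, hφH⟩ :=
    exists_frobenius_power (N := N) hρ hbad hr.cont σ
  obtain ⟨hφ1, hφ2⟩ := mem_smallGroup.mp (hφH hσ)
  have hℓ1 : (ℓ : ZMod N) = 1 := by
    rw [← ZMod.coe_unitOfCoprime ℓ hcop, ← cycK_frobenius hℓ hcop hA hφ, hφ1, Units.val_one]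
  have h1 := htr ⟨(ℓ, A, φ), hℓ, hℓ1, hA, hφ, hφ2⟩
  have h2 : (redRep r φ).trace = c (ρ φ : M23).trace := by
    rw [trace_redRep, (hr.frobenius ℓ hℓ hK A hA φ hφ).1,
      eVal_eq_one rfl hx (hℓ.coprime_iff_not_dvd.mpr fun hd => hK (dvd_mul_of_dvd_left hd _)),
      mul_one, ← liftTr_cast hφ2, map_intCast]
    exact h1
  rw [hj1, trace_pow_fin_two, h2, det_redRep_frobenius hρ c hx hr hℓ hK hA hφ,
    show mapRep c ρ σ = (ρ σ : M23).map c from rfl, ← map_powTrace, ← trace_pow_fin_two,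
    ← Units.val_pow_eq_pow_val, ← hj2]
  exact (AddMonoidHom.map_trace c.toAddMonoidHom _).symm

section Scalars

variable {k : Type} [Field k] (c : ZMod 3 →+* k)

/-- The image of the small group spans all matrices. -/
private theorem span_mapRep_smallGroup (hs : Function.Surjective ρ) :
    Submodule.span k (Set.range fun σ : smallGroup ρ N => mapRep c ρ σ) = ⊤ := by
  have : CharP k 3 := charP_of_injective_ringHom c.injective 3
  obtain ⟨u, hu, v, hv, huX, hvY⟩ := exists_generators (N := N) hs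
  have hρk : ∀ σ, mapRep c ρ σ = (ρ σ : M23).map c := fun σ => rfl
  refine top_le_iff.mp ((span_qX_qY c).ge.trans (Submodule.span_mono ?_))
  rintro M (rfl | rfl | rfl | rfl)
  · exact ⟨1, map_one (mapRep c ρ)⟩
  · exact ⟨⟨u, hu⟩, by simp [hρk, huX]⟩
  · exact ⟨⟨v, hv⟩, by simp [hρk, hvY]⟩
  · exact ⟨⟨u, hu⟩ * ⟨v, hv⟩, by
      change mapRep c ρ (u * v) = _
      rw [map_mul, hρk, hρk, huX, hvY]⟩

/-- A representation equal to `ρ` on the small group is everywhere a scalar multiple of it. -/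
private theorem exists_smul_eq (hs : Function.Surjective ρ) {r' : Γℚ →* M2 k}
    (hH : ∀ σ ∈ smallGroup ρ N, r' σ = mapRep c ρ σ) (σ : Γℚ) :
    ∃ s : k, r' σ = s • mapRep c ρ σ := by
  set ρk := mapRep c ρ
  set X := ρk σ⁻¹ * r' σ
  have hcomm : ∀ M : M2 k, Commute M X := by
    intro M
    have hM : M ∈ Submodule.span k (Set.range fun g : smallGroup ρ N => ρk g) :=
      span_mapRep_smallGroup (N := N) c hs ▸ Submodule.mem_top
    induction hM using Submodule.span_induction with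
    | mem M hM =>
      obtain ⟨⟨g, hg⟩, rfl⟩ := hM
      have hg' : σ * g * σ⁻¹ ∈ smallGroup ρ N := by
        obtain ⟨h1, h2⟩ := mem_smallGroup.mp hg
        exact mem_smallGroup.mpr ⟨map_conj_eq_one _ h1,
          mem_q8Sub.mp (by rw [map_mul, map_mul, map_inv]
                           exact Subgroup.Normal.conj_mem inferInstance _ (mem_q8Sub.mpr h2) _)⟩
      change ρk g * (ρk σ⁻¹ * r' σ) = ρk σ⁻¹ * r' σ * ρk g
      calc ρk g * (ρk σ⁻¹ * r' σ) = ρk σ⁻¹ * ρk (σ * g * σ⁻¹) * r' σ := by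
            rw [← map_mul, ← mul_assoc, ← map_mul]; congr 2; group
        _ = ρk σ⁻¹ * (r' (σ * g * σ⁻¹) * r' σ) := by rw [hH _ hg', mul_assoc]
        _ = ρk σ⁻¹ * (r' σ * r' g) := by rw [← map_mul, ← map_mul]; congr 2; group
        _ = _ := by rw [hH g hg, mul_assoc]
    | zero => exact Commute.zero_left _
    | add M M' _ _ h h' => exact h.add_left h'
    | smul s M _ h => exact h.smul_left s
  obtain ⟨s, hs'⟩ := Matrix.mem_range_scalar_of_commute_single (M := X) fun i j _ => hcomm _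
  refine ⟨s, ?_⟩
  have e : ρk σ * X = r' σ := by
    rw [← mul_assoc, ← map_mul, mul_inv_cancel, map_one, one_mul]
  rw [← e, ← hs', Matrix.scalar_apply, ← Matrix.smul_one_eq_diagonal, mul_smul_comm, mul_one]

/-- The extension of `ρ` along `c` has nonzero determinants. -/
private theorem det_mapRep_ne_zero (σ : Γℚ) : (mapRep c ρ σ).det ≠ 0 := by
  rw [show mapRep c ρ σ = c.mapMatrix (ρ σ : M23) from rfl, ← RingHom.map_det]
  exact (map_ne_zero c).mpr ((Matrix.isUnit_iff_isUnit_det _).mp (ρ σ).isUnit).ne_zero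

/-- The scalars of a multiple with the same determinants form a sign character. -/
private theorem scalar_isSignHom {r' : Γℚ →* M2 k} {s : Γℚ → k}
    (hs : ∀ σ, r' σ = s σ • mapRep c ρ σ) (hdet : ∀ σ, (r' σ).det = (mapRep c ρ σ).det) :
    (∀ σ, s σ = 1 ∨ s σ = -1) ∧ (∀ σ τ, s (σ * τ) = s σ * s τ) ∧ s 1 = 1 := by
  refine ⟨fun σ => ?_, fun σ τ => ?_, ?_⟩
  · have h1 := hdet σ
    rw [hs, Matrix.det_smul, Fintype.card_fin, mul_left_eq_self₀,
      or_iff_left (det_mapRep_ne_zero c σ)] at h1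
    exact sq_eq_one_iff.mp h1
  · have h1 := hs (σ * τ)
    rw [map_mul, hs σ, hs τ, smul_mul_smul_comm, ← map_mul (mapRep c ρ)] at h1
    refine (smul_left_injective k (fun h => det_mapRep_ne_zero (ρ := ρ) c (σ * τ) ?_) h1).symm
    rw [h, Matrix.det_zero]
  · have h1 := hs 1
    rw [map_one, map_one] at h1
    exact smul_left_injective k (one_ne_zero (α := M2 k)) (h1.symm.trans (one_smul k 1).symm)

include c in
/-- A matrix which is unipotent along with its negative is zero in characteristic three. -/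
private theorem eq_zero_of_unipotent_neg {M : M2 k} (h1 : (-M - 1) * (-M - 1) = 0)
    (h2 : (M - 1) * (M - 1) = 0) : M = 0 := by
  have h4 : (4 : k) • M = (-M - 1) * (-M - 1) - (M - 1) * (M - 1) := by
    ext i j
    fin_cases i <;> fin_cases j <;> simp [Matrix.mul_apply, Fin.sum_univ_two] <;> ring
  rw [h1, h2, sub_zero] at h4
  refine (smul_eq_zero.mp h4).resolve_left ?_
  rw [show (4 : k) = c 4 from (map_ofNat c 4).symm]
  exact (map_ne_zero c).mpr four_ne_zero_three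

/-- A sign character trivial on the kernel of the cyclotomic character at `3` is trivial or is that
character. -/
private theorem sign_eq_one_or_cycChar {s : Γℚ → k} (hs1 : ∀ σ, s σ = 1 ∨ s σ = -1)
    (hsmul : ∀ σ τ, s (σ * τ) = s σ * s τ) (hker : ∀ σ, Fermat.CFT.cycChar 3 σ = 1 → s σ = 1) :
    (∀ σ, s σ = 1) ∨ ∀ σ, s σ = c ((Fermat.CFT.cycChar 3 σ : (ZMod 3)ˣ) : ZMod 3) := by
  refine or_iff_not_imp_left.mpr fun hall => ?_
  push Not at hall
  obtain ⟨σ₁, hσ₁⟩ := hall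
  have hb1 : Fermat.CFT.cycChar 3 σ₁ ≠ 1 := fun h => hσ₁ (hker _ h)
  intro σ
  rcases units_three (Fermat.CFT.cycChar 3 σ) with h | h
  · rw [hker σ h, h, Units.val_one, map_one]
  · have h1 : Fermat.CFT.cycChar 3 (σ₁⁻¹ * σ) = 1 := by
      rw [map_mul, map_inv, inv_mul_eq_one]
      exact Units.ext (((units_three _).resolve_left hb1).trans h.symm)
    rw [h, map_neg, map_one, show σ = σ₁ * (σ₁⁻¹ * σ) from (mul_inv_cancel_left _ _).symm, hsmul,
      hker _ h1, mul_one]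
    exact (hs1 σ₁).resolve_left hσ₁

/-- A sign character trivial on an open subgroup, unramified outside `3`, is trivial on the kernel
of the cyclotomic character at `3`. -/
private theorem sign_eq_one_of_cycChar (h2k : (1 : k) ≠ -1) {s : Γℚ → k}
    (hs1 : ∀ σ, s σ = 1 ∨ s σ = -1) (hsmul : ∀ σ τ, s (σ * τ) = s σ * s τ) (hs_one : s 1 = 1)
    {H : Subgroup Γℚ} (hH : IsOpen (H : Set Γℚ)) (hsH : ∀ σ ∈ H, s σ = 1)
    (hunr : ∀ ℓ : ℕ, ℓ.Prime → ℓ ≠ 3 → ∀ B : ValuationSubring ℚbar, B.LiesOverPrime ℓ →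
      ∀ σ ∈ B.inertiaSubgroupIn ℚ, s σ = 1)
    {σ : Γℚ} (hσ : Fermat.CFT.cycChar 3 σ = 1) : s σ = 1 := by
  classical
  let χ : Γℚ →* ℤˣ :=
    { toFun := fun σ => if s σ = 1 then 1 else -1
      map_one' := if_pos hs_one
      map_mul' := fun σ τ => by
        rcases hs1 σ with a | a <;> rcases hs1 τ with b | b <;>
          simp [hsmul, a, b, h2k.symm] }
  have hχ : ∀ σ, χ σ = 1 ↔ s σ = 1 := fun σ => by
    change (if s σ = 1 then (1 : ℤˣ) else -1) = 1 ↔ _
    split_ifs with h <;> simp [h]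
  refine (hχ σ).mp (Fermat.SW.Surj.eq_one_of_sq χ
    (Subgroup.isOpen_mono (fun τ hτ => MonoidHom.mem_ker.mpr ((hχ τ).mpr (hsH τ hτ))) hH)
    (fun x => by rcases Int.units_eq_one_or x with rfl | rfl <;> simp) (by norm_num)
    (fun ℓ hℓ hℓ3 B hB τ hτ => (hχ τ).mpr (hunr ℓ hℓ hℓ3 B hB τ hτ)) hσ)

end Scalars

/-- Conjugation preserves unipotence. -/
private theorem sub_one_sq_conjHom {k : Type} [CommRing k] (P : (M2 k)ˣ) (f : Γℚ →* M2 k) {σ : Γℚ}
    (h : (f σ - 1) * (f σ - 1) = 0) : (conjHom P f σ - 1) * (conjHom P f σ - 1) = 0 := by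
  have e : conjHom P f σ - 1 = (P : M2 k) * (f σ - 1) * (↑P⁻¹ : M2 k) := by
    rw [mul_sub, sub_mul, mul_one, P.mul_inv]; rfl
  rw [e, mul_assoc ((P : M2 k) * _), ← mul_assoc (↑P⁻¹ : M2 k),
    ← mul_assoc (↑P⁻¹ : M2 k), P.inv_mul, one_mul, ← mul_assoc, mul_assoc (P : M2 k), h,
    mul_zero, zero_mul]

/-- **The residual representation is `ρ` up to the quadratic twist unramified outside `3`.** -/
theorem exists_twist (hρ : IsSemistableResidual 3 ρ) (c : ZMod 3 →+* ResidueField O)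
    (hbad : ∀ ℓ : ℕ, ℓ.Prime → ℓ ∣ K * 3 → ℓ ∣ N)
    {x : MvPolynomial (Nat.Primes ⊕ (ZMod K)ˣ) ℤ →+* O} (hx : IsPoint K ⊤ x) {r : Γℚ →* M2 O}
    (hr : IsAttached 3 x r)
    (htr : ∀ i : Idx ρ N, residue O (tVal x i.prime) = (i.tr : ResidueField O))
    (huni : ∀ ℓ : ℕ, ℓ.Prime → ℓ ≠ 3 → ∀ A : ValuationSubring ℚbar, A.LiesOverPrime ℓ →
      ∀ σ ∈ A.inertiaSubgroupIn ℚ, (r σ - 1) * (r σ - 1) = 0) :
    ∃ P : (M2 (ResidueField O))ˣ,
      (∀ σ, conjHom P (redRep r) σ = (ρ σ : M23).map c) ∨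
      ∀ σ, conjHom P (redRep r) σ = c (ρ σ : M23).det • (ρ σ : M23).map c := by
  classical
  set k := ResidueField O
  have : CharP k 3 := charP_of_injective_ringHom c.injective 3
  set ρk := mapRep c ρ
  have hρk : ∀ σ, ρk σ = (ρ σ : M23).map c := fun σ => rfl
  -- On the small group the traces agree, so a conjugate `r'` of `redRep r` equals `ρ` there.
  obtain ⟨P, hP⟩ := exists_conj_of_trace_eq (ρk.comp (smallGroup ρ N).subtype)
    ((redRep r).comp (smallGroup ρ N).subtype) (span_mapRep_smallGroup c hρ.surjective)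
    fun σ => trace_redRep_eq hρ c hbad hx hr htr σ.2
  set r' := conjHom P (redRep r)
  have hr'H : ∀ σ ∈ smallGroup ρ N, r' σ = ρk σ := fun σ hσ => by
    change (P : M2 k) * redRep r σ * (↑P⁻¹ : M2 k) = ρk σ
    rw [show (P : M2 k) * redRep r σ = ρk σ * (P : M2 k) from hP ⟨σ, hσ⟩, mul_assoc, P.mul_inv,
      mul_one]
  -- Then `r' σ = s σ • ρ σ` for signs `s σ`.
  choose s hs using exists_smul_eq c hρ.surjective hr'H
  obtain ⟨hs1, hsmul, hs_one⟩ := scalar_isSignHom c hs fun σ => by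
    rw [show (r' σ).det = (redRep r σ).det from Matrix.det_units_conj P _,
      det_redRep_eq hρ c hbad hx hr, hρk, ← RingHom.mapMatrix_apply, ← RingHom.map_det]
  have h2k : (1 : k) ≠ -1 := fun e => (Ring.neg_one_ne_one_of_char_ne_two (R := k) (by
    rw [ringChar.eq k 3]; norm_num)) e.symm
  -- `s` is unramified outside `3`, so trivial on the kernel of the cyclotomic character.
  have hker : ∀ σ, Fermat.CFT.cycChar 3 σ = 1 → s σ = 1 := fun σ hσ =>
    sign_eq_one_of_cycChar h2k hs1 hsmul hs_one (H := (redRep r).toHomUnits.ker ⊓ ρ.ker)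
      ((isOpen_ker_redRep hr.cont).inter hρ.isOpen_ker) (fun τ hτ => by
        have h1 : redRep r τ = 1 := congrArg Units.val (MonoidHom.mem_ker.mp hτ.1)
        have h2 := hs τ
        rw [show r' τ = (P : M2 k) * redRep r τ * (↑P⁻¹ : M2 k) from rfl, h1, mul_one, P.mul_inv,
          hρk, show ρ τ = 1 from hτ.2, Units.val_one, Matrix.map_one c (map_zero c)
            (map_one c)] at h2
        exact smul_left_injective k (one_ne_zero (α := M2 k)) (h2.symm.trans (one_smul k 1).symm))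
      (fun ℓ hℓ hℓ3 B hB τ hτ => (hs1 τ).resolve_right fun hm => det_mapRep_ne_zero c (ρ := ρ) τ (by
        have h0 := congrArg (residue O).mapMatrix (huni ℓ hℓ hℓ3 B hB τ hτ)
        rw [map_mul, map_sub, map_one, map_zero] at h0
        have h1 : (r' τ - 1) * (r' τ - 1) = 0 := sub_one_sq_conjHom P (redRep r) h0
        have h2 := congrArg c.mapMatrix (hρ.unipotent ℓ hℓ hℓ3 B hB τ hτ)
        rw [map_mul, map_sub, map_one, map_zero] at h2
        rw [hs, hm, neg_smul, one_smul] at h1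
        rw [eq_zero_of_unipotent_neg c h1 h2, Matrix.det_zero])) hσ
  -- So `s` is `1` or that character, which is `det ρ`.
  refine ⟨P, (sign_eq_one_or_cycChar c hs1 hsmul hker).imp (fun hall σ => ?_) fun hcyc σ => ?_⟩
  · rw [hs, hall, one_smul, hρk]
  · rw [hs, hρ.det_eq, ← hρk, hcyc]

end Fermat.RM
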