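import Fermat.Agent.GR.RatInstances
import Fermat.Agent.LT.Targets

/-!
# The quaternion subgroup of `GL₂(𝔽₃)`

`exists_fieldData` gives the number fields cut out by the preimages of `Q₈` and `SL₂`.
-/

set_option autoImplicit false

noncomputable section

namespace Fermat.RM

open Matrix

local notation "M23" => Matrix (Fin 2) (Fin 2) (ZMod 3)
local notation "GL23" => GL (Fin 2) (ZMod 3)
local notation "ℚbar" => AlgebraicClosure ℚ
local notation "Γℚ" => (AlgebraicClosure ℚ ≃ₐ[ℚ] AlgebraicClosure ℚ)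

/-- The elements of `Q₈`. -/
def q8List : List M23 :=
  [!![1, 0; 0, 1], !![2, 0; 0, 2], !![2, 1; 1, 1], !![1, 2; 2, 2], !![0, 2; 1, 0], !![0, 1; 2, 0],
    !![1, 1; 1, 2], !![2, 2; 2, 1]]

/-- `InQ8` is membership in the list of the eight elements. -/
theorem inQ8_iff_mem (g : GL23) : LT.InQ8 g ↔ (g : M23) ∈ q8List := by
  have key : ∀ a b c d : ZMod 3, ((a * d - b * c = 1 ∧ (a + d = 0 ∨
      (!![a, b; c, d] : M23) = 1 ∨ (!![a, b; c, d] : M23) = -1)) ↔ !![a, b; c, d] ∈ q8List) := by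
    decide +kernel
  have h := key ((g : M23) 0 0) ((g : M23) 0 1) ((g : M23) 1 0) ((g : M23) 1 1)
  rw [← Matrix.eta_fin_two (g : M23)] at h
  rw [LT.InQ8, Matrix.det_fin_two, Matrix.trace_fin_two]
  exact h

/-- The list is closed under products. -/
theorem mul_mem_q8List : ∀ a ∈ q8List, ∀ b ∈ q8List, a * b ∈ q8List := by
  decide +kernel

/-- The list is closed under inverses. -/
theorem exists_inv_q8List : ∀ a ∈ q8List, ∃ b ∈ q8List, a * b = 1 := by
  decide +kernel

/-- `Q₈` as a subgroup. -/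
def q8Sub : Subgroup GL23 where
  carrier := {g | LT.InQ8 g}
  one_mem' := ⟨by simp, Or.inr (Or.inl rfl)⟩
  mul_mem' {a b} ha hb := by
    simp only [Set.mem_ofPred_eq, inQ8_iff_mem] at ha hb ⊢
    exact mul_mem_q8List _ ha _ hb
  inv_mem' {a} ha := by
    simp only [Set.mem_ofPred_eq, inQ8_iff_mem] at ha ⊢
    obtain ⟨b, hb, hab⟩ := exists_inv_q8List _ ha
    rw [Matrix.coe_units_inv, Matrix.inv_eq_right_inv hab]
    exact hb

/-- Membership in the subgroup `Q₈`. -/
theorem mem_q8Sub {g : GL23} : g ∈ q8Sub ↔ LT.InQ8 g := Iff.rfl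

/-- `Q₈` is normal. -/
instance : q8Sub.Normal := ⟨fun h hh g => by
  rw [mem_q8Sub, LT.InQ8] at hh ⊢
  refine ⟨?_, ?_⟩
  · rw [Units.val_mul, Units.val_mul, Matrix.det_units_conj, hh.1]
  · rcases hh.2 with h0 | h1 | h1
    · exact Or.inl (by rw [Units.val_mul, Units.val_mul, Matrix.trace_units_conj, h0])
    · exact Or.inr (Or.inl (by
        rw [Units.val_mul, Units.val_mul, h1, mul_one, Units.mul_inv]))
    · exact Or.inr (Or.inr (by
        rw [Units.val_mul, Units.val_mul, h1, mul_neg, mul_one, neg_mul, Units.mul_inv]))⟩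

/-- The lifted trace reduces to the trace. -/
theorem liftTr_cast {g : GL23} (h : LT.InQ8 g) : ((LT.liftTr g : ℤ) : ZMod 3) =
    (g : M23).trace := by
  have key : ∀ a ∈ q8List, (((if a = 1 then 2 else if a = -1 then -2 else if a.trace = 1 then 1
      else if a.trace = 2 then -1 else 0 : ℤ)) : ZMod 3) = a.trace := by decide +kernel
  exact key _ ((inQ8_iff_mem g).mp h)

/-- Elements of `Q₈` have determinant one. -/
theorem det_eq_one_of_inQ8 {g : GL23} (h : LT.InQ8 g) : (g : M23).det = 1 := h.1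

/-- An element of order four, a commutator. -/
def qX : M23 := !![2, 1; 1, 1]

/-- Another element of order four, a conjugate of `qX`. -/
def qY : M23 := !![0, 2; 1, 0]

/-- `qX` is in `Q₈`. -/
theorem qX_mem : qX ∈ q8List := by decide +kernel

/-- A power of `qX` that is not an involution or trivial has trace zero. -/
theorem trace_eq_zero_of_powers {a : M23} (n : ℕ) (h : a = qX ^ n) (hne : ¬ a * a = 1) :
    a.trace = 0 := by
  have h4 : qX ^ 4 = 1 := by decide +kernel
  rw [← Nat.div_add_mod n 4, pow_add, pow_mul, h4, one_pow, one_mul] at h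
  subst h
  have key : ∀ i < 4, ¬ qX ^ i * qX ^ i = 1 → (qX ^ i).trace = 0 := by decide +kernel
  exact key _ (Nat.mod_lt _ (by norm_num)) hne

/-- Under a surjection to `GL₂(𝔽₃)` a commutator maps to `qX` and a conjugate of it to `qY`. -/
theorem exists_commutator_lifts {G : Type*} [Group G] (ρ : G →* GL23)
    (hs : Function.Surjective ρ) :
    ∃ a b : G, (ρ (a * b * a⁻¹ * b⁻¹) : M23) = qX ∧
      (ρ (a * (a * b * a⁻¹ * b⁻¹) * a⁻¹) : M23) = qY := by
  let x : GL23 := ⟨!![1, 1; 0, 1], !![1, 2; 0, 1], by decide +kernel, by decide +kernel⟩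
  let y : GL23 := ⟨!![0, 2; 1, 0], !![0, 1; 2, 0], by decide +kernel, by decide +kernel⟩
  obtain ⟨a, ha⟩ := hs x
  obtain ⟨b, hb⟩ := hs y
  refine ⟨a, b, ?_, ?_⟩
  · simp only [map_mul, map_inv, ha, hb, Units.val_mul]
    decide +kernel
  · simp only [map_mul, map_inv, ha, hb, Units.val_mul]
    decide +kernel

/-- Elements of order eight have nonzero trace and determinant `-1`. -/
theorem trace_det_of_orderOf_eight {g : GL23} (h : orderOf g = 8) :
    (g : M23).trace ≠ 0 ∧ (g : M23).det = -1 := by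
  have h4 : ¬ g ^ 4 = 1 := pow_ne_one_of_lt_orderOf (by norm_num) (by rw [h]; norm_num)
  have h8 : g ^ 8 = 1 := h ▸ pow_orderOf_eq_one g
  rw [Units.ext_iff, Units.val_pow_eq_pow_val, Units.val_one] at h4 h8
  have key : ∀ a b c d : ZMod 3, let A : M23 := !![a, b; c, d]
      ¬ A ^ 4 = 1 → A ^ 8 = 1 → a + d ≠ 0 ∧ a * d - b * c = -1 := by decide +kernel
  have h1 := key ((g : M23) 0 0) ((g : M23) 0 1) ((g : M23) 1 0) ((g : M23) 1 1)
  rw [← Matrix.eta_fin_two (g : M23)] at h1
  rw [Matrix.det_fin_two, Matrix.trace_fin_two]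
  exact h1 h4 h8

/-- `1`, `X`, `Y` and `X Y` span the matrices. -/
theorem span_qX_qY {k : Type*} [Field k] (c : ZMod 3 →+* k) :
    Submodule.span k
      ({1, qX.map c, qY.map c, qX.map c * qY.map c} : Set (Matrix (Fin 2) (Fin 2) k)) = ⊤ := by
  rw [eq_top_iff]
  intro M _
  have h3 : (3 : k) = 0 := (map_ofNat c 3).symm.trans ((congrArg c (by decide)).trans (map_zero c))
  have e : M = (2 * M 0 0 + 2 * M 1 1) • (1 : Matrix (Fin 2) (Fin 2) k) +
      (2 * M 0 0 + M 1 1 + M 0 1 + M 1 0) • qX.map c + (M 0 1 - M 1 0) • qY.map c +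
      (M 0 0 + 2 * M 1 1 + M 0 1 + M 1 0) • (qX.map c * qY.map c) := by
    ext i j
    fin_cases i <;> fin_cases j <;>
      simp [qX, qY, Matrix.mul_apply, Fin.sum_univ_two, map_ofNat]
    · linear_combination -(2 * M 0 0 + 2 * M 1 1 + M 0 1 + M 1 0) * h3
    · linear_combination -(2 * M 0 0 + 3 * M 1 1 + 2 * M 0 1 + M 1 0) * h3
    · linear_combination -(M 0 0 + M 1 1 + M 0 1) * h3
    · linear_combination -(2 * M 0 0 + 2 * M 1 1 + M 0 1 + M 1 0) * h3
  rw [e]
  refine add_mem (add_mem (add_mem ?_ ?_) ?_) ?_ <;>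
    exact Submodule.smul_mem _ _ (Submodule.subset_span (by simp))

/-- The number fields cut out by `ρ`: `L`, fixed by the preimage of `Q₈`, over `K`, fixed by that
of `SL₂`. -/
theorem exists_fieldData {ρ : Γℚ →* GL23} (hρ : IsOpen (ρ.ker : Set Γℚ)) :
    ∃ (K L : IntermediateField ℚ ℚbar) (_ : NumberField K) (_ : NumberField L) (_ : Algebra K L),
      LT.FieldData K L ρ L.val.toRingHom := by
  let dt : Γℚ →* (ZMod 3)ˣ := Matrix.GeneralLinearGroup.det.comp ρ
  have hopenQ : IsOpen ((q8Sub.comap ρ : Subgroup Γℚ) : Set Γℚ) :=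
    Subgroup.isOpen_mono (fun σ hσ => by
      rw [Subgroup.mem_comap, MonoidHom.mem_ker.mp hσ]; exact one_mem _) hρ
  have hopenS : IsOpen ((dt.ker : Subgroup Γℚ) : Set Γℚ) :=
    Subgroup.isOpen_mono (fun σ hσ => by
      rw [MonoidHom.mem_ker, MonoidHom.comp_apply, MonoidHom.mem_ker.mp hσ, map_one]) hρ
  -- the fields cut out by the preimage of `Q₈` and by the determinant
  set L : IntermediateField ℚ ℚbar := IntermediateField.fixedField (q8Sub.comap ρ)
  set K : IntermediateField ℚ ℚbar := IntermediateField.fixedField dt.ker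
  have hLf : L.fixingSubgroup = q8Sub.comap ρ := InfiniteGalois.fixingSubgroup_fixedField
    (⟨q8Sub.comap ρ, Subgroup.isClosed_of_isOpen _ hopenQ⟩ : ClosedSubgroup Γℚ)
  have hKf : K.fixingSubgroup = dt.ker := InfiniteGalois.fixingSubgroup_fixedField
    (⟨dt.ker, Subgroup.isClosed_of_isOpen _ hopenS⟩ : ClosedSubgroup Γℚ)
  have : FiniteDimensional ℚ L := (InfiniteGalois.isOpen_iff_finite L).mp (by
    change IsOpen (L.fixingSubgroup : Set Γℚ); rw [hLf]; exact hopenQ)
  have : FiniteDimensional ℚ K := (InfiniteGalois.isOpen_iff_finite K).mp (by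
    change IsOpen (K.fixingSubgroup : Set Γℚ); rw [hKf]; exact hopenS)
  have : NumberField L := @NumberField.mk _ _ inferInstance inferInstance
  have : NumberField K := @NumberField.mk _ _ inferInstance inferInstance
  -- `K ≤ L` as `Q₈` has determinant `1`
  have hKL : K ≤ L := fun a ha => by
    rw [IntermediateField.mem_fixedField_iff] at ha ⊢
    exact fun σ hσ => ha σ (MonoidHom.mem_ker.mpr (Units.ext
      (det_eq_one_of_inQ8 (mem_q8Sub.mp hσ))))
  let : Algebra K L := (IntermediateField.inclusion hKL).toRingHom.toAlgebra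
  refine ⟨K, L, inferInstance, inferInstance, inferInstance, fun σ => ?_, fun σ => ?_⟩
  · have h1 : σ ∈ L.fixingSubgroup ↔ LT.InQ8 (ρ σ) := by rw [hLf]; exact Iff.rfl
    rw [← h1, IntermediateField.mem_fixingSubgroup_iff]
    exact ⟨fun h a ha => h ⟨a, ha⟩, fun h a => h a a.2⟩
  · have h1 : σ ∈ K.fixingSubgroup ↔ Matrix.GeneralLinearGroup.det (ρ σ) = 1 := by
      rw [hKf]; exact Iff.rfl
    rw [← h1, IntermediateField.mem_fixingSubgroup_iff]
    exact ⟨fun h a ha => h ⟨a, ha⟩, fun h a => h a a.2⟩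

end Fermat.RM
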