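import Fermat.Agent.JAC.XH.HeckeS2

/-!
# The coefficient functionals of `S₂(Γ_H(N))` lie in a finitely generated lattice

The main result is `exists_fg_qCoeff`.
-/

set_option autoImplicit false

noncomputable section

open scoped MatrixGroups
open Fermat.MC.Lvl ModularFormClass
open Fermat.MC (BddPer)

namespace Fermat.RM

open Fermat.JAC.XH

variable {N : ℕ} [NeZero N] {H : Subgroup (ZMod N)ˣ} [NegMem H]

/-- The coefficients are additive on periodic functions bounded at `∞`. -/
theorem qCoeff_add {f g : UpperHalfPlane → ℂ} (hf : BddPer f) (hg : BddPer g) (n : ℕ) :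
    qCoeff (f + g) n = qCoeff f n + qCoeff g n := by
  simp [qCoeff, UpperHalfPlane.qExpansion_add hf.analyticAt hg.analyticAt]

/-- A coefficient as a functional. -/
def cfH (n : ℕ) : CuspForm (GammaH N H) 2 →ₗ[ℂ] ℂ where
  toFun f := qCoeff ⇑f n
  map_add' f g := by
    rw [FunLike.coe_add, qCoeff_add (bddPer_cuspForm f) (bddPer_cuspForm g)]
  map_smul' c f := by
    rw [RingHom.id_apply, smul_eq_mul, show ⇑(c • f) = c • ⇑f from rfl]
    simp [qCoeff, UpperHalfPlane.qExpansion_smul (bddPer_cuspForm f).analyticAt]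

omit [NegMem H] in
/-- The functional `cfH n` takes the `n`-th coefficient. -/
theorem cfH_apply (n : ℕ) (f : CuspForm (GammaH N H) 2) : cfH n f = qCoeff ⇑f n := rfl

/-- The recursion of the coefficients at a prime dividing the level. -/
theorem qCoeff_prime_mul_of_dvd {ℓ : ℕ} [hℓ : Fact ℓ.Prime] (h : ℓ ∣ N)
    (f : CuspForm (GammaH N H) 2) (n : ℕ) :
    qCoeff ⇑f (ℓ * n) = qCoeff ⇑(HM.formHecke N H ℓ f) n := by
  obtain ⟨hd, hper, hb⟩ := bddPer_cuspForm f
  rw [coe_formHecke_of_dvd N H h f, UpperHalfPlane.qCoeff_heckeU (f := ⇑f)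
    (by exact_mod_cast hper) hd hb 2 hℓ.out.ne_zero n, ModularForm.coeffHeckeU_apply, mul_comm]

/-- The recursion of the coefficients at a prime not dividing the level. -/
theorem qCoeff_prime_mul {ℓ : ℕ} [hℓ : Fact ℓ.Prime] (h : ¬ ℓ ∣ N)
    (f : CuspForm (GammaH N H) 2) (n : ℕ) :
    qCoeff ⇑f (ℓ * n) = qCoeff ⇑(HM.formHecke N H ℓ f) n -
      if ℓ ∣ n then (ℓ : ℂ) * qCoeff ⇑(HM.formDia N H (unitOf N hℓ.out h)⁻¹ f) (n / ℓ) else 0 := by
  have h0 := hℓ.out.ne_zero
  obtain ⟨hd, hper, hb⟩ := bddPer_cuspForm f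
  have hU := UpperHalfPlane.qCoeff_heckeU (f := ⇑f) (by exact_mod_cast hper) hd hb 2 h0 n
  obtain ⟨hd', hper', hb'⟩ := bddPer_cuspForm (HM.formDia N H (unitOf N hℓ.out h)⁻¹ f)
  have hU' := UpperHalfPlane.qCoeff_heckeU
    (f := ⇑(HM.formDia N H (unitOf N hℓ.out h)⁻¹ f)) (by exact_mod_cast hper') hd' hb' 2 h0 n
  have hT' := UpperHalfPlane.qCoeff_heckeT
    (f := ⇑(HM.formDia N H (unitOf N hℓ.out h)⁻¹ f)) (by exact_mod_cast hper') hd' hb' 2 h0 n
  have e := congrArg (fun s => qCoeff s n) (coe_formHecke_of_not_dvd N H h f)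
  simp only [qCoeff_add (bddPer_cuspForm _) (bddPer_heckeU (bddPer_cuspForm _) ℓ),
    qCoeff_add (bddPer_heckeU (bddPer_cuspForm f) ℓ)
      (bddPer_heckeT (bddPer_cuspForm (HM.formDia N H (unitOf N hℓ.out h)⁻¹ f)) ℓ),
    hU, hU', hT', ModularForm.coeffHeckeU_apply, ModularForm.coeffHeckeT_apply] at e
  rw [mul_comm ℓ n]
  split_ifs with hh
  · rw [if_pos hh] at e
    norm_num at e
    linear_combination -e
  · rw [if_neg hh] at e
    linear_combination -e

/-- The functionals `a₁ ∘ T`. -/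
def heckeFun : MvPolynomial (Nat.Primes ⊕ (ZMod N)ˣ) ℤ →ₗ[ℤ] (CuspForm (GammaH N H) 2 →ₗ[ℂ] ℂ) where
  toFun P := (cfH 1).comp (HM.formAct N H P)
  map_add' P Q := by rw [map_add, LinearMap.comp_add]
  map_smul' c P := by
    rw [map_smul, RingHom.id_apply]
    exact LinearMap.ext fun f => by simp

omit [NegMem H] in
/-- Composing `a₁ ∘ P` with an operator `Q` gives `a₁ ∘ (P Q)`. -/
theorem heckeFun_comp (P Q : MvPolynomial (Nat.Primes ⊕ (ZMod N)ˣ) ℤ) :
    (heckeFun (H := H) P).comp (HM.formAct N H Q) = heckeFun (P * Q) := by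
  change ((cfH 1).comp _).comp _ = (cfH 1).comp _
  rw [map_mul, LinearMap.comp_assoc]
  rfl

/-- **The coefficient functionals lie in a finitely generated lattice.** -/
theorem exists_fg_qCoeff : ∃ M : Submodule ℤ (CuspForm (GammaH N H) 2 →ₗ[ℂ] ℂ), M.FG ∧
    ∀ n, cfH n ∈ M := by
  classical
  obtain ⟨s, hs⟩ := (Module.Finite.fg_top : (⊤ : Submodule ℤ (heckeGens N H).R).FG)
  choose pre hpre using ringEval_surjective N H
  refine ⟨LinearMap.range (heckeFun (H := H)), ⟨(s.image fun t => heckeFun (pre t)), ?_⟩, ?_⟩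
  · refine le_antisymm (Submodule.span_le.mpr fun L hL => ?_) ?_
    · obtain ⟨t, -, rfl⟩ := Finset.mem_image.mp hL
      exact ⟨_, rfl⟩
    · rintro _ ⟨P, rfl⟩
      obtain ⟨c, hc⟩ := Submodule.mem_span_finset.mp
        (show ringEval N H P ∈ Submodule.span ℤ (s : Set (heckeGens N H).R) by rw [hs]; trivial)
      have hker : HM.formAct N H (P - ∑ t ∈ s, c t • pre t) = 0 := by
        refine (ringEval_eq_zero_iff N H _).mp ?_
        rw [map_sub, map_sum, sub_eq_zero, ← hc.2]
        exact Finset.sum_congr rfl fun t _ => by rw [map_zsmul, hpre]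
      have h1 : heckeFun (H := H) P = ∑ t ∈ s, c t • heckeFun (pre t) := by
        rw [← sub_eq_zero]
        have h2 : heckeFun (H := H) (P - ∑ t ∈ s, c t • pre t) = 0 := by
          change (cfH 1).comp _ = _
          rw [hker, LinearMap.comp_zero]
        rwa [map_sub, map_sum, Finset.sum_congr rfl fun t _ => map_zsmul _ (c t) (pre t)] at h2
      rw [h1]
      exact Submodule.sum_mem _ fun t ht => Submodule.smul_mem _ _
        (Submodule.subset_span (Finset.mem_coe.mpr (Finset.mem_image_of_mem _ ht)))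
  · intro n
    induction n using Nat.strong_induction_on with
    | _ n ih =>
      rcases lt_or_ge n 2 with hn | hn
      · interval_cases n
        · refine ⟨0, ?_⟩
          rw [map_zero]
          refine LinearMap.ext fun f => ?_
          rw [LinearMap.zero_apply, cfH_apply, qCoeff,
            CuspFormClass.qExpansion_coeff_zero f one_pos one_mem_strictPeriods]
        · exact ⟨1, by change (cfH 1).comp _ = _; rw [map_one]; rfl⟩
      · obtain ⟨ℓ, hℓ, m, rfl⟩ : ∃ ℓ : ℕ, ℓ.Prime ∧ ∃ m, n = ℓ * m := by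
          obtain ⟨ℓ, hℓ, m, hm⟩ := Nat.exists_prime_and_dvd (show n ≠ 1 by omega)
          exact ⟨ℓ, hℓ, m, hm⟩
        have : Fact ℓ.Prime := ⟨hℓ⟩
        have hm : m < ℓ * m := by
          have h1 := hℓ.two_le
          rcases Nat.eq_zero_or_pos m with rfl | hm
          · simp at hn
          · nlinarith
        obtain ⟨P, hP⟩ := ih m hm
        -- the diamond in the recursion does not depend on the form
        by_cases hc : ¬ ℓ ∣ N ∧ ℓ ∣ m
        · obtain ⟨Q, hQ⟩ := ih (m / ℓ) (lt_of_le_of_lt (Nat.div_le_self m ℓ) hm)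
          refine ⟨P * MvPolynomial.X (Sum.inl ⟨ℓ, hℓ⟩) - (ℓ : ℤ) •
            (Q * MvPolynomial.X (Sum.inr (unitOf N hℓ hc.1)⁻¹)), ?_⟩
          rw [map_sub, map_zsmul, ← heckeFun_comp, ← heckeFun_comp, hP, hQ, HM.formAct_X,
            HM.formAct_X]
          refine LinearMap.ext fun f => ?_
          simp only [LinearMap.sub_apply, LinearMap.comp_apply, LinearMap.smul_apply, zsmul_eq_mul,
            Int.cast_natCast, cfH_apply, HM.formOp]
          rw [qCoeff_prime_mul hc.1 f m, if_pos hc.2]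
        · refine ⟨P * MvPolynomial.X (Sum.inl ⟨ℓ, hℓ⟩), ?_⟩
          rw [← heckeFun_comp, hP, HM.formAct_X]
          refine LinearMap.ext fun f => ?_
          change qCoeff ⇑(HM.formHecke N H ℓ f) m = qCoeff ⇑f (ℓ * m)
          by_cases hN : ℓ ∣ N
          · rw [qCoeff_prime_mul_of_dvd hN]
          · rw [qCoeff_prime_mul hN, if_neg fun h => hc ⟨hN, h⟩, sub_zero]

end Fermat.RM
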