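import Fermat.Agent.HM.FormSymbol
import Fermat.Agent.HM.PeriodSpan

/-!
# Periods of cusp forms of weight two at the levels containing a `Γ(M)`

The periods are `perMap`, which determine the form by `eq_zero_of_perMap_eq_zero`.
-/

set_option autoImplicit false

noncomputable section

namespace Fermat.RM

open scoped MatrixGroups ModularForm Manifold Topology
open UpperHalfPlane Filter CongruenceSubgroup Fermat.MF Fermat.HM

variable {Γ : Subgroup SL(2, ℤ)} [Γ.FiniteIndex] {M : ℕ} [NeZero M]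

/-- Every translate of a form has a primitive of period `M` tending to `0` at `∞`. -/
theorem exists_prim_slash (hM : Gamma M ≤ Γ) (f : CuspForm Γ 2) (δ : SL(2, ℤ)) :
    ∃ K : ℍ → ℂ, HasPrim (⇑f ∣[(2 : ℤ)] δ) K ∧
      (∀ z : ℍ, K ((M : ℝ) +ᵥ z) = K z) ∧ Tendsto K atImInfty (𝓝 0) :=
  exists_periodic_prim (Nat.cast_pos.mpr (NeZero.pos M)) (slash_periodic_of_le hM f δ)
    (by rw [ModularForm.SL_slash]; exact MDifferentiable.slash (CuspFormClass.holo f) _ _)
    (CuspFormClass.zero_at_infty_slash f δ)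

/-- A form has a primitive. -/
theorem exists_prim_of_le (hM : Gamma M ≤ Γ) (f : CuspForm Γ 2) : ∃ K, HasPrim f K := by
  obtain ⟨K, h, -, -⟩ := exists_prim_slash hM f 1
  rw [SlashAction.slash_one] at h
  exact ⟨K, h⟩

/-- A primitive of a cusp form. -/
def primOf (hM : Gamma M ≤ Γ) (f : CuspForm Γ 2) : ℍ → ℂ := (exists_prim_of_le hM f).choose

/-- `primOf` is a primitive. -/
theorem hasPrim_primOf (hM : Gamma M ≤ Γ) (f : CuspForm Γ 2) : HasPrim f (primOf hM f) :=
  (exists_prim_of_le hM f).choose_spec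

omit [Γ.FiniteIndex] in
/-- A primitive changes by a constant under an element of the level. -/
theorem prim_smul_const {f : CuspForm Γ 2} {K : ℍ → ℂ} (hK : HasPrim f K) {γ : SL(2, ℤ)}
    (hγ : γ ∈ Γ) (z w : ℍ) : K (γ • z) - K z = K (γ • w) - K w := by
  have h := hK.slash γ
  rw [slash_of_mem f hγ] at h
  obtain ⟨c, hc⟩ := hK.exists_eq_add h
  rw [hc, hc]
  ring

/-- The periods of a form, as a homomorphism. -/
def perHom (hM : Gamma M ≤ Γ) (f : CuspForm Γ 2) : Homs ℂ Γ :=
  AddMonoidHom.mk' (fun γ => primOf hM f (((Additive.toMul γ : Γ) : SL(2, ℤ)) • UpperHalfPlane.I)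
    - primOf hM f UpperHalfPlane.I) fun γ δ => by
    rw [toMul_add, Subgroup.coe_mul, mul_smul]
    have h := prim_smul_const (hasPrim_primOf hM f) (Additive.toMul γ).2
      (((Additive.toMul δ : Γ) : SL(2, ℤ)) • UpperHalfPlane.I) UpperHalfPlane.I
    linear_combination h

/-- Any primitive changes by the period under an element of the level. -/
theorem prim_smul_eq (hM : Gamma M ≤ Γ) {f : CuspForm Γ 2} {K : ℍ → ℂ} (hK : HasPrim f K) (γ : Γ)
    (z : ℍ) : K ((γ : SL(2, ℤ)) • z) = K z + perHom hM f (Additive.ofMul γ) := by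
  obtain ⟨c, hc⟩ := (hasPrim_primOf hM f).exists_eq_add hK
  change _ = _ + (primOf hM f ((γ : SL(2, ℤ)) • UpperHalfPlane.I) - primOf hM f UpperHalfPlane.I)
  have h := prim_smul_const (hasPrim_primOf hM f) γ.2 z UpperHalfPlane.I
  rw [hc, hc]
  linear_combination h

/-- Any primitive computes the periods. -/
theorem perHom_eq (hM : Gamma M ≤ Γ) {f : CuspForm Γ 2} {K : ℍ → ℂ} (hK : HasPrim f K) (γ : Γ) :
    perHom hM f (Additive.ofMul γ) =
      K ((γ : SL(2, ℤ)) • UpperHalfPlane.I) - K UpperHalfPlane.I := by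
  rw [prim_smul_eq hM hK γ UpperHalfPlane.I, add_sub_cancel_left]

/-- The periods, linearly. -/
def perMap (hM : Gamma M ≤ Γ) : CuspForm Γ 2 →ₗ[ℂ] Homs ℂ Γ where
  toFun := perHom hM
  map_add' f g := by
    refine AddMonoidHom.ext fun γ => ?_
    obtain ⟨γ, rfl⟩ := Additive.ofMul.surjective γ
    rw [AddMonoidHom.add_apply, perHom_eq hM (f := f + g) (K := primOf hM f + primOf hM g)
      (by rw [FunLike.coe_add]; exact (hasPrim_primOf hM f).add (hasPrim_primOf hM g)),
      perHom_eq hM (hasPrim_primOf hM f), perHom_eq hM (hasPrim_primOf hM g)]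
    simp only [Pi.add_apply]
    ring
  map_smul' r f := by
    refine AddMonoidHom.ext fun γ => ?_
    obtain ⟨γ, rfl⟩ := Additive.ofMul.surjective γ
    change _ = r * perHom hM f _
    rw [perHom_eq hM (f := r • f) (K := r • primOf hM f)
      (by rw [show ⇑(r • f) = r • ⇑f from rfl]; exact (hasPrim_primOf hM f).const_smul r),
      perHom_eq hM (hasPrim_primOf hM f)]
    simp only [Pi.smul_apply, smul_eq_mul]
    ring

/-- The linear map of periods is `perHom`. -/
theorem perMap_apply (hM : Gamma M ≤ Γ) (f : CuspForm Γ 2) : perMap hM f = perHom hM f := rfl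

/-- **Equivariance of the periods.** Taking periods commutes with the operators of a system of
representatives. -/
theorem perMap_formMap (hM : Gamma M ≤ Γ) {ι : Type} [Fintype ι] (P : Reps Γ Γ ι)
    (f : CuspForm Γ 2) : perMap hM (formMap P f) = P.homMap (perMap hM f) := by
  refine AddMonoidHom.ext fun γ => ?_
  obtain ⟨γ, rfl⟩ := Additive.ofMul.surjective γ
  set K := primOf hM f
  have hK : HasPrim ⇑(formMap P f) (fun z => ∑ i, K (toReal (P.B i) • z)) := fun τ => by
    rw [coe_formMap, Finset.sum_apply]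
    exact HasDerivAt.fun_sum (u := (Finset.univ : Finset ι)) fun i _ =>
      HasPrim.slash_toReal (hasPrim_primOf hM f) (P.det_B i) τ
  rw [perMap_apply, perHom_eq hM hK, Reps.homMap_apply, perMap_apply]
  set z := UpperHalfPlane.I
  have hterm : ∀ i, K (toReal (P.B i) • ((γ : SL(2, ℤ)) • z))
      = K (toReal (P.B (P.perm γ i)) • z) + perHom hM f (Additive.ofMul (P.elt γ i)) := fun i => by
    have e : toReal (P.B i) * (((γ : SL(2, ℤ))) : GL (Fin 2) ℝ)
        = ((P.elt γ i : SL(2, ℤ)) : GL (Fin 2) ℝ) * toReal (P.B (P.perm γ i)) := by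
      rw [← toReal_gq, ← toReal_gq, ← map_mul, ← map_mul]
      exact congrArg toReal (P.mul_gq γ i)
    change K (toReal (P.B i) • ((((γ : SL(2, ℤ))) : GL (Fin 2) ℝ) • z)) = _
    rw [← mul_smul, e, mul_smul]
    exact prim_smul_eq hM (hasPrim_primOf hM f) _ _
  change (∑ i, K (toReal (P.B i) • ((γ : SL(2, ℤ)) • z))) - ∑ i, K (toReal (P.B i) • z) = _
  rw [Finset.sum_congr rfl fun i _ => hterm i, Finset.sum_add_distrib,
    Fintype.sum_bijective _ (P.perm_bijective γ) (fun i => K (toReal (P.B (P.perm γ i)) • z))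
      (fun i => K (toReal (P.B i) • z)) fun _ => rfl, add_sub_cancel_left]

/-- **The periods determine the form.** A cusp form of weight two with zero periods is zero. -/
theorem eq_zero_of_perMap_eq_zero (hM : Gamma M ≤ Γ) {f : CuspForm Γ 2}
    (h : perMap hM f = 0) : f = 0 := by
  obtain ⟨K, hK⟩ : ∃ K, HasPrim (⇑f) K := ⟨_, hasPrim_primOf hM f⟩
  have hs : ∀ δ : SL(2, ℤ), (∀ z : ℍ, K (δ • ((M : ℝ) +ᵥ z)) = K (δ • z)) ∧
      IsBoundedAtImInfty fun w : ℍ => K (δ • w) := fun δ => by
    obtain ⟨L, h1, h2, h3⟩ := exists_prim_slash hM f δ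
    obtain ⟨c, hc⟩ := h1.exists_eq_add (hK.slash δ)
    refine ⟨fun z => by rw [hc, hc, h2], ?_⟩
    exact ((h3.add_const c).congr fun z => (hc z).symm).isBigO_one ℝ
  have hc := isConst_of_re_smul_eq (Γ := Γ) hK.mdifferentiable (fun δ z => (hs δ).1 z)
    (fun δ => (hs δ).2) fun γ hγ z => by
      have h1 := prim_smul_eq hM hK ⟨γ, hγ⟩ z
      rw [← perMap_apply, h, AddMonoidHom.zero_apply, add_zero] at h1
      rw [h1]
  ext τ
  have h2 : HasDerivAt (K ∘ ofComplex) (0 : ℂ) (τ : ℂ) :=
    (hasDerivAt_const (τ : ℂ) (K τ)).congr_of_eventuallyEq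
      (Filter.Eventually.of_forall fun w => hc (ofComplex w) τ)
  exact (hK τ).unique h2

end Fermat.RM
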