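import Fermat.Agent.RM.Export
import Mathlib.Algebra.QuadraticAlgebra.Basic
import Mathlib.RingTheory.ZMod

/-!
# Separation of the coinvariants of the norm one units

On `R = (ℤ/E)[X]/(X² - X + 1)`, `E` squarefree and prime to `3`, the orbits of the norm one units
are the fibres of `y ↦ (norm y, support y)`; the indicators of the sets
`{y | norm y = m, ē y = 0}`, `e` an isotropic idempotent, separate them.
-/

set_option autoImplicit false

noncomputable section

namespace Fermat.RM

open QuadraticAlgebra

/-- `(ℤ/E)[X]/(X² - X + 1)` as a ring. -/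
abbrev Eis (E : ℕ) := QuadraticAlgebra (ZMod E) (-1) 1

variable {E : ℕ}

/-- A pair of coordinates as an element of `Eis E`. -/
def toEis : QR E ≃ Eis E := (QuadraticAlgebra.equivProd _ _).symm

/-- `Eis E` is finite. -/
instance [NeZero E] : Fintype (Eis E) := Fintype.ofEquiv _ (toEis (E := E))

/-- The first coordinate. -/
theorem toEis_re (x : QR E) : (toEis x).re = x.1 := rfl

/-- The second coordinate. -/
theorem toEis_im (x : QR E) : (toEis x).im = x.2 := rfl

/-- `qmul` is the product of `Eis E`. -/
theorem toEis_qmul (x y : QR E) : toEis (qmul x y) = toEis x * toEis y := by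
  ext <;> simp [toEis_re, toEis_im, qmul]; ring

/-- `qnorm` is the norm of `Eis E`. -/
theorem norm_toEis (x : QR E) : QuadraticAlgebra.norm (toEis x) = qnorm x := by
  simp [norm_def, toEis_re, toEis_im, qnorm]
  ring

/-- The polar form of the norm is `x * star y + star x * y`. -/
theorem algebraMap_pair (x y : Eis E) :
    algebraMap (ZMod E) (Eis E)
        (QuadraticAlgebra.norm (x + y) - QuadraticAlgebra.norm x - QuadraticAlgebra.norm y) =
      x * star y + star x * y := by
  rw [map_sub, map_sub, algebraMap_norm_eq_mul_star, algebraMap_norm_eq_mul_star,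
    algebraMap_norm_eq_mul_star, star_add]
  ring

/-- `3` is a unit modulo a number it does not divide. -/
theorem three_isUnit (h3 : ¬ 3 ∣ E) : IsUnit (3 : ZMod E) := by
  exact_mod_cast (ZMod.isUnit_iff_coprime 3 E).mpr (Nat.prime_three.coprime_iff_not_dvd.mpr h3)

/-- `Eis E` is reduced for squarefree `E` prime to three. -/
theorem isReduced_eis (hsq : Squarefree E) (h3 : ¬ 3 ∣ E) : IsReduced (Eis E) := by
  have : IsReduced (ZMod E) := isReduced_zmod.mpr (Or.inl hsq)
  refine (isReduced_iff_pow_one_lt 2 one_lt_two).mpr fun x hx => ?_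
  have h1 := congrArg QuadraticAlgebra.re hx
  have h2 := congrArg QuadraticAlgebra.im hx
  simp only [pow_two, re_mul, im_mul, re_zero, im_zero] at h1 h2
  have hb : x.im = 0 := by
    refine IsNilpotent.eq_zero ⟨4, ?_⟩
    refine (three_isUnit h3).mul_right_eq_zero.mp ?_
    linear_combination (-4 * x.im ^ 2) * h1 + (2 * x.re * x.im - x.im ^ 2) * h2
  have ha : x.re = 0 := IsNilpotent.eq_zero ⟨2, by rw [hb] at h1; linear_combination h1⟩
  exact QuadraticAlgebra.ext ha hb

variable {R : Type*} [CommRing R]

/-- In a finite reduced ring every element has a support idempotent. -/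
theorem exists_support [Finite R] [IsReduced R] (x : R) :
    ∃ f v : R, f * f = f ∧ f * x = x ∧ x * v = f := by
  obtain ⟨i, j, hij, he⟩ : ∃ i j : ℕ, i < j ∧ x ^ i = x ^ j := by
    obtain ⟨i, j, hne, he⟩ := Finite.exists_ne_map_eq_of_infinite fun n : ℕ => x ^ n
    rcases Nat.lt_or_gt_of_ne hne with h | h
    · exact ⟨i, j, h, he⟩
    · exact ⟨j, i, h, he.symm⟩
  obtain ⟨d, rfl⟩ := Nat.exists_eq_add_of_lt hij
  have h0 : x * (x ^ (d + 1) - 1) = 0 := IsNilpotent.eq_zero ⟨i + 1, by
    have e : x ^ i * (x ^ (d + 1) - 1) = 0 := by
      rw [mul_sub, ← pow_add, mul_one, ← add_assoc, ← he, sub_self]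
    rw [mul_pow, pow_succ x i, pow_succ (x ^ (d + 1) - 1) i]
    linear_combination (x * (x ^ (d + 1) - 1) ^ i) * e⟩
  refine ⟨x ^ (d + 1), x ^ d, ?_, ?_, (pow_succ' x d).symm⟩
  · linear_combination x ^ d * h0
  · linear_combination h0

/-- An element has at most one support idempotent. -/
theorem support_unique {x f g v w : R} (hf : f * x = x) (hv : x * v = f) (hg : g * x = x)
    (hw : x * w = g) : f = g := by
  linear_combination w * hf - f * hw + hw - v * hg + g * hv - hv

variable [NeZero E]

section Support

variable [IsReduced (Eis E)]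

/-- The support idempotent. -/
def suppIdem (x : Eis E) : Eis E := (exists_support x).choose

/-- The support is an idempotent fixing `x` and is a multiple of `x`. -/
theorem suppIdem_spec (x : Eis E) :
    ∃ v, suppIdem x * suppIdem x = suppIdem x ∧ suppIdem x * x = x ∧ x * v = suppIdem x :=
  (exists_support x).choose_spec

/-- The support is idempotent. -/
theorem suppIdem_idem (x : Eis E) : suppIdem x * suppIdem x = suppIdem x :=
  (suppIdem_spec x).choose_spec.1

/-- The support fixes the element. -/
theorem suppIdem_mul_self (x : Eis E) : suppIdem x * x = x := (suppIdem_spec x).choose_spec.2.1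

/-- An element and its support have the same annihilator. -/
theorem mul_suppIdem_eq_zero {d x : Eis E} : d * x = 0 ↔ d * suppIdem x = 0 := by
  obtain ⟨v, -, h2, h3⟩ := suppIdem_spec x
  exact ⟨fun h => by rw [← h3, ← mul_assoc, h, zero_mul],
    fun h => by rw [← h2, ← mul_assoc, h, zero_mul]⟩

/-- Elements of equal norm have supports with equal norms. -/
theorem suppIdem_mul_star_eq {x y : Eis E}
    (h : QuadraticAlgebra.norm x = QuadraticAlgebra.norm y) :
    suppIdem x * star (suppIdem x) = suppIdem y * star (suppIdem y) := by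
  have hxy : x * star x = y * star y := by
    rw [← algebraMap_norm_eq_mul_star, ← algebraMap_norm_eq_mul_star, h]
  have key : ∀ z : Eis E, suppIdem z * star (suppIdem z) * (z * star z) = z * star z ∧
      ∃ v, z * star z * v = suppIdem z * star (suppIdem z) := fun z => by
    obtain ⟨v, -, h2, h3⟩ := suppIdem_spec z
    refine ⟨?_, v * star v, ?_⟩
    · conv_rhs => rw [← h2, star_mul']
      ring
    · rw [← h3, star_mul']
      ring
  obtain ⟨hx1, v, hx2⟩ := key x
  obtain ⟨hy1, w, hy2⟩ := key y
  rw [← hxy] at hy1 hy2
  exact support_unique hx1 hx2 hy1 hy2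

/-- Two elements with the same norm and support differ by a unit of norm one. -/
theorem exists_unit_mul {x y : Eis E} (hn : QuadraticAlgebra.norm x = QuadraticAlgebra.norm y)
    (hf : suppIdem x = suppIdem y) : ∃ u, QuadraticAlgebra.norm u = 1 ∧ u * x = y := by
  obtain ⟨v, hff, hfx, hxv⟩ := suppIdem_spec x
  obtain ⟨w, -, hfy, hyw⟩ := suppIdem_spec y
  rw [← hf] at hfy hyw
  set f := suppIdem x
  have hS : star f * star f = star f := by rw [← star_mul', hff]
  have hsv : star x * star v = star f := by rw [← star_mul', hxv]
  have hsw : star y * star w = star f := by rw [← star_mul', hyw]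
  have hxy : x * star x = y * star y := by
    rw [← algebraMap_norm_eq_mul_star, ← algebraMap_norm_eq_mul_star, hn]
  -- `y / x` on the support, completed to norm one off it
  refine ⟨y * v + (1 - f) * (1 - star f) + (1 - f) * star (x * w * f), ?_, ?_⟩
  · apply algebraMap_injective (R := ZMod E) (a := -1) (b := 1)
    rw [algebraMap_norm_eq_mul_star, map_one]
    simp only [star_add, star_mul', star_sub, star_one, star_star]
    set S := star f
    have hSy : star y * S = star y := by rw [← star_mul', mul_comm, hfy]
    have t1 : y * v * (star y * star v) = f * S := by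
      linear_combination -(v * star v) * hxy + (star x * star v) * hxv + f * hsv
    have t2 : y * v * ((1 - S) * (x * w * f)) = (1 - S) * f := by
      linear_combination ((1 - S) * y * w * f) * hxv + ((1 - S) * f * f) * hyw +
        ((1 - S) * (f + 1)) * hff
    have t3 : (1 - f) * (star x * star w * S) * (star y * star v) = (1 - f) * S := by
      linear_combination ((1 - f) * star y * star w * S) * hsv + ((1 - f) * S * S) * hsw +
        ((1 - f) * (S + 1)) * hS
    have z1 : (1 - f) * y = 0 := by linear_combination -hfy
    have z2 : (1 - S) * star y = 0 := by linear_combination -hSy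
    have z3 : (1 - S) * S = 0 := by linear_combination -hS
    have z4 : (1 - f) * f = 0 := by linear_combination -hff
    linear_combination t1 + t2 + t3 + (v * (1 - S)) * z1 + ((1 - f) * star v) * z2 +
      ((1 - S) * (1 - S) * (x * w)) * z4 + ((1 - f) * (1 - f) * (star x * star w)) * z3 +
      ((1 - f) * (star x * star w) * (x * w * f)) * z3 +
      ((1 - S) * (1 - S)) * hff + (1 - f) * hS
  -- `1 - f` kills `x`, so only `y * v * x = y` survives
  · have h0 : (1 - f) * x = 0 := by linear_combination -hfx
    linear_combination (y * hxv) + hfy +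
      ((1 - star f) + star (x * w * f)) * h0

end Support

/-- The difference of a function and its translate by a unit of norm one. -/
def augU1 (k : Type*) [Field k] (E : ℕ) [NeZero E] : Submodule k (Eis E → k) :=
  Submodule.span k (Set.range fun p : {u : Eis E // QuadraticAlgebra.norm u = 1} × (Eis E → k) =>
    (fun z => p.2 (p.1.1 * z)) - p.2)

/-- The indicators of `u x` and `x` differ by an element of `augU1` for `u` of norm one. -/
theorem delta_sub_mem_augU1 {k : Type*} [Field k] {x u : Eis E}
    (hu : QuadraticAlgebra.norm u = 1) :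
    (Pi.single (u * x) 1 - Pi.single x 1 : Eis E → k) ∈ augU1 k E := by
  classical
  have h1 : u * star u = 1 := by rw [← algebraMap_norm_eq_mul_star, hu, map_one]
  have e : (fun z => (Pi.single (u * x) (1 : k) : Eis E → k) (u * z)) = Pi.single x 1 := by
    funext z
    rcases eq_or_ne z x with rfl | hz
    · simp
    · rw [Pi.single_eq_of_ne hz, Pi.single_eq_of_ne]
      exact fun h => hz (by linear_combination star u * h + (x - z) * h1)
  have hm : (Pi.single x 1 - Pi.single (u * x) 1 : Eis E → k) ∈ augU1 k E :=
    Submodule.subset_span ⟨(⟨u, hu⟩, Pi.single (u * x) 1), by rw [← e]⟩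
  simpa using neg_mem hm

/-- Fourier inversion in the norm. -/
theorem norm_fibre_sum_eq_zero {k : Type*} [Field k] (hE : (E : k) ≠ 0) {χ : AddChar (ZMod E) k}
    (hχ : χ.IsPrimitive) (w : Eis E → k) (e : Eis E)
    (h : ∀ b : ZMod E,
      ∑ y, (if star e * y = 0 then χ (b * QuadraticAlgebra.norm y) else 0) * w y = 0)
    (m : ZMod E) :
    ∑ y, (if star e * y = 0 ∧ QuadraticAlgebra.norm y = m then w y else 0) = 0 := by
  have h1 : ∑ b : ZMod E, χ (-(b * m)) *
      ∑ y, (if star e * y = 0 then χ (b * QuadraticAlgebra.norm y) else 0) * w y = 0 :=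
    Finset.sum_eq_zero fun b _ => by rw [h b, mul_zero]
  simp only [Finset.mul_sum] at h1
  rw [Finset.sum_comm] at h1
  refine (mul_eq_zero.mp (?_ : (E : k) * _ = 0)).resolve_left hE
  rw [Finset.mul_sum]
  refine (Finset.sum_congr rfl fun y _ => ?_).trans h1
  by_cases hy : star e * y = 0
  · have hb : ∀ b : ZMod E, χ (-(b * m)) * (χ (b * QuadraticAlgebra.norm y) * w y) =
        χ (b * (QuadraticAlgebra.norm y - m)) * w y := fun b => by
      rw [← mul_assoc, ← AddChar.map_add_eq_mul]
      congr 2
      ring
    simp only [hy, true_and, if_true, hb]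
    rw [← Finset.sum_mul, AddChar.sum_mulShift _ hχ, ZMod.card]
    simp only [sub_eq_zero]
    split_ifs <;> simp
  · simp [hy]

omit [NeZero E] in
/-- A family of idempotents kills `y` iff `1 - ∏ (1 - d)` does. -/
theorem forall_mul_eq_zero_iff (t : Finset (Eis E)) (ht : ∀ d ∈ t, d * d = d) (y : Eis E) :
    (∀ d ∈ t, d * y = 0) ↔ (1 - ∏ d ∈ t, (1 - d)) * y = 0 := by
  classical
  constructor
  · intro hall
    have : ∀ t' : Finset (Eis E), (∀ d ∈ t', d * y = 0) → (∏ d ∈ t', (1 - d)) * y = y := by
      intro t'
      induction t' using Finset.induction_on with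
      | empty => simp
      | insert a s ha ih' =>
        intro hs
        rw [Finset.prod_insert ha]
        linear_combination (1 - a) * ih' (fun d hd => hs d (Finset.mem_insert_of_mem hd))
          - hs a (Finset.mem_insert_self a s)
    linear_combination -(this t hall)
  · intro h' d hd
    have hz : d * ∏ c ∈ t, (1 - c) = 0 := by
      rw [← Finset.mul_prod_erase t _ hd, ← mul_assoc,
        show d * (1 - d) = 0 by linear_combination -(ht d hd), zero_mul]
    linear_combination d * h' + y * hz

omit [NeZero E] in
/-- The join `1 - ∏ (1 - d)` of idempotents below `h0` is an idempotent below `h0`. -/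
theorem join_idem_below {h0 : Eis E} (t : Finset (Eis E))
    (ht : ∀ d ∈ t, d * d = d ∧ d * h0 = d) :
    (1 - ∏ d ∈ t, (1 - d)) * (1 - ∏ d ∈ t, (1 - d)) = 1 - ∏ d ∈ t, (1 - d) ∧
      (1 - ∏ d ∈ t, (1 - d)) * h0 = 1 - ∏ d ∈ t, (1 - d) := by
  classical
  have hPP : (∏ d ∈ t, (1 - d)) * ∏ d ∈ t, (1 - d) = ∏ d ∈ t, (1 - d) := by
    rw [← Finset.prod_mul_distrib]
    exact Finset.prod_congr rfl fun d hd => by linear_combination (ht d hd).1
  refine ⟨by linear_combination hPP, ?_⟩
  have : ∀ t' : Finset (Eis E), (∀ d ∈ t', d * h0 = d) →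
      (1 - ∏ d ∈ t', (1 - d)) * h0 = 1 - ∏ d ∈ t', (1 - d) := by
    intro t'
    induction t' using Finset.induction_on with
    | empty => simp
    | insert a s ha ih' =>
      intro hs
      rw [Finset.prod_insert ha]
      linear_combination (1 - a) * ih' (fun d hd => hs d (Finset.mem_insert_of_mem hd))
        + hs a (Finset.mem_insert_self a s)
  exact this t fun d hd => (ht d hd).2

section Classes

variable [IsReduced (Eis E)] {k : Type*} [Field k]

/-- The nonzero idempotents below `h0`. -/
def subIdem (h0 : Eis E) : Finset (Eis E) :=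
  Finset.univ.filter fun d => d * d = d ∧ d * h0 = d ∧ d ≠ 0

omit [IsReduced (Eis E)] in
/-- The members of `subIdem`. -/
theorem mem_subIdem {h0 d : Eis E} :
    d ∈ subIdem h0 ↔ d * d = d ∧ d * h0 = d ∧ d ≠ 0 := by
  simp [subIdem]

/-- Inclusion and exclusion over `subIdem h0` detects the elements whose support contains `h0`. -/
theorem ite_contains_eq_sum {h0 : Eis E} (hh : h0 * h0 = h0) (y : Eis E) :
    (if h0 * suppIdem y = h0 then (1 : k) else 0) =
      ∑ t ∈ (subIdem h0).powerset, (-1 : k) ^ t.card *
        if star (star (1 - ∏ d ∈ t, (1 - d))) * y = 0 then 1 else 0 := by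
  classical
  have e1 : (∏ d ∈ subIdem h0, (1 + -(if d * y = 0 then (1 : k) else 0))) =
      ∑ t ∈ (subIdem h0).powerset, (-1 : k) ^ t.card *
        if star (star (1 - ∏ d ∈ t, (1 - d))) * y = 0 then 1 else 0 := by
    rw [Finset.prod_one_add]
    refine Finset.sum_congr rfl fun t ht => ?_
    rw [Finset.prod_neg]
    congr 1
    rw [Finset.prod_ite_zero, Finset.prod_const_one, star_star]
    have hiff := forall_mul_eq_zero_iff t
      (fun d hd => (mem_subIdem.mp (Finset.mem_powerset.mp ht hd)).1) y
    by_cases hall : (1 - ∏ d ∈ t, (1 - d)) * y = 0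
    · rw [if_pos hall, if_pos (hiff.mpr hall)]
    · rw [if_neg hall, if_neg (mt hiff.mp hall)]
  rw [← e1]
  by_cases hy : h0 * suppIdem y = h0
  · rw [if_pos hy]
    refine (Finset.prod_eq_one fun d hd => ?_).symm
    obtain ⟨hd1, hd2, hd3⟩ := mem_subIdem.mp hd
    rw [if_neg fun h' => hd3 ?_, neg_zero, add_zero]
    have h'' := mul_suppIdem_eq_zero.mp h'
    linear_combination h0 * h'' - d * hy - hd2
  · rw [if_neg hy]
    refine (Finset.prod_eq_zero (i := h0 * (1 - suppIdem y)) (mem_subIdem.mpr ?_) ?_).symm
    · refine ⟨?_, ?_, fun h' => hy (by linear_combination -h')⟩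
      · linear_combination ((1 - suppIdem y) * (1 - suppIdem y)) * hh +
          h0 * suppIdem_idem y
      · linear_combination (1 - suppIdem y) * hh
    · rw [if_pos (by linear_combination -h0 * suppIdem_mul_self y), add_neg_cancel]

variable {w : Eis E → k} (hnorm : ∀ e : Eis E, e * e = e → e * star e = 0 → ∀ m : ZMod E,
  ∑ y, (if star e * y = 0 ∧ QuadraticAlgebra.norm y = m then w y else 0) = 0)
include hnorm

/-- The sum over the elements of norm `m` whose support contains an isotropic idempotent
vanishes. -/
theorem sum_contains_eq_zero {h0 : Eis E} (hh : h0 * h0 = h0) (hiso : h0 * star h0 = 0)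
    (m : ZMod E) :
    ∑ y, (if h0 * suppIdem y = h0 ∧ QuadraticAlgebra.norm y = m then w y else 0) = 0 := by
  classical
  have h1 : ∀ y, (if h0 * suppIdem y = h0 ∧ QuadraticAlgebra.norm y = m then w y else 0) =
      ∑ t ∈ (subIdem h0).powerset, (-1 : k) ^ t.card *
        (if star (star (1 - ∏ d ∈ t, (1 - d))) * y = 0 ∧ QuadraticAlgebra.norm y = m
          then w y else 0) := by
    intro y
    by_cases hm : QuadraticAlgebra.norm y = m
    · simp only [hm, and_true]
      calc (if h0 * suppIdem y = h0 then w y else 0)
          = (if h0 * suppIdem y = h0 then (1 : k) else 0) * w y := by rw [ite_mul, one_mul,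
              zero_mul]
        _ = _ := by
          rw [ite_contains_eq_sum hh, Finset.sum_mul]
          refine Finset.sum_congr rfl fun t _ => ?_
          split_ifs <;> simp
    · simp [hm]
  rw [Finset.sum_congr rfl fun y _ => h1 y, Finset.sum_comm]
  refine Finset.sum_eq_zero fun t ht => ?_
  rw [← Finset.mul_sum]
  obtain ⟨hPP, hP0⟩ := join_idem_below (h0 := h0) t fun d hd =>
    ⟨(mem_subIdem.mp (Finset.mem_powerset.mp ht hd)).1,
      (mem_subIdem.mp (Finset.mem_powerset.mp ht hd)).2.1⟩
  set P := ∏ d ∈ t, (1 - d) with hP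
  rw [hnorm (star (1 - P)) ?_ ?_ m, mul_zero]
  · rw [← star_mul']
    exact congrArg star hPP
  · rw [star_star]
    have hs0 := congrArg star hP0
    rw [star_mul'] at hs0
    linear_combination (star (1 - P) * star h0) * (-hP0) + ((1 - P) * 1) * (-hs0) +
      (star (1 - P) * (1 - P)) * hiso

omit hnorm in
/-- Elements of one norm with different supports: if the isotropic part of the first support lies
in the second, that support is larger. -/
theorem card_supp_lt {x z : Eis E} (hz2 : QuadraticAlgebra.norm z = QuadraticAlgebra.norm x)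
    (hz1 : suppIdem x * (1 - star (suppIdem x)) * suppIdem z =
      suppIdem x * (1 - star (suppIdem x))) (hz3 : suppIdem z ≠ suppIdem x) :
    (Finset.univ.filter fun a => suppIdem x * a = a).card <
      (Finset.univ.filter fun a => suppIdem z * a = a).card := by
  classical
  set f := suppIdem x
  have hle : f * suppIdem z = f := by
    have hμeq := suppIdem_mul_star_eq (x := z) (y := x) hz2
    linear_combination hz1 + (suppIdem z - 1) * (-hμeq) +
      (star (suppIdem z)) * suppIdem_idem z
  refine Finset.card_lt_card (Finset.ssubset_iff_of_subset ?_ |>.mpr ?_)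
  · intro a ha
    simp only [Finset.mem_filter, Finset.mem_univ, true_and] at ha ⊢
    linear_combination (1 - suppIdem z) * ha + a * hle
  · refine ⟨suppIdem z, by simp [suppIdem_idem], ?_⟩
    simp only [Finset.mem_filter, Finset.mem_univ, true_and]
    exact fun h' => hz3 (by linear_combination hle - h')

/-- The sums over the classes of equal norm and support vanish. -/
theorem class_sum_eq_zero (x : Eis E) :
    ∑ y, (if (QuadraticAlgebra.norm y, suppIdem y) = (QuadraticAlgebra.norm x, suppIdem x)
      then w y else 0) = 0 := by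
  classical
  let key : Eis E → ZMod E × Eis E := fun y => (QuadraticAlgebra.norm y, suppIdem y)
  let μ : Eis E → ℕ := fun x => (Finset.univ.filter fun z => suppIdem x * z = z).card
  have hμ : ∀ x, μ x ≤ Fintype.card (Eis E) := fun x => Finset.card_le_univ _
  suffices ∀ n x, Fintype.card (Eis E) - μ x = n →
      ∑ y, (if key y = key x then w y else 0) = 0 from this _ x rfl
  intro n
  induction n using Nat.strong_induction_on with
  | _ n ih =>
    intro x hx
    set f := suppIdem x
    set m := QuadraticAlgebra.norm x
    set h0 := f * (1 - star f) with hh0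
    have hff : f * f = f := suppIdem_idem x
    have hS : star f * star f = star f := by rw [← star_mul', hff]
    have hh : h0 * h0 = h0 := by
      linear_combination ((1 - star f) * (1 - star f)) * hff + f * hS
    have hiso : h0 * star h0 = 0 := by
      simp only [hh0, star_mul', star_sub, star_one, star_star]
      linear_combination -((1 - star f) * star f) * hff
    -- separate the class of `x`
    have hsplit : ∀ y, (if key y = key x then w y else 0) =
        (if h0 * suppIdem y = h0 ∧ QuadraticAlgebra.norm y = m then w y else 0) -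
          if h0 * suppIdem y = h0 ∧ QuadraticAlgebra.norm y = m ∧ suppIdem y ≠ f
            then w y else 0 := by
      intro y
      by_cases h1 : key y = key x
      · obtain ⟨e1, e2⟩ := Prod.ext_iff.mp h1
        have e2' : suppIdem y = f := e2
        have : h0 * f = h0 := by linear_combination (1 - star f) * hff
        simp [h1, e2', this, show QuadraticAlgebra.norm y = m from e1]
      · have h2 : QuadraticAlgebra.norm y = m → suppIdem y ≠ f := fun e1 e2 =>
          h1 (Prod.ext e1 e2)
        rw [if_neg h1]
        by_cases hm : QuadraticAlgebra.norm y = m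
        · simp [hm, h2 hm]
        · simp [hm]
    rw [Finset.sum_congr rfl fun y _ => hsplit y, Finset.sum_sub_distrib,
      sum_contains_eq_zero hnorm hh hiso m, zero_sub, neg_eq_zero]
    -- the remaining classes have larger support
    set S := Finset.univ.filter fun y =>
      h0 * suppIdem y = h0 ∧ QuadraticAlgebra.norm y = m ∧ suppIdem y ≠ f
    rw [← Finset.sum_filter, show Finset.univ.filter _ = S from rfl,
      ← Finset.sum_fiberwise_of_maps_to (g := key) (t := S.image key)
        fun y hy => Finset.mem_image_of_mem _ hy]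
    refine Finset.sum_eq_zero fun q hq => ?_
    obtain ⟨z, hz, rfl⟩ := Finset.mem_image.mp hq
    simp only [S, Finset.mem_filter, Finset.mem_univ, true_and] at hz
    obtain ⟨hz1, hz2, hz3⟩ := hz
    have hlt : μ x < μ z := card_supp_lt hz2 hz1 hz3
    have hzero := ih _ (by have := hμ z; omega) z rfl
    rw [← hzero, ← Finset.sum_filter]
    refine Finset.sum_congr (Finset.ext fun y => ?_) fun _ _ => rfl
    simp only [S, Finset.mem_filter, Finset.mem_univ, true_and]
    refine ⟨fun h' => h'.2, fun h' => ⟨?_, h'⟩⟩
    obtain ⟨e1, e2⟩ := Prod.ext_iff.mp h'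
    exact ⟨by rw [show suppIdem y = suppIdem z from e2]; exact hz1,
      (show QuadraticAlgebra.norm y = _ from e1).trans hz2,
      by rw [show suppIdem y = suppIdem z from e2]; exact hz3⟩

end Classes

/-- A function whose pairings with the functions `1[ē y = 0] χ (b norm y)` vanish is zero on the
coinvariants of the norm one units. -/
theorem mem_augU1_of_sums (hsq : Squarefree E) (h3 : ¬ 3 ∣ E) {k : Type*} [Field k]
    (hE : (E : k) ≠ 0) {χ : AddChar (ZMod E) k} (hχ : χ.IsPrimitive) (w : Eis E → k)
    (h : ∀ e : Eis E, e * e = e → e * star e = 0 → ∀ b : ZMod E,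
      ∑ y, (if star e * y = 0 then χ (b * QuadraticAlgebra.norm y) else 0) * w y = 0) :
    w ∈ augU1 k E := by
  classical
  have := isReduced_eis hsq h3
  have hclass := class_sum_eq_zero (w := w) fun e he he' =>
    norm_fibre_sum_eq_zero hE hχ w e (h e he he')
  let key : Eis E → ZMod E × Eis E := fun y => (QuadraticAlgebra.norm y, suppIdem y)
  -- move to representatives
  choose rep hrep using fun q : Set.range key => q.2
  let r : Eis E → Eis E := fun y => rep ⟨key y, y, rfl⟩
  have hr : ∀ y, key (r y) = key y := fun y => hrep _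
  have hmem : ∀ y, (Pi.single y 1 - Pi.single (r y) 1 : Eis E → k) ∈ augU1 k E := fun y => by
    obtain ⟨e1, e2⟩ := Prod.ext_iff.mp (hr y)
    obtain ⟨u, hu, hy⟩ := exists_unit_mul e1 e2
    simpa [hy] using delta_sub_mem_augU1 (k := k) (x := r y) hu
  have e0 : ∑ y, w y • (Pi.single (r y) 1 : Eis E → k) = 0 := by
    funext z
    simp only [Finset.sum_apply, Pi.smul_apply, Pi.single_apply, smul_eq_mul, mul_ite, mul_one,
      mul_zero, Pi.zero_apply]
    by_cases hz : r z = z
    · refine (Finset.sum_congr rfl fun y _ =>
        if_congr ⟨fun h' => ?_, fun h' => ?_⟩ rfl rfl).trans (hclass z)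
      · change key y = key z
        rw [h', hr]
      · rw [← hz]
        exact congrArg rep (Subtype.ext h'.symm)
    · refine Finset.sum_eq_zero fun y _ => if_neg fun h' => hz ?_
      rw [h']
      exact congrArg rep (Subtype.ext (hr y))
  have e : w = ∑ y, w y • (Pi.single y 1 - Pi.single (r y) 1 : Eis E → k) := by
    simp only [smul_sub, Finset.sum_sub_distrib, e0, sub_zero]
    funext z
    simp [Pi.single_apply]
  rw [e]
  exact Submodule.sum_mem _ fun y _ => Submodule.smul_mem _ _ (hmem y)

end Fermat.RM
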