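import Fermat.Agent.RM.Levels
import Fermat.Agent.RM.Sep
import Mathlib.NumberTheory.LegendreSymbol.AddCharacter
import Mathlib.RingTheory.Valuation.ValuationSubring
import Mathlib.Analysis.SpecialFunctions.Complex.CircleAddChar

/-!
# The Weil module modulo a place over `3`

The Weil representation is integral at a place over `3`; in the reduced module the translates of
the sums over the isotropic ideals separate the coinvariants of the norm one units.
-/

set_option autoImplicit false

noncomputable section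

namespace Fermat.RM

open scoped MatrixGroups
open CongruenceSubgroup ModularGroup Matrix

/-! ## Places over three -/

section Place

variable {V : ValuationSubring ℂ}

/-- The residue field of a place over three has characteristic three. -/
theorem charP_residue (h3 : (3 : ℂ) ∈ V.nonunits) : CharP (IsLocalRing.ResidueField V) 3 := by
  have : Fact (Nat.Prime 3) := ⟨Nat.prime_three⟩
  refine CharP.charP_iff_prime_eq_zero Nat.prime_three |>.mpr ?_
  have h : IsLocalRing.residue V (3 : V) = 0 := (IsLocalRing.residue_eq_zero_iff _).mpr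
    (ValuationSubring.coe_mem_nonunits_iff.mp (show ((3 : V) : ℂ) ∈ V.nonunits by
      rwa [show ((3 : V) : ℂ) = 3 from map_ofNat V.subtype 3]))
  rw [map_ofNat] at h
  exact_mod_cast h

/-- Numbers prime to three do not vanish in the residue field. -/
theorem natCast_residue_ne_zero (h3 : (3 : ℂ) ∈ V.nonunits) {n : ℕ} (hn : ¬ 3 ∣ n) :
    (n : IsLocalRing.ResidueField V) ≠ 0 := by
  have := charP_residue h3
  rwa [Ne, CharP.cast_eq_zero_iff _ 3]

/-- The inverses of numbers prime to three are integral at the place. -/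
theorem inv_natCast_mem (h3 : (3 : ℂ) ∈ V.nonunits) {n : ℕ} (hn : ¬ 3 ∣ n) : (n : ℂ)⁻¹ ∈ V := by
  have h0 := natCast_residue_ne_zero h3 hn
  rw [← map_natCast (IsLocalRing.residue V) n, IsLocalRing.residue_ne_zero_iff_isUnit] at h0
  obtain ⟨u, hu⟩ := h0
  have h1 : ((u : V) : ℂ) * ((u⁻¹ : Vˣ) : V) = 1 := by
    rw [← MulMemClass.coe_mul, ← Units.val_mul, mul_inv_cancel]; rfl
  rw [show (n : ℂ) = ((u : V) : ℂ) by rw [hu]; rfl, inv_eq_of_mul_eq_one_right h1]
  exact SetLike.coe_mem _

/-- Roots of unity are integral. -/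
theorem mem_of_pow_eq_one (V : ValuationSubring ℂ) {z : ℂ} {n : ℕ} (hn : n ≠ 0)
    (hz : z ^ n = 1) : z ∈ V := by
  rw [← V.valuation_le_one_iff]
  by_contra h
  have h1 := one_lt_pow₀ (lt_of_not_ge h) hn
  rw [← map_pow, hz, map_one] at h1
  exact lt_irrefl _ h1

/-- `eE` is the standard additive character. -/
theorem stdAddChar_eq_eE {E : ℕ} [NeZero E] (a : ZMod E) : ZMod.stdAddChar a = eE a := by
  have h := ZMod.stdAddChar_coe (N := E) (a.val : ℤ)
  rw [Int.cast_natCast, ZMod.natCast_zmod_val] at h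
  rw [h, eE, Int.cast_natCast]

/-- The exponentials are roots of unity of order dividing `E`. -/
theorem stdAddChar_pow {E : ℕ} [NeZero E] (a : ZMod E) :
    (ZMod.stdAddChar a : ℂ) ^ E = 1 := by
  rw [← AddChar.map_nsmul_eq_pow, nsmul_eq_mul, ZMod.natCast_self, zero_mul,
    AddChar.map_zero_eq_one]

/-- The exponentials with values in the valuation ring. -/
def chV (V : ValuationSubring ℂ) (E : ℕ) [NeZero E] : AddChar (ZMod E) V where
  toFun a := ⟨ZMod.stdAddChar a, mem_of_pow_eq_one V (NeZero.ne E) (stdAddChar_pow a)⟩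
  map_zero_eq_one' := Subtype.ext (AddChar.map_zero_eq_one _)
  map_add_eq_mul' a b := Subtype.ext (AddChar.map_add_eq_mul _ a b)

/-- The integral exponential is `eE`. -/
theorem coe_chV {E : ℕ} [NeZero E] (a : ZMod E) : ((chV V E a : V) : ℂ) = eE a :=
  stdAddChar_eq_eE a

/-- The exponentials modulo the place. -/
def chK (V : ValuationSubring ℂ) (E : ℕ) [NeZero E] :
    AddChar (ZMod E) (IsLocalRing.ResidueField V) :=
  (IsLocalRing.residue V : V →* IsLocalRing.ResidueField V).compAddChar (chV V E)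

/-- The reduced exponential is the residue of the integral one. -/
theorem chK_apply {E : ℕ} [NeZero E] (a : ZMod E) :
    chK V E a = IsLocalRing.residue V (chV V E a) := rfl

/-- The additive character with values in the residue field is primitive. -/
theorem isPrimitive_chK (h3 : (3 : ℂ) ∈ V.nonunits) {E : ℕ} [NeZero E] (hE : ¬ 3 ∣ E) :
    (chK V E).IsPrimitive := by
  refine AddChar.zmod_char_primitive_of_eq_one_only_at_zero E _ fun a ha => ?_
  by_contra h
  set z := chV V E a with hz
  have hzE : z ^ E = 1 := Subtype.ext (stdAddChar_pow a)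
  have hz1 : z ≠ 1 := fun e => h ((AddChar.IsPrimitive.zmod_char_eq_one_iff E
    (ZMod.isPrimitive_stdAddChar E) a).mp (congrArg Subtype.val e))
  have hs : ∑ i ∈ Finset.range E, z ^ i = 0 := by
    refine (mul_eq_zero.mp (?_ : (∑ i ∈ Finset.range E, z ^ i) * (z - 1) = 0)).resolve_right
      (sub_ne_zero.mpr hz1)
    rw [geom_sum_mul, hzE, sub_self]
  have h1 := congrArg (IsLocalRing.residue V) hs
  rw [chK_apply] at ha
  simp only [map_sum, map_pow] at h1
  rw [← hz] at ha
  simp only [ha, one_pow, Finset.sum_const, Finset.card_range, nsmul_eq_mul, mul_one, map_zero]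
    at h1
  exact natCast_residue_ne_zero h3 hE h1

end Place

/-! ## The bilinear form -/

section Form

variable {E : ℕ}

/-- The polar form of the norm. -/
def polarEis (x y : Eis E) : ZMod E :=
  QuadraticAlgebra.norm (x + y) - QuadraticAlgebra.norm x - QuadraticAlgebra.norm y

/-- `qpair` is the polar form. -/
theorem qpair_eq (x y : QR E) : qpair x y = polarEis (toEis x) (toEis y) := by
  rw [qpair, polarEis, ← norm_toEis, ← norm_toEis, ← norm_toEis]
  congr 2

/-- The polar form in the ring. -/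
theorem algebraMap_polarEis (x y : Eis E) :
    algebraMap (ZMod E) (Eis E) (polarEis x y) = x * star y + star x * y := algebraMap_pair x y

/-- The polar form is additive on the left. -/
theorem polarEis_add (x x' y : Eis E) :
    polarEis (x + x') y = polarEis x y + polarEis x' y := by
  refine QuadraticAlgebra.algebraMap_injective (R := ZMod E) (a := -1) (b := 1) ?_
  rw [map_add, algebraMap_polarEis, algebraMap_polarEis, algebraMap_polarEis, star_add]
  ring

/-- An element orthogonal to the ideal of `e` is killed by the conjugate of `e`. -/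
theorem star_mul_eq_zero_of_polar (h3 : ¬ 3 ∣ E) {e y : Eis E}
    (h : ∀ r, polarEis (e * r) y = 0) : star e * y = 0 := by
  have h' : ∀ r : Eis E, r * (e * star y) + star r * (star e * y) = 0 := fun r => by
    have h1 := algebraMap_polarEis (e * r) y
    rw [h r, map_zero, star_mul'] at h1
    linear_combination -h1
  have h1 := h' 1
  rw [star_one, one_mul, one_mul] at h1
  set w : Eis E := ⟨0, 1⟩
  have h2 := h' w
  have h3u : IsUnit ((3 : Eis E)) := by
    simpa only [map_ofNat] using (three_isUnit h3).map (algebraMap (ZMod E) (Eis E))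
  refine h3u.mul_right_eq_zero.mp ?_
  have hw : (w - star w) * (w - star w) = -3 := by
    ext <;> simp [w, QuadraticAlgebra.re_ofNat, QuadraticAlgebra.im_ofNat] <;> ring
  linear_combination (w - star w) * h2 - (w - star w) * w * h1 + (star e * y) * hw

end Form

/-! ## The Weil representation -/

variable {E E₂ : ℕ} [NeZero E₂]

/-- The properties of the Weil representation which are used. -/
structure IsWeil (W : topLevel E →* Module.End ℂ (QR E₂ → ℂ)) (cst : (ZMod E₂)ˣ) (sgn : ℂ) :
    Prop where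
  /-- `E₂` is prime to `27 E`. -/
  coprime : Nat.Coprime (27 * E) E₂
  /-- `E₂` is prime to three. -/
  not_three : ¬ 3 ∣ E₂
  /-- `E₂` is squarefree. -/
  squarefree : Squarefree E₂
  /-- `W` is trivial on `Γ(E₂)`. -/
  one : ∀ γ : topLevel E, (γ : SL(2, ℤ)) ∈ Gamma E₂ → W γ = 1
  /-- A translation modulo `E₂` acts by a quadratic exponential. -/
  weil_T : ∀ (γ : topLevel E) (b : ZMod E₂), ModEqMat E₂ γ !![1, b; 0, 1] →
    ∀ φ x, W γ φ x = eE ((cst : ZMod E₂) * b * qnorm x) * φ x
  /-- A diagonal element modulo `E₂` acts by a scaling of the argument. -/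
  weil_diag : ∀ (γ : topLevel E) (t u : ZMod E₂), ModEqMat E₂ γ !![t, 0; 0, u] →
    ∃ s : (ZMod E₂)ˣ, ∀ φ x, W γ φ x = φ ((s : ZMod E₂) * x.1, (s : ZMod E₂) * x.2)
  /-- The sign is a fourth root of unity. -/
  sgn_pow : sgn ^ 4 = 1
  /-- The inversion modulo `E₂` acts by a signed Fourier transform. -/
  weil_S : ∀ γ : topLevel E, ModEqMat E₂ γ !![0, -1; 1, 0] →
    ∃ c : (ZMod E₂)ˣ, ∀ φ x, W γ φ x =
      sgn / (E₂ : ℂ) * ∑ᶠ y : QR E₂, eE ((c : ZMod E₂) * qpair x y) * φ y

omit [NeZero E₂] in
/-- Elements differing by `Γ(E₂)` have the same reduction. -/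
theorem modEqMat_of_div_mem {γ x : SL(2, ℤ)} (h : γ * x⁻¹ ∈ Gamma E₂)
    {g : Matrix (Fin 2) (Fin 2) (ZMod E₂)} (hx : ModEqMat E₂ x g) : ModEqMat E₂ γ g := by
  rw [Gamma_mem', map_mul, map_inv, mul_inv_eq_one] at h
  exact (congrArg Subtype.val h).trans hx

omit [NeZero E₂] in
/-- Elements with the same reduction differ by `Γ(E₂)`. -/
theorem div_mem_of_modEqMat {γ x : SL(2, ℤ)} {g : Matrix (Fin 2) (Fin 2) (ZMod E₂)}
    (hγ : ModEqMat E₂ γ g) (hx : ModEqMat E₂ x g) : γ * x⁻¹ ∈ Gamma E₂ := by
  rw [Gamma_mem', map_mul, map_inv, mul_inv_eq_one]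
  exact Subtype.ext (hγ.trans hx.symm)

omit [NeZero E₂] in
/-- The reduction of `S`. -/
theorem modEqMat_S : ModEqMat E₂ ModularGroup.S !![0, -1; 1, 0] := by
  ext i j
  fin_cases i <;> fin_cases j <;> simp [ModularGroup.coe_S]

variable {W : topLevel E →* Module.End ℂ (QR E₂ → ℂ)} {cst : (ZMod E₂)ˣ} {sgn : ℂ}
  (hW : IsWeil W cst sgn) {V : ValuationSubring ℂ} (h3 : (3 : ℂ) ∈ V.nonunits)

include hW h3 in
/-- The entries of the Weil representation are integral at the place. -/
theorem toMatrix'_mem (γ : topLevel E) (x y : QR E₂) :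
    LinearMap.toMatrix' (W γ) x y ∈ V := by
  classical
  -- V-integrality is stable under products and holds for the T and S types
  let Good : Module.End ℂ (QR E₂ → ℂ) → Prop := fun L => ∀ x y, LinearMap.toMatrix' L x y ∈ V
  have hmul : ∀ L M, Good L → Good M → Good (L * M) := fun L M hL hM x y => by
    rw [Module.End.mul_eq_comp, LinearMap.toMatrix'_comp, Matrix.mul_apply]
    exact sum_mem fun z _ => mul_mem (hL x z) (hM z y)
  have hexp : ∀ a : ZMod E₂, eE a ∈ V := fun a => by
    rw [← coe_chV (V := V)]; exact SetLike.coe_mem _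
  have hT : ∀ (γ : topLevel E) (b : ZMod E₂), ModEqMat E₂ γ !![1, b; 0, 1] → Good (W γ) :=
    fun γ b hγ x y => by
      rw [LinearMap.toMatrix'_apply, hW.weil_T γ b hγ]
      refine mul_mem (hexp _) ?_
      simp only [Pi.single_apply]
      split_ifs
      exacts [one_mem V, zero_mem V]
  have hS : ∀ γ : topLevel E, ModEqMat E₂ γ !![0, -1; 1, 0] → Good (W γ) := fun γ hγ x y => by
    obtain ⟨c, hc⟩ := hW.weil_S γ hγ
    rw [LinearMap.toMatrix'_apply, hc, finsum_eq_sum_of_fintype, div_eq_mul_inv]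
    refine mul_mem (mul_mem (mem_of_pow_eq_one V four_ne_zero hW.sgn_pow)
      (inv_natCast_mem h3 hW.not_three)) (sum_mem fun z _ => mul_mem (hexp _) ?_)
    simp only [Pi.single_apply]
    split_ifs
    exacts [one_mem V, zero_mem V]
  obtain ⟨δS, hδS⟩ := exists_lift_S hW.coprime
  -- modulo E₂ every γ is a word in S and T: induct on it
  suffices ∀ x ∈ Subgroup.closure ({S, T} : Set SL(2, ℤ)), ∀ γ : topLevel E,
      (γ : SL(2, ℤ)) * x⁻¹ ∈ Gamma E₂ → Good (W γ) from
    this (γ : SL(2, ℤ)) (by rw [SpecialLinearGroup.SL2Z_generators]; trivial) γ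
      (by rw [mul_inv_cancel]; exact one_mem _) x y
  clear x y γ
  intro x hx
  induction hx using Subgroup.closure_induction_left with
  | one =>
    intro γ hγ
    rw [inv_one, mul_one] at hγ
    exact hT γ 0 (modEqMat_of_div_mem (x := T ^ (0 : ℤ)) (by simpa using hγ)
      (by simpa using modEqMat_T (E₂ := E₂) 0))
  | mul_left s hs x hx ih =>
    intro γ hγ
    obtain ⟨δ, hδ, hgood⟩ : ∃ δ : topLevel E, (δ : SL(2, ℤ)) * s⁻¹ ∈ Gamma E₂ ∧ Good (W δ) := by
      rcases hs with rfl | rfl
      · exact ⟨δS, div_mem_of_modEqMat hδS modEqMat_S, hS _ hδS⟩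
      · refine ⟨⟨T, by simpa using T_zpow_mem_topLevel (E₁ := E) 1⟩, ?_,
          hT _ 1 (by simpa using modEqMat_T (E₂ := E₂) 1)⟩
        rw [mul_inv_cancel]; exact one_mem _
    rw [show γ = δ * (δ⁻¹ * γ) from (mul_inv_cancel_left _ _).symm, map_mul]
    refine hmul _ _ hgood (ih _ ?_)
    rw [Gamma_mem', map_mul, map_inv, mul_inv_eq_one] at hγ hδ ⊢
    rw [Subgroup.coe_mul, Subgroup.coe_inv, map_mul, map_inv, hγ, hδ, map_mul,
      inv_mul_cancel_left]
  | inv_mul_cancel s hs x hx ih =>
    intro γ hγ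
    -- the inverse generators: S⁻¹ = S ^ 3 mod E₂, and T⁻¹ is again of T type
    obtain ⟨δ, hδ, hgood⟩ : ∃ δ : topLevel E, (δ : SL(2, ℤ)) * s⁻¹ ∈ Gamma E₂ ∧ Good (W δ⁻¹) := by
      rcases hs with rfl | rfl
      · refine ⟨δS, div_mem_of_modEqMat hδS modEqMat_S, ?_⟩
        have hS4 : (δS : SL(2, ℤ)) ^ 4 ∈ Gamma E₂ := by
          have h' := div_mem_of_modEqMat hδS (modEqMat_S (E₂ := E₂))
          rw [Gamma_mem', map_mul, map_inv, mul_inv_eq_one] at h'
          rw [Gamma_mem', map_pow, h', ← map_pow,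
            show (S : SL(2, ℤ)) ^ 4 = 1 by ext i j; fin_cases i <;> fin_cases j <;> decide,
            map_one]
        have e : W δS⁻¹ = W δS * (W δS * W δS) := by
          have h1 : W (δS ^ 4) = 1 := hW.one _ (by simpa using hS4)
          calc W δS⁻¹ = W δS⁻¹ * W (δS ^ 4) := by rw [h1, mul_one]
            _ = _ := by rw [← map_mul, ← map_mul, ← map_mul]; congr 1; simp [pow_succ, mul_assoc]
        rw [e]
        exact hmul _ _ (hS _ hδS) (hmul _ _ (hS _ hδS) (hS _ hδS))
      · refine ⟨⟨T, by simpa using T_zpow_mem_topLevel (E₁ := E) 1⟩, ?_,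
          hT _ (-1) (by simpa using modEqMat_T (E₂ := E₂) (-1))⟩
        rw [mul_inv_cancel]; exact one_mem _
    rw [show γ = δ⁻¹ * (δ * γ) from (inv_mul_cancel_left _ _).symm, map_mul]
    refine hmul _ _ hgood (ih _ ?_)
    rw [Gamma_mem', map_mul, map_inv, mul_inv_eq_one] at hγ hδ ⊢
    rw [Subgroup.coe_mul, map_mul, hγ, hδ, map_mul, map_inv, mul_inv_cancel_left]

/-- The matrices of the representation over the valuation ring. -/
def weilMat : topLevel E →* Matrix (QR E₂) (QR E₂) V where
  toFun γ := Matrix.of fun x y => ⟨LinearMap.toMatrix' (W γ) x y, toMatrix'_mem hW h3 γ x y⟩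
  map_one' := Matrix.map_injective (f := ((↑) : V → ℂ)) Subtype.coe_injective (by
    ext x y
    change LinearMap.toMatrix' (W 1) x y = (((1 : Matrix (QR E₂) (QR E₂) V) x y : V) : ℂ)
    rw [map_one, LinearMap.toMatrix'_one, Matrix.one_apply, Matrix.one_apply]
    split_ifs <;> rfl)
  map_mul' γ δ := Matrix.map_injective (f := ((↑) : V → ℂ)) Subtype.coe_injective (by
    ext x y
    change LinearMap.toMatrix' (W (γ * δ)) x y =
      (((Matrix.of fun a b => (⟨_, toMatrix'_mem hW h3 γ a b⟩ : V)) *
        Matrix.of fun a b => (⟨_, toMatrix'_mem hW h3 δ a b⟩ : V)) x y : V)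
    rw [map_mul, LinearMap.toMatrix'_mul, Matrix.mul_apply, Matrix.mul_apply,
      AddSubmonoidClass.coe_finsetSum]
    rfl)

/-- The matrix entries are the values at the basis functions. -/
theorem coe_weilMat (γ : topLevel E) (x y : QR E₂) :
    ((weilMat hW h3 γ x y : V) : ℂ) = W γ (Pi.single y 1) x := LinearMap.toMatrix'_apply _ _ _

/-- The matrices are trivial on `Γ(E₂)`. -/
theorem weilMat_of_mem_Gamma {γ : topLevel E} (hγ : (γ : SL(2, ℤ)) ∈ Gamma E₂) :
    weilMat hW h3 γ = 1 :=
  Matrix.map_injective (f := ((↑) : V → ℂ)) Subtype.coe_injective (by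
    ext x y
    simp only [Matrix.map_apply, coe_weilMat, hW.one γ hγ, Module.End.one_apply, Matrix.one_apply,
      Pi.single_apply]
    split_ifs <;> rfl)

/-- The representation over the residue field. -/
def weilK : topLevel E →* Module.End (IsLocalRing.ResidueField V) (QR E₂ →
    IsLocalRing.ResidueField V) :=
  ((Matrix.toLinAlgEquiv' : _ ≃ₐ[IsLocalRing.ResidueField V] _).toAlgHom.toRingHom.comp
    (IsLocalRing.residue V).mapMatrix).toMonoidHom.comp (weilMat hW h3)

/-- The reduced representation in coordinates. -/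
theorem weilK_apply (γ : topLevel E) (φ : QR E₂ → IsLocalRing.ResidueField V) (x : QR E₂) :
    weilK hW h3 γ φ x = ∑ y, IsLocalRing.residue V (weilMat hW h3 γ x y) * φ y := by
  simp [weilK, Matrix.toLinAlgEquiv'_apply, Matrix.mulVec, dotProduct]

/-- The reduced representation is trivial on `Γ(E₂)`. -/
theorem weilK_of_mem_Gamma {γ : topLevel E} (hγ : (γ : SL(2, ℤ)) ∈ Gamma E₂) :
    weilK hW h3 γ = 1 := by
  rw [weilK, MonoidHom.comp_apply, weilMat_of_mem_Gamma hW h3 hγ, map_one]

/-- A translation acts on the reduced module by a phase. -/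
theorem weilK_of_T {γ : topLevel E} {b : ZMod E₂} (hγ : ModEqMat E₂ γ !![1, b; 0, 1])
    (φ : QR E₂ → IsLocalRing.ResidueField V) (x : QR E₂) :
    weilK hW h3 γ φ x = chK V E₂ ((cst : ZMod E₂) * b * qnorm x) * φ x := by
  have h1 : ∀ y, weilMat hW h3 γ x y
      = if x = y then chV V E₂ ((cst : ZMod E₂) * b * qnorm x) else 0 := fun y => by
    refine Subtype.ext ?_
    rw [coe_weilMat, hW.weil_T γ b hγ, Pi.single_apply, apply_ite ((↑) : V → ℂ), coe_chV]
    split_ifs <;> simp
  simp [weilK_apply, h1, chK_apply, apply_ite (IsLocalRing.residue V)]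

/-- An element diagonal modulo `E₂` acts on the reduced module by a scaling. -/
theorem exists_weilK_diag {γ : topLevel E} {t u : ZMod E₂} (hγ : ModEqMat E₂ γ !![t, 0; 0, u]) :
    ∃ s : (ZMod E₂)ˣ, ∀ (φ : QR E₂ → IsLocalRing.ResidueField V) (x : QR E₂),
      weilK hW h3 γ φ x = φ ((s : ZMod E₂) * x.1, (s : ZMod E₂) * x.2) := by
  obtain ⟨s, hs⟩ := hW.weil_diag γ t u hγ
  refine ⟨s, fun φ x => ?_⟩
  have h1 : ∀ y, weilMat hW h3 γ x y
      = if ((s : ZMod E₂) * x.1, (s : ZMod E₂) * x.2) = y then 1 else 0 := fun y => by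
    refine Subtype.ext ?_
    rw [coe_weilMat, hs, Pi.single_apply]
    split_ifs <;> rfl
  simp [weilK_apply, h1, apply_ite (IsLocalRing.residue V)]

/-- An element congruent to `S` acts on the reduced module by a multiple of a Fourier transform. -/
theorem exists_weilK_S {γ : topLevel E} (hγ : ModEqMat E₂ γ !![0, -1; 1, 0]) :
    ∃ (c : (ZMod E₂)ˣ) (a : IsLocalRing.ResidueField V), a ≠ 0 ∧
      ∀ (φ : QR E₂ → IsLocalRing.ResidueField V) (x : QR E₂),
      weilK hW h3 γ φ x = a * ∑ y, chK V E₂ ((c : ZMod E₂) * qpair x y) * φ y := by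
  obtain ⟨c, hc⟩ := hW.weil_S γ hγ
  have hs := mem_of_pow_eq_one V four_ne_zero hW.sgn_pow
  have hi := inv_natCast_mem (V := V) h3 hW.not_three
  refine ⟨c, IsLocalRing.residue V (⟨sgn, hs⟩ * ⟨_, hi⟩), ?_, fun φ x => ?_⟩
  · refine (IsLocalRing.residue_ne_zero_iff_isUnit _).mpr (IsUnit.mul ?_ ?_)
    · exact (isUnit_pow_iff four_ne_zero).mp
        (by rw [show (⟨sgn, hs⟩ : V) ^ 4 = 1 from Subtype.ext hW.sgn_pow]; exact isUnit_one)
    · exact IsUnit.of_mul_eq_one (E₂ : V) (Subtype.ext (by
        change (E₂ : ℂ)⁻¹ * _ = 1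
        rw [show ((E₂ : V) : ℂ) = E₂ from map_natCast V.subtype E₂]
        exact inv_mul_cancel₀ (Nat.cast_ne_zero.mpr (NeZero.ne E₂))))
  · have h1 : ∀ y, weilMat hW h3 γ x y
        = ⟨sgn, hs⟩ * ⟨_, hi⟩ * chV V E₂ ((c : ZMod E₂) * qpair x y) := fun y => by
      refine Subtype.ext ?_
      rw [coe_weilMat, hc, finsum_eq_sum_of_fintype, Finset.sum_eq_single y]
      · simp [coe_chV, div_eq_mul_inv]
      · exact fun z _ hz => by simp [hz]
      · simp
    simp only [weilK_apply, h1, map_mul, chK_apply, Finset.mul_sum, mul_assoc]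

/-! ## The sums over the isotropic ideals -/

/-- The sum over an ideal `e R`. -/
def idealSum (k : Type*) [CommRing k] (e : Eis E₂) : (QR E₂ → k) →ₗ[k] k :=
  ∑ z ∈ Finset.univ.filter (fun z => e * toEis z = toEis z), LinearMap.proj z

/-- The value of `idealSum`. -/
theorem idealSum_apply {k : Type*} [CommRing k] (e : Eis E₂) (φ : QR E₂ → k) :
    idealSum k e φ = ∑ z ∈ Finset.univ.filter (fun z => e * toEis z = toEis z), φ z := by
  simp [idealSum]

omit [NeZero E₂] in
/-- An isotropic ideal consists of elements of norm zero. -/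
theorem qnorm_eq_zero {e : Eis E₂} (he : e * star e = 0) {z : QR E₂}
    (hz : e * toEis z = toEis z) : qnorm z = 0 := by
  rw [← norm_toEis, ← hz, map_mul]
  refine QuadraticAlgebra.algebraMap_injective (R := ZMod E₂) (a := -1) (b := 1) ?_
  rw [map_mul, QuadraticAlgebra.algebraMap_norm_eq_mul_star, he, zero_mul, map_zero]

/-- The sums are invariant under the elements congruent to upper triangular ones. -/
theorem idealSum_weilK_of_mem_Gamma0 {e : Eis E₂} (he : e * star e = 0) {γ : topLevel E}
    (hγ : (γ : SL(2, ℤ)) ∈ Gamma0 E₂) (φ : QR E₂ → IsLocalRing.ResidueField V) :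
    idealSum _ e (weilK hW h3 γ φ) = idealSum _ e φ := by
  set b : ℤ := (γ : SL(2, ℤ)) 0 1 * (γ : SL(2, ℤ)) 1 1
  -- `γ = δ * T ^ b` with `δ` diagonal modulo `E₂`
  set δ : topLevel E := γ * ⟨T ^ (-b), T_zpow_mem_topLevel _⟩
  have hd : ModEqMat E₂ δ !![((((γ : SL(2, ℤ)) 0 0 : ℤ)) : ZMod E₂), 0; 0,
      ((((γ : SL(2, ℤ)) 1 1 : ℤ)) : ZMod E₂)] := by
    refine (modEqMat_mul (γ := (γ : SL(2, ℤ))) rfl (modEqMat_T (-b))).trans ?_
    have hc := Gamma0_mem.mp hγ
    have hdet := congrArg (fun x : ℤ => (x : ZMod E₂))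
      (Matrix.SpecialLinearGroup.det_coe (γ : SL(2, ℤ)))
    simp only [Matrix.det_fin_two, Int.cast_sub, Int.cast_mul, Int.cast_one, hc, mul_zero,
      sub_zero] at hdet
    ext i j
    fin_cases i <;> fin_cases j <;>
      simp [Matrix.mul_apply, Fin.sum_univ_two, hc, b]
    linear_combination -((((γ : SL(2, ℤ)) 0 1 : ℤ)) : ZMod E₂) * hdet
  obtain ⟨s, hs⟩ := exists_weilK_diag hW h3 hd
  have e1 : γ = δ * ⟨T ^ b, T_zpow_mem_topLevel _⟩ := by
    refine Subtype.ext ?_
    simp [δ, mul_assoc]
  -- `δ` rescales the variable, and `T` is trivial on the isotropic ideal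
  rw [e1, map_mul, Module.End.mul_apply, idealSum_apply, idealSum_apply]
  simp only [hs]
  have hs1 : ∀ (v : ZMod E₂) (z : QR E₂), e * toEis z = toEis z →
      e * toEis (v * z.1, v * z.2) = toEis (v * z.1, v * z.2) := fun v z hz => by
    rw [show toEis (v * z.1, v * z.2) = v • toEis z by ext <;> simp [toEis_re, toEis_im],
      mul_smul_comm, hz]
  -- reindex by the unit `s`
  refine Finset.sum_bij' (fun z _ => ((s : ZMod E₂) * z.1, (s : ZMod E₂) * z.2))
    (fun z _ => (((s⁻¹ : (ZMod E₂)ˣ) : ZMod E₂) * z.1, ((s⁻¹ : (ZMod E₂)ˣ) : ZMod E₂) * z.2))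
    ?_ ?_ ?_ ?_ ?_ <;> intro z hz <;>
    simp only [Finset.mem_filter, Finset.mem_univ, true_and] at hz ⊢
  · exact hs1 _ z hz
  · exact hs1 _ z hz
  · ext <;> simp [← mul_assoc]
  · ext <;> simp [← mul_assoc]
  · rw [weilK_of_T hW h3 (modEqMat_T b), qnorm_eq_zero he (hs1 _ z hz), mul_zero,
      AddChar.map_zero_eq_one, one_mul]

/-- A map which does not see the translations by the norm one units kills what is killed by all
translates of the sums over isotropic ideals. -/
theorem apply_eq_zero_of_idealSums {M : Type*}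
    [AddCommGroup M] [Module (IsLocalRing.ResidueField V) M]
    (ψ : (QR E₂ → IsLocalRing.ResidueField V) →ₗ[IsLocalRing.ResidueField V] M)
    (hψ : ∀ u, qnorm u = 1 → ∀ φ, ψ (fun z => φ (qmul u z)) = ψ φ)
    (w : QR E₂ → IsLocalRing.ResidueField V)
    (hw : ∀ e : Eis E₂, e * e = e → e * star e = 0 → ∀ γ : topLevel E,
      idealSum _ e (weilK hW h3 γ w) = 0) : ψ w = 0 := by
  classical
  have hmem : (fun y => w (toEis.symm y)) ∈ augU1 (IsLocalRing.ResidueField V) E₂ := by
    refine mem_augU1_of_sums hW.squarefree hW.not_three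
      (natCast_residue_ne_zero h3 hW.not_three) (isPrimitive_chK h3 hW.not_three) _
      fun e he he' b => ?_
    obtain ⟨δS, hδS⟩ := exists_lift_S hW.coprime
    obtain ⟨c, a, ha, hc⟩ := exists_weilK_S hW h3 hδS
    set b' : ZMod E₂ := ((cst⁻¹ : (ZMod E₂)ˣ) : ZMod E₂) * b
    have h1 := hw e he he' (δS * ⟨T ^ (b'.val : ℤ), T_zpow_mem_topLevel _⟩)
    rw [map_mul, Module.End.mul_apply, idealSum_apply] at h1
    simp only [hc, weilK_of_T hW h3 (γ := ⟨T ^ (b'.val : ℤ), T_zpow_mem_topLevel _⟩)
      (modEqMat_T (b'.val : ℤ))] at h1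
    rw [← Finset.mul_sum, Finset.sum_comm] at h1
    have h2 := (mul_eq_zero.mp h1).resolve_left ha
    simp only [← Finset.sum_mul] at h2
    -- the ideal as a group
    let H : AddSubgroup (Eis E₂) := (AddMonoidHom.mulLeft (1 - e)).ker
    have hH : ∀ z, z ∈ H ↔ e * z = z := fun z => by
      rw [AddMonoidHom.mem_ker, AddMonoidHom.coe_mulLeft, sub_mul, one_mul, sub_eq_zero]
      exact eq_comm
    have hsum : ∀ y : Eis E₂, ∑ z ∈ Finset.univ.filter (fun z => e * toEis z = toEis z),
        chK V E₂ ((c : ZMod E₂) * polarEis (toEis z) y) =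
          if star e * y = 0 then (Fintype.card H : IsLocalRing.ResidueField V) else 0 := by
      intro y
      let ξ : AddChar H (IsLocalRing.ResidueField V) :=
        { toFun := fun z => chK V E₂ ((c : ZMod E₂) * polarEis (z : Eis E₂) y)
          map_zero_eq_one' := by simp [polarEis, AddChar.map_zero_eq_one]
          map_add_eq_mul' := fun z z' => by
            rw [AddSubgroup.coe_add, polarEis_add, mul_add, AddChar.map_add_eq_mul] }
      have e1 : ∑ z ∈ Finset.univ.filter (fun z => e * toEis z = toEis z),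
          chK V E₂ ((c : ZMod E₂) * polarEis (toEis z) y) = ∑ z : H, ξ z := by
        refine Finset.sum_bij' (fun z hz => ⟨toEis z, (hH _).mpr (Finset.mem_filter.mp hz).2⟩)
          (fun z _ => toEis.symm (z : Eis E₂)) (fun _ _ => Finset.mem_univ _) (fun z _ => ?_)
          (fun z _ => toEis.symm_apply_apply z) (fun z _ => Subtype.ext (toEis.apply_symm_apply _))
          fun z _ => rfl
        simp [(hH _).mp z.2]
      rw [e1]
      by_cases hy : star e * y = 0
      · rw [if_pos hy]
        refine AddChar.sum_eq_card_of_eq_one (DFunLike.ext _ _ fun z => ?_)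
        have : polarEis (z : Eis E₂) y = 0 := by
          refine QuadraticAlgebra.algebraMap_injective (R := ZMod E₂) (a := -1) (b := 1) ?_
          have h5 : e * star y = 0 := by simpa using congrArg star hy
          have hz := (hH _).mp z.2
          rw [algebraMap_polarEis, map_zero, ← hz, star_mul']
          linear_combination (z : Eis E₂) * h5 + star (z : Eis E₂) * hy
        change chK V E₂ _ = _
        rw [this, mul_zero, AddChar.map_zero_eq_one]
        rfl
      · rw [if_neg hy]
        refine AddChar.sum_eq_zero_of_ne_one fun h4 => hy ?_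
        refine star_mul_eq_zero_of_polar hW.not_three fun r => ?_
        have h5 := DFunLike.congr_fun h4 ⟨e * r, (hH _).mpr (by rw [← mul_assoc, he])⟩
        exact (Units.mul_right_eq_zero c).mp
          ((AddChar.IsPrimitive.zmod_char_eq_one_iff E₂ (isPrimitive_chK h3 hW.not_three) _).mp h5)
    have hcard : (Fintype.card H : IsLocalRing.ResidueField V) ≠ 0 := by
      refine natCast_residue_ne_zero h3 fun h4 => hW.not_three ?_
      have h5 : Fintype.card H ∣ E₂ * E₂ := by
        have h6 := H.card_addSubgroup_dvd_card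
        rwa [Nat.card_eq_fintype_card, Nat.card_congr toEis.symm, Nat.card_prod, Nat.card_zmod]
          at h6
      exact (Nat.prime_three.dvd_mul.mp (h4.trans h5)).elim id id
    refine (mul_eq_zero.mp (?_ : (Fintype.card H : IsLocalRing.ResidueField V) * _ =
      0)).resolve_left hcard
    rw [Finset.mul_sum]
    refine (Fintype.sum_equiv toEis.symm _ _ fun y => ?_).trans h2
    rw [← Equiv.apply_symm_apply toEis y]
    set z := toEis.symm y
    simp only [Equiv.symm_apply_apply, qpair_eq, hsum, norm_toEis]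
    rw [Int.cast_natCast, ZMod.natCast_zmod_val,
      show (cst : ZMod E₂) * b' = b from Units.mul_inv_cancel_left cst b]
    split_ifs <;> ring
  let R := LinearMap.funLeft (IsLocalRing.ResidueField V) (IsLocalRing.ResidueField V)
    (toEis (E := E₂))
  have key : ∀ f ∈ augU1 (IsLocalRing.ResidueField V) E₂, ψ (R f) = 0 := fun f hf => by
    refine LinearMap.mem_ker.mp (Submodule.span_le.mpr ?_ hf :
      f ∈ LinearMap.ker (ψ.comp R))
    rintro _ ⟨⟨⟨u, hu⟩, φ⟩, rfl⟩
    have h1 := hψ (toEis.symm u) (by rw [← norm_toEis, Equiv.apply_symm_apply, hu]) (R φ)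
    simp only [SetLike.mem_coe, LinearMap.mem_ker, LinearMap.comp_apply, map_sub, sub_eq_zero]
    rw [← h1]
    congr 1
    funext z
    simp [R, LinearMap.funLeft, toEis_qmul]
  have h := key _ hmem
  rwa [show R (fun y => w (toEis.symm y)) = w from funext fun z => by
    simp [R, LinearMap.funLeft]] at h

end Fermat.RM
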