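import Fermat.Agent.RM.Product
import Fermat.Agent.RM.Period
import Fermat.Agent.RM.Finite
import Fermat.Agent.RM.Weil

/-!
# Relations between the operators are congruences between the eigenvalues

If the weight one form has the eigenvalues `t`, a relation between the operators `T ℓ` on the
periods of its product with `b` holds modulo the place over three for the values `t`.
-/

set_option autoImplicit false

noncomputable section

namespace Fermat.RM

open scoped MatrixGroups ModularForm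
open UpperHalfPlane hiding I
open Filter Function CongruenceSubgroup ModularGroup Fermat.HM Fermat.MC.Lvl Matrix

local notation "𝕢" => Periodic.qParam

variable {E E₂ : ℕ}

/-- The level of the transported forms. -/
abbrev bigN (E E₂ : ℕ) : ℕ := 27 * E * (E₂ * E₂)

/-- `27 E₂` divides the transported level. -/
theorem dvd_bigN : 27 * E₂ ∣ bigN E E₂ := ⟨E * E₂, by simp only [bigN]; ring⟩

/-- The units of the transported level: `±1` modulo `27 E₂`. -/
def bigH (E E₂ : ℕ) : Subgroup (ZMod (bigN E E₂))ˣ :=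
  (Subgroup.zpowers (-1)).comap (ZMod.unitsMap dvd_bigN)

/-- The units of the transported level contain `-1`. -/
instance negMem_bigH : NegMem (bigH E E₂) :=
  ⟨Subgroup.mem_comap.mpr ⟨1, Units.ext (by simp [ZMod.unitsMap])⟩⟩

/-- The powers of `-1` are `± 1`. -/
theorem mem_zpowers_neg_one {M : ℕ} {u : (ZMod M)ˣ} (h : u ∈ Subgroup.zpowers (-1 : (ZMod M)ˣ)) :
    u = 1 ∨ u = -1 := by
  obtain ⟨k, rfl⟩ := h
  rcases Int.even_or_odd k with hk | hk
  · exact Or.inl hk.neg_one_zpow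
  · exact Or.inr hk.neg_one_zpow

/-- An element with `27 E E₂ ∣ c`, `E₂ ∣ b` and `a ≡ 1` modulo `27 E₂` lies in the lower level. -/
theorem mem_lowLevel_of_entries {g : SL(2, ℤ)} (hc : ((27 * E * E₂ : ℕ) : ℤ) ∣ g 1 0)
    (hb : (E₂ : ℤ) ∣ g 0 1) (ha : ((g 0 0 : ℤ) : ZMod (27 * E₂)) = 1) : g ∈ lowLevel E E₂ := by
  have hdet := g.2
  rw [Matrix.det_fin_two] at hdet
  have hcast : ∀ M : ℕ, M ∣ 27 * E₂ → (M : ℤ) ∣ g 1 0 →
      ((g 0 0 : ℤ) : ZMod M) = 1 ∧ ((g 1 1 : ℤ) : ZMod M) = 1 ∧ ((g 1 0 : ℤ) : ZMod M) = 0 :=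
    fun M hM hc' => by
    have h0 : ((g 1 0 : ℤ) : ZMod M) = 0 := (ZMod.intCast_zmod_eq_zero_iff_dvd _ _).mpr hc'
    have h1 : ((g 0 0 : ℤ) : ZMod M) = 1 := by
      have h := congrArg (ZMod.castHom hM (ZMod M)) ha
      rwa [map_intCast, map_one] at h
    refine ⟨h1, ?_, h0⟩
    have h2 := congrArg (fun x : ℤ => (x : ZMod M)) hdet
    simpa [h0, h1] using h2
  have hdiv : ∀ M : ℕ, M ∣ 27 * E * E₂ → (M : ℤ) ∣ g 1 0 := fun M hM =>
    (Int.natCast_dvd_natCast.mpr hM).trans hc
  obtain ⟨a27, d27, c27⟩ := hcast 27 (dvd_mul_right _ _) (hdiv 27 ⟨E * E₂, by ring⟩)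
  obtain ⟨a2, d2, c2⟩ := hcast E₂ (dvd_mul_left _ _) (hdiv E₂ (dvd_mul_left _ _))
  exact ⟨⟨(Gamma1_mem 27 g).mpr ⟨a27, d27, c27⟩, Gamma0_mem.mpr
    ((ZMod.intCast_zmod_eq_zero_iff_dvd _ _).mpr (hdiv E ⟨27 * E₂, by ring⟩))⟩,
    Gamma_mem.mpr ⟨a2, (ZMod.intCast_zmod_eq_zero_iff_dvd _ _).mpr hb, c2, d2⟩⟩

variable [NeZero E] [NeZero E₂]

/-- `(E₂ 0; 0 1)`. -/
def dGL (E₂ : ℕ) [NeZero E₂] : GL (Fin 2) ℚ :=
  intMat !![(E₂ : ℤ), 0; 0, 1] (by simpa [Matrix.det_fin_two_of] using NeZero.ne E₂)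

/-- The transport of forms of `±lowLevel` to a `Γ_H(N)`. -/
def dReps (E E₂ : ℕ) [NeZero E] [NeZero E₂] :
    Reps (pm (lowLevel E E₂)) (GammaH (bigN E E₂) (bigH E E₂)) Unit :=
  Reps.single (dGL E₂) (by
    rw [dGL, coe_intMat, Matrix.det_fin_two]
    simpa using NeZero.pos E₂) fun γ hγ => by
    obtain ⟨h0, u, hu, hu'⟩ := mem_GammaH_iff_upper.mp hγ
    obtain ⟨c, hc⟩ := (ZMod.intCast_zmod_eq_zero_iff_dvd _ _).mp (Gamma0_mem.mp h0)
    have hdet := γ.2
    rw [Matrix.det_fin_two] at hdet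
    -- `d = dGL * γ * dGL⁻¹` is integral
    set d : SL(2, ℤ) := ⟨!![γ 0 0, (E₂ : ℤ) * γ 0 1; ((27 * E * E₂ : ℕ) : ℤ) * c, γ 1 1], by
      rw [Matrix.det_fin_two_of]
      rw [hc] at hdet
      push_cast at hdet ⊢
      linear_combination hdet⟩ with hd
    refine ⟨d, ?_, ?_⟩
    -- its corner is `±1` modulo `27 * E₂`, so `d` or `-d` is in the low level
    · have ha : ((γ 0 0 : ℤ) : ZMod (27 * E₂)) = 1 ∨ ((γ 0 0 : ℤ) : ZMod (27 * E₂)) = -1 := by
        have h1 : ((γ 0 0 : ℤ) : ZMod (27 * E₂))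
            = ((ZMod.unitsMap dvd_bigN u : (ZMod (27 * E₂))ˣ) : ZMod (27 * E₂)) := by
          have := congrArg (ZMod.castHom dvd_bigN (ZMod (27 * E₂))) hu'
          rw [map_intCast] at this
          rw [← this]
          rfl
        rcases mem_zpowers_neg_one (Subgroup.mem_comap.mp hu) with e | e <;> rw [h1, e]
        · exact Or.inl rfl
        · exact Or.inr rfl
      rcases ha with ha | ha
      · exact Or.inl (mem_lowLevel_of_entries (dvd_mul_right _ _) (dvd_mul_right _ _) ha)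
      · refine Or.inr (mem_lowLevel_of_entries ?_ ?_ ?_) <;>
          simp only [Matrix.SpecialLinearGroup.coe_neg, Matrix.neg_apply]
        · exact (dvd_mul_right _ c).neg_right
        · exact (dvd_mul_right (E₂ : ℤ) (γ 0 1)).neg_right
        · rw [Int.cast_neg, show ((d 0 0 : ℤ) : ZMod (27 * E₂)) = -1 from ha, neg_neg]
    -- the matrix identity, entrywise
    · refine Units.ext ?_
      rw [Units.val_mul, Units.val_mul, coe_gq, coe_gq, dGL, coe_intMat, ← Matrix.map_mul_intCast,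
        ← Matrix.map_mul_intCast]
      congr 1
      ext i j
      fin_cases i <;> fin_cases j <;> simp [hd, Matrix.mul_apply, Fin.sum_univ_two, hc] <;>
        ring

omit [NeZero E] [NeZero E₂] in
/-- The translation by `E₂` lies in `±` the lower level. -/
theorem T_pow_mem_pm : T ^ E₂ ∈ pm (lowLevel E E₂) := le_pm _ T_pow_mem_lowLevel

/-- The coefficients after transport. -/
theorem qCoeff_formMap_dReps (f : CuspForm (pm (lowLevel E E₂)) 2) (n : ℕ) :
    haveI := finiteIndex_lowLevel (E₁ := E) (E₂ := E₂)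
    ModularFormClass.qCoeff ⇑(formMap (dReps E E₂) f) n =
      (E₂ : ℂ) * (qExpansion (E₂ : ℝ) ⇑f).coeff n := by
  have := finiteIndex_lowLevel (E₁ := E) (E₂ := E₂)
  have hE' : (0 : ℝ) < E₂ := Nat.cast_pos.mpr (NeZero.pos E₂)
  have hE0 : (E₂ : ℂ) ≠ 0 := Nat.cast_ne_zero.mpr (NeZero.ne E₂)
  set g := formMap (dReps E E₂) f
  have hb := bddPer_cuspForm g
  refine (UpperHalfPlane.qExpansion_coeff_unique g one_pos hb.analyticAt
    (c := fun n => (E₂ : ℂ) * (qExpansion (E₂ : ℝ) ⇑f).coeff n) (fun τ => ?_) n).symm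
  -- the operator is the scaling `τ ↦ E₂ τ`
  have hg : g τ = (⇑f ∣[(2 : ℤ)] toReal (dGL E₂)) τ := by
    rw [show g = formMap (dReps E E₂) f from rfl, coe_formMap, Finset.sum_apply,
      Fintype.sum_unique]
    rfl
  have hdet : ((toReal (dGL E₂)).det : ℝ) = E₂ := by
    rw [Matrix.GeneralLinearGroup.val_det_apply, formMap.det_toReal, dGL, coe_intMat,
      Matrix.det_fin_two]
    simp
  have hpos : 0 < ((toReal (dGL E₂)).det : ℝ) := by rw [hdet]; exact hE'
  have hτ : ((toReal (dGL E₂) • τ : ℍ) : ℂ) = (E₂ : ℂ) * τ := by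
    rw [UpperHalfPlane.coe_smul_of_det_pos hpos]
    simp [num, denom, toReal_apply, dGL, coe_intMat]
  have hval : g τ = (E₂ : ℂ) * f (toReal (dGL E₂) • τ) := by
    have hσ : UpperHalfPlane.σ (toReal (dGL E₂)) = ContinuousAlgEquiv.refl ℝ ℂ := by
      rw [UpperHalfPlane.σ, if_pos hpos]
    rw [hg, ModularForm.slash_apply, hσ, hdet, abs_of_nonneg hE'.le]
    simp [denom, toReal_apply, dGL, coe_intMat, mul_comm]
  rw [hval]
  have hper : Function.Periodic (⇑f ∘ ofComplex) ((E₂ : ℝ) : ℂ) :=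
    periodic_of_slash_T (slash_of_mem f T_pow_mem_pm)
  -- substitute in the expansion of `f`
  have h := (hasSum_qExpansion hE' hper (CuspFormClass.holo f)
    (IsZeroAtImInfty.isBoundedAtImInfty (by simpa using CuspFormClass.zero_at_infty_slash f 1))
    (toReal (dGL E₂) • τ)).mul_left (E₂ : ℂ)
  refine h.congr_fun fun m => ?_
  rw [smul_eq_mul, smul_eq_mul, hτ, ← qParam_pow]
  have e : 𝕢 (E₂ : ℝ) (τ : ℂ) ^ E₂ = 𝕢 1 τ := by
    rw [qParam_pow]
    simp only [Periodic.qParam]
    congr 1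
    push_cast
    field_simp
  rw [e, mul_assoc]

/-- **A coefficient of largest absolute value at a place.** -/
theorem exists_max_coeff (V : ValuationSubring ℂ) (f : CuspForm (pm (lowLevel E E₂)) 2) {n₁ : ℕ}
    (hn₁ : (qExpansion (E₂ : ℝ) ⇑f).coeff n₁ ≠ 0) :
    ∃ n₀, (qExpansion (E₂ : ℝ) ⇑f).coeff n₀ ≠ 0 ∧
      ∀ n, V.valuation ((qExpansion (E₂ : ℝ) ⇑f).coeff n)
        ≤ V.valuation ((qExpansion (E₂ : ℝ) ⇑f).coeff n₀) := by
  classical
  have := finiteIndex_lowLevel (E₁ := E) (E₂ := E₂)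
  set a := fun n => (qExpansion (E₂ : ℝ) ⇑f).coeff n
  obtain ⟨M, hMfg, hM⟩ := exists_fg_qCoeff (H := bigH E E₂)
  let ev : (CuspForm (GammaH (bigN E E₂) (bigH E E₂)) 2 →ₗ[ℂ] ℂ) →ₗ[ℤ] ℂ :=
    { toFun := fun L => L (formMap (dReps E E₂) f)
      map_add' := fun L L' => rfl
      map_smul' := fun c L => rfl }
  -- The scaled coefficients lie in a finitely generated `ℤ`-module,
  have hle : Submodule.span ℤ (Set.range fun n => (E₂ : ℂ) * a n) ≤ M.map ev := by
    refine Submodule.span_le.mpr ?_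
    rintro _ ⟨n, rfl⟩
    exact ⟨cfH n, hM n, (cfH_apply n _).trans (qCoeff_formMap_dReps f n)⟩
  have := isNoetherian_of_fg_of_noetherian _ (hMfg.map ev)
  have hfg : (Submodule.span ℤ (Set.range fun n => (E₂ : ℂ) * a n)).FG := by
    have := IsNoetherian.noetherian
      (Submodule.comap (M.map ev).subtype (Submodule.span ℤ (Set.range fun n => (E₂ : ℂ) * a n)))
    have h2 := this.map (M.map ev).subtype
    rwa [Submodule.map_comap_subtype, inf_eq_right.mpr hle] at h2
  -- so finitely many of them span the others over `ℤ`.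
  obtain ⟨s, hs, hspan⟩ := (Submodule.fg_span_iff_fg_span_finset_subset _).mp hfg
  choose! m hm using fun x (hx : x ∈ s) => hs (Finset.mem_coe.mpr hx)
  have hE0 : (E₂ : ℂ) ≠ 0 := Nat.cast_ne_zero.mpr (NeZero.ne E₂)
  obtain ⟨n₀, -, hmax⟩ := (insert n₁ (s.image m)).exists_max_image (fun n => V.valuation (a n))
    ⟨n₁, Finset.mem_insert_self _ _⟩
  -- The largest among these bounds all, integers having value at most `1`.
  refine ⟨n₀, fun h0 => ?_, fun n => ?_⟩
  · have := hmax n₁ (Finset.mem_insert_self _ _)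
    rw [show a n₀ = 0 from h0, map_zero, le_zero_iff, map_eq_zero] at this
    exact hn₁ this
  · obtain ⟨l, hl⟩ := Submodule.mem_span_finset.mp
      (hspan ▸ (Submodule.subset_span ⟨n, rfl⟩) :
        (E₂ : ℂ) * a n ∈ Submodule.span ℤ (s : Set ℂ))
    have h1 : a n = ∑ x ∈ s, (l x : ℂ) * a (m x) := by
      refine mul_left_cancel₀ hE0 ?_
      rw [Finset.mul_sum, ← hl.2]
      refine Finset.sum_congr rfl fun x hx => ?_
      rw [zsmul_eq_mul, mul_left_comm, show (E₂ : ℂ) * a (m x) = x from hm x hx]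
    change V.valuation (a n) ≤ _
    rw [h1]
    refine V.valuation.map_sum_le fun x hx => ?_
    rw [map_mul]
    refine le_trans (mul_le_of_le_one_left' ?_) (hmax _ (Finset.mem_insert_of_mem
      (Finset.mem_image_of_mem m hx)))
    exact (V.valuation_le_one_iff _).mpr (intCast_mem V (l x))

variable {σ : Type} {p : σ → ℕ} [hp : ∀ i, Fact (p i).Prime]

/-- The values of an eigen system in the residue field. -/
def thetaHom (V : ValuationSubring ℂ) (t : σ → ℤ) :
    MvPolynomial σ V →+* IsLocalRing.ResidueField V :=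
  MvPolynomial.eval₂Hom (IsLocalRing.residue V) fun i => (t i : IsLocalRing.ResidueField V)

omit [NeZero E] [NeZero E₂] in
/-- `Γ(27 E E₂)` lies in `±` the lower level. -/
theorem Gamma_le_pm : CongruenceSubgroup.Gamma (27 * E * E₂) ≤ pm (lowLevel E E₂) :=
  Gamma_le_lowLevel.trans (le_pm _)

variable {E₁ : ℕ} [NeZero E₁] {Top : Subgroup SL(2, ℤ)}

omit [NeZero E] in
/-- The series of `b` is congruent to one. -/
private theorem residue_map_etaInt {V : ValuationSubring ℂ} (h3 : (3 : ℂ) ∈ V.nonunits) :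
    PowerSeries.map (IsLocalRing.residue V) (PowerSeries.map (Int.castRingHom V)
      (etaInt E₂)) = 1 := by
  ext n
  obtain ⟨k, hk⟩ := etaInt_congr (NeZero.pos E₂) n
  rw [PowerSeries.coeff_map, PowerSeries.coeff_map, eq_intCast, map_intCast,
    show PowerSeries.coeff n (etaInt E₂) = 3 * k + if n = 0 then 1 else 0 from by linarith,
    PowerSeries.coeff_one]
  push_cast
  have := charP_residue h3
  rw [CharP.ofNat_eq_zero (IsLocalRing.ResidueField V) 3, zero_mul, zero_add]

omit [NeZero E] in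
/-- The series of `b` is invertible. -/
private theorem etaInt_mul_invOfUnit : etaInt E₂ * PowerSeries.invOfUnit (etaInt E₂) 1 = 1 := by
  refine PowerSeries.mul_invOfUnit _ _ ?_
  rw [etaInt, map_mul, map_pow, constantCoeff_eulerInt (NeZero.pos E₂),
    PowerSeries.constantCoeff_invOfUnit]
  simp

/-- Forms of `±` the lower level have analytic cusp functions. -/
private theorem analyticAt_cusp (g : CuspForm (pm (lowLevel E E₂)) 2) :
    AnalyticAt ℂ (cuspFunction (E₂ : ℝ) ⇑g) 0 :=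
  have := finiteIndex_lowLevel (E₁ := E) (E₂ := E₂)
  analyticAt_cuspFunction_zero (Nat.cast_pos.mpr (NeZero.pos E₂))
    (periodic_of_slash_T (slash_of_mem g T_pow_mem_pm)) (CuspFormClass.holo g)
    (IsZeroAtImInfty.isBoundedAtImInfty (by simpa using CuspFormClass.zero_at_infty_slash g 1))

/-- The coefficients of `g` are integral at the place and reduce to `u` times `s`. -/
private def CoeffCongr (V : ValuationSubring ℂ) (s : ℕ → IsLocalRing.ResidueField V)
    (g : CuspForm (pm (lowLevel E E₂)) 2) (u : IsLocalRing.ResidueField V) : Prop :=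
  ∀ n, ∃ v : V, (v : ℂ) = (qExpansion (E₂ : ℝ) ⇑g).coeff n ∧ IsLocalRing.residue V v = u * s n

/-- An operator multiplies the congruence by its eigenvalue. -/
private theorem coeffCongr_stdOp (hle : pm (lowLevel E E₂) ≤ Top)
    (hl : ∀ i, (p i : ZMod (27 * E * E₂)) = 1) {t : σ → ℤ} {V : ValuationSubring ℂ}
    (h3 : (3 : ℂ) ∈ V.nonunits) {s : ℕ → IsLocalRing.ResidueField V}
    (hr : ∀ i n, s (p i * n) + (if p i ∣ n then s (n / p i) else 0)
      = (t i : IsLocalRing.ResidueField V) * s n)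
    {g : CuspForm (pm (lowLevel E E₂)) 2} {u : IsLocalRing.ResidueField V} (hg : CoeffCongr V s g u)
    (i : σ) : haveI := finiteIndex_lowLevel (E₁ := E) (E₂ := E₂)
      CoeffCongr V s (formMap ((stdOp Gamma_le_pm hle (hl i)).restrict le_rfl hle) g)
        ((t i : IsLocalRing.ResidueField V) * u) := by
  have := finiteIndex_lowLevel (E₁ := E) (E₂ := E₂)
  intro n
  set res := IsLocalRing.residue V
  have hpN : ((p i : ℕ) : ZMod 3) = 1 := by
    have h := congrArg (ZMod.castHom (show 3 ∣ 27 * E * E₂ from ⟨9 * E * E₂, by ring⟩)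
      (ZMod 3)) (hl i)
    rwa [map_natCast, map_one] at h
  have hc : ¬ p i ∣ 27 * E := fun h => by
    have h1 := congrArg (ZMod.castHom (h.trans (dvd_mul_right (27 * E) E₂)) (ZMod (p i)))
      (hl i)
    rw [map_natCast, map_one, ZMod.natCast_self] at h1
    have := hp i
    exact zero_ne_one h1
  have hcoef := coeff_stdOp Gamma_le_pm hle (hl i) (NeZero.pos E₂) rfl hc T_pow_mem_pm g n
  obtain ⟨v₁, hv₁, hv₁'⟩ := hg (p i * n)
  obtain ⟨v₂, hv₂, hv₂'⟩ := hg (n / p i)
  refine ⟨v₁ + (p i : V) * (if p i ∣ n then v₂ else 0), ?_, ?_⟩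
  · rw [hcoef, ← hv₁, ← hv₂]
    split_ifs <;> push_cast <;> simp
  · have hp1 : ((p i : ℕ) : IsLocalRing.ResidueField V) = 1 := by
      have := charP_residue h3
      rw [← map_natCast (ZMod.castHom (dvd_refl 3) (IsLocalRing.ResidueField V)), hpN, map_one]
    rw [map_add, map_mul, map_natCast, hp1, one_mul, apply_ite res, map_zero, hv₁', hv₂',
      mul_comm _ u, mul_assoc, ← hr, mul_add, mul_ite, mul_zero]

/-- A polynomial in the operators multiplies the congruence by its value at the eigenvalues. -/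
private theorem exists_coeffCongr_opAlg (hle : pm (lowLevel E E₂) ≤ Top)
    (hl : ∀ i, (p i : ZMod (27 * E * E₂)) = 1) {t : σ → ℤ} {V : ValuationSubring ℂ}
    (h3 : (3 : ℂ) ∈ V.nonunits) {s : ℕ → IsLocalRing.ResidueField V}
    (hr : ∀ i n, s (p i * n) + (if p i ∣ n then s (n / p i) else 0)
      = (t i : IsLocalRing.ResidueField V) * s n)
    (b : MvPolynomial σ V) (g : CuspForm (pm (lowLevel E E₂)) 2) (u : IsLocalRing.ResidueField V)
    (hg : CoeffCongr V s g u) :
    haveI := finiteIndex_lowLevel (E₁ := E) (E₂ := E₂)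
    ∃ h, perMap Gamma_le_pm h =
        opAlg ℂ Gamma_le_pm hle hl le_rfl hle (MvPolynomial.map V.subtype b)
          (perMap Gamma_le_pm g) ∧
      CoeffCongr V s h (thetaHom V t b * u) := by
  have := finiteIndex_lowLevel (E₁ := E) (E₂ := E₂)
  induction b using MvPolynomial.induction_on generalizing g u with
  -- A constant scales the form.
  | C r =>
    refine ⟨(r : ℂ) • g, ?_, fun n => ?_⟩
    · rw [map_smul, MvPolynomial.map_C, ← MvPolynomial.algebraMap_eq, AlgHom.commutes]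
      rfl
    · obtain ⟨v, hv, hv'⟩ := hg n
      refine ⟨r * v, ?_, ?_⟩
      · rw [show ⇑((r : ℂ) • g) = (r : ℂ) • ⇑g from rfl,
          UpperHalfPlane.qExpansion_smul (analyticAt_cusp g), map_smul, smul_eq_mul, ← hv]
        rfl
      · rw [map_mul, hv', thetaHom, MvPolynomial.eval₂Hom_C, mul_assoc]
  -- A sum adds the witnesses.
  | add b₁ b₂ h₁ h₂ =>
    obtain ⟨g₁, hp₁, hq₁⟩ := h₁ g u hg
    obtain ⟨g₂, hp₂, hq₂⟩ := h₂ g u hg
    refine ⟨g₁ + g₂, ?_, fun n => ?_⟩
    · rw [map_add, map_add, map_add, LinearMap.add_apply, hp₁, hp₂]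
    · obtain ⟨v₁, hv₁, hv₁'⟩ := hq₁ n
      obtain ⟨v₂, hv₂, hv₂'⟩ := hq₂ n
      refine ⟨v₁ + v₂, ?_, ?_⟩
      · rw [FunLike.coe_add, UpperHalfPlane.qExpansion_add (analyticAt_cusp g₁)
          (analyticAt_cusp g₂), map_add, ← hv₁, ← hv₂]
        rfl
      · rw [map_add, hv₁', hv₂', map_add, add_mul, add_mul]
  -- An operator multiplies the congruence by its eigenvalue.
  | mul_X b i hb =>
    set g' := formMap ((stdOp Gamma_le_pm hle (hl i)).restrict le_rfl hle) g
    obtain ⟨h, hp', hq⟩ := hb g' _ (coeffCongr_stdOp hle hl h3 hr hg i)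
    refine ⟨h, ?_, ?_⟩
    · rw [hp', map_mul (MvPolynomial.map V.subtype), MvPolynomial.map_X, map_mul,
        Module.End.mul_apply, opAlg_X]
      rw [show perMap Gamma_le_pm g' = _ from perMap_formMap _ _ g]
      rfl
    · rw [map_mul, show thetaHom V t (MvPolynomial.X i) = (t i : IsLocalRing.ResidueField V) from
        MvPolynomial.eval₂Hom_X' _ _ _, mul_assoc]
      exact hq

/-- The product of a nonzero weight one form with `b` has a nonzero coefficient. -/
theorem exists_coeff_wt2_ne_zero (hdvd : E₁ ∣ E)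
    (f : CuspForm ((lowLevel E₁ E₂).map (Matrix.SpecialLinearGroup.mapGL ℝ)) 1) (hf : f ≠ 0) :
    ∃ n, (qExpansion (E₂ : ℝ) ⇑(wt2 hdvd f)).coeff n ≠ 0 := by
  have := finiteIndex_lowLevel (E₁ := E₁) (E₂ := E₂)
  by_contra h
  push Not at h
  have h0 : qExpansion (E₂ : ℝ) ⇑f = 0 := by
    have h2 : qExpansion (E₂ : ℝ) ⇑(wt2 hdvd f) = 0 := PowerSeries.ext (by simpa using h)
    have h1 := congrArg (· * PowerSeries.map (Int.castRingHom ℂ)
      (PowerSeries.invOfUnit (etaInt E₂) 1))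
      (qExpansion_wt2 hdvd f)
    simp only [h2, zero_mul, mul_assoc] at h1
    rwa [← map_mul, etaInt_mul_invOfUnit, map_one, mul_one, eq_comm] at h1
  refine hf (DFunLike.coe_injective ?_)
  exact (UpperHalfPlane.qExpansion_eq_zero_iff (Nat.cast_pos.mpr (NeZero.pos E₂))
    (periodic_of_slash_T (HM.slash_of_mem _ T_pow_mem_lowLevel)) (CuspFormClass.holo f)
    (IsZeroAtImInfty.isBoundedAtImInfty
      (by simpa using CuspFormClass.zero_at_infty_slash f 1))).mp h0

omit hp in
/-- Normalised at a largest coefficient, the product with `b` reduces to a series satisfying the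
relations of the eigenvalues. -/
private theorem exists_normalised_congr (hdvd : E₁ ∣ E)
    (f : CuspForm ((lowLevel E₁ E₂).map (Matrix.SpecialLinearGroup.mapGL ℝ)) 1) (hf : f ≠ 0)
    (t : σ → ℤ)
    (hrel : ∀ i n, (qExpansion (E₂ : ℝ) ⇑f).coeff (p i * n) +
        (if p i ∣ n then (qExpansion (E₂ : ℝ) ⇑f).coeff (n / p i) else 0) =
      (t i : ℂ) * (qExpansion (E₂ : ℝ) ⇑f).coeff n)
    (V : ValuationSubring ℂ) (h3 : (3 : ℂ) ∈ V.nonunits) :
    ∃ (c : ℂ) (s : ℕ → IsLocalRing.ResidueField V) (n₀ : ℕ),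
      CoeffCongr V s (c⁻¹ • wt2 hdvd f) 1 ∧ s n₀ = 1 ∧
      ∀ i n, s (p i * n) + (if p i ∣ n then s (n / p i) else 0)
        = (t i : IsLocalRing.ResidueField V) * s n := by
  set res := IsLocalRing.residue V
  set A1 := qExpansion (E₂ : ℝ) ⇑f
  set B' := PowerSeries.invOfUnit (etaInt E₂) 1
  set A2 := qExpansion (E₂ : ℝ) ⇑(wt2 hdvd f)
  have hA1 : A1 = A2 * PowerSeries.map (Int.castRingHom ℂ) B' := by
    rw [show A2 = A1 * PowerSeries.map (Int.castRingHom ℂ) (etaInt E₂) from qExpansion_wt2 hdvd f,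
      mul_assoc, ← map_mul, etaInt_mul_invOfUnit, map_one, mul_one]
  obtain ⟨n₁, hn₁⟩ := exists_coeff_wt2_ne_zero hdvd f hf
  obtain ⟨n₀, hn₀, hmax⟩ := exists_max_coeff V (wt2 hdvd f) hn₁
  set c := A2.coeff n₀
  have hmem : ∀ n, A2.coeff n / c ∈ V := fun n => by
    rw [← V.valuation_le_one_iff, map_div₀]
    exact div_le_one_of_le₀ (hmax n) zero_le
  -- the two series over the valuation ring
  set S2 : PowerSeries V := PowerSeries.mk fun n => ⟨A2.coeff n / c, hmem n⟩
  set S1 : PowerSeries V := S2 * PowerSeries.map (Int.castRingHom V) B'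
  have hS1 : PowerSeries.map V.subtype S1 = c⁻¹ • A1 := by
    rw [map_mul, show PowerSeries.map V.subtype S2 = c⁻¹ • A2 from PowerSeries.ext fun n => by
      simp [S2, div_eq_inv_mul], smul_mul_assoc, hA1]
    congr 2
  have hS12 : ∀ m, res (S2.coeff m) = res (S1.coeff m) := fun m => by
    have h1 : PowerSeries.map res S1 * PowerSeries.map res
      (PowerSeries.map (Int.castRingHom V) (etaInt E₂))
        = PowerSeries.map res S2 := by
      rw [← map_mul, mul_assoc, ← map_mul, mul_comm B', etaInt_mul_invOfUnit, map_one, mul_one]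
    rw [residue_map_etaInt h3, mul_one] at h1
    have := congrArg (PowerSeries.coeff m) h1
    rwa [PowerSeries.coeff_map, PowerSeries.coeff_map, eq_comm] at this
  refine ⟨c, fun n => res (S2.coeff n), n₀, fun n => ⟨S2.coeff n, ?_, by rw [one_mul]⟩,
    ?_, fun i n => ?_⟩
  · rw [show ⇑(c⁻¹ • wt2 hdvd f) = c⁻¹ • ⇑(wt2 hdvd f) from rfl,
      UpperHalfPlane.qExpansion_smul (analyticAt_cusp (wt2 hdvd f)), map_smul, smul_eq_mul]
    simp [S2, A2, div_eq_inv_mul]
  · change res (S2.coeff n₀) = 1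
    rw [show S2.coeff n₀ = 1 from Subtype.ext (by simp [S2, c, div_self hn₀]), map_one]
  · have hS : S1.coeff (p i * n) + (if p i ∣ n then S1.coeff (n / p i) else 0)
        = (t i : V) * S1.coeff n := by
      refine V.subtype_injective ?_
      have e1 : ∀ m, V.subtype (S1.coeff m) = c⁻¹ * A1.coeff m := fun m => by
        rw [← PowerSeries.coeff_map, hS1, map_smul, smul_eq_mul]
      rw [map_add, apply_ite V.subtype, map_zero, e1, e1, map_mul, map_intCast, e1,
        mul_left_comm, ← hrel i n]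
      split_ifs <;> ring
    simp only [hS12]
    rw [← map_intCast res (t i), ← map_mul, ← hS, map_add, apply_ite res, map_zero]

/-- **A relation between the operators holds for the eigenvalues modulo the place.** -/
theorem thetaHom_eq_zero (hdvd : E₁ ∣ E) (hle : pm (lowLevel E E₂) ≤ Top)
    (f : CuspForm ((lowLevel E₁ E₂).map (Matrix.SpecialLinearGroup.mapGL ℝ)) 1) (hf : f ≠ 0)
    (hl : ∀ i, (p i : ZMod (27 * E * E₂)) = 1) (t : σ → ℤ)
    (hrel : ∀ i n, (qExpansion (E₂ : ℝ) ⇑f).coeff (p i * n) +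
        (if p i ∣ n then (qExpansion (E₂ : ℝ) ⇑f).coeff (n / p i) else 0) =
      (t i : ℂ) * (qExpansion (E₂ : ℝ) ⇑f).coeff n)
    (V : ValuationSubring ℂ) (h3 : (3 : ℂ) ∈ V.nonunits) (a : MvPolynomial σ V)
    (ha : haveI := finiteIndex_lowLevel (E₁ := E) (E₂ := E₂)
      opAlg ℂ Gamma_le_pm hle hl le_rfl hle (MvPolynomial.map V.subtype a)
        (perMap Gamma_le_pm (wt2 hdvd f)) = 0) :
    thetaHom V t a = 0 := by
  have := finiteIndex_lowLevel (E₁ := E) (E₂ := E₂)
  obtain ⟨c, s, n₀, hQ0, hs₀, hr⟩ := exists_normalised_congr hdvd f hf t hrel V h3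
  obtain ⟨h, hph, hqh⟩ := exists_coeffCongr_opAlg hle hl h3 hr a _ _ hQ0
  rw [map_smul, map_smul, ha, smul_zero] at hph
  have h0 := eq_zero_of_perMap_eq_zero Gamma_le_pm hph
  obtain ⟨v, hv, hv'⟩ := hqh n₀
  rw [hs₀, mul_one, mul_one] at hv'
  have hv0 : v = 0 := by
    refine Subtype.ext ?_
    rw [hv, h0, show ⇑(0 : CuspForm (pm (lowLevel E E₂)) 2) = (0 : ℍ → ℂ) from rfl,
      UpperHalfPlane.qExpansion_zero]
    simp
  rw [← hv', hv0, map_zero]

end Fermat.RM
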