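import Fermat.Agent.RM.Fixed

/-!
# Descent to `Γ₀(3 E E₂)`

`hasEigen_Gamma0`: a fixed eigen class of a normal pair descends by the trace, and over a
`3`-group some eigen class is fixed; so the eigenvalues of the class of `Fixed` occur at
`Γ₀(3 E E₂)`, where `Lift` turns them into an eigen system.
-/

set_option autoImplicit false

noncomputable section

namespace Fermat.RM

open scoped MatrixGroups
open CongruenceSubgroup Fermat.HM Fermat.MC.Lvl

variable {σ : Type} {p : σ → ℕ} [hp : ∀ i, Fact (p i).Prime] {k : Type} [Field k] {N : ℕ}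

/-- A nonzero class at `Δ` with the eigenvalues `t`. -/
def HasEigen {Δ : Subgroup SL(2, ℤ)} (hΔ : CongruenceSubgroup.Gamma N ≤ Δ)
    (hl : ∀ i, (p i : ZMod N) = 1) (t : σ → k) : Prop :=
  ∃ z : Homs k Δ, z ≠ 0 ∧ ∀ i, (stdOp hΔ le_rfl (hl i)).op le_rfl le_rfl z = t i • z

section Pair

variable {Γ Top : Subgroup SL(2, ℤ)} [Γ.FiniteIndex] (h : IsNormalPair Γ Top)
  (hΓ : CongruenceSubgroup.Gamma N ≤ Γ) (hneg : -1 ∈ Γ) (hT : GoodLevel k Top) [CharP k 3]
  (hl : ∀ i, (p i : ZMod N) = 1) (t : σ → k) (i₀ : σ) (hd : t i₀ ≠ (p i₀ : k) + 1)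

include hneg hT hd in
/-- **An eigen class fixed by the large level descends.** -/
theorem hasEigen_of_fixed {x : Homs k Γ} (hx0 : x ≠ 0) (hfix : ∀ g : Top, h.act g x = x)
    (heig : ∀ i, (stdOp hΓ h.le (hl i)).op le_rfl h.le x = t i • x) :
    HasEigen (hΓ.trans h.le) hl t := by
  classical
  have := h.normal_subgroupOf
  have : Finite (PairQuot Γ Top) := Subgroup.finite_quotient_of_finiteIndex
  let : Fintype (PairQuot Γ Top) := Fintype.ofFinite _
  have : Fact (Nat.Prime 3) := ⟨Nat.prime_three⟩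
  have : FiniteDimensional k (Homs k Γ) := (GoodLevel.mono hneg h.le hT).moduleFinite
  set o := stdOp hΓ h.le (hl i₀)
  set d := t i₀ - (Fintype.card o.ι : k)
  have hcard : (Fintype.card o.ι : k) = (p i₀ : k) + 1 := by
    rw [show Fintype.card o.ι = p i₀ + 1 from card_stdOp hΓ h.le (hl i₀), Nat.cast_succ]
  have hd0 : d ≠ 0 := sub_ne_zero.mpr (hcard ▸ hd)
  have hex : h.eisOp (k := k) o x = d • x := by
    rw [IsNormalPair.eisOp_apply, heig i₀, sub_smul]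
  have hxfit := mem_fittingRange_of_eigen hd0 hex
  obtain ⟨y, hy⟩ := (h.hasSection_good hT hneg o (p := 3)).exists_norm_eq
    (x := (⟨x, hxfit⟩ : fittingRange (h.eisOp (k := k) o))) fun g => by
      refine Subtype.ext ?_
      induction g using QuotientGroup.induction_on with
      | H g => exact hfix g
  set z₀ := h.tr h.le le_rfl (y : Homs k Γ)
  -- the norm is the sum over the quotient
  have hres : IsNormalPair.res h.le z₀ = x := by
    have hy' := congrArg Subtype.val hy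
    rw [Submodule.coe_sum] at hy'
    refine (h.res_tr h.le le_rfl _).trans (Eq.trans ?_ hy')
    refine Fintype.sum_bijective (fun q : IsNormalPair.Classes Γ Top =>
      (QuotientGroup.mk q.out⁻¹ : PairQuot Γ Top)) ⟨?_, ?_⟩ _ _ fun q => rfl
    · intro a b hab
      have h1 : ((QuotientGroup.mk a.out : PairQuot Γ Top))⁻¹ = (QuotientGroup.mk b.out)⁻¹ := hab
      have h2 := inv_injective h1
      rwa [QuotientGroup.out_eq', QuotientGroup.out_eq'] at h2
    · intro g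
      refine ⟨g⁻¹, ?_⟩
      change ((QuotientGroup.mk (g⁻¹ : PairQuot Γ Top).out : PairQuot Γ Top))⁻¹ = g
      rw [QuotientGroup.out_eq', inv_inv]
  set z := o.op h.le le_rfl z₀ - (Fintype.card o.ι : k) • z₀
  have hresz : IsNormalPair.res h.le z = d • x := by
    rw [map_sub, map_smul, op_res, hres, heig i₀, sub_smul]
  refine ⟨z, fun h0 => ?_, fun i => ?_⟩
  · rw [h0, map_zero] at hresz
    exact smul_ne_zero hd0 hx0 hresz.symm
  change (stdOp hΓ h.le (hl i)).op h.le le_rfl z = t i • z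
  set w := (stdOp hΓ h.le (hl i)).op h.le le_rfl z₀ - t i • z₀
  have hw : IsNormalPair.res h.le w = 0 := by
    rw [map_sub, map_smul, op_res, hres, heig i, sub_self]
  have hkill : o.op h.le le_rfl w - (Fintype.card o.ι : k) • w = 0 := by
    rw [o.op_of_res_eq_zero h.le le_rfl hw, Nat.cast_smul_eq_nsmul, sub_self]
  have hexp : (stdOp hΓ h.le (hl i)).op h.le le_rfl z - t i • z
      = o.op h.le le_rfl w - (Fintype.card o.ι : k) • w := by
    have hc : (stdOp hΓ h.le (hl i)).op h.le le_rfl (o.op h.le le_rfl z₀)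
        = o.op h.le le_rfl ((stdOp hΓ h.le (hl i)).op h.le le_rfl z₀) :=
      op_comm hΓ h.le (hl i) (hl i₀) h.le le_rfl z₀
    simp only [z, w, map_sub, map_smul, hc, smul_sub, smul_comm (t i)]
    abel
  rw [← sub_eq_zero, hexp, hkill]

include hneg hT hd in
/-- Over a `3`-group an eigen class descends. -/
theorem HasEigen.descend [(Γ.subgroupOf Top).Normal] (hG : IsPGroup 3 (PairQuot Γ Top))
    (hz : HasEigen hΓ hl t) : HasEigen (hΓ.trans h.le) hl t := by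
  have : Finite (PairQuot Γ Top) := Subgroup.finite_quotient_of_finiteIndex
  have : Fact (Nat.Prime 3) := ⟨Nat.prime_three⟩
  obtain ⟨x, hx0, hx⟩ := hz
  have hx' : ∀ i, (stdOp hΓ h.le (hl i)).op le_rfl h.le x = t i • x := hx
  let S : Submodule k (Homs k Γ) :=
    ⨅ i, LinearMap.ker ((stdOp hΓ h.le (hl i)).op (R := k) le_rfl h.le - t i • LinearMap.id)
  have hS : ∀ {v}, v ∈ S ↔ ∀ i, (stdOp hΓ h.le (hl i)).op le_rfl h.le v = t i • v := by
    intro v
    simp [S, Submodule.mem_iInf, sub_eq_zero]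
  obtain ⟨y, hy, hy0, hyfix⟩ := exists_fixed_of_isPGroup hG (h.actQ (k := k)) hx0
  have hyS : y ∈ S := by
    refine (Submodule.span_le.mpr ?_) hy
    rintro _ ⟨g, rfl⟩
    refine hS.mpr fun i => ?_
    induction g using QuotientGroup.induction_on with
    | H g =>
      dsimp only
      rw [IsNormalPair.actQ_mk, NiceOp.op_act, hx' i, map_smul]
  exact hasEigen_of_fixed h hΓ hneg hT hl t i₀ hd hy0 (fun g => hyfix (QuotientGroup.mk g))
    (hS.mp hyS)

end Pair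

/-! ## The levels -/

/-- The quotient of a normal pair is a `3`-group if a fixed power `3 ^ n` maps the larger level
into the smaller. -/
theorem isPGroup_of_pow_mem {Γ Top : Subgroup SL(2, ℤ)} [(Γ.subgroupOf Top).Normal] {n : ℕ}
    (h : ∀ g ∈ Top, g ^ 3 ^ n ∈ Γ) : IsPGroup 3 (PairQuot Γ Top) := fun g => ⟨n, by
  induction g using QuotientGroup.induction_on with
  | H g =>
    rw [← QuotientGroup.mk_pow, QuotientGroup.eq_one_iff, Subgroup.mem_subgroupOf]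
    simpa using h g g.2⟩

/-- On `Γ₀(3)` the diagonal entries agree modulo three. -/
theorem three_dvd_sub_diag {g : SL(2, ℤ)} (hg : g ∈ Gamma0 3) : (3 : ℤ) ∣ g 0 0 - g 1 1 := by
  refine (ZMod.intCast_zmod_eq_zero_iff_dvd _ 3).mp ?_
  have h := Gamma0_entries hg
  rw [Int.cast_sub]
  revert h
  generalize ((g 0 0 : ℤ) : ZMod 3) = a
  generalize ((g 1 1 : ℤ) : ZMod 3) = d
  revert a d
  decide

/-- `Γ₀(3 M)` is normal in `Γ₀(M)` for `3 ∣ M`. -/
theorem isNormalPair_Gamma0_three {M : ℕ} (h3 : 3 ∣ M) :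
    IsNormalPair (Gamma0 (3 * M)) (Gamma0 M) := by
  refine ⟨Gamma0_le_of_dvd (dvd_mul_left M 3), fun g hg γ hγ => ?_⟩
  obtain ⟨e, he⟩ := three_dvd_sub_diag (Gamma0_le_of_dvd (dvd_mul_right 3 M) hγ)
  rw [Gamma0_mem, ZMod.intCast_zmod_eq_zero_iff_dvd] at hγ hg ⊢
  obtain ⟨i00, i01, i10, i11⟩ := entries_inv g
  obtain ⟨m, hm⟩ := h3
  obtain ⟨c, hc⟩ := hγ
  obtain ⟨u, hu⟩ := hg
  refine ⟨u * g 1 1 * e + c * (g 1 1) ^ 2 - (m : ℤ) * u ^ 2 * γ 0 1, ?_⟩
  simp only [entry_mul, i00, i10, hc, hu]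
  rw [hm]
  push_cast
  linear_combination (3 * (m : ℤ) * u * g 1 1) * he

/-- Cubes of `Γ₀(M)` lie in `Γ₀(3 M)` for `3 ∣ M`. -/
theorem pow_three_mem_Gamma0 {M : ℕ} (h3 : 3 ∣ M) {g : SL(2, ℤ)} (hg : g ∈ Gamma0 M) :
    g ^ 3 ∈ Gamma0 (3 * M) := by
  obtain ⟨e, he⟩ := three_dvd_sub_diag (Gamma0_le_of_dvd h3 hg)
  rw [Gamma0_mem, ZMod.intCast_zmod_eq_zero_iff_dvd] at hg ⊢
  obtain ⟨m, hm⟩ := h3
  obtain ⟨u, hu⟩ := hg
  refine ⟨u * ((g 1 1) ^ 2 + 3 * g 1 1 * e + 3 * e ^ 2 + (m : ℤ) * u * g 0 1), ?_⟩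
  rw [pow_succ, pow_two]
  simp only [entry_mul, hu]
  rw [hm]
  push_cast
  linear_combination (3 * (m : ℤ) * u * (g 0 0 + 2 * g 1 1 + 3 * e)) * he

/-- The large level cut by `Γ₀(E₂)` is normal in `Γ₀(27 E E₂)`. -/
theorem isNormalPair_mid_bot {E E₂ : ℕ} (hE : Nat.Coprime 27 E)
    (h2 : Nat.Coprime (27 * E) E₂) :
    IsNormalPair (pm (topLevel E) ⊓ Gamma0 E₂) (Gamma0 (27 * E * E₂)) := by
  refine ⟨fun g hg => ?_, fun g hg γ hγ => ⟨?_, ?_⟩⟩
  · have h1 := pm_topLevel_le hE hg.1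
    have h3 : g ∈ Gamma0 E₂ := hg.2
    rw [Gamma0_mem, ZMod.intCast_zmod_eq_zero_iff_dvd] at h1 h3 ⊢
    rw [Int.natCast_dvd] at h1 h3 ⊢
    exact h2.mul_dvd_of_dvd_of_dvd h1 h3
  · have hgE : g ∈ Gamma0 E := Gamma0_le_of_dvd ⟨27 * E₂, by ring⟩ hg
    have hg27 : g ∈ Gamma0 27 := Gamma0_le_of_dvd ⟨E * E₂, by ring⟩ hg
    rcases hγ.1 with h1 | h1
    · exact Or.inl ⟨conj_mem_Gamma1 hg27 h1.1,
        (Gamma0 E).mul_mem ((Gamma0 E).mul_mem hgE h1.2) ((Gamma0 E).inv_mem hgE)⟩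
    · refine Or.inr ?_
      rw [show -(g * γ * g⁻¹) = g * (-γ) * g⁻¹ by simp]
      exact ⟨conj_mem_Gamma1 hg27 h1.1,
        (Gamma0 E).mul_mem ((Gamma0 E).mul_mem hgE h1.2) ((Gamma0 E).inv_mem hgE)⟩
  · have hg2 : g ∈ Gamma0 E₂ := Gamma0_le_of_dvd (dvd_mul_left _ _) hg
    exact (Gamma0 E₂).mul_mem ((Gamma0 E₂).mul_mem hg2 hγ.2) ((Gamma0 E₂).inv_mem hg2)

/-- Ninth powers of `Γ₀(27 E E₂)` lie in the large level cut by `Γ₀(E₂)`. -/
theorem pow_nine_mem {E E₂ : ℕ} {g : SL(2, ℤ)} (hg : g ∈ Gamma0 (27 * E * E₂)) :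
    g ^ 3 ^ 2 ∈ pm (topLevel E) ⊓ Gamma0 E₂ := by
  have hg27 : g ∈ Gamma0 27 := Gamma0_le_of_dvd ⟨E * E₂, by ring⟩ hg
  refine ⟨mem_pm_topLevel (pow_mem (Gamma0_le_of_dvd ⟨E₂, rfl⟩ hg) _) ?_,
    pow_mem (Gamma0_le_of_dvd (dvd_mul_left _ _) hg) _⟩
  have key : ∀ n : ℕ, (((g ^ n) 0 0 : ℤ) : ZMod 27) = ((g 0 0 : ℤ) : ZMod 27) ^ n := by
    intro n
    induction n with
    | zero => simp
    | succ n ih =>
      rw [pow_succ, entry_mul, Int.cast_add, Int.cast_mul, Int.cast_mul, ih,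
        Gamma0_mem.mp hg27, mul_zero, add_zero, pow_succ]
  rw [key]
  have hu := Gamma0_entries hg27
  revert hu
  generalize ((g 0 0 : ℤ) : ZMod 27) = a
  generalize ((g 1 1 : ℤ) : ZMod 27) = d
  revert a d
  decide +kernel

variable [CharP k 3]

/-- **The eigenvalues of a fixed class at the auxiliary level occur at `Γ₀(3 E E₂)`.** -/
theorem hasEigen_Gamma0 (h2 : IsUnit (2 : k)) {E E₂ : ℕ} [NeZero E] [NeZero E₂]
    (hE : Nat.Coprime 27 E) (hcop : Nat.Coprime (27 * E) E₂) (hneat : IsNeat (3 * (E * E₂)))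
    (hl : ∀ i, (p i : ZMod (27 * E * E₂)) = 1) (t : σ → k) {i₀ : σ}
    (hd : t i₀ ≠ (p i₀ : k) + 1) {x : Homs k (smallLevel E E₂)} (hx0 : x ≠ 0)
    (hfix : ∀ g : midLevel E, (g : SL(2, ℤ)) ∈ Gamma0 E₂ →
      (isNormalPair_pm_top hE).act g x = x)
    (heig : ∀ i, (stdOp Gamma_le_pm (isNormalPair_pm_top hE).le (hl i)).op le_rfl
      (isNormalPair_pm_top hE).le x = t i • x) :
    HasEigen (Δ := Gamma0 (3 * (E * E₂)))
      ((Gamma_le_Gamma0 _).trans (Gamma0_le_of_dvd ⟨9, by ring⟩)) hl t := by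
  have := finiteIndex_lowLevel (E₁ := E) (E₂ := E₂)
  have hgood : ∀ M : ℕ, IsNeat M → M ≠ 0 → GoodLevel k (Gamma0 M) := fun M hM h0 => by
    have : NeZero M := ⟨h0⟩
    have h := GoodLevel.of_neat (R := k) (N := M) (H := ⊤) h2 trivial hM
    rwa [GammaH_top] at h
  have hne : ∀ c : ℕ, c ≠ 0 → c * (E * E₂) ≠ 0 := fun c hc =>
    mul_ne_zero hc (mul_ne_zero (NeZero.ne E) (NeZero.ne E₂))
  -- to the intermediate level
  set Δ₀ := pm (topLevel E) ⊓ Gamma0 E₂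
  have hnp := isNormalPair_mid_bot hE hcop
  have hpair : IsNormalPair (smallLevel E E₂) Δ₀ := by
    refine (isNormalPair_pm_top hE).mono (le_inf (isNormalPair_pm_top hE).le ?_) inf_le_left
    exact pm_le (SL2.neg_one_mem_Gamma0 _) fun g hg => Gamma_le_Gamma0 _ hg.2
  have : Δ₀.FiniteIndex := Subgroup.finiteIndex_of_le hpair.le
  have hg27 : GoodLevel k (Gamma0 (27 * E * E₂)) :=
    hgood _ (Or.inr ⟨3 * (E * E₂), by ring⟩) (by rw [mul_assoc]; exact hne 27 (by norm_num))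
  have h0 : HasEigen (Gamma_le_pm.trans hpair.le) hl t :=
    hasEigen_of_fixed hpair Gamma_le_pm (neg_one_mem_pm _)
      (GoodLevel.mono ⟨neg_one_mem_pm _, SL2.neg_one_mem_Gamma0 _⟩ hnp.le hg27)
      hl t i₀ hd hx0 (fun g => hfix ⟨g, g.2.1⟩ g.2.2) heig
  -- to `Γ₀(27 E E₂)`, `Γ₀(9 E E₂)`, `Γ₀(3 E E₂)`
  have := hnp.normal_subgroupOf
  have h1 := h0.descend hnp (Gamma_le_pm.trans hpair.le)
    (hpair.le (neg_one_mem_pm _)) hg27 hl t i₀ hd
    (isPGroup_of_pow_mem fun g hg => pow_nine_mem hg)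
  have e27 : Gamma0 (27 * E * E₂) = Gamma0 (3 * (9 * (E * E₂))) := by congr 1; ring
  have h1' : HasEigen (Δ := Gamma0 (3 * (9 * (E * E₂))))
      ((Gamma_le_Gamma0 _).trans (Gamma0_le_of_dvd ⟨1, by ring⟩)) hl t := by
    revert h1
    generalize_proofs p1 p2
    revert p1 p2
    rw [e27]
    exact fun _ _ h => h
  have hn9 := isNormalPair_Gamma0_three (M := 9 * (E * E₂)) ⟨3 * (E * E₂), by ring⟩
  have := hn9.normal_subgroupOf
  have : NeZero (3 * (9 * (E * E₂))) := ⟨mul_ne_zero (by norm_num) (hne 9 (by norm_num))⟩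
  have h2' := h1'.descend hn9 _ (SL2.neg_one_mem_Gamma0 _)
    (hgood _ (Or.inr (dvd_mul_right 9 _)) (hne 9 (by norm_num))) hl t i₀ hd
    (isPGroup_of_pow_mem (n := 1) fun g hg => by
      simpa using pow_three_mem_Gamma0 ⟨3 * (E * E₂), by ring⟩ hg)
  have e9 : Gamma0 (9 * (E * E₂)) = Gamma0 (3 * (3 * (E * E₂))) := by congr 1; ring
  have h2'' : HasEigen (Δ := Gamma0 (3 * (3 * (E * E₂))))
      ((Gamma_le_Gamma0 _).trans (Gamma0_le_of_dvd ⟨3, by ring⟩)) hl t := by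
    revert h2'
    generalize_proofs p1 p2
    revert p1 p2
    rw [e9]
    exact fun _ _ h => h
  have hn3 := isNormalPair_Gamma0_three (M := 3 * (E * E₂)) (dvd_mul_right 3 _)
  have := hn3.normal_subgroupOf
  have : NeZero (3 * (3 * (E * E₂))) := ⟨mul_ne_zero (by norm_num) (hne 3 (by norm_num))⟩
  exact h2''.descend hn3 _ (SL2.neg_one_mem_Gamma0 _)
    (hgood _ hneat (hne 3 (by norm_num))) hl t i₀ hd
    (isPGroup_of_pow_mem (n := 1) fun g hg => by
      simpa using pow_three_mem_Gamma0 (dvd_mul_right 3 _) hg)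

end Fermat.RM
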