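import Fermat.Agent.RM.Higman

/-!
# Higman's criterion on the Fitting component of an equivariant operator

The component is `fittingRange`, and `hasSection_fittingRange` is the criterion.
-/

set_option autoImplicit false

noncomputable section

namespace Fermat.RM

variable {k : Type*} [Field k] {G : Type*} [Group G] {V : Type*} [AddCommGroup V] [Module k V]

/-- The part of `V` on which `T` is bijective. -/
def fittingRange (T : Module.End k V) : Submodule k V :=
  LinearMap.range (T ^ Module.finrank k V)

variable {T : Module.End k V}

/-- An operator commuting with `T` preserves its Fitting component. -/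
theorem apply_mem_fittingRange {S : Module.End k V} (hS : Commute S T) {x : V}
    (hx : x ∈ fittingRange T) : S x ∈ fittingRange T := by
  obtain ⟨y, rfl⟩ := hx
  exact ⟨S y, (LinearMap.congr_fun (hS.pow_right _).eq y).symm⟩

/-- An eigenvector of nonzero eigenvalue lies in the Fitting component. -/
theorem mem_fittingRange_of_eigen {x : V} {d : k} (hd : d ≠ 0) (hx : T x = d • x) :
    x ∈ fittingRange T := by
  have hp : ∀ n : ℕ, (T ^ n) x = d ^ n • x := fun n => by
    induction n with
    | zero => simp
    | succ n ih => rw [pow_succ, Module.End.mul_apply, hx, map_smul, ih, smul_smul, pow_succ']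
  exact ⟨(d ^ Module.finrank k V)⁻¹ • x, by
    rw [map_smul, hp, smul_smul, inv_mul_cancel₀ (pow_ne_zero _ hd), one_smul]⟩

/-- `T` kills only `0` in its Fitting component. -/
theorem eq_zero_of_mem_fittingRange [FiniteDimensional k V] {x : V} (hx : x ∈ fittingRange T)
    (h0 : T x = 0) : x = 0 := by
  obtain ⟨y, rfl⟩ := hx
  set n := Module.finrank k V
  have h1 : y ∈ LinearMap.ker (T ^ (n + 1)) := by
    rw [LinearMap.mem_ker, pow_succ', Module.End.mul_apply, h0]
  exact LinearMap.mem_ker.mp (Module.End.ker_pow_le_ker_pow_finrank _ _ h1)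

/-- The restriction of the operator to its Fitting component. -/
def fittingEnd (T : Module.End k V) : Module.End k (fittingRange T) :=
  T.restrict fun _ hx => apply_mem_fittingRange (Commute.refl T) hx

/-- The restriction to the Fitting component is injective. -/
theorem fittingEnd_injective [FiniteDimensional k V] :
    Function.Injective (fittingEnd T) :=
  (injective_iff_map_eq_zero _).mpr fun z hz =>
    Subtype.ext (eq_zero_of_mem_fittingRange z.2 (congrArg Subtype.val hz))

/-- The representation on the Fitting component. -/
def fittingRep (ρ : G →* Module.End k V) (T : Module.End k V) (hρ : ∀ g, Commute (ρ g) T) :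
    G →* Module.End k (fittingRange T) where
  toFun g := (ρ g).restrict fun _ hx => apply_mem_fittingRange (hρ g) hx
  map_one' := LinearMap.ext fun x => Subtype.ext (by simp)
  map_mul' a b := LinearMap.ext fun x => Subtype.ext (by simp)

variable {p : ℕ} [Fact p.Prime] [CharP k p]

/-- If `T` carries the kernel of the norm of a Sylow subgroup into the augmentation part, then
the Fitting component of `T` satisfies Higman's criterion. -/
theorem hasSection_fittingRange [FiniteDimensional k V] [Fintype G] (ρ : G →* Module.End k V)
    (hρ : ∀ g, Commute (ρ g) T) (P : Sylow p G) [Fintype (P : Subgroup G)]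
    (hker : ∀ x, ∑ g : (P : Subgroup G), ρ g x = 0 →
      T x ∈ augPart (ρ.comp (P : Subgroup G).subtype)) :
    HasSection (fittingRep ρ T hρ) := by
  classical
  refine hasSection_of_sylow (fittingRep ρ T hρ) P fun x hx => ?_
  set I := augPart ((fittingRep ρ T hρ).comp (P : Subgroup G).subtype)
  set n := Module.finrank k V
  have key : ∀ y ∈ augPart (ρ.comp (P : Subgroup G).subtype),
      (T ^ n) y ∈ I.map (fittingRange T).subtype := by
    intro y hy
    induction hy using Submodule.span_induction with
    | mem y hy =>
      obtain ⟨⟨g, z⟩, rfl⟩ := hy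
      refine ⟨fittingRep ρ T hρ g ⟨_, z, rfl⟩ - ⟨_, z, rfl⟩,
        Submodule.subset_span ⟨(g, ⟨_, z, rfl⟩), rfl⟩, ?_⟩
      change ρ g ((T ^ n) z) - (T ^ n) z = (T ^ n) (ρ g z - z)
      rw [map_sub]
      exact congrArg (· - _) (LinearMap.congr_fun ((hρ g).pow_right n).eq z)
    | zero => rw [map_zero]; exact zero_mem _
    | add _ _ _ _ h1 h2 => rw [map_add]; exact add_mem h1 h2
    | smul c _ _ h1 => rw [map_smul]; exact Submodule.smul_mem _ _ h1
  have hle : I.map (fittingEnd T) ≤ I := by
    change (Submodule.span k _).map (fittingEnd T) ≤ _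
    rw [Submodule.map_span, Submodule.span_le]
    rintro _ ⟨_, ⟨⟨g, z⟩, rfl⟩, rfl⟩
    refine Submodule.subset_span ⟨(g, fittingEnd T z), Subtype.ext ?_⟩
    change ρ g (T z) - T z = T (ρ g z - z)
    rw [map_sub]
    exact congrArg (· - _) (LinearMap.congr_fun (hρ g).eq z)
  have heq : I.map (fittingEnd T) = I := Submodule.eq_of_le_of_finrank_eq hle
    (Submodule.equivMapOfInjective _ fittingEnd_injective I).finrank_eq.symm
  -- divide by the bijective operator
  have key2 : ∀ y : fittingRange T, fittingEnd T y ∈ I → y ∈ I := fun y hy => by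
    rw [← heq] at hy
    obtain ⟨v, hv, hvy⟩ := hy
    rwa [← fittingEnd_injective hvy]
  have hdiv : ∀ m : ℕ, ∀ y : fittingRange T, (fittingEnd T ^ m) y ∈ I → y ∈ I := by
    intro m
    induction m with
    | zero => exact fun y hy => hy
    | succ m ih =>
      intro y hy
      rw [pow_succ, Module.End.mul_apply] at hy
      exact key2 y (ih _ hy)
  have hcoe : ∀ (m : ℕ) (y : fittingRange T), ((fittingEnd T ^ m) y : V) = (T ^ m) y := by
    intro m
    induction m with
    | zero => exact fun y => rfl
    | succ m ih =>
      intro y
      rw [pow_succ, Module.End.mul_apply, ih, pow_succ, Module.End.mul_apply]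
      rfl
  have hsum : ∑ g : (P : Subgroup G), ρ g (x : V) = 0 := by
    have h1 := congrArg Subtype.val hx
    rw [Submodule.coe_sum] at h1
    exact h1
  obtain ⟨w, hw, hwx⟩ := key _ (hker _ hsum)
  have h3 : (fittingEnd T ^ (n + 1)) x = w := Subtype.ext (by
    rw [hcoe, pow_succ, Module.End.mul_apply]
    exact hwx.symm)
  exact hdiv (n + 1) x (h3.symm ▸ hw)

end Fermat.RM
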