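import Fermat.Agent.RM.Pair
import Fermat.Agent.RM.Fitting

/-!
# The non-Eisenstein part of the cohomology of a normal pair is relatively projective

For a nice operator `o` the part `good o` of `Homs k Γ` on which `o - deg o` is bijective is a
representation of `Top ⧸ Γ` satisfying Higman's criterion.
-/

set_option autoImplicit false

noncomputable section

namespace Fermat.RM

open scoped MatrixGroups
open Fermat.HM

variable {Γ Top : Subgroup SL(2, ℤ)}

/-- The quotient group of a normal pair. -/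
abbrev PairQuot (Γ Top : Subgroup SL(2, ℤ)) : Type := Top ⧸ Γ.subgroupOf Top

/-- A level of finite index with `-1` inside a good level is good. -/
theorem GoodLevel.mono {R : Type*} [CommRing R] {Δ : Subgroup SL(2, ℤ)} [Δ.FiniteIndex]
    (hneg : -1 ∈ Δ) (hΔ : Δ ≤ Top) (hT : GoodLevel R Top) : GoodLevel R Δ where
  neg_mem := hneg
  finite := Subgroup.finite_quotient_of_finiteIndex
  two := hT.two
  three := hT.three.imp id fun h x hx => by
    induction x using QuotientGroup.induction_on with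
    | H a =>
      refine h (QuotientGroup.mk a) ?_
      have h1 : (rot * a)⁻¹ * a ∈ Δ := QuotientGroup.eq.mp hx
      exact QuotientGroup.eq.mpr (hΔ h1)

namespace IsNormalPair

variable (h : IsNormalPair Γ Top) [(Γ.subgroupOf Top).Normal] {k : Type} [Field k]

/-- The representation of the quotient. -/
def actQ : PairQuot Γ Top →* Module.End k (Homs k Γ) :=
  QuotientGroup.lift _ (h.act (R := k)) fun g hg =>
    LinearMap.ext fun φ => h.act_of_mem g (Subgroup.mem_subgroupOf.mp hg) φ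

/-- The action of a class is that of its representative. -/
theorem actQ_mk (g : Top) : h.actQ (k := k) (QuotientGroup.mk g) = h.act g := rfl

/-- An operator minus its degree. -/
def eisOp (o : NiceOp Γ Top) : Module.End k (Homs k Γ) :=
  o.op le_rfl h.le - (Fintype.card o.ι : k) • 1

omit [(Γ.subgroupOf Top).Normal] in
/-- The value of `eisOp`. -/
theorem eisOp_apply (o : NiceOp Γ Top) (φ : Homs k Γ) :
    h.eisOp o φ = o.op le_rfl h.le φ - (Fintype.card o.ι : k) • φ := rfl

/-- `eisOp` commutes with the quotient group, pointwise. -/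
theorem eisOp_actQ (o : NiceOp Γ Top) (g : PairQuot Γ Top) (φ : Homs k Γ) :
    h.eisOp o (h.actQ g φ) = h.actQ g (h.eisOp o φ) := by
  induction g using QuotientGroup.induction_on with
  | H g => rw [actQ_mk, eisOp_apply, eisOp_apply, map_sub, map_smul, o.op_act h]

/-- `eisOp` commutes with the quotient group. -/
theorem actQ_commute (o : NiceOp Γ Top) (g : PairQuot Γ Top) :
    Commute (h.actQ (k := k) g) (h.eisOp o) :=
  LinearMap.ext fun φ => (h.eisOp_actQ o g φ).symm

variable [Γ.FiniteIndex]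

/-- **Relative projectivity of the non-Eisenstein part.** -/
theorem hasSection_good (hT : GoodLevel k Top) (hneg : -1 ∈ Γ) {p : ℕ} [Fact p.Prime] [CharP k p]
    (o : NiceOp Γ Top) [Fintype (PairQuot Γ Top)] :
    HasSection (M := ↥(fittingRange (h.eisOp (k := k) o)))
      (fittingRep (h.actQ (k := k)) (h.eisOp o) (h.actQ_commute o)) := by
  classical
  have hfin : Module.Finite k (Homs k Γ) := (GoodLevel.mono hneg h.le hT).moduleFinite
  obtain ⟨P⟩ : Nonempty (Sylow p (PairQuot Γ Top)) := inferInstance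
  let := Fintype.ofFinite (P : Subgroup (PairQuot Γ Top))
  refine hasSection_fittingRange _ _ P fun x hx => ?_
  set π : Top →* PairQuot Γ Top := QuotientGroup.mk' _
  set Δ : Subgroup SL(2, ℤ) := ((P : Subgroup (PairQuot Γ Top)).comap π).map Top.subtype
  have hΔ : Δ ≤ Top := Subgroup.map_subtype_le _
  have hΓΔ : Γ ≤ Δ := fun γ hγ => ⟨⟨γ, h.le hγ⟩, by
    change π ⟨γ, h.le hγ⟩ ∈ (P : Subgroup (PairQuot Γ Top))
    rw [QuotientGroup.mk'_apply, (QuotientGroup.eq_one_iff _).mpr
      (show (⟨γ, h.le hγ⟩ : Top) ∈ Γ.subgroupOf Top from hγ)]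
    exact one_mem _, rfl⟩
  have : Δ.FiniteIndex := Subgroup.finiteIndex_of_le hΓΔ
  have hmemP : ∀ g : Δ, π ⟨g, hΔ g.2⟩ ∈ (P : Subgroup (PairQuot Γ Top)) := by
    rintro ⟨_, g, hg, rfl⟩
    exact hg
  -- the classes of `Γ` in `Δ` are the elements of the Sylow subgroup
  let e : Classes Γ Δ → (P : Subgroup (PairQuot Γ Top)) := fun q =>
    ⟨(π ⟨q.out, hΔ q.out.2⟩)⁻¹, inv_mem (hmemP q.out)⟩
  have he : Function.Bijective e := by
    constructor
    · intro a b hab
      have h1 : π ⟨a.out, hΔ a.out.2⟩ = π ⟨b.out, hΔ b.out.2⟩ :=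
        inv_injective (congrArg Subtype.val hab)
      rw [← QuotientGroup.out_eq' a, ← QuotientGroup.out_eq' b, QuotientGroup.eq]
      have h2 := (QuotientGroup.eq (s := Γ.subgroupOf Top) (a := ⟨a.out, hΔ a.out.2⟩)
        (b := ⟨b.out, hΔ b.out.2⟩)).mp h1
      exact h2
    · rintro ⟨y, hy⟩
      obtain ⟨g, rfl⟩ : ∃ g : Top, π g = y := QuotientGroup.mk'_surjective _ y
      have hg : (g⁻¹ : Top).1 ∈ Δ := ⟨g⁻¹, by
        change π g⁻¹ ∈ (P : Subgroup (PairQuot Γ Top))
        rw [map_inv]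
        exact inv_mem hy, rfl⟩
      refine ⟨QuotientGroup.mk ⟨_, hg⟩, Subtype.ext ?_⟩
      set d : Δ := ⟨(g⁻¹ : Top).1, hg⟩
      set c : Δ := (QuotientGroup.mk d : Classes Γ Δ).out
      change (π ⟨c, hΔ c.2⟩)⁻¹ = π g
      have h2 : d⁻¹ * c ∈ Γ.subgroupOf Δ :=
        QuotientGroup.eq.mp (QuotientGroup.out_eq' _).symm
      have h3 : π g⁻¹ = π ⟨c, hΔ c.2⟩ := QuotientGroup.eq.mpr h2
      rw [← h3, map_inv, inv_inv]
  have hres : res hΓΔ (h.tr hΓΔ hΔ x) = 0 := by
    rw [h.res_tr hΓΔ hΔ]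
    refine Eq.trans ?_ hx
    refine Fintype.sum_bijective e he _ _ fun q => ?_
    change _ = h.actQ (π ⟨q.out, hΔ q.out.2⟩)⁻¹ x
    rw [← map_inv]
    rfl
  have hS : h.tr hΓΔ hΔ (h.eisOp o x) = 0 := by
    rw [eisOp_apply, map_sub, map_smul, ← o.op_tr h hΓΔ hΔ, o.op_of_res_eq_zero hΓΔ hΔ hres,
      Nat.cast_smul_eq_nsmul, sub_self]
  refine Submodule.span_le.mpr ?_ (h.mem_span_of_tr_eq_zero hΓΔ hΔ
    (GoodLevel.mono (hΓΔ hneg) hΔ hT) (GoodLevel.mono hneg h.le hT) hS)
  rintro _ ⟨⟨g, z⟩, rfl⟩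
  exact Submodule.subset_span ⟨(⟨_, hmemP g⟩, z), rfl⟩

end IsNormalPair

end Fermat.RM
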