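import Fermat.Agent.RM.Coeff
import Fermat.Agent.RM.Weil
import Fermat.Agent.RM.Algebra
import Fermat.Agent.RM.Section
import Fermat.Agent.HM.Neat

/-!
# An equivariant eigen map from the Weil module to the classes modulo the place

`exists_eigen_map`: the periods of the products with `b` give an equivariant map of lattices; the
congruence for the relations (`Coeff`) makes its reduction meet the eigenspace of the eigenvalues.
`Fixed` turns the map into a fixed class.
-/

set_option autoImplicit false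

noncomputable section

namespace Fermat.RM

open scoped MatrixGroups ModularForm
open CongruenceSubgroup ModularGroup Fermat.HM Fermat.MC.Lvl

/-! ## Coefficient rings -/

section Coefficients

variable {Γ Top : Subgroup SL(2, ℤ)}

/-- Homomorphisms to a domain form a torsion-free module. -/
instance {R : Type*} [CommRing R] [IsDomain R] : Module.IsTorsionFree R (Homs R Γ) :=
  ⟨fun _ hc _ _ h => AddMonoidHom.ext fun γ => hc.left (DFunLike.congr_fun h γ)⟩

/-- An injective change of coefficients is injective on homomorphisms. -/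
theorem mapCoeff_inj {R R' : Type*} [CommRing R] [CommRing R'] {f : R →+* R'}
    (hf : Function.Injective f) {φ ψ : Homs R Γ} (h : mapCoeff f φ = mapCoeff f ψ) : φ = ψ :=
  AddMonoidHom.ext fun γ => hf (DFunLike.congr_fun h γ)

/-- The operators commute with a change of coefficients. -/
theorem mapCoeff_opAlg {N : ℕ} {σ : Type} {p : σ → ℕ} [hp : ∀ i, Fact (p i).Prime]
    (hΓ : CongruenceSubgroup.Gamma N ≤ Γ) (hle : Γ ≤ Top) (hl : ∀ i, (p i : ZMod N) = 1)
    {R R' : Type*} [CommRing R] [CommRing R'] (f : R →+* R') (a : MvPolynomial σ R)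
    (φ : Homs R Γ) :
    mapCoeff f (opAlg R hΓ hle hl le_rfl hle a φ) =
      opAlg R' hΓ hle hl le_rfl hle (MvPolynomial.map f a) (mapCoeff f φ) := by
  induction a using MvPolynomial.induction_on generalizing φ with
  | C c =>
    rw [MvPolynomial.map_C, ← MvPolynomial.algebraMap_eq, ← MvPolynomial.algebraMap_eq,
      AlgHom.commutes, AlgHom.commutes, Module.algebraMap_end_apply, Module.algebraMap_end_apply,
      mapCoeff_smul]
  | add a b ha hb =>
    simp only [map_add, LinearMap.add_apply, ha, hb]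
  | mul_X a i ha =>
    rw [map_mul, map_mul, MvPolynomial.map_X, map_mul, Module.End.mul_apply, Module.End.mul_apply,
      ha, opAlg_X, opAlg_X, NiceOp.mapCoeff_op]

/-- `Γ₀(27 E)` is a good level, as it has no elliptic elements of order three. -/
theorem goodLevel_Gamma0 {R : Type*} [CommRing R] (h2 : IsUnit (2 : R)) (E : ℕ) [NeZero E] :
    GoodLevel R (Gamma0 (27 * E)) := by
  have : NeZero (27 * E) := ⟨by simp [NeZero.ne]⟩
  have h := GoodLevel.of_neat (R := R) (N := 27 * E) (H := ⊤) h2 trivial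
    (Or.inr ⟨3 * E, by ring⟩)
  rwa [GammaH_top] at h

/-- `2` is a unit at a place over three. -/
theorem isUnit_two {V : ValuationSubring ℂ} (h3 : (3 : ℂ) ∈ V.nonunits) : IsUnit (2 : V) := by
  have h := natCast_residue_ne_zero h3 (n := 2) (by norm_num)
  rw [← map_natCast (IsLocalRing.residue V) 2, IsLocalRing.residue_ne_zero_iff_isUnit] at h
  exact_mod_cast h

/-- `2` is invertible in the residue field of a place over three. -/
theorem isUnit_two_residue {V : ValuationSubring ℂ} (h3 : (3 : ℂ) ∈ V.nonunits) :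
    IsUnit (2 : IsLocalRing.ResidueField V) := by
  simpa only [map_ofNat] using (isUnit_two h3).map (IsLocalRing.residue V)

/-- A cube root of unity reduces to `1` at a place over three. -/
theorem residue_eq_one_of_cube {V : ValuationSubring ℂ} (h3 : (3 : ℂ) ∈ V.nonunits) {z : V}
    (hz : z ^ 3 = 1) : IsLocalRing.residue V z = 1 := by
  have := charP_residue h3
  have h : (IsLocalRing.residue V z - 1) ^ 3 = 0 := by
    rw [sub_pow_char, one_pow, ← map_pow, hz, map_one, sub_self]
  exact sub_eq_zero.mp (eq_zero_of_pow_eq_zero h)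

/-- Finitely many homomorphisms have a value dividing all of their values. -/
theorem exists_max_value [Γ.FiniteIndex] (V : ValuationSubring ℂ) {ι : Type*} [Finite ι]
    (φ : ι → Homs ℂ Γ) :
    ∃ m : ℂ, (∀ i γ, ∃ v : V, φ i γ = m * v) ∧ (m = 0 ∨ ∃ i γ, φ i γ = m) := by
  classical
  have : Group.FG SL(2, ℤ) := Group.fg_iff.mpr
    ⟨{S, T}, SpecialLinearGroup.SL2Z_generators, (Set.finite_singleton T).insert S⟩
  have : Group.FG Γ := Subgroup.fg_of_index_ne_zero Γ
  obtain ⟨s, hs⟩ := (Group.fg_def.mp inferInstance : (⊤ : Subgroup Γ).FG)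
  let := Fintype.ofFinite ι
  -- `Γ` is finitely generated: maximise the valuation over the generators
  rcases (Finset.univ ×ˢ s : Finset (ι × Γ)).eq_empty_or_nonempty with he | hne
  · refine ⟨0, fun i γ => ⟨0, ?_⟩, Or.inl rfl⟩
    obtain ⟨γ, rfl⟩ := Additive.ofMul.surjective γ
    have : γ ∈ Subgroup.closure (s : Set Γ) := by rw [hs]; trivial
    rcases Finset.product_eq_empty.mp he with hu | hu
    · exact absurd (Finset.mem_univ i) (by simp [hu])
    · rw [hu, Finset.coe_empty, Subgroup.closure_empty, Subgroup.mem_bot] at this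
      subst this
      simp
  obtain ⟨⟨i₀, γ₀⟩, -, hmax⟩ := Finset.exists_max_image _
    (fun x : ι × Γ => V.valuation (φ x.1 (Additive.ofMul x.2))) hne
  set m := φ i₀ (Additive.ofMul γ₀)
  refine ⟨m, fun i γ => ?_, Or.inr ⟨i₀, _, rfl⟩⟩
  obtain ⟨γ, rfl⟩ := Additive.ofMul.surjective γ
  have hγ : γ ∈ Subgroup.closure (s : Set Γ) := by rw [hs]; trivial
  -- the bound spreads from generators to all of `Γ` by additivity
  induction hγ using Subgroup.closure_induction with
  | mem x hx =>
    have hle := hmax (i, x) (Finset.mem_product.mpr ⟨Finset.mem_univ _, hx⟩)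
    rcases eq_or_ne m 0 with hm | hm
    · refine ⟨0, ?_⟩
      rw [hm, map_zero, le_zero_iff, map_eq_zero] at hle
      simpa using hle
    · refine ⟨⟨φ i (Additive.ofMul x) / m, ?_⟩, (mul_div_cancel₀ _ hm).symm⟩
      rw [← V.valuation_le_one_iff, map_div₀]
      exact div_le_one_of_le₀ hle zero_le
  | one => exact ⟨0, by simp⟩
  | mul x y _ _ hx hy =>
    obtain ⟨v, hv⟩ := hx
    obtain ⟨w, hw⟩ := hy
    exact ⟨v + w, by rw [ofMul_mul, map_add, hv, hw]; push_cast; ring⟩
  | inv x _ hx =>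
    obtain ⟨v, hv⟩ := hx
    exact ⟨-v, by rw [ofMul_inv, map_neg, hv]; push_cast; ring⟩

/-- Division of a homomorphism by a common divisor of its values. -/
theorem exists_div {V : ValuationSubring ℂ} {m : ℂ} (hm : m ≠ 0) {φ : Homs ℂ Γ}
    (h : ∀ γ, ∃ v : V, φ γ = m * v) : ∃ ψ : Homs V Γ, φ = m • mapCoeff V.subtype ψ := by
  choose v hv using h
  refine ⟨AddMonoidHom.mk' v fun a b => Subtype.ext (mul_left_cancel₀ hm ?_),
    AddMonoidHom.ext hv⟩
  rw [AddMemClass.coe_add, mul_add, ← hv, ← hv, ← hv, map_add]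

/-- Over a valuation ring the kernel of a map from a finite module to a torsion-free one is
finite, as the image is free. -/
theorem finite_ker {V : Type*} [CommRing V] [IsDomain V] [ValuationRing V] {M N : Type*}
    [AddCommGroup M] [Module V M] [Module.Finite V M] [AddCommGroup N] [Module V N]
    [Module.IsTorsionFree V N] (D : M →ₗ[V] N) : Module.Finite V (LinearMap.ker D) := by
  have : Module.Finite V (LinearMap.range D) := Module.Finite.range D
  have : Module.Free V (LinearMap.range D) := free_of_torsionFree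
  obtain ⟨s, hs⟩ := Module.projective_lifting_property D.rangeRestrict LinearMap.id
    D.surjective_rangeRestrict
  let P : M →ₗ[V] LinearMap.ker D :=
    (LinearMap.id - s.comp D.rangeRestrict).codRestrict _ fun x => by
      have h := congrArg Subtype.val (LinearMap.congr_fun hs (D.rangeRestrict x))
      simp only [LinearMap.mem_ker, LinearMap.sub_apply, LinearMap.id_apply, map_sub, sub_eq_zero]
      exact h.symm
  refine Module.Finite.of_surjective P fun x => ⟨x, Subtype.ext ?_⟩
  have h0 : D.rangeRestrict x = 0 := Subtype.ext x.2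
  simp [P, h0]

end Coefficients

/-! ## The situation -/

variable {E₁ E E₂ : ℕ} [NeZero E₁] [NeZero E] [NeZero E₂]

/-- The level `± lowLevel E E₂` of the forms. -/
abbrev smallLevel (E E₂ : ℕ) : Subgroup SL(2, ℤ) := pm (lowLevel E E₂)

/-- The level `± topLevel E`. -/
abbrev midLevel (E : ℕ) : Subgroup SL(2, ℤ) := pm (topLevel E)

omit [NeZero E] [NeZero E₂] in
/-- The sign part of an element of the small level lies in `Γ(E₂)`. -/
theorem mem_lowLevel_sgnPart {g : midLevel E} (hg : (g : SL(2, ℤ)) ∈ smallLevel E E₂) :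
    (sgnPart g : SL(2, ℤ)) ∈ CongruenceSubgroup.Gamma E₂ :=
  ((mem_pm_lowLevel_iff g).mp hg).2

section Actions

variable [((smallLevel E E₂).subgroupOf (midLevel E)).Normal]

/-- A representation of the large level, factored through the quotient. -/
def factorTau {M : Type*} [Monoid M] (τ : topLevel E →* M)
    (h1 : ∀ γ : topLevel E, (γ : SL(2, ℤ)) ∈ CongruenceSubgroup.Gamma E₂ → τ γ = 1) :
    PairQuot (smallLevel E E₂) (midLevel E) →* M :=
  QuotientGroup.lift _ (τ.comp sgnPart) fun _ hg =>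
    MonoidHom.mem_ker.mpr (h1 _ (mem_lowLevel_sgnPart (Subgroup.mem_subgroupOf.mp hg)))

omit [NeZero E] [NeZero E₂] in
/-- The factored representation at a class is the representation at its sign part. -/
theorem factorTau_mk {M : Type*} [Monoid M] (τ : topLevel E →* M)
    (h1 : ∀ γ : topLevel E, (γ : SL(2, ℤ)) ∈ CongruenceSubgroup.Gamma E₂ → τ γ = 1)
    (g : midLevel E) :
    factorTau (E₂ := E₂) τ h1 (QuotientGroup.mk g) = τ (sgnPart g) := rfl

end Actions

variable {W : topLevel E →* Module.End ℂ (QR E₂ → ℂ)} {cst : (ZMod E₂)ˣ} {sgn : ℂ}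
  (hW : IsWeil W cst sgn) (hdvd : E₁ ∣ E) (hE : Nat.Coprime 27 E)
  (θ : (QR E₂ → ℂ) →ₗ[ℂ] CuspForm ((lowLevel E₁ E₂).map (Matrix.SpecialLinearGroup.mapGL ℝ)) 1)

/-- The periods of the products. -/
def periodMap : (QR E₂ → ℂ) →ₗ[ℂ] Homs ℂ (smallLevel E E₂) :=
  haveI := finiteIndex_lowLevel (E₁ := E) (E₂ := E₂)
  (perMap Gamma_le_pm).comp ((wt2 hdvd).comp θ)

omit [NeZero E₁] in
/-- The periods of the products are equivariant for the middle level. -/
theorem periodMap_weil
    (hθ : ∀ (γ : topLevel E) (φ : QR E₂ → ℂ),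
      ⇑(θ (W γ φ)) = (⇑(θ φ)) ∣[(1 : ℤ)] ((γ : SL(2, ℤ))⁻¹))
    (g : midLevel E) (φ : QR E₂ → ℂ) :
    periodMap hdvd θ (W (sgnPart g) φ) =
      (isNormalPair_pm_top hE).act g (periodMap hdvd θ φ) := by
  have := finiteIndex_lowLevel (E₁ := E) (E₂ := E₂)
  set h := isNormalPair_pm_top (E₂ := E₂) hE
  change perMap Gamma_le_pm (wt2 hdvd (θ (W (sgnPart g) φ)))
    = h.act g (perMap Gamma_le_pm (wt2 hdvd (θ φ)))
  rw [show h.act g (perMap Gamma_le_pm (wt2 hdvd (θ φ)))
      = (h.conjCorr g⁻¹).toReps.homMap (perMap Gamma_le_pm (wt2 hdvd (θ φ))) by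
    rw [h.homMap_conjCorr, inv_inv], ← perMap_formMap]
  congr 1
  refine DFunLike.coe_injective ?_
  rw [coe_formMap, Fintype.sum_unique, coe_wt2, hθ]
  change _ = (⇑(θ φ) * bFun) ∣[(2 : ℤ)] toReal (gq ((g⁻¹ : midLevel E) : SL(2, ℤ)))
  rw [toReal_gq, ← ModularForm.SL_slash]
  have h27 : (sgnPart g : SL(2, ℤ))⁻¹ ∈ Gamma1 27 := inv_mem (sgnPart g).2.1
  rcases sgnPart_eq g with e | e
  · rw [show ((g⁻¹ : midLevel E) : SL(2, ℤ)) = (sgnPart g : SL(2, ℤ))⁻¹ by rw [e]; rfl,
      mul_bFun_slash h27]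
  · have e' : ((g⁻¹ : midLevel E) : SL(2, ℤ)) = -(sgnPart g : SL(2, ℤ))⁻¹ := by
      have e2 : (sgnPart g : SL(2, ℤ))⁻¹ = -(g : SL(2, ℤ))⁻¹ := by
        rw [e]; exact inv_eq_of_mul_eq_one_right (by simp)
      rw [e2, neg_neg]; rfl
    rw [e', mul_bFun_slash_neg (by rwa [neg_neg]), neg_neg]

section Lattice

variable (hE : Nat.Coprime 27 E) {V : ValuationSubring ℂ} (h3 : (3 : ℂ) ∈ V.nonunits)
  [((smallLevel E E₂).subgroupOf (midLevel E)).Normal]

/-- Conjugation, factored through the quotient. -/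
def actR (R : Type*) [CommRing R] :
    PairQuot (smallLevel E E₂) (midLevel E) →* Module.End R (Homs R (smallLevel E E₂)) :=
  QuotientGroup.lift _ ((isNormalPair_pm_top hE).act (R := R)) fun g hg => LinearMap.ext fun φ =>
    (isNormalPair_pm_top hE).act_of_mem g (Subgroup.mem_subgroupOf.mp hg) φ

/-- The representation over the valuation ring. -/
def weilV : topLevel E →* Module.End V (QR E₂ → V) :=
  (Matrix.toLinAlgEquiv' : _ ≃ₐ[V] _).toAlgHom.toRingHom.toMonoidHom.comp (weilMat hW h3)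

omit [NeZero E] [((smallLevel E E₂).subgroupOf (midLevel E)).Normal] in
/-- The integral representation is trivial on `Γ(E₂)`. -/
theorem weilV_of_mem_Gamma {γ : topLevel E}
    (hγ : (γ : SL(2, ℤ)) ∈ CongruenceSubgroup.Gamma E₂) : weilV hW h3 γ = 1 := by
  rw [weilV, MonoidHom.comp_apply, weilMat_of_mem_Gamma hW h3 hγ]
  exact map_one _

omit [NeZero E] [((smallLevel E E₂).subgroupOf (midLevel E)).Normal] in
/-- The integral representation in coordinates. -/
theorem weilV_apply (γ : topLevel E) (v : QR E₂ → V) (x : QR E₂) :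
    weilV hW h3 γ v x = ∑ y, weilMat hW h3 γ x y * v y := by
  simp [weilV, Matrix.toLinAlgEquiv'_apply, Matrix.mulVec, dotProduct]

omit [NeZero E] [((smallLevel E E₂).subgroupOf (midLevel E)).Normal] in
/-- The integral representation is the restriction of the complex one. -/
theorem coe_weilV (γ : topLevel E) (v : QR E₂ → V) :
    (fun x => ((weilV hW h3 γ v x : V) : ℂ)) = W γ fun x => ((v x : V) : ℂ) := by
  funext x
  rw [weilV_apply, AddSubmonoidClass.coe_finsetSum]
  conv_rhs => rw [show (fun x => ((v x : V) : ℂ))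
    = ∑ y, ((v y : V) : ℂ) • (Pi.single y 1 : QR E₂ → ℂ) from funext fun z => by
      simp [Pi.single_apply], map_sum, Finset.sum_apply]
  refine Finset.sum_congr rfl fun y _ => ?_
  rw [MulMemClass.coe_mul, coe_weilMat, map_smul, Pi.smul_apply, smul_eq_mul, mul_comm]

end Lattice

section Equations

/-! The equations make sense over any ring of coefficients. -/

variable (hE : Nat.Coprime 27 E) [((smallLevel E E₂).subgroupOf (midLevel E)).Normal]
  {O : Type} [CommRing O] (τ : topLevel E →* Module.End O (QR E₂ → O))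
  (hτ : ∀ γ : topLevel E, (γ : SL(2, ℤ)) ∈ CongruenceSubgroup.Gamma E₂ → τ γ = 1)
  (c : {u : QR E₂ // qnorm u = 1} → O)

/-- The equations of the lattice. -/
def eqnMap : ((QR E₂ → O) →ₗ[O] Homs O (smallLevel E E₂)) →ₗ[O]
      (PairQuot (smallLevel E E₂) (midLevel E) → (QR E₂ → O) →ₗ[O] Homs O (smallLevel E E₂)) ×
      ({u : QR E₂ // qnorm u = 1} → (QR E₂ → O) →ₗ[O] Homs O (smallLevel E E₂)) where
  toFun Ψ := (fun q => Ψ ∘ₗ factorTau (E₂ := E₂) τ hτ q - actR hE O q ∘ₗ Ψ,
      fun u => Ψ ∘ₗ LinearMap.funLeft O O (qmul u.1) - c u • Ψ)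
  map_add' Ψ Ψ' := by ext <;> simp <;> ring
  map_smul' d Ψ := by ext <;> simp [mul_sub, mul_left_comm]

omit [NeZero E] in
/-- The solutions of the equations are the maps equivariant for the middle level and transforming
by `c` under the norm one units. -/
theorem mem_ker_eqnMap (Ψ : (QR E₂ → O) →ₗ[O] Homs O (smallLevel E E₂)) :
    Ψ ∈ LinearMap.ker (eqnMap hE τ hτ c) ↔
      (∀ (g : midLevel E) v,
          Ψ (τ (sgnPart g) v) = (isNormalPair_pm_top hE).act g (Ψ v)) ∧
        ∀ u v, Ψ (fun x => v (qmul u.1 x)) = c u • Ψ v := by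
  rw [LinearMap.mem_ker, eqnMap, LinearMap.coe_mk, AddHom.coe_mk, Prod.mk_eq_zero]
  refine and_congr ⟨fun h g v => ?_, fun h => funext fun q => LinearMap.ext fun v => ?_⟩
    ⟨fun h u v => ?_, fun h => funext fun u => LinearMap.ext fun v => ?_⟩
  · exact sub_eq_zero.mp (LinearMap.congr_fun (congrFun h (QuotientGroup.mk g)) v)
  · induction q using QuotientGroup.induction_on with
    | H g => exact sub_eq_zero.mpr (h g v)
  · exact sub_eq_zero.mp (LinearMap.congr_fun (congrFun h u) v)
  · exact sub_eq_zero.mpr (h u v)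

/-- The lattice of solutions is finitely generated. -/
theorem finite_ker_eqnMap [IsDomain O] [ValuationRing O] (h2 : IsUnit (2 : O)) :
    Module.Finite O (LinearMap.ker (eqnMap hE τ hτ c)) := by
  have := finiteIndex_lowLevel (E₁ := E) (E₂ := E₂)
  have hgood : GoodLevel O (smallLevel E E₂) :=
    GoodLevel.mono (neg_one_mem_pm _)
      ((isNormalPair_pm_top hE).le.trans (pm_topLevel_le hE))
      (goodLevel_Gamma0 h2 E)
  have := hgood.moduleFinite
  have : Module.Free O (Homs O (smallLevel E E₂)) := free_of_torsionFree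
  exact finite_ker (V := O) (M := (QR E₂ → O) →ₗ[O] Homs O (smallLevel E E₂))
    (N := (PairQuot (smallLevel E E₂) (midLevel E) → (QR E₂ → O) →ₗ[O] Homs O (smallLevel E E₂)) ×
      ({u : QR E₂ // qnorm u = 1} → (QR E₂ → O) →ₗ[O] Homs O (smallLevel E E₂)))
    (eqnMap hE τ hτ c)

variable {σ : Type} {p : σ → ℕ} [hp : ∀ i, Fact (p i).Prime]

/-- The operators on the lattice. -/
def latticeOps (hl : ∀ i, (p i : ZMod (27 * E * E₂)) = 1) :
    MvPolynomial σ O →+* Module.End O (LinearMap.ker (eqnMap hE τ hτ c)) where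
  toFun a :=
    { toFun := fun Ψ => ⟨(opAlg O Gamma_le_pm (isNormalPair_pm_top hE).le hl le_rfl
        (isNormalPair_pm_top hE).le a).comp Ψ.1, by
          obtain ⟨h1, h2⟩ := (mem_ker_eqnMap hE τ hτ c Ψ.1).mp Ψ.2
          refine (mem_ker_eqnMap hE τ hτ c _).mpr ⟨fun g v => ?_, fun u v => ?_⟩
          · rw [LinearMap.comp_apply, LinearMap.comp_apply, h1]
            exact opAlg_act (isNormalPair_pm_top hE) Gamma_le_pm hl g a _
          · rw [LinearMap.comp_apply, LinearMap.comp_apply, h2, map_smul]⟩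
      map_add' := fun _ _ => Subtype.ext (LinearMap.comp_add _ _ _)
      map_smul' := fun _ _ => Subtype.ext (LinearMap.comp_smul _ _ _) }
  map_one' := LinearMap.ext fun Ψ => Subtype.ext (LinearMap.ext fun v => by simp)
  map_mul' a b := LinearMap.ext fun Ψ => Subtype.ext (LinearMap.ext fun v => by simp)
  map_zero' := LinearMap.ext fun Ψ => Subtype.ext (LinearMap.ext fun v => by simp)
  map_add' a b := LinearMap.ext fun Ψ => Subtype.ext (LinearMap.ext fun v => by simp)

omit [NeZero E] in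
/-- An operator acts on the lattice after the map. -/
theorem latticeOps_apply (hl : ∀ i, (p i : ZMod (27 * E * E₂)) = 1) (a : MvPolynomial σ O)
    (Ψ : LinearMap.ker (eqnMap hE τ hτ c)) (v : QR E₂ → O) :
    (latticeOps hE τ hτ c hl a Ψ).1 v = opAlg O Gamma_le_pm (isNormalPair_pm_top hE).le hl le_rfl
      (isNormalPair_pm_top hE).le a (Ψ.1 v) := rfl

/-- An eigen class exists in the lattice of equivariant maps, nonzero after reduction. -/
theorem exists_eigen_of_lattice [IsDomain O] [ValuationRing O] (h2 : IsUnit (2 : O)) {k : Type}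
    [Field k] {r : O →+* k} (hr : Function.Surjective r)
    (hl : ∀ i, (p i : ZMod (27 * E * E₂)) = 1) (f : MvPolynomial σ O →+* k)
    (hf : ∀ d, f (MvPolynomial.C d) = r d)
    (hker : ∀ a, (∀ (Ψ : LinearMap.ker (eqnMap hE τ hτ c)) (v : QR E₂ → O),
      opAlg O Gamma_le_pm (isNormalPair_pm_top hE).le hl le_rfl (isNormalPair_pm_top hE).le a
        (Ψ.1 v) = 0) → f a = 0) :
    ∃ x : LinearMap.ker (eqnMap hE τ hτ c),
      x ∉ RingHom.ker r • (⊤ : Submodule O (LinearMap.ker (eqnMap hE τ hτ c))) ∧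
      ∀ a d, r d = f a → ∀ v, mapCoeff r
        (opAlg O Gamma_le_pm (isNormalPair_pm_top hE).le hl le_rfl (isNormalPair_pm_top hE).le a
          (x.1 v)) = r d • mapCoeff r (x.1 v) := by
  let grp : AddCommGroup ↥(LinearMap.ker (eqnMap hE τ hτ c)) :=
    @Submodule.addCommGroup O ((QR E₂ → O) →ₗ[O] Homs O (smallLevel E E₂)) _
      LinearMap.addCommGroup LinearMap.module (LinearMap.ker (eqnMap hE τ hτ c))
  have := finite_ker_eqnMap hE τ hτ c h2
  have : Module.IsTorsionFree O ↥(LinearMap.ker (eqnMap hE τ hτ c)) :=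
    Function.Injective.moduleIsTorsionFree _ Subtype.val_injective fun _ _ => rfl
  -- an eigenvector in the reduction of the lattice
  obtain ⟨x, hx, hxeig⟩ := exists_eigen_reduction
    (L := ↥(LinearMap.ker (eqnMap hE τ hτ c))) hr (latticeOps hE τ hτ c hl) f
    (fun d => ⟨MvPolynomial.C d, LinearMap.ext fun Ψ => Subtype.ext (LinearMap.ext fun v => by
      rw [latticeOps_apply, ← MvPolynomial.algebraMap_eq, AlgHom.commutes]
      rfl), hf d⟩) fun a ha => hker a fun Ψ v => by
        rw [← latticeOps_apply hE τ hτ c hl a Ψ v, ha]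
        rfl
  refine ⟨x, hx, fun a d hd v => ?_⟩
  -- reducing coefficients kills `ker r • L`
  have h2 : ∀ z ∈ RingHom.ker r • (⊤ : Submodule O (LinearMap.ker (eqnMap hE τ hτ c))),
      mapCoeff r (z.1 v) = 0 := by
    intro z hz
    refine Submodule.smul_induction_on hz (fun e he w _ => ?_) fun z w hz hw => ?_
    · rw [SetLike.val_smul, LinearMap.smul_apply, mapCoeff_smul, RingHom.mem_ker.mp he, zero_smul]
    · rw [Submodule.coe_add, LinearMap.add_apply, map_add, hz, hw, add_zero]
  have h1 : mapCoeff r (opAlg O Gamma_le_pm (isNormalPair_pm_top hE).le hl le_rfl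
      (isNormalPair_pm_top hE).le a (x.1 v) - d • x.1 v) = 0 := h2 _ (hxeig a d hd)
  rwa [map_sub, mapCoeff_smul, sub_eq_zero] at h1

end Equations

section Periods

variable (hE : Nat.Coprime 27 E) {V : ValuationSubring ℂ} (h3 : (3 : ℂ) ∈ V.nonunits)
  [((smallLevel E E₂).subgroupOf (midLevel E)).Normal]

/-- Equivariant periods are a multiple of an integral equivariant map. -/
theorem exists_lattice_map (θ : (QR E₂ → ℂ) →ₗ[ℂ]
      CuspForm ((lowLevel E₁ E₂).map (Matrix.SpecialLinearGroup.mapGL ℝ)) 1)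
    (hdvd : E₁ ∣ E)
    (hθ : ∀ (γ : topLevel E) (φ : QR E₂ → ℂ),
      ⇑(θ (W γ φ)) = (⇑(θ φ)) ∣[(1 : ℤ)] ((γ : SL(2, ℤ))⁻¹))
    (c : {u : QR E₂ // qnorm u = 1} → V)
    (hθchr : ∀ u : {u : QR E₂ // qnorm u = 1}, ∀ φ : QR E₂ → ℂ,
      θ (fun x => φ (qmul u.1 x)) = ((c u : V) : ℂ) • θ φ)
    {φ₀ : QR E₂ → ℂ} (hφ₀ : θ φ₀ ≠ 0) :
    ∃ Ψ ∈ LinearMap.ker (eqnMap hE (weilV hW h3) (fun _ => weilV_of_mem_Gamma hW h3) c),
    ∃ m : ℂ, m ≠ 0 ∧ ∀ v,
      periodMap hdvd θ (fun x => ((v x : V) : ℂ)) = m • mapCoeff V.subtype (Ψ v) := by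
  classical
  have := finiteIndex_lowLevel (E₁ := E) (E₂ := E₂)
  set h := isNormalPair_pm_top (E₂ := E₂) hE
  set Φ := periodMap hdvd θ with hΦ
  -- scale m: every period of Φ at a basis vector lies in m • V
  obtain ⟨m, hm, -⟩ := exists_max_value (Γ := smallLevel E E₂) V
    fun y : QR E₂ => Φ (Pi.single y 1)
  -- Φ φ₀ ≠ 0: the product with `b` has a nonzero coefficient
  have hΦne : Φ φ₀ ≠ 0 := by
    intro h0
    have h1 := eq_zero_of_perMap_eq_zero Gamma_le_pm h0
    have h2 : ⇑(θ φ₀) * bFun = 0 := by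
      rw [← coe_wt2 hdvd]; exact congrArg DFunLike.coe h1
    obtain ⟨n, hn⟩ := exists_coeff_wt2_ne_zero hdvd (θ φ₀) hφ₀
    refine hn ?_
    rw [coe_wt2, h2, UpperHalfPlane.qExpansion_zero, map_zero]
  have hexp : ∀ φ : QR E₂ → ℂ, φ = ∑ y, φ y • (Pi.single y 1 : QR E₂ → ℂ) := fun φ => by
    funext x
    simp [Pi.single_apply]
  have hm0 : m ≠ 0 := by
    intro h0
    refine hΦne ?_
    rw [hexp φ₀, map_sum]
    refine Finset.sum_eq_zero fun y _ => ?_
    rw [map_smul, show Φ (Pi.single y 1) = 0 from AddMonoidHom.ext fun γ => by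
      obtain ⟨v, hv⟩ := hm y γ; rw [hv, h0, zero_mul]; rfl, smul_zero]
  -- dividing by m gives the integral map Ψ
  choose ψ0 hψ0 using fun y => exists_div (V := V) hm0 (hm y)
  let Ψ : (QR E₂ → V) →ₗ[V] Homs V (smallLevel E E₂) :=
    ∑ y, (LinearMap.proj y).smulRight (ψ0 y)
  have hΨ : ∀ v, Φ (fun x => ((v x : V) : ℂ)) = m • mapCoeff V.subtype (Ψ v) := by
    intro v
    rw [hexp (fun x => ((v x : V) : ℂ)), map_sum, show Ψ v = ∑ y, v y • ψ0 y by simp [Ψ],
      map_sum, Finset.smul_sum]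
    refine Finset.sum_congr rfl fun y _ => ?_
    rw [mapCoeff_smul, map_smul, hψ0 y, smul_comm]
    rfl
  have hcancel : ∀ {x y : Homs V (smallLevel E E₂)},
      m • mapCoeff V.subtype x = m • mapCoeff V.subtype y → x = y := fun h' =>
    mapCoeff_inj Subtype.coe_injective (smul_right_injective _ hm0 h')
  -- Ψ satisfies the Weil and character equations, as Φ does
  refine ⟨Ψ, (mem_ker_eqnMap hE (weilV hW h3) (fun _ => weilV_of_mem_Gamma hW h3) c Ψ).mpr
    ⟨fun g v => hcancel ?_, fun u v => hcancel ?_⟩, m, hm0, hΨ⟩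
  · rw [← hΨ, h.mapCoeff_act, ← map_smul (h.act g), ← hΨ, coe_weilV]
    exact periodMap_weil hdvd hE θ hθ g _
  · rw [← hΨ, mapCoeff_smul, smul_comm, ← hΨ]
    change perMap Gamma_le_pm (wt2 hdvd (θ fun x => ((v (qmul u.1 x) : V) : ℂ))) = _
    rw [hθchr u (fun x => ((v x : V) : ℂ)), map_smul, map_smul]
    rfl

/-- The lattice is saturated. -/
theorem mem_smul_top_of_reduction (c : {u : QR E₂ // qnorm u = 1} → V)
    (x : LinearMap.ker (eqnMap hE (weilV hW h3) (fun _ => weilV_of_mem_Gamma hW h3) c))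
    (h0 : ∀ v, mapCoeff (IsLocalRing.residue V) (x.1 v) = 0) :
    x ∈ RingHom.ker (IsLocalRing.residue V) •
      (⊤ : Submodule V (LinearMap.ker (eqnMap hE (weilV hW h3)
        (fun _ => weilV_of_mem_Gamma hW h3) c))) := by
  classical
  have := finiteIndex_lowLevel (E₁ := E) (E₂ := E₂)
  -- the largest value of the coefficients of `x`
  obtain ⟨m', hm1, hm2⟩ := exists_max_value (Γ := smallLevel E E₂) V
    fun y : QR E₂ => mapCoeff V.subtype (x.1 (Pi.single y 1))
  have hsingle : ∀ (Z : (QR E₂ → V) →ₗ[V] Homs V (smallLevel E E₂)) y (d : V),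
      Z (Pi.single y d) = d • Z (Pi.single y 1) := fun Z y d => by
    rw [← map_smul, ← Pi.single_smul, smul_eq_mul, mul_one]
  -- if it is zero so is `x`
  rcases eq_or_ne m' 0 with h4 | h4
  · have : x = 0 := Subtype.ext (LinearMap.pi_ext fun y d => by
      rw [hsingle, show x.1 (Pi.single y 1) = 0 from AddMonoidHom.ext fun γ => Subtype.ext (by
          obtain ⟨v, hv⟩ := hm1 y γ; rw [h4, zero_mul] at hv; exact hv), smul_zero]
      simp)
    rw [this]; exact zero_mem _
  -- otherwise divide `x` by it inside the lattice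
  · obtain ⟨y₀, γ₀, he⟩ := hm2.resolve_left h4
    set π : V := x.1 (Pi.single y₀ 1) γ₀
    have hπ : IsLocalRing.residue V π = 0 := DFunLike.congr_fun (h0 (Pi.single y₀ 1)) γ₀
    choose z hz using fun y => exists_div (V := V) h4 (hm1 y)
    let Z : (QR E₂ → V) →ₗ[V] Homs V (smallLevel E E₂) :=
      ∑ y, (LinearMap.proj y).smulRight (z y)
    have hxZ : x.1 = π • Z := LinearMap.pi_ext fun y d => by
      rw [LinearMap.smul_apply, hsingle, hsingle Z, smul_comm π]
      congr 1
      refine mapCoeff_inj (f := V.subtype) Subtype.coe_injective ?_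
      rw [hz y, mapCoeff_smul, ← he, show Z (Pi.single y 1) = z y by simp [Z, Pi.single_apply]]
      rfl
    have hπ0 : π ≠ 0 := fun h6 => h4 (by
      rw [← he]
      change ((π : V) : ℂ) = 0
      rw [h6]; rfl)
    -- the quotient stays in the kernel as multiplication is injective
    have hZ : Z ∈ LinearMap.ker (eqnMap hE (weilV hW h3)
        (fun _ => weilV_of_mem_Gamma hW h3) c) := by
      rw [LinearMap.mem_ker]
      have h7 : π • eqnMap hE (weilV hW h3) (fun _ => weilV_of_mem_Gamma hW h3)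
        c Z = 0 := by rw [← map_smul, ← hxZ]; exact x.2
      exact (smul_eq_zero.mp h7).resolve_left hπ0
    rw [show x = π • (⟨Z, hZ⟩ : LinearMap.ker (eqnMap hE (weilV hW h3)
      (fun _ => weilV_of_mem_Gamma hW h3) c)) from Subtype.ext hxZ]
    exact Submodule.smul_mem_smul (RingHom.mem_ker.mpr hπ) trivial

end Periods

variable {σ : Type} {p : σ → ℕ} [hp : ∀ i, Fact (p i).Prime]

include hdvd in
/-- **The equivariant eigen map.** Forms with these eigenvalues give modulo `3` a nonzero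
equivariant map into homomorphisms with the same eigenvalues. -/
theorem exists_eigen_map (hl : ∀ i, (p i : ZMod (27 * E * E₂)) = 1) (t : σ → ℤ)
    (hθ : ∀ (γ : topLevel E) (φ : QR E₂ → ℂ),
      ⇑(θ (W γ φ)) = (⇑(θ φ)) ∣[(1 : ℤ)] ((γ : SL(2, ℤ))⁻¹))
    (chr : QR E₂ → ℂ) (hchr : ∀ u, qnorm u = 1 → chr u ^ 3 = 1)
    (hθchr : ∀ u, qnorm u = 1 → ∀ φ : QR E₂ → ℂ,
      θ (fun x => φ (qmul u x)) = chr u • θ φ)
    (hne : ∃ φ, θ φ ≠ 0)
    (hrel : ∀ φ i n, (UpperHalfPlane.qExpansion (E₂ : ℝ) ⇑(θ φ)).coeff (p i * n) +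
        (if p i ∣ n then (UpperHalfPlane.qExpansion (E₂ : ℝ) ⇑(θ φ)).coeff (n / p i) else 0) =
      (t i : ℂ) * (UpperHalfPlane.qExpansion (E₂ : ℝ) ⇑(θ φ)).coeff n)
    {V : ValuationSubring ℂ} (h3 : (3 : ℂ) ∈ V.nonunits) :
    ∃ ψ : (QR E₂ → IsLocalRing.ResidueField V) →ₗ[IsLocalRing.ResidueField V]
        Homs (IsLocalRing.ResidueField V) (smallLevel E E₂),
      ψ ≠ 0 ∧
      (∀ (g : midLevel E) (φ : QR E₂ → IsLocalRing.ResidueField V),
        ψ (weilK hW h3 (sgnPart g) φ) = (isNormalPair_pm_top hE).act g (ψ φ)) ∧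
      (∀ u, qnorm u = 1 → ∀ φ, ψ (fun x => φ (qmul u x)) = ψ φ) ∧
      ∀ (a : MvPolynomial σ V) φ,
        opAlg (IsLocalRing.ResidueField V) Gamma_le_pm (isNormalPair_pm_top hE).le hl le_rfl
            (isNormalPair_pm_top hE).le (MvPolynomial.map (IsLocalRing.residue V) a) (ψ φ)
          = thetaHom V t a • ψ φ := by
  classical
  have := finiteIndex_lowLevel (E₁ := E) (E₂ := E₂)
  set h := isNormalPair_pm_top (E₂ := E₂) hE
  have := h.normal_subgroupOf
  set res := IsLocalRing.residue V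
  let c : {u : QR E₂ // qnorm u = 1} → V := fun u =>
    ⟨chr u.1, mem_of_pow_eq_one V three_ne_zero (hchr u.1 u.2)⟩
  obtain ⟨φ₀, hφ₀⟩ := hne
  -- an integral lift Ψ of the periods
  obtain ⟨Ψ, hΨmem, m, hm0, hΨ⟩ := exists_lattice_map hW hE h3 θ hdvd hθ c
    (fun u φ => hθchr u.1 u.2 φ) hφ₀
  -- an eigen element x of that lattice, nonzero mod the maximal ideal
  obtain ⟨x, hx, hxeig⟩ := exists_eigen_of_lattice hE (weilV hW h3)
    (fun _ => weilV_of_mem_Gamma hW h3) c (isUnit_two h3) (r := res)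
    Ideal.Quotient.mk_surjective hl (thetaHom V t) (fun d => MvPolynomial.eval₂Hom_C _ _ _)
    (fun a ha => by
      refine thetaHom_eq_zero hdvd h.le (θ φ₀) hφ₀ hl t (hrel φ₀) V h3 a ?_
      have h1 : ∀ y, opAlg ℂ Gamma_le_pm h.le hl le_rfl h.le (MvPolynomial.map V.subtype a)
          (periodMap hdvd θ (Pi.single y 1)) = 0 := fun y => by
        have e := hΨ (Pi.single y 1)
        rw [show (fun x => (((Pi.single y 1 : QR E₂ → V) x : V) : ℂ)) = Pi.single y 1 from
          funext fun z => by rw [Pi.single_apply, Pi.single_apply]; split_ifs <;> rfl] at e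
        rw [e, map_smul, ← mapCoeff_opAlg, ha ⟨Ψ, hΨmem⟩]
        simp
      change opAlg ℂ Gamma_le_pm h.le hl le_rfl h.le (MvPolynomial.map V.subtype a)
        (periodMap hdvd θ φ₀) = 0
      rw [show φ₀ = ∑ y, φ₀ y • (Pi.single y 1 : QR E₂ → ℂ) from funext fun z => by
        simp [Pi.single_apply], map_sum, map_sum]
      exact Finset.sum_eq_zero fun y _ => by rw [map_smul, map_smul, h1, smul_zero])
  obtain ⟨hx1, hx2⟩ := (mem_ker_eqnMap hE (weilV hW h3)
    (fun _ => weilV_of_mem_Gamma hW h3) c x.1).mp x.2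
  -- ψ is the reduction of x
  let ψ : (QR E₂ → IsLocalRing.ResidueField V) →ₗ[IsLocalRing.ResidueField V]
      Homs (IsLocalRing.ResidueField V) (smallLevel E E₂) :=
    ∑ y, (LinearMap.proj y).smulRight (mapCoeff res (x.1 (Pi.single y 1)))
  have hψ : ∀ v : QR E₂ → V, ψ (fun z => res (v z)) = mapCoeff res (x.1 v) := by
    intro v
    have e : v = ∑ y, v y • (Pi.single y 1 : QR E₂ → V) := by
      funext z; simp [Pi.single_apply]
    conv_rhs => rw [e, map_sum, map_sum]
    simp [ψ, mapCoeff_smul]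
  have hlift : ∀ φ : QR E₂ → IsLocalRing.ResidueField V,
      ∃ v : QR E₂ → V, (fun z => res (v z)) = φ := fun φ => by
    choose v hv using fun z => Ideal.Quotient.mk_surjective (φ z)
    exact ⟨v, funext hv⟩
  -- check: ψ ≠ 0, Weil equivariance, norm one invariance, eigen relations
  refine ⟨ψ, fun h0 => hx ?_, fun g φ => ?_, fun u hu φ => ?_, fun a φ => ?_⟩
  · exact mem_smul_top_of_reduction hW hE h3 c x fun v => by
      rw [← hψ, h0]; rfl
  · obtain ⟨v, rfl⟩ := hlift φ
    rw [show weilK hW h3 (sgnPart g) (fun z => res (v z))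
        = fun z => res (weilV hW h3 (sgnPart g) v z) from funext fun z => by
      simp [weilK_apply, weilV_apply, res], hψ, hψ, hx1]
    exact h.mapCoeff_act res g _
  · obtain ⟨v, rfl⟩ := hlift φ
    change ψ (fun z => res ((fun x => v (qmul u x)) z)) = _
    rw [hψ, hx2 ⟨u, hu⟩, mapCoeff_smul, hψ,
      residue_eq_one_of_cube h3 (z := c ⟨u, hu⟩) (Subtype.ext (hchr u hu)), one_smul]
  · obtain ⟨v, rfl⟩ := hlift φ
    obtain ⟨d, hd⟩ := Ideal.Quotient.mk_surjective (thetaHom V t a)
    have h3' := hxeig a d hd v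
    rw [mapCoeff_opAlg] at h3'
    rw [hψ, h3', show res d = thetaHom V t a from hd]

end Fermat.RM
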