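import Mathlib

/-!
# The series of `∏ (1 - x^(E n))^3 / ∏ (1 - x^(3 E n))`: integral and congruent to one modulo three

The series is `etaInt`, and `tser_etaQuot` identifies it.
-/

set_option autoImplicit false

noncomputable section

namespace Fermat.RM

open Filter Topology

/-- The Taylor series at `0`. -/
def tser (f : ℂ → ℂ) : PowerSeries ℂ :=
  PowerSeries.mk fun n => (n.factorial : ℂ)⁻¹ * iteratedDeriv n f 0

/-- The coefficients of the Taylor series. -/
theorem coeff_tser (f : ℂ → ℂ) (n : ℕ) :
    PowerSeries.coeff n (tser f) = (n.factorial : ℂ)⁻¹ * iteratedDeriv n f 0 := by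
  simp [tser]

/-- The Taylor series of a product of analytic functions is the product of the series. -/
theorem tser_mul {f g : ℂ → ℂ} (hf : AnalyticAt ℂ f 0) (hg : AnalyticAt ℂ g 0) :
    tser (f * g) = tser f * tser g := by
  ext n
  simp only [coeff_tser, iteratedDeriv_mul hf.contDiffAt hg.contDiffAt, Finset.mul_sum,
    PowerSeries.coeff_mul, Finset.Nat.sum_antidiagonal_eq_sum_range_succ_mk, Nat.succ_eq_add_one]
  refine Finset.sum_congr rfl fun i hi => ?_
  rw [Nat.cast_choose _ (by grind)]
  field_simp [Nat.factorial_ne_zero]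

/-- The Taylor series depends only on the germ at `0`. -/
theorem tser_congr {f g : ℂ → ℂ} (h : f =ᶠ[𝓝 0] g) : tser f = tser g := by
  ext n
  rw [coeff_tser, coeff_tser, h.iteratedDeriv_eq n]

/-- The Taylor coefficients of a polynomial function are the coefficients of the polynomial. -/
theorem coeff_tser_aeval (p : Polynomial ℤ) (n : ℕ) :
    PowerSeries.coeff n (tser fun x : ℂ => Polynomial.aeval x p) = (p.coeff n : ℂ) := by
  have h : ∀ (k : ℕ) (q : Polynomial ℂ), iteratedDeriv k (fun x => q.eval x) =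
      fun x => (Polynomial.derivative^[k] q).eval x := by
    intro k
    induction k with
    | zero => simp
    | succ k ih =>
      intro q
      rw [iteratedDeriv_succ', show deriv (fun x => q.eval x) = fun x => q.derivative.eval x from
        funext fun x => q.deriv, ih, Function.iterate_succ_apply]
  have h' : (fun x : ℂ => Polynomial.aeval x p) = fun x => (p.map (Int.castRingHom ℂ)).eval x := by
    funext x
    rw [Polynomial.eval_map, Polynomial.aeval_def, algebraMap_int_eq]
  rw [coeff_tser, h', h]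
  simp only [← Polynomial.coeff_zero_eq_eval_zero, Polynomial.coeff_iterate_derivative, zero_add,
    Nat.descFactorial_self, nsmul_eq_mul, Polynomial.coeff_map, eq_intCast]
  field_simp [Nat.factorial_ne_zero]

/-- The open unit disc. -/
abbrev disc : Set ℂ := Metric.ball (0 : ℂ) 1

/-- The disc is a neighbourhood of `0`. -/
theorem disc_mem_nhds : disc ∈ 𝓝 (0 : ℂ) := Metric.ball_mem_nhds _ one_pos

/-- Derivatives at `0` pass to locally uniform limits on the disc. -/
theorem tendsto_iteratedDeriv {ι : Type} {φ : Filter ι} {F : ι → ℂ → ℂ} {f : ℂ → ℂ}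
    (h : TendstoLocallyUniformlyOn F f φ disc) (hF : ∀ i, Differentiable ℂ (F i)) (n : ℕ) :
    Tendsto (fun i => iteratedDeriv n (F i) 0) φ (𝓝 (iteratedDeriv n f 0)) := by
  have key : TendstoLocallyUniformlyOn (fun i => iteratedDeriv n (F i))
      (iteratedDeriv n f) φ disc := by
    induction n with
    | zero => simpa using h
    | succ n ih =>
      simp only [iteratedDeriv_succ]
      exact ih.deriv (Eventually.of_forall fun i =>
        (((hF i).contDiff (n := (n : ℕ∞) + 1)).differentiable_iteratedDeriv n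
          (by exact_mod_cast Nat.lt_succ_self n)).differentiableOn) Metric.isOpen_ball
  exact key.tendsto_at (mem_of_mem_nhds disc_mem_nhds)

/-- `∏ (1 - q^n)`. -/
def eulerP (q : ℂ) : ℂ := ∏' n : ℕ, (1 - q ^ (n + 1))

/-- The Euler product is holomorphic on the disc. -/
theorem differentiableOn_eulerP : DifferentiableOn ℂ eulerP disc :=
  ModularForm.differentiableOn_tprod_one_sub_pow

/-- The Euler product is `1` at `0`. -/
theorem eulerP_zero : eulerP 0 = 1 := by simp [eulerP]

/-- The Euler product does not vanish on the disc. -/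
theorem eulerP_ne_zero {q : ℂ} (hq : q ∈ disc) : eulerP q ≠ 0 := by
  rw [mem_ball_zero_iff] at hq
  refine tprod_one_add_ne_zero_of_summable (f := fun n => -q ^ (n + 1)) (fun i h => ?_) ?_
  · rw [← sub_eq_add_neg, sub_eq_zero] at h
    have h1 : ‖q ^ (i + 1)‖ < 1 := by
      rw [norm_pow]
      exact pow_lt_one₀ (norm_nonneg _) hq (Nat.succ_ne_zero i)
    rw [← h, norm_one] at h1
    exact lt_irrefl _ h1
  · simpa using (summable_nat_add_iff 1).mpr (summable_geometric_of_lt_one (norm_nonneg _) hq)

/-- The disc is stable under positive powers. -/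
theorem pow_mem_disc {x : ℂ} (hx : x ∈ disc) {E : ℕ} (hE : 0 < E) : x ^ E ∈ disc := by
  rw [mem_ball_zero_iff] at hx ⊢
  rw [norm_pow]
  exact pow_lt_one₀ (norm_nonneg _) hx hE.ne'

/-- `∏ (1 - x^(E n))`. -/
def eulerE (E : ℕ) (x : ℂ) : ℂ := eulerP (x ^ E)

/-- `eulerE E` is holomorphic on the disc. -/
theorem differentiableOn_eulerE {E : ℕ} (hE : 0 < E) : DifferentiableOn ℂ (eulerE E) disc :=
  differentiableOn_eulerP.comp (differentiableOn_id.pow E) fun _ hx => pow_mem_disc hx hE

/-- `eulerE E` is analytic at `0`. -/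
theorem analyticAt_eulerE {E : ℕ} (hE : 0 < E) : AnalyticAt ℂ (eulerE E) 0 :=
  (differentiableOn_eulerE hE).analyticAt disc_mem_nhds

/-- The partial products. -/
def eulerPoly (E : ℕ) (s : Finset ℕ) : Polynomial ℤ :=
  ∏ n ∈ s, (1 - (Polynomial.X ^ E) ^ (n + 1))

/-- The coefficients of the infinite product are those of long partial products. -/
theorem exists_coeff_eulerE {E : ℕ} (hE : 0 < E) (n : ℕ) :
    ∃ c : ℤ, PowerSeries.coeff n (tser (eulerE E)) = c ∧
      ∀ᶠ s : Finset ℕ in atTop, (eulerPoly E s).coeff n = c := by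
  have h0 : TendstoLocallyUniformlyOn (fun (s : Finset ℕ) (x : ℂ) => ∏ i ∈ s, (1 - x ^ (i + 1)))
      eulerP atTop disc :=
    ModularForm.multipliableLocallyUniformlyOn_one_sub_pow.hasProdLocallyUniformlyOn
  have h1 : TendstoLocallyUniformlyOn
      (fun (s : Finset ℕ) (x : ℂ) => Polynomial.aeval x (eulerPoly E s)) (eulerE E) atTop disc := by
    have h2 := h0.comp (fun x : ℂ => x ^ E) (fun x hx => pow_mem_disc hx hE)
      ((continuous_pow E).continuousOn)
    refine h2.congr fun s x _ => ?_
    simp [eulerPoly, map_prod]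
  have h2 := tendsto_iteratedDeriv h1 (fun s => Polynomial.differentiable_aeval _) n
  have h3 : Tendsto (fun s : Finset ℕ => ((eulerPoly E s).coeff n : ℂ)) atTop
      (𝓝 (PowerSeries.coeff n (tser (eulerE E)))) := by
    rw [coeff_tser]
    refine (h2.const_mul _).congr fun s => ?_
    rw [← coeff_tser_aeval, coeff_tser]
  obtain ⟨c, hc⟩ := Complex.isClosedEmbedding_intCast.isClosed_range.mem_of_tendsto h3
    (Eventually.of_forall fun s => ⟨_, rfl⟩)
  refine ⟨c, hc.symm, ?_⟩
  rw [← hc] at h3
  have h4 : Tendsto (fun s : Finset ℕ => (eulerPoly E s).coeff n) atTop (𝓝 c) :=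
    (Complex.isClosedEmbedding_intCast.isInducing.tendsto_nhds_iff).mpr h3
  rw [nhds_discrete, tendsto_pure] at h4
  exact h4

/-- The integral series of `eulerE`. -/
def eulerInt (E : ℕ) : PowerSeries ℤ := PowerSeries.mk fun n =>
  if h : 0 < E then (exists_coeff_eulerE h n).choose else 0

/-- `eulerInt E` is the Taylor series of `eulerE E`. -/
theorem map_eulerInt {E : ℕ} (hE : 0 < E) :
    PowerSeries.map (Int.castRingHom ℂ) (eulerInt E) = tser (eulerE E) := by
  ext n
  rw [PowerSeries.coeff_map, eulerInt, PowerSeries.coeff_mk, dif_pos hE, eq_intCast]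
  exact (exists_coeff_eulerE hE n).choose_spec.1.symm

/-- The series of the Euler product starts with `1`. -/
theorem constantCoeff_eulerInt {E : ℕ} (hE : 0 < E) :
    PowerSeries.constantCoeff (eulerInt E) = 1 := by
  have h := congrArg (PowerSeries.coeff 0) (map_eulerInt hE)
  rw [PowerSeries.coeff_map, coeff_tser, iteratedDeriv_zero, eulerE, zero_pow hE.ne', eulerP_zero,
    PowerSeries.coeff_zero_eq_constantCoeff_apply] at h
  simpa using h

/-- `(∏ (1 - x ^ (E n))) ^ 3 ≡ ∏ (1 - x ^ (3 E n))` modulo three. -/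
theorem pow_three_sub_congr {E : ℕ} (hE : 0 < E) (n : ℕ) :
    (3 : ℤ) ∣ PowerSeries.coeff n (eulerInt E ^ 3 - eulerInt (3 * E)) := by
  have h3 : 0 < 3 * E := by omega
  have hev : ∀ E' : ℕ, 0 < E' → ∀ᶠ s : Finset ℕ in atTop, ∀ m ≤ n,
      (eulerPoly E' s).coeff m = PowerSeries.coeff m (eulerInt E') := fun E' hE' =>
    (Finset.eventually_all (Finset.range (n + 1))).mpr (fun m _ => by
      filter_upwards [(exists_coeff_eulerE hE' m).choose_spec.2] with s hs
      rw [hs, eulerInt, PowerSeries.coeff_mk, dif_pos hE']) |>.mono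
      fun s hs m hm => hs m (Finset.mem_range.mpr (by omega))
  obtain ⟨s, hs, hs3⟩ := ((hev E hE).and (hev (3 * E) h3)).exists
  have e1 : PowerSeries.trunc (n + 1) (eulerInt E) =
      PowerSeries.trunc (n + 1) (eulerPoly E s : PowerSeries ℤ) := by
    refine Polynomial.ext fun i => ?_
    rw [PowerSeries.coeff_trunc, PowerSeries.coeff_trunc, Polynomial.coeff_coe]
    split_ifs with hi
    · exact (hs i (by omega)).symm
    · rfl
  have e2 : PowerSeries.coeff n (eulerInt E ^ 3) = ((eulerPoly E s) ^ 3).coeff n := by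
    have key : ∀ f : PowerSeries ℤ, PowerSeries.coeff n (f ^ 3) = (PowerSeries.trunc (n + 1)
        (((PowerSeries.trunc (n + 1) f : Polynomial ℤ) : PowerSeries ℤ) ^ 3)).coeff n := fun f => by
      rw [PowerSeries.trunc_trunc_pow, PowerSeries.coeff_trunc, if_pos (Nat.lt_succ_self n)]
    rw [← Polynomial.coeff_coe, Polynomial.coe_pow, key, e1, ← key]
  rw [map_sub, e2, ← hs3 n le_rfl, ← Polynomial.coeff_sub]
  refine (ZMod.intCast_zmod_eq_zero_iff_dvd _ 3).mp ?_
  have : Fact (Nat.Prime 3) := ⟨Nat.prime_three⟩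
  have h0 : ((eulerPoly E s) ^ 3 - eulerPoly (3 * E) s).map (Int.castRingHom (ZMod 3)) = 0 := by
    simp only [eulerPoly, Polynomial.map_sub, Polynomial.map_pow, Polynomial.map_prod,
      Polynomial.map_one, Polynomial.map_X, ← Finset.prod_pow, sub_eq_zero]
    refine Finset.prod_congr rfl fun i _ => ?_
    rw [sub_pow_char, one_pow]
    ring
  have h1 := congrArg (fun p => Polynomial.coeff p n) h0
  simp only [Polynomial.coeff_map, Polynomial.coeff_zero, eq_intCast] at h1
  exact h1

/-- The series of the eta quotient. -/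
def etaInt (E : ℕ) : PowerSeries ℤ :=
  eulerInt E ^ 3 * PowerSeries.invOfUnit (eulerInt (3 * E)) 1

/-- `etaInt E` is the quotient of the two series. -/
theorem etaInt_mul {E : ℕ} (hE : 0 < E) : etaInt E * eulerInt (3 * E) = eulerInt E ^ 3 := by
  rw [etaInt, mul_assoc, mul_comm (PowerSeries.invOfUnit _ _),
    PowerSeries.mul_invOfUnit _ _ (by rw [constantCoeff_eulerInt (by omega)]; simp), mul_one]

/-- `etaInt E` is congruent to `1` modulo three. -/
theorem etaInt_congr {E : ℕ} (hE : 0 < E) (n : ℕ) :
    (3 : ℤ) ∣ PowerSeries.coeff n (etaInt E) - if n = 0 then 1 else 0 := by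
  have h : etaInt E - 1 =
      (eulerInt E ^ 3 - eulerInt (3 * E)) * PowerSeries.invOfUnit (eulerInt (3 * E)) 1 := by
    rw [sub_mul, PowerSeries.mul_invOfUnit _ _ (by rw [constantCoeff_eulerInt (by omega)]; simp)]
    rfl
  rw [show (if n = 0 then (1 : ℤ) else 0) = PowerSeries.coeff n 1 by rw [PowerSeries.coeff_one],
    ← map_sub, h, PowerSeries.coeff_mul]
  exact Finset.dvd_sum fun i _ => dvd_mul_of_dvd_left (pow_three_sub_congr hE _) _

/-- The eta quotient in a `q`-parameter. -/
def etaQuot (E : ℕ) (x : ℂ) : ℂ := eulerE E x ^ 3 / eulerE (3 * E) x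

/-- The eta quotient is holomorphic on the disc. -/
theorem differentiableOn_etaQuot {E : ℕ} (hE : 0 < E) : DifferentiableOn ℂ (etaQuot E) disc :=
  ((differentiableOn_eulerE hE).pow 3).div (differentiableOn_eulerE (by omega))
    fun _ hx => eulerP_ne_zero (pow_mem_disc hx (by omega))

/-- The eta quotient is `1` at `0`. -/
theorem etaQuot_zero {E : ℕ} (hE : 0 < E) : etaQuot E 0 = 1 := by
  simp [etaQuot, eulerE, zero_pow hE.ne', zero_pow (show 3 * E ≠ 0 by omega), eulerP_zero]

/-- **The eta quotient has the integral series `etaInt`.** -/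
theorem tser_etaQuot {E : ℕ} (hE : 0 < E) :
    tser (etaQuot E) = PowerSeries.map (Int.castRingHom ℂ) (etaInt E) := by
  have h3 : 0 < 3 * E := by omega
  have hq := (differentiableOn_etaQuot hE).analyticAt disc_mem_nhds
  have hA := analyticAt_eulerE hE
  have h1 : tser (etaQuot E * eulerE (3 * E)) = tser (eulerE E * (eulerE E * eulerE E)) := by
    refine tser_congr ?_
    filter_upwards [disc_mem_nhds] with x hx
    simp only [Pi.mul_apply, etaQuot]
    rw [div_mul_cancel₀ _ (show eulerE (3 * E) x ≠ 0 from eulerP_ne_zero (pow_mem_disc hx h3))]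
    ring
  rw [tser_mul hq (analyticAt_eulerE h3), tser_mul hA (hA.mul hA), tser_mul hA hA,
    ← map_eulerInt hE, ← map_eulerInt h3, ← map_mul, ← map_mul] at h1
  have h2 : PowerSeries.map (Int.castRingHom ℂ) (eulerInt (3 * E)) ≠ 0 := fun h => by
    have := congrArg (PowerSeries.coeff 0) h
    rw [PowerSeries.coeff_map, PowerSeries.coeff_zero_eq_constantCoeff_apply,
      constantCoeff_eulerInt h3] at this
    simp at this
  refine mul_right_cancel₀ h2 ?_
  rw [h1, ← map_mul, etaInt_mul hE]
  congr 1
  ring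

end Fermat.RM
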