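import Fermat.Agent.RM.Higman

/-!
# Fixed vectors detect equivariant maps

An equivariant map into a module with Higman's criterion, factoring through modules induced from a
subgroup, extends to those; so an equivariant endomorphism killing the fixed vectors of the subgroup
kills its image.
-/

set_option autoImplicit false

noncomputable section

namespace Fermat.RM

variable {k : Type*} [Field k] {G : Type*} [Group G] [Fintype G] {M : Type*} [AddCommGroup M]
  [Module k M] {ρ : G →* Module.End k M} {W : Type*} [AddCommGroup W] [Module k W]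
  {I : Type*} [Finite I]

/-- An equivariant endomorphism killing the vectors fixed by `B` kills the image of an equivariant
map which does not see the common kernel of the translates of functionals invariant under `B`. -/
theorem apply_eq_zero_of_fixed (hsec : HasSection ρ) (B : Subgroup G) (τ : G →* Module.End k W)
    (Z : I → Module.Dual k W) (hZ : ∀ b ∈ B, ∀ i w, Z i (τ b w) = Z i w) (ψ : W →ₗ[k] M)
    (hψ : ∀ g w, ψ (τ g w) = ρ g (ψ w))
    (hsep : ∀ w, (∀ g i, Z i (τ g w) = 0) → ψ w = 0) (f : Module.End k M)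
    (hf : ∀ g m, f (ρ g m) = ρ g (f m)) (hfix : ∀ m, (∀ b ∈ B, ρ b m = m) → f m = 0) (w : W) :
    f (ψ w) = 0 := by
  classical
  let := Fintype.ofFinite I
  let : Fintype (G ⧸ B) := Fintype.ofFinite _
  -- τP: the induced representation on I → G ⧸ B → k
  let τP : G →* Module.End k (I → G ⧸ B → k) :=
    { toFun := fun g =>
        { toFun := fun F i q => F i (g⁻¹ • q)
          map_add' := fun _ _ => rfl
          map_smul' := fun _ _ => rfl }
      map_one' := LinearMap.ext fun F => funext fun i => funext fun q => by simp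
      map_mul' := fun a b => LinearMap.ext fun F => funext fun i => funext fun q => by
        simp [mul_smul] }
  have hτP : ∀ g (F : I → G ⧸ B → k) i q, τP g F i q = F i (g⁻¹ • q) := fun _ _ _ _ => rfl
  -- J : v ↦ (Z i (τ q⁻¹ v)) is equivariant, with kernel inside ker ψ
  let J : W →ₗ[k] (I → G ⧸ B → k) :=
    LinearMap.pi fun i => LinearMap.pi fun q => (Z i).comp (τ q.out⁻¹)
  have hJapp : ∀ v i q, J v i q = Z i (τ q.out⁻¹ v) := fun _ _ _ => rfl
  have hJ : ∀ g v, J (τ g v) = τP g (J v) := fun g v => funext fun i => funext fun q => by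
    rw [hτP, hJapp, hJapp]
    set q' := g⁻¹ • q
    have hb : q'.out⁻¹ * (g⁻¹ * q.out) ∈ B := by
      rw [← QuotientGroup.eq, QuotientGroup.out_eq']
      change q' = g⁻¹ • (QuotientGroup.mk q.out : G ⧸ B)
      rw [QuotientGroup.out_eq']
    rw [← Module.End.mul_apply, ← map_mul,
      show q.out⁻¹ * g = (q'.out⁻¹ * (g⁻¹ * q.out))⁻¹ * q'.out⁻¹ by group, map_mul,
      Module.End.mul_apply, hZ _ (inv_mem hb)]
  have hker : LinearMap.ker J ≤ LinearMap.ker ψ := fun v hv => hsep v fun c i => by
    set q : G ⧸ B := QuotientGroup.mk c⁻¹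
    have h1 := congrFun (congrFun (LinearMap.mem_ker.mp hv) i) q
    rw [hJapp] at h1
    have hb : c * q.out ∈ B := by
      have h2 : (c⁻¹)⁻¹ * q.out ∈ B := QuotientGroup.eq.mp (QuotientGroup.out_eq' q).symm
      rwa [inv_inv] at h2
    rw [show q.out⁻¹ = (c * q.out)⁻¹ * c by group, map_mul, Module.End.mul_apply,
      hZ _ (inv_mem hb)] at h1
    exact h1
  let ψ' : LinearMap.range J →ₗ[k] M :=
    ((LinearMap.ker J).liftQ ψ hker).comp J.quotKerEquivRange.symm.toLinearMap
  have hψ' : ∀ v, ψ' ⟨J v, LinearMap.mem_range_self J v⟩ = ψ v := fun v => by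
    change (LinearMap.ker J).liftQ ψ hker (J.quotKerEquivRange.symm _) = _
    rw [LinearMap.quotKerEquivRange_symm_apply_image, Submodule.mkQ_apply, Submodule.liftQ_apply]
  have hstab : ∀ g, ∀ v ∈ LinearMap.range J, τP g v ∈ LinearMap.range J := by
    rintro g _ ⟨v, rfl⟩
    exact ⟨τ g v, hJ g v⟩
  -- extend ψ from the range of J to an equivariant Ψ
  obtain ⟨Ψ, hΨ1, hΨ2⟩ := hsec.exists_extend τP hstab ψ' (by
    rintro g ⟨_, v, rfl⟩
    rw [show (⟨τP g (J v), hstab g _ ⟨v, rfl⟩⟩ : LinearMap.range J)
      = ⟨J (τ g v), LinearMap.mem_range_self J _⟩ from Subtype.ext (hJ g v).symm, hψ', hψ', hψ])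
  -- f ∘ Ψ kills the B-fixed deltas, hence their translates, hence everything
  have hdelta : ∀ i, f (Ψ (Pi.single i (Pi.single (QuotientGroup.mk 1 : G ⧸ B) 1))) = 0 :=
    fun i => hfix _ fun b hb => by
      rw [← hΨ2]
      congr 1
      funext i' q
      rw [hτP]
      rcases eq_or_ne i' i with rfl | hi
      · rw [Pi.single_eq_same]
        have hfix' : b • (QuotientGroup.mk 1 : G ⧸ B) = QuotientGroup.mk 1 := by
          change (QuotientGroup.mk (b * 1) : G ⧸ B) = _
          rw [mul_one, QuotientGroup.eq]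
          simpa using hb
        simp only [Pi.single_apply, inv_smul_eq_iff, hfix']
      · simp [Pi.single_eq_of_ne hi]
  have hall : f.comp Ψ = 0 := by
    refine LinearMap.pi_ext' fun i => LinearMap.pi_ext fun q c => ?_
    have e : (Pi.single i (Pi.single q c) : I → G ⧸ B → k)
        = c • τP q.out (Pi.single i (Pi.single (QuotientGroup.mk 1 : G ⧸ B) 1)) := by
      funext i' q'
      rw [Pi.smul_apply, Pi.smul_apply, smul_eq_mul, hτP]
      have e1 : q.out • (QuotientGroup.mk 1 : G ⧸ B) = q := by
        change (QuotientGroup.mk (q.out * 1) : G ⧸ B) = q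
        rw [mul_one, QuotientGroup.out_eq']
      rcases eq_or_ne i' i with rfl | hi
      · simp [Pi.single_apply, inv_smul_eq_iff, e1]
      · simp [Pi.single_eq_of_ne hi]
    change f (Ψ (Pi.single i (Pi.single q c))) = 0
    rw [e, map_smul, map_smul, hΨ2, hf, hdelta, map_zero, smul_zero]
  have h1 := LinearMap.congr_fun hall (J w)
  rwa [LinearMap.comp_apply, show Ψ (J w) = ψ w from
    (hΨ1 ⟨J w, LinearMap.mem_range_self J w⟩).trans (hψ' w)] at h1

end Fermat.RM
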