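import Fermat.Agent.RM.Eigen
import Fermat.Agent.RM.Induced

/-!
# An eigen class fixed by the upper triangular elements

`exists_fixed_eigen`: the coinvariants of the norm one units embed in modules induced from the
upper triangular elements; by relative projectivity the eigenvalues of the eigen map are met among
the fixed classes. `Descend` brings this class down to `Γ₀`.
-/

set_option autoImplicit false

noncomputable section

namespace Fermat.RM

open scoped MatrixGroups ModularForm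
open CongruenceSubgroup Fermat.HM

variable {E₁ E E₂ : ℕ} [NeZero E₁] [NeZero E] [NeZero E₂]
variable {σ : Type} {p : σ → ℕ} [hp : ∀ i, Fact (p i).Prime]

/-- A number `≡ 1` modulo a multiple of three is `1` in characteristic three. -/
theorem natCast_prime_eq_one {k : Type*} [Field k] [CharP k 3] {N q : ℕ} (h : 3 ∣ N)
    (hq : (q : ZMod N) = 1) : (q : k) = 1 := by
  have h1 := congrArg (ZMod.castHom h (ZMod 3)) hq
  rw [map_natCast, map_one] at h1
  have h2 := congrArg (ZMod.castHom (dvd_refl 3) k) h1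
  rwa [map_natCast, map_one] at h2

omit [NeZero E] [NeZero E₂] in
/-- The sign part of an element of `Γ₀(E₂)` lies in `Γ₀(E₂)`. -/
theorem sgnPart_mem_Gamma0 {g : midLevel E} (hg : (g : SL(2, ℤ)) ∈ Gamma0 E₂) :
    (sgnPart g : SL(2, ℤ)) ∈ Gamma0 E₂ := by
  rcases sgnPart_eq g with e | e <;> rw [e]
  · exact hg
  · simpa using mul_mem (SL2.neg_one_mem_Gamma0 E₂) hg

/-- On a joint eigen class a polynomial in the operators acts by its value at the eigenvalues. -/
theorem opAlg_eigen {k : Type} [Field k] {N : ℕ} {Γ Top : Subgroup SL(2, ℤ)}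
    (hΓ : CongruenceSubgroup.Gamma N ≤ Γ) (hle : Γ ≤ Top) (hl : ∀ i, (p i : ZMod N) = 1)
    {t : σ → k} {x : Homs k Γ}
    (hx : ∀ i, (stdOp hΓ hle (hl i)).op le_rfl hle x = t i • x) (a : MvPolynomial σ k) :
    opAlg k hΓ hle hl le_rfl hle a x = MvPolynomial.eval₂Hom (RingHom.id k) t a • x := by
  induction a using MvPolynomial.induction_on with
  | C c =>
    rw [← MvPolynomial.algebraMap_eq, AlgHom.commutes, MvPolynomial.algebraMap_eq,
      MvPolynomial.eval₂Hom_C]
    rfl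
  | add a b ha hb => rw [map_add, map_add, LinearMap.add_apply, ha, hb, add_smul]
  | mul_X a i ha =>
    rw [map_mul, map_mul, Module.End.mul_apply, opAlg_X, hx i, map_smul, ha, smul_smul,
      MvPolynomial.eval₂Hom_X', mul_comm]

/-- **Eigenvalues met by an equivariant map are met by the fixed classes.** -/
theorem exists_fixed_eigen_of_map {k : Type} [Field k] [CharP k 3] (h2 : IsUnit (2 : k))
    (hE : Nat.Coprime 27 E) {I : Type} [Finite I]
    (τ : topLevel E →* Module.End k (QR E₂ → k))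
    (hτ : ∀ γ : topLevel E, (γ : SL(2, ℤ)) ∈ CongruenceSubgroup.Gamma E₂ → τ γ = 1)
    (Z : I → Module.Dual k (QR E₂ → k))
    (hZ : ∀ i, ∀ γ : topLevel E, (γ : SL(2, ℤ)) ∈ Gamma0 E₂ → ∀ w, Z i (τ γ w) = Z i w)
    (ψ : (QR E₂ → k) →ₗ[k] Homs k (smallLevel E E₂)) (hψ0 : ψ ≠ 0)
    (hψ : ∀ (g : midLevel E) w, ψ (τ (sgnPart g) w) = (isNormalPair_pm_top hE).act g (ψ w))
    (hsep : ∀ w, (∀ (γ : topLevel E) i, Z i (τ γ w) = 0) → ψ w = 0)
    (hl : ∀ i, (p i : ZMod (27 * E * E₂)) = 1) (t : σ → k) {i₀ : σ} (ht0 : t i₀ = 0)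
    (heig : ∀ i w, (stdOp Gamma_le_pm (isNormalPair_pm_top hE).le (hl i)).op le_rfl
      (isNormalPair_pm_top hE).le (ψ w) = t i • ψ w) :
    ∃ x : Homs k (smallLevel E E₂), x ≠ 0 ∧
      (∀ g : midLevel E, (g : SL(2, ℤ)) ∈ Gamma0 E₂ →
        (isNormalPair_pm_top hE).act g x = x) ∧
      ∀ i, (stdOp Gamma_le_pm (isNormalPair_pm_top hE).le (hl i)).op le_rfl
        (isNormalPair_pm_top hE).le x = t i • x := by
  classical
  have := finiteIndex_lowLevel (E₁ := E) (E₂ := E₂)
  set h := isNormalPair_pm_top (E₂ := E₂) hE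
  have := h.normal_subgroupOf
  have : Finite (PairQuot (smallLevel E E₂) (midLevel E)) :=
    Subgroup.finite_quotient_of_finiteIndex
  let : Fintype (PairQuot (smallLevel E E₂) (midLevel E)) := Fintype.ofFinite _
  have : Fact (Nat.Prime 3) := ⟨Nat.prime_three⟩
  have : (midLevel E).FiniteIndex := Subgroup.finiteIndex_of_le h.le
  have hgtop : GoodLevel k (midLevel E) :=
    GoodLevel.mono (neg_one_mem_pm _) (pm_topLevel_le hE) (goodLevel_Gamma0 h2 E)
  have : FiniteDimensional k (Homs k (smallLevel E E₂)) :=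
    (GoodLevel.mono (neg_one_mem_pm _) h.le hgtop).moduleFinite
  set A := opAlg k Gamma_le_pm h.le hl le_rfl h.le (σ := σ) (p := p)
  set θ := MvPolynomial.eval₂Hom (RingHom.id k) t
  set o := stdOp Gamma_le_pm h.le (hl i₀)
  set e₀ := MvPolynomial.X i₀ - MvPolynomial.C (Fintype.card o.ι : k)
  have hAe : h.eisOp (k := k) o = A e₀ := by
    rw [map_sub, opAlg_X, ← MvPolynomial.algebraMap_eq, AlgHom.commutes,
      Algebra.algebraMap_eq_smul_one]
    rfl
  -- the image of `ψ` lies in the Fitting range of the Eisenstein operator, where sections exist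
  have hAψ : ∀ a w, A a (ψ w) = θ a • ψ w := fun a w =>
    opAlg_eigen Gamma_le_pm h.le hl (fun i => heig i w) a
  have hd : θ e₀ ≠ 0 := by
    rw [map_sub, MvPolynomial.eval₂Hom_X', MvPolynomial.eval₂Hom_C, RingHom.id_apply, ht0,
      show Fintype.card o.ι = p i₀ + 1 from card_stdOp Gamma_le_pm h.le (hl i₀), Nat.cast_add,
      natCast_prime_eq_one ⟨9 * E * E₂, by ring⟩ (hl i₀), Nat.cast_one, zero_sub, neg_ne_zero,
      one_add_one_eq_two]
    exact h2.ne_zero
  have hfit : ∀ w, ψ w ∈ fittingRange (h.eisOp (k := k) o) := fun w =>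
    mem_fittingRange_of_eigen hd (by rw [hAe]; exact hAψ _ w)
  set ρG := fittingRep (h.actQ (k := k)) (h.eisOp o) (h.actQ_commute o)
  have hsec : HasSection (M := ↥(fittingRange (h.eisOp (k := k) o))) ρG :=
    h.hasSection_good hgtop (neg_one_mem_pm _) o (p := 3)
  let τQ := factorTau (E₂ := E₂) τ hτ
  let B : Subgroup (PairQuot (smallLevel E E₂) (midLevel E)) :=
    ((Gamma0 E₂).subgroupOf (midLevel E)).map
      (QuotientGroup.mk' ((smallLevel E E₂).subgroupOf (midLevel E)))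
  let ψg : (QR E₂ → k) →ₗ[k] fittingRange (h.eisOp (k := k) o) := ψ.codRestrict _ hfit
  -- the fixed vectors
  let M : Submodule k (Homs k (smallLevel E E₂)) :=
    { carrier := {x | x ∈ fittingRange (h.eisOp (k := k) o) ∧
        ∀ g : midLevel E, (g : SL(2, ℤ)) ∈ Gamma0 E₂ → h.act g x = x}
      add_mem' := fun ha hb => ⟨add_mem ha.1 hb.1, fun g hg => by
        rw [map_add, ha.2 g hg, hb.2 g hg]⟩
      zero_mem' := ⟨zero_mem _, fun g _ => map_zero _⟩
      smul_mem' := fun c _ ha => ⟨Submodule.smul_mem _ c ha.1, fun g hg => by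
        rw [map_smul, ha.2 g hg]⟩ }
  have hcomm : ∀ a, Commute (A a) (h.eisOp (k := k) o) := fun a => by
    rw [hAe]
    exact (Commute.all a _).map A
  have hAM : ∀ a, ∀ x ∈ M, A a x ∈ M := fun a x hx =>
    ⟨apply_mem_fittingRange (hcomm a) hx.1, fun g hg => by
      rw [← opAlg_act h Gamma_le_pm hl g a x, hx.2 g hg]⟩
  -- an operator killing the fixed vectors kills the image of `ψ`, so its value is zero
  have hθ' : ∀ a, (∀ x ∈ M, A a x = 0) → θ a = 0 := by
    intro a ha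
    by_contra hne'
    refine hψ0 (LinearMap.ext fun w => ?_)
    let f : Module.End k (fittingRange (h.eisOp (k := k) o)) :=
      (A a).restrict fun _ hx => apply_mem_fittingRange (hcomm a) hx
    have h1 : f (ψg w) = 0 := by
      refine apply_eq_zero_of_fixed hsec B τQ Z ?_ ψg ?_ ?_ f ?_ ?_ w
      · rintro _ ⟨g, hg, rfl⟩ i v
        exact hZ i _ (sgnPart_mem_Gamma0 (Subgroup.mem_subgroupOf.mp hg)) v
      · intro g v
        refine Subtype.ext ?_
        induction g using QuotientGroup.induction_on with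
        | H g => exact hψ g v
      · intro v hv
        refine Subtype.ext (hsep v fun γ i => ?_)
        have h2 := hv (QuotientGroup.mk (⟨γ, le_pm _ γ.2⟩ : midLevel E)) i
        rwa [factorTau_mk, sgnPart_of_mem] at h2
      · intro g m
        refine Subtype.ext ?_
        induction g using QuotientGroup.induction_on with
        | H g => exact opAlg_act h Gamma_le_pm hl g a _
      · exact fun m hm => Subtype.ext (ha _ ⟨m.2, fun g hg =>
          congrArg Subtype.val (hm _ ⟨g, Subgroup.mem_subgroupOf.mpr hg, rfl⟩)⟩)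
    have h2' : A a (ψ w) = 0 := congrArg Subtype.val h1
    rw [hAψ] at h2'
    exact (smul_eq_zero.mp h2').resolve_left hne'
  have hsc : ∀ c : k, ∃ a, A a = c • 1 ∧ θ a = c := fun c =>
    ⟨MvPolynomial.C c, by
      rw [← MvPolynomial.algebraMap_eq, AlgHom.commutes, Algebra.algebraMap_eq_smul_one],
      MvPolynomial.eval₂Hom_C _ _ _⟩
  -- hence some fixed vector has the eigenvalues `t`
  obtain ⟨x, hxM, hx0, hx⟩ := exists_eigenvector_mem A.toRingHom θ M hAM hsc hθ'
  refine ⟨x, hx0, hxM.2, fun i => ?_⟩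
  rw [← opAlg_X Gamma_le_pm h.le hl le_rfl h.le i,
    show t i = θ (MvPolynomial.X i) from (MvPolynomial.eval₂Hom_X' _ _ _).symm]
  exact hx _

/-- **An eigen class fixed by the upper triangular elements.** -/
theorem exists_fixed_eigen {W : topLevel E →* Module.End ℂ (QR E₂ → ℂ)} {cst : (ZMod E₂)ˣ}
    {sgn : ℂ} (hW : IsWeil W cst sgn) (hdvd : E₁ ∣ E) (hE : Nat.Coprime 27 E)
    (θ : (QR E₂ → ℂ) →ₗ[ℂ] CuspForm ((lowLevel E₁ E₂).map (Matrix.SpecialLinearGroup.mapGL ℝ)) 1)
    (hl : ∀ i, (p i : ZMod (27 * E * E₂)) = 1) (t : σ → ℤ)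
    (hθ : ∀ (γ : topLevel E) (φ : QR E₂ → ℂ),
      ⇑(θ (W γ φ)) = (⇑(θ φ)) ∣[(1 : ℤ)] ((γ : SL(2, ℤ))⁻¹))
    (chr : QR E₂ → ℂ) (hchr : ∀ u, qnorm u = 1 → chr u ^ 3 = 1)
    (hθchr : ∀ u, qnorm u = 1 → ∀ φ : QR E₂ → ℂ,
      θ (fun x => φ (qmul u x)) = chr u • θ φ)
    (hne : ∃ φ, θ φ ≠ 0)
    (hrel : ∀ φ i n, (UpperHalfPlane.qExpansion (E₂ : ℝ) ⇑(θ φ)).coeff (p i * n) +
        (if p i ∣ n then (UpperHalfPlane.qExpansion (E₂ : ℝ) ⇑(θ φ)).coeff (n / p i) else 0) =
      (t i : ℂ) * (UpperHalfPlane.qExpansion (E₂ : ℝ) ⇑(θ φ)).coeff n)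
    {V : ValuationSubring ℂ} (h3 : (3 : ℂ) ∈ V.nonunits) {i₀ : σ}
    (ht0 : (t i₀ : IsLocalRing.ResidueField V) = 0) :
    ∃ x : Homs (IsLocalRing.ResidueField V) (smallLevel E E₂), x ≠ 0 ∧
      (∀ g : midLevel E, (g : SL(2, ℤ)) ∈ Gamma0 E₂ →
        (isNormalPair_pm_top hE).act g x = x) ∧
      ∀ i, (stdOp Gamma_le_pm (isNormalPair_pm_top hE).le (hl i)).op le_rfl
        (isNormalPair_pm_top hE).le x = (t i : IsLocalRing.ResidueField V) • x := by
  have := charP_residue h3
  obtain ⟨ψ, hψ0, hψeq, hψU, hψeig⟩ :=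
    exists_eigen_map hW hdvd hE θ hl t hθ chr hchr hθchr hne hrel h3
  refine exists_fixed_eigen_of_map (I := {e : Eis E₂ // e * e = e ∧ e * star e = 0})
    (isUnit_two_residue h3) hE (weilK hW h3) (fun _ => weilK_of_mem_Gamma hW h3)
    (fun e => idealSum _ e.1)
    (fun e γ hγ w => idealSum_weilK_of_mem_Gamma0 hW h3 e.2.2 hγ w) ψ hψ0 hψeq
    (fun w hw => apply_eq_zero_of_idealSums hW h3 ψ hψU w fun e he he' γ => hw γ ⟨e, he, he'⟩)
    hl _ ht0 fun i w => ?_
  have h1 := hψeig (MvPolynomial.X i) w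
  rw [MvPolynomial.map_X, opAlg_X] at h1
  rw [h1, thetaHom, MvPolynomial.eval₂Hom_X']

end Fermat.RM
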