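import Fermat.Agent.FLAT.Simple
import Fermat.Agent.FLAT.Curve.Flat
import Fermat.Agent.SW.TorsionRep

/-!
# Flat models at three and the element of order eight

On a model of order nine with an inertia element `σ` of trace `t ≠ 0` and determinant `-1`, the
tame ratio `z` of `σ` satisfies `z² = t z + 1`: this pins `t` down, so a flat representation and
its quadratic twist cannot both be flat.
-/

set_option autoImplicit false

noncomputable section

namespace Fermat.RM

open Fermat.EC.Val Fermat.FLAT Matrix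

local notation "ℚbar" => AlgebraicClosure ℚ
local notation "Γℚ" => (AlgebraicClosure ℚ ≃ₐ[ℚ] AlgebraicClosure ℚ)
local notation "M23" => Matrix (Fin 2) (Fin 2) (ZMod 3)

/-- `2` is not zero modulo three. -/
theorem two_ne_zero_three : (2 : ZMod 3) ≠ 0 := by decide

/-- `X ^ 2 - t X - 1` has no root modulo three for `t ≠ 0`. -/
theorem char_poly_no_root : ∀ t n : ZMod 3, t ≠ 0 → n * n - t * n - 1 ≠ 0 := by decide

variable [Fact (Nat.Prime 3)]

/-- Cayley–Hamilton for trace `t` and determinant `-1`. -/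
theorem mulVec_mulVec_eq {R : M23} (hd : R.det = -1) (v : Fin 2 → ZMod 3) :
    R *ᵥ (R *ᵥ v) = R.trace • (R *ᵥ v) + v := by
  rw [Matrix.mulVec_mulVec, Fermat.DS.mul_self_eq, hd, Matrix.sub_mulVec, Matrix.smul_mulVec,
    Matrix.smul_mulVec, Matrix.one_mulVec, neg_smul, one_smul, sub_neg_eq_add]

/-- **The tame ratio is an eigenvalue**: on a model killed by `3` where `σ` acts with trace
`t ≠ 0` and determinant `-1`, the ratio `z` satisfies `z ^ 2 = t z + 1`. -/
theorem tame_relation {A : ValuationSubring ℚbar} (h : IsPlace A 3) {π : ℚbar}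
    (hπ : π ^ (3 ^ 2 - 1) = ((3 : ℕ) : ℚbar)) {H : Subgroup Γℚ} {M : Type*}
    [AddCommGroup M] [Finite M]
    {g : Γℚ → AddMonoid.End M} (G : Model A H g) (hM : ∀ x : M, 3 • x = 0)
    (j : (Fin 2 → ZMod 3) →+ M) (hj : Function.Injective j) (R : Γℚ → M23)
    (hR : ∀ σ ∈ A.inertiaSubgroupIn ℚ, ∀ v, g σ (j v) = j (R σ *ᵥ v))
    {σ : Γℚ} (hσ : σ ∈ A.inertiaSubgroupIn ℚ) (ht : (R σ).trace ≠ 0) (hd : (R σ).det = -1) :
    red A (σ π / π) * red A (σ π / π) -
      ((R σ).trace.val : IsLocalRing.ResidueField A) * red A (σ π / π) - 1 = 0 := by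
  classical
  set t := (R σ).trace
  have hsmul : ∀ (a : ZMod 3) (v : Fin 2 → ZMod 3), j (a • v) = a.val • j v := fun a v => by
    rw [← map_nsmul, ← Nat.cast_smul_eq_nsmul (ZMod 3), ZMod.natCast_zmod_val]
  have hWst : ∀ τ ∈ A.inertiaSubgroupIn ℚ, ∀ x ∈ j.range, g τ x ∈ j.range := by
    rintro τ hτ _ ⟨v, rfl⟩
    exact ⟨_, (hR τ hτ v).symm⟩
  have hcard : Nat.card j.range = 3 ^ 2 := by
    rw [← Nat.card_congr (AddMonoidHom.ofInjective hj).toEquiv, Nat.card_fun, Nat.card_zmod,
      Nat.card_fin]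
  -- `σ` has no eigenvector, as `X ^ 2 - t X - 1` has no root modulo `3`.
  have hirr : InertiaIrred A g j.range := by
    rintro _ ⟨v, rfl⟩ hne
    refine ⟨σ, hσ, fun r hr => ?_⟩
    rw [hR σ hσ, ← map_nsmul] at hr
    have h1 : R σ *ᵥ v = (r : ZMod 3) • v := by rw [hj hr, Nat.cast_smul_eq_nsmul]
    have h2 := mulVec_mulVec_eq hd v
    rw [h1, Matrix.mulVec_smul, h1, smul_smul, smul_smul] at h2
    have h3 : ((r : ZMod 3) * r - t * r - 1) • v = 0 := by
      rw [sub_smul, sub_smul, one_smul, h2, add_sub_cancel_left, sub_self]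
    exact hne (by rw [(smul_eq_zero.mp h3).resolve_left (char_poly_no_root t _ ht), map_zero])
  -- So some injective additive `L` turns `σ` into multiplication by the tame ratio.
  obtain ⟨-, -, -, L, hL, hLg⟩ :=
    G.simple_structure hM hWst hcard hirr h (by norm_num) hπ
  set z := red A (σ π / π)
  let x : j.range := ⟨j ![1, 0], _, rfl⟩
  have hx : x ≠ 0 := fun e => by
    have h1 := hj ((congrArg Subtype.val e).trans (map_zero j).symm)
    exact one_ne_zero (α := ZMod 3) (congrFun h1 0)
  let y : j.range := ⟨g σ (x : M), hWst σ hσ x x.2⟩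
  have hy : L y = z * L x := hLg σ hσ x
  -- Apply `L` to the Cayley–Hamilton relation at `x`.
  have hrel : (⟨g σ (y : M), hWst σ hσ y y.2⟩ : j.range) = t.val • y + x := by
    refine Subtype.ext ?_
    change g σ (g σ (j ![1, 0])) = t.val • g σ (j ![1, 0]) + j ![1, 0]
    rw [hR σ hσ, hR σ hσ, mulVec_mulVec_eq hd, map_add, hsmul]
  have h4 : z * L y = (t.val : IsLocalRing.ResidueField A) * L y + L x := by
    rw [← hLg σ hσ y, hrel, map_add, map_nsmul, nsmul_eq_mul]
  have h5 : L x ≠ 0 := fun e => hx (hL (e.trans (map_zero L).symm))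
  refine (mul_eq_zero.mp (?_ : (z * z - (t.val : IsLocalRing.ResidueField A) * z - 1) * L x =
    0)).resolve_right h5
  rw [hy] at h4
  linear_combination h4

/-- The relations `z ^ 2 = t z + 1` and `z ^ 2 = -t z + 1` exclude each other. -/
theorem false_of_both_signs {A : ValuationSubring ℚbar} (h : IsPlace A 3) {t : ZMod 3} (ht : t ≠ 0)
    {z : IsLocalRing.ResidueField A} (h1 : z * z - (t.val : IsLocalRing.ResidueField A) * z - 1 = 0)
    (h2 : z * z - ((-t).val : IsLocalRing.ResidueField A) * z - 1 = 0) : False := by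
  have := Fermat.FLAT.charP_res h
  set ι := ZMod.castHom (dvd_refl 3) (IsLocalRing.ResidueField A)
  have e : ∀ a : ZMod 3, (a.val : IsLocalRing.ResidueField A) = ι a := fun a => by
    rw [← map_natCast ι, ZMod.natCast_zmod_val]
  rw [e] at h1 h2
  rw [map_neg] at h2
  have h3 : ι (2 * t) * z = 0 := by
    rw [map_mul, map_ofNat]
    linear_combination h2 - h1
  have hz : z = 0 := (mul_eq_zero.mp h3).resolve_left ((map_ne_zero ι).mpr (mul_ne_zero
    (two_ne_zero_three) ht))
  rw [hz] at h1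
  simp at h1

/-- **The tame relation for the `3`-torsion of a curve with good reduction at `3`.** -/
theorem tame_relation_curve {W : WeierstrassCurve ℤ} (hW : W.Δ ≠ 0) (hgood : ¬ (3 : ℤ) ∣ W.Δ)
    {A : ValuationSubring ℚbar} (h : IsPlace A 3) {π : ℚbar}
    (hπ : π ^ (3 ^ 2 - 1) = ((3 : ℕ) : ℚbar))
    {σ : Γℚ} (hσ : σ ∈ A.inertiaSubgroupIn ℚ)
    (ht : (SW.Tors.tRep (p := 3) W hW σ : M23).trace ≠ 0)
    (hd : (SW.Tors.tRep (p := 3) W hW σ : M23).det = -1) :
    red A (σ π / π) * red A (σ π / π) -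
      ((SW.Tors.tRep (p := 3) W hW σ : M23).trace.val : IsLocalRing.ResidueField A) *
        red A (σ π / π) - 1 = 0 := by
  classical
  set T : AddSubgroup (Fermat.EC.overQbar W).Point :=
    (Submodule.torsionBy ℤ (Fermat.EC.overQbar W).Point ((3 : ℕ) : ℤ)).toAddSubgroup
  have hT : ∀ τ : Γℚ, ∀ P ∈ T, τ • P ∈ T := fun τ P hP =>
    WeierstrassCurve.Affine.Point.smul_mem_torsionBy τ hP
  have := (Fermat.FR.finrank_torsion W (p := 3) hW).2
  have : Finite T := (Module.finite_of_finite (ZMod 3) : Finite (SW.TorW (SW.modQ W) 3))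
  -- good reduction gives a model of the `3`-torsion at `A`
  obtain ⟨G⟩ := nonempty_model_of_good (p := 3) W h hgood T hT (H := ⊤) le_top
  set b := SW.Tors.tbasis (p := 3) W hW
  -- transport by the torsion basis
  let j : (Fin 2 → ZMod 3) →+ T :=
    { toFun := fun v => ⟨(b.equivFun.symm v).1, (b.equivFun.symm v).2⟩
      map_zero' := by rw [map_zero]
      map_add' := fun u v => by rw [map_add]; rfl }
  refine tame_relation h hπ G (fun x => Subtype.ext ?_) j (fun u v huv => b.equivFun.symm.injective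
      (Subtype.ext (congrArg Subtype.val huv :))) (fun τ => (SW.Tors.tRep (p := 3) W hW τ : M23))
    (fun τ _ v => Subtype.ext ?_) hσ ht hd
  · change (3 : ℕ) • (x : (Fermat.EC.overQbar W).Point) = 0
    rw [← natCast_zsmul]
    exact (Submodule.mem_torsionBy_iff _ _).mp x.2
  -- in these coordinates Galois acts by `tRep`
  · change τ • (b.equivFun.symm v).1 = (b.equivFun.symm _).1
    have h1 : WeierstrassCurve.Affine.Point.galoisRepModuleEnd (K := ℚbar) ℚ
        (SW.modQ W).toAffine 3 τ (b.equivFun.symm v) =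
        b.equivFun.symm ((SW.Tors.tRep (p := 3) W hW τ : M23) *ᵥ v) := by
      refine b.equivFun.injective ?_
      rw [LinearEquiv.apply_symm_apply, SW.Tors.val_tRep]
      funext i
      conv_rhs => rw [← b.equivFun.apply_symm_apply v]
      rw [LinearMap.toMatrixAlgEquiv, AlgEquiv.ofLinearEquiv_apply]
      exact (congrFun (LinearMap.toMatrix_mulVec_repr b b _ _) i).symm
    exact congrArg Subtype.val h1

end Fermat.RM
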