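import Mathlib

/-!
# Higman's criterion for modular representations

`HasSection ρ`: some endomorphism `π` satisfies `∑ g, ρ g ∘ π ∘ ρ g⁻¹ = 1`.  Then invariants are
norms and equivariant maps extend from subrepresentations.  For a `p`-group in characteristic `p`
it is enough that every element of norm zero lies in the augmentation part.
-/

set_option autoImplicit false

noncomputable section

namespace Fermat.RM

variable {k : Type*} [Field k] {G : Type*} [Group G] {M : Type*} [AddCommGroup M] [Module k M]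

/-- The span of the elements `g x - x`. -/
def augPart (ρ : G →* Module.End k M) : Submodule k M :=
  Submodule.span k (Set.range fun a : G × M => ρ a.1 a.2 - a.2)

/-- Higman's criterion. -/
def HasSection [Fintype G] (ρ : G →* Module.End k M) : Prop :=
  ∃ π : Module.End k M, ∑ g, ρ g * π * ρ g⁻¹ = 1

section Consequences

variable [Fintype G] {ρ : G →* Module.End k M}

/-- Invariants are norms. -/
theorem HasSection.exists_norm_eq (h : HasSection ρ) {x : M} (hx : ∀ g, ρ g x = x) :
    ∃ y, ∑ g, ρ g y = x := by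
  obtain ⟨π, hπ⟩ := h
  refine ⟨π x, ?_⟩
  have h1 := LinearMap.congr_fun hπ x
  simp only [LinearMap.sum_apply, Module.End.mul_apply, Module.End.one_apply, hx] at h1
  exact h1

/-- Equivariant maps extend. -/
theorem HasSection.exists_extend (h : HasSection ρ) {W : Type*} [AddCommGroup W] [Module k W]
    (τ : G →* Module.End k W) {V : Submodule k W} (hV : ∀ g, ∀ v ∈ V, τ g v ∈ V) (ψ : V →ₗ[k] M)
    (hψ : ∀ g (v : V), ψ ⟨τ g v, hV g v v.2⟩ = ρ g (ψ v)) :
    ∃ Ψ : W →ₗ[k] M, (∀ v : V, Ψ v = ψ v) ∧ ∀ g w, Ψ (τ g w) = ρ g (Ψ w) := by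
  obtain ⟨π, hπ⟩ := h
  obtain ⟨ψ', hψ'⟩ := ψ.exists_extend
  refine ⟨∑ g, (ρ g * π).comp (ψ'.comp (τ g⁻¹)), fun v => ?_, fun g w => ?_⟩
  · have h1 := LinearMap.congr_fun hπ (ψ v)
    simp only [LinearMap.sum_apply, Module.End.mul_apply, Module.End.one_apply] at h1
    rw [LinearMap.sum_apply]
    conv_rhs => rw [← h1]
    refine Finset.sum_congr rfl fun g _ => ?_
    rw [← hψ, LinearMap.comp_apply, LinearMap.comp_apply, Module.End.mul_apply]
    congr 2
    exact LinearMap.congr_fun hψ' ⟨τ g⁻¹ v, hV _ _ v.2⟩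
  · simp only [LinearMap.sum_apply, LinearMap.comp_apply, map_sum, Module.End.mul_apply]
    refine Fintype.sum_equiv (Equiv.mulLeft g⁻¹) _ _ fun a => ?_
    simp only [Equiv.coe_mulLeft]
    rw [← Module.End.mul_apply (ρ g), ← map_mul,
      mul_inv_cancel_left, ← Module.End.mul_apply (τ a⁻¹), ← map_mul, mul_inv_rev, inv_inv]

/-- A section for a subgroup of invertible index gives one for the group. -/
theorem HasSection.of_subgroup {H : Subgroup G} [Fintype H] (h : HasSection (ρ.comp H.subtype))
    (hidx : (H.index : k) ≠ 0) : HasSection ρ := by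
  classical
  obtain ⟨π, hπ⟩ := h
  let := Fintype.ofFinite (G ⧸ H)
  refine ⟨(H.index : k)⁻¹ • π, ?_⟩
  have hsum : ∑ g : G, ρ g * π * ρ g⁻¹ = (H.index : k) • (1 : Module.End k M) := by
    rw [← Fintype.sum_bijective (fun x : (G ⧸ H) × H => x.1.out * (x.2 : G)) ⟨?_, ?_⟩
      (fun x => ρ x.1.out * (ρ (x.2 : G) * π * ρ (x.2 : G)⁻¹) * ρ x.1.out⁻¹) _ fun x => by
        rw [mul_inv_rev, map_mul, map_mul]; simp only [mul_assoc]]
    · rw [Fintype.sum_prod_type, Nat.cast_smul_eq_nsmul, Subgroup.index, Nat.card_eq_fintype_card,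
        ← Finset.card_univ, ← Finset.sum_const]
      refine Finset.sum_congr rfl fun q _ => ?_
      dsimp only
      rw [← Finset.sum_mul, ← Finset.mul_sum]
      have := hπ
      simp only [MonoidHom.comp_apply, Subgroup.coe_subtype, Subgroup.coe_inv] at this
      rw [this, mul_one, ← map_mul, mul_inv_cancel, map_one]
    · rintro ⟨q, a⟩ ⟨r, b⟩ (h : q.out * (a : G) = r.out * (b : G))
      have hqr : q = r := by
        rw [← QuotientGroup.out_eq' q, ← QuotientGroup.out_eq' r, QuotientGroup.eq]
        have : q.out⁻¹ * r.out = ((a * b⁻¹ : H) : G) := by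
          rw [Subgroup.coe_mul, Subgroup.coe_inv, inv_mul_eq_iff_eq_mul, ← mul_assoc, h,
            mul_inv_cancel_right]
        rw [this]
        exact (a * b⁻¹).2
      subst hqr
      exact Prod.ext rfl (Subtype.ext (mul_left_cancel h))
    · intro g
      set q : G ⧸ H := QuotientGroup.mk g
      have hq : q.out⁻¹ * g ∈ H := QuotientGroup.eq.mp (QuotientGroup.out_eq' q)
      exact ⟨(q, ⟨q.out⁻¹ * g, hq⟩), mul_inv_cancel_left _ _⟩
  simp only [mul_smul_comm, smul_mul_assoc, ← Finset.smul_sum, hsum, smul_smul,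
    inv_mul_cancel₀ hidx, one_smul]

end Consequences

section PGroup

variable {p : ℕ} [hp : Fact p.Prime] [CharP k p]

/-- A nonzero representation of a finite `p`-group in characteristic `p` has a nonzero invariant. -/
theorem exists_fixed_of_isPGroup [Finite G] (hG : IsPGroup p G) (ρ : G →* Module.End k M) {x : M}
    (hx : x ≠ 0) :
    ∃ y ∈ Submodule.span k (Set.range fun g => ρ g x), y ≠ 0 ∧ ∀ g, ρ g y = y := by
  classical
  let := ZMod.algebra k p
  let : Module (ZMod p) M := Module.compHom M (algebraMap (ZMod p) k)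
  have : IsScalarTower (ZMod p) k M := IsScalarTower.of_algebraMap_smul fun _ _ => rfl
  -- the `𝔽_p` span of the orbit is a finite `G`-set
  let S : Submodule (ZMod p) M := Submodule.span (ZMod p) (Set.range fun g => ρ g x)
  have : Module.Finite (ZMod p) S :=
    Module.Finite.iff_fg.mpr (Submodule.fg_span (Set.finite_range _))
  have : Finite S := Module.finite_of_finite (ZMod p)
  have hmap : ∀ g, ∀ v ∈ S, ρ g v ∈ S := by
    intro g v hv
    induction hv using Submodule.span_induction with
    | mem v hv =>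
      obtain ⟨a, rfl⟩ := hv
      refine Submodule.subset_span ⟨g * a, ?_⟩
      change ρ (g * a) x = _
      rw [map_mul]; rfl
    | zero => rw [map_zero]; exact zero_mem _
    | add _ _ _ _ h1 h2 => rw [map_add]; exact add_mem h1 h2
    | smul c v _ h1 =>
      rw [← algebraMap_smul k c v, map_smul, algebraMap_smul]
      exact Submodule.smul_mem _ _ h1
  let : MulAction G S :=
    { smul := fun g v => ⟨ρ g v, hmap g v v.2⟩
      one_smul := fun v => Subtype.ext (by change ρ 1 (v : M) = v; rw [map_one]; rfl)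
      mul_smul := fun g a v => Subtype.ext (by change ρ (g * a) (v : M) = _; rw [map_mul]; rfl) }
  have hxS : x ∈ S := Submodule.subset_span ⟨1, by change ρ 1 x = x; rw [map_one]; rfl⟩
  -- of cardinality divisible by `p`, so it has a nonzero fixed point
  have hdvd : p ∣ Nat.card S := by
    have : Nontrivial S := ⟨⟨⟨x, hxS⟩, 0, fun h => hx (congrArg Subtype.val h)⟩⟩
    rw [Module.natCard_eq_pow_finrank (K := ZMod p) (V := S), Nat.card_zmod]
    exact dvd_pow_self p (Module.finrank_pos).ne'
  obtain ⟨y, hy, hy0⟩ := hG.exists_fixed_point_of_prime_dvd_card_of_fixed_point S hdvd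
    (a := 0) (fun g => Subtype.ext (map_zero (ρ g)))
  refine ⟨y, ?_, fun h => hy0 (Subtype.ext h.symm), fun g => congrArg Subtype.val (hy g)⟩
  exact Submodule.span_le_restrictScalars (ZMod p) k _ y.2

/-- For a `p`-group, a section exists when norm zero implies augmentation. -/
theorem hasSection_of_isPGroup [Fintype G] (hG : IsPGroup p G) (ρ : G →* Module.End k M)
    [FiniteDimensional k M] (h : ∀ x, ∑ g, ρ g x = 0 → x ∈ augPart ρ) : HasSection ρ := by
  classical
  set I := augPart ρ
  obtain ⟨s, hs⟩ := LinearMap.exists_rightInverse_of_surjective I.mkQ (Submodule.range_mkQ I)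
  let Φ : (G → M ⧸ I) →ₗ[k] M := ∑ g, (ρ g).comp (s.comp (LinearMap.proj g))
  have hΦ : ∀ f, Φ f = ∑ g, ρ g (s (f g)) := fun f => by simp [Φ]
  let τ : G →* Module.End k (G → M ⧸ I) :=
    { toFun := fun g => LinearMap.funLeft k _ fun a => g⁻¹ * a
      map_one' := LinearMap.ext fun f => funext fun a => by simp
      map_mul' := fun g g' => LinearMap.ext fun f => funext fun a => by simp [mul_assoc] }
  have heq : ∀ g f, Φ (τ g f) = ρ g (Φ f) := fun g f => by
    rw [hΦ, hΦ, map_sum]
    refine Fintype.sum_equiv (Equiv.mulLeft g⁻¹) _ _ fun a => ?_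
    simp only [Equiv.coe_mulLeft]
    rw [← Module.End.mul_apply (ρ g), ← map_mul, mul_inv_cancel_left]
    rfl
  have hinj : Function.Injective Φ := by
    rw [← LinearMap.ker_eq_bot, LinearMap.ker_eq_bot']
    by_contra hne
    simp only [not_forall] at hne
    obtain ⟨f, hf, hf0⟩ := hne
    obtain ⟨y, hy, hy0, hyf⟩ := exists_fixed_of_isPGroup hG τ hf0
    have hyK : Φ y = 0 := by
      have hle : Submodule.span k (Set.range fun g => τ g f) ≤ LinearMap.ker Φ :=
        Submodule.span_le.mpr (by
          rintro _ ⟨g, rfl⟩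
          rw [SetLike.mem_coe, LinearMap.mem_ker, heq, hf, map_zero])
      exact hle hy
    have hc : ∀ g, y g = y 1 := fun g => by
      have h1 := congrFun (hyf g) g
      simp [τ, LinearMap.funLeft] at h1
      exact h1.symm
    refine hy0 (funext fun g => ?_)
    rw [hc g]
    have h2 : s (y 1) ∈ I := h _ (by simpa [hΦ, hc] using hyK)
    have h3 := LinearMap.congr_fun hs (y 1)
    rw [LinearMap.comp_apply, Submodule.mkQ_apply, (Submodule.Quotient.mk_eq_zero I).mpr h2] at h3
    exact h3.symm
  have hsurj : Function.Surjective Φ := by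
    rw [← LinearMap.range_eq_top]
    by_contra hne
    set R := LinearMap.range Φ
    -- a functional on the cokernel fixed by the group
    have hR : ∀ g, ∀ x ∈ R, ρ g x ∈ R := fun g x ⟨f, hf⟩ => ⟨τ g f, by rw [heq, hf]⟩
    let σ : G →* Module.End k (Module.Dual k (M ⧸ R)) :=
      { toFun := fun g => (R.mapQ R (ρ g⁻¹) fun x hx => hR _ x hx).dualMap
        map_one' := LinearMap.ext fun F => Submodule.linearMap_qext _ (LinearMap.ext fun x => by
          simp)
        map_mul' := fun g g' => LinearMap.ext fun F =>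
          Submodule.linearMap_qext _ (LinearMap.ext fun x => by simp) }
    have : Nontrivial (M ⧸ R) := Submodule.Quotient.nontrivial_iff.mpr hne
    obtain ⟨F₀, hF₀⟩ := exists_ne (0 : Module.Dual k (M ⧸ R))
    obtain ⟨F, -, hF0, hF⟩ := exists_fixed_of_isPGroup hG σ hF₀
    refine hF0 (Submodule.linearMap_qext _ (LinearMap.ext fun x => ?_))
    have hI : I ≤ LinearMap.ker (F.comp R.mkQ) := by
      rw [show I = augPart ρ from rfl, augPart, Submodule.span_le]
      rintro _ ⟨⟨g, z⟩, rfl⟩
      have h1 := LinearMap.congr_fun (hF g⁻¹) (R.mkQ z)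
      simp [σ] at h1
      simp [h1]
    have h2 : x - s (I.mkQ x) ∈ I := by
      rw [← Submodule.Quotient.eq]
      exact (LinearMap.congr_fun hs (I.mkQ x)).symm
    have h3 : s (I.mkQ x) ∈ R := ⟨Pi.single 1 (I.mkQ x), by
      rw [hΦ, Finset.sum_eq_single 1 (fun g _ hg => by simp [hg]) (by simp)]
      simp⟩
    have h4 := LinearMap.mem_ker.mp (hI h2)
    have h5 : (Submodule.Quotient.mk (s (I.mkQ x)) : M ⧸ R) = 0 :=
      (Submodule.Quotient.mk_eq_zero R).mpr h3
    simp only [LinearMap.comp_apply, map_sub, Submodule.mkQ_apply] at h4 h5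
    rw [h5, map_zero, sub_zero] at h4
    simpa using h4
  let e := LinearEquiv.ofBijective Φ ⟨hinj, hsurj⟩
  refine ⟨s.comp ((LinearMap.proj 1).comp e.symm.toLinearMap), LinearMap.ext fun x => ?_⟩
  obtain ⟨f, rfl⟩ := hsurj x
  rw [LinearMap.sum_apply, Module.End.one_apply, hΦ]
  refine Finset.sum_congr rfl fun g _ => ?_
  simp only [Module.End.mul_apply, LinearMap.comp_apply, LinearEquiv.coe_coe]
  rw [← hΦ, ← heq, show e.symm (Φ (τ g⁻¹ f)) = τ g⁻¹ f from e.symm_apply_apply _]
  simp [τ, LinearMap.funLeft]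

/-- A section exists once it does so for one Sylow `p`-subgroup. -/
theorem hasSection_of_sylow [Fintype G] (ρ : G →* Module.End k M) [FiniteDimensional k M]
    (P : Sylow p G) [Fintype (P : Subgroup G)]
    (h : ∀ x, ∑ g : (P : Subgroup G), ρ g x = 0 → x ∈ augPart (ρ.comp (P : Subgroup G).subtype)) :
    HasSection ρ :=
  (hasSection_of_isPGroup P.isPGroup' (ρ.comp (P : Subgroup G).subtype) h).of_subgroup (by
    rw [Ne, CharP.cast_eq_zero_iff k p]
    exact P.not_dvd_index)

end PGroup

end Fermat.RM
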