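import Fermat.Agent.RM.Descend
import Fermat.Agent.GR.RT.Points
import Fermat.Agent.HM.System
import Mathlib.NumberTheory.Padics.RingHoms

/-!
# Lifting an eigen class to an eigen system

An eigen class modulo a place over `3`, not Eisenstein, makes every relation between the operators
on cusp forms hold for the eigenvalues (`eval₂Hom_eq_zero_of_formAct`); so some eigen system is
congruent to it (`exists_point_congruent`). `Main` combines the two in `exists_congruent_point`.
-/

set_option autoImplicit false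

noncomputable section

namespace Fermat.RM

open scoped MatrixGroups TensorProduct
open CongruenceSubgroup ModularGroup Fermat.HM Fermat.MC.Lvl MvPolynomial

variable {K : ℕ} [NeZero K] {σ : Type} {p : σ → ℕ} [hp : ∀ i, Fact (p i).Prime]

/-- The label of an operator. -/
def labelOf (K : ℕ) (p : σ → ℕ) [∀ i, Fact (p i).Prime] (i : σ) : Nat.Primes ⊕ (ZMod K)ˣ :=
  Sum.inl ⟨p i, Fact.out⟩

/-- The periods carry the action of the operators on forms to that on homomorphisms. -/
theorem formPeriod_formAct (P : MvPolynomial σ ℤ) (f : CuspForm (GammaH K (⊤ : Subgroup _)) 2) :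
    formPeriod (formAct K ⊤ (rename (labelOf K p) P) f) =
      heckeAct ℤ ℂ K ⊤ p P (formPeriod f) := by
  induction P using MvPolynomial.induction_on generalizing f with
  | C n =>
    rw [rename_C, ← algebraMap_eq, ← algebraMap_eq, AlgHom.commutes, AlgHom.commutes,
      Module.algebraMap_end_apply, Module.algebraMap_end_apply, map_zsmul]
  | add P Q hP hQ => simp only [map_add, LinearMap.add_apply, hP, hQ]
  | mul_X P i hP =>
    rw [map_mul, map_mul, map_mul, rename_X, Module.End.mul_apply, Module.End.mul_apply, hP,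
      formAct_X, heckeAct_X]
    congr 1
    exact formPeriod_formMap _ f

/-- Integral polynomials in the operators commute with a change of coefficients. -/
theorem mapCoeff_heckeActInt {R R' : Type} [CommRing R] [CommRing R'] (u : R →+* R')
    (P : MvPolynomial σ ℤ) (φ : Homs R (GammaH K (⊤ : Subgroup _))) :
    mapCoeff u (heckeAct ℤ R K ⊤ p P φ) = heckeAct ℤ R' K ⊤ p P (mapCoeff u φ) := by
  induction P using MvPolynomial.induction_on generalizing φ with
  | C n =>
    rw [← algebraMap_eq, AlgHom.commutes, AlgHom.commutes, Module.algebraMap_end_apply,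
      Module.algebraMap_end_apply, map_zsmul]
  | add P Q hP hQ => simp only [map_add, LinearMap.add_apply, hP, hQ]
  | mul_X P i hP =>
    rw [map_mul, map_mul, Module.End.mul_apply, Module.End.mul_apply, hP, heckeAct_X, heckeAct_X,
      mapCoeff_heckeT]

/-- `T ℓ` by the representatives congruent to `1` is `T ℓ`. -/
theorem op_stdOp_eq_heckeT {N ℓ : ℕ} [hℓ : Fact ℓ.Prime]
    (hΔ : CongruenceSubgroup.Gamma N ≤ GammaH K (⊤ : Subgroup _))
    (hKN : K ∣ N) (hl : (ℓ : ZMod N) = 1) {R : Type*} [CommRing R]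
    (φ : Homs R (GammaH K (⊤ : Subgroup _))) :
    (stdOp hΔ le_rfl hl).op le_rfl le_rfl φ = heckeT R K ⊤ ℓ φ := by
  have hlK : (ℓ : ZMod K) = 1 := by
    have h := congrArg (ZMod.castHom hKN (ZMod K)) hl
    rwa [map_natCast, map_one] at h
  rw [heckeT_eq_conjReps hlK 1]
  refine Reps.homMap_congr _ _ (fun i => ?_) (by simp) φ
  obtain ⟨m, hm⟩ := hKN
  -- `(1, N j; 0, ℓ)` and `(1, K j'; 0, ℓ)` agree up to translations in the level
  rcases i with _ | j
  · refine ⟨none, 1, one_mem _, ?_⟩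
    change heckeGL ℓ (N : ℤ) none =
      gq (1 : SL(2, ℤ)) * (gq (1 : SL(2, ℤ)) * heckeGL ℓ (K : ℤ) none * (gq (1 : SL(2, ℤ)))⁻¹)
    simp [heckeGL, heckeRep]
  · have hpos : (0 : ℤ) < ℓ := by exact_mod_cast hℓ.out.pos
    set x : ℤ := (m : ℤ) * (j : ℕ)
    obtain ⟨a, ha⟩ : ∃ a : Fin ℓ, ((a : ℕ) : ℤ) = x % ℓ :=
      ⟨⟨(x % ℓ).toNat, by have := Int.emod_lt_of_pos x hpos; omega⟩,
        by simp [Int.emod_nonneg x hpos.ne']⟩
    have hT : T ^ ((K : ℤ) * (x / ℓ)) ∈ GammaH K (⊤ : Subgroup _) := by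
      rw [GammaH_top, Gamma0_mem]
      simp [coe_T_zpow]
    refine ⟨some a, _, hT, ?_⟩
    change heckeGL ℓ (N : ℤ) (some j) = gq (T ^ ((K : ℤ) * (x / ℓ))) *
      (gq (1 : SL(2, ℤ)) * heckeGL ℓ (K : ℤ) (some a) * (gq (1 : SL(2, ℤ)))⁻¹)
    rw [map_one, inv_one, one_mul, mul_one]
    refine Units.ext ?_
    rw [Units.val_mul, coe_gq, heckeGL, heckeGL, coe_intMat, coe_intMat, ← Matrix.map_mul_intCast]
    congr 1
    ext u v
    fin_cases u <;> fin_cases v <;>
      simp [heckeRep, Matrix.mul_apply, Fin.sum_univ_two, coe_T_zpow]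
    rw [ha, hm]
    push_cast
    linear_combination -(K : ℤ) * Int.emod_add_mul_ediv x ℓ

/-- A polynomial in the operators acts on multiples of an eigen class by its value at the
eigenvalues. -/
theorem heckeAct_eigen {k : Type} [Field k] {z : Homs k (GammaH K (⊤ : Subgroup _))} {t : σ → k}
    (hz : ∀ i, heckeT k K ⊤ (p i) z = t i • z) (Q : MvPolynomial σ ℤ) (c : k) :
    heckeAct ℤ k K ⊤ p Q (c • z) = (MvPolynomial.eval₂Hom (Int.castRingHom k) t Q * c) • z := by
  induction Q using MvPolynomial.induction_on generalizing c with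
  | C n =>
    simp only [eq_intCast, map_intCast, Module.End.intCast_apply]
    rw [← Int.cast_smul_eq_zsmul k, smul_smul]
  | add P Q hP hQ => rw [map_add, map_add, LinearMap.add_apply, hP, hQ, add_mul, add_smul]
  | mul_X P i hP =>
    rw [map_mul, map_mul, Module.End.mul_apply, heckeAct_X, map_smul, hz, smul_smul, hP,
      eval₂Hom_X', mul_assoc, mul_comm c]

/-- **The relations between the operators on cusp forms hold for the eigenvalues** of an eigen
class that is not Eisenstein at `i₀`. -/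
theorem eval₂Hom_eq_zero_of_formAct {V : ValuationSubring ℂ} (h3 : (3 : ℂ) ∈ V.nonunits)
    (hneat : IsNeat K) {k : Type} [Field k] {r : V →+* k} (hr : Function.Surjective r)
    (hl : ∀ i, (p i : ZMod K) = 1) {t : σ → k} {i₀ : σ} (hd : t i₀ ≠ (p i₀ : k) + 1)
    {z : Homs k (GammaH K (⊤ : Subgroup _))} (hz0 : z ≠ 0)
    (hz : ∀ i, heckeT _ K ⊤ (p i) z = t i • z) (P : MvPolynomial σ ℤ)
    (hP : formAct K ⊤ (rename (labelOf K p) P) = 0) :
    MvPolynomial.eval₂Hom (Int.castRingHom _) t P = 0 := by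
  obtain ⟨φ, hφ⟩ := (GoodLevel.of_neat (H := (⊤ : Subgroup (ZMod K)ˣ)) (isUnit_two h3) trivial
    hneat).mapCoeff_surjective hr z
  -- the non-Eisenstein lift `φ'` comes from a symbol,
  -- hence from forms and conjugates, killed by `P`
  obtain ⟨S, hS⟩ := eisen_coker (hl i₀) φ
  set φ' := heckeT V K ⊤ (p i₀) φ - (p i₀ + 1) • φ
  obtain ⟨f, g, hfg⟩ := exists_eq_formPeriod_add_conj (⟨fun a b => ((S.1 a b : V) : ℂ),
    fun a b c => by
      change ((S.1 a b : V) : ℂ) + ((S.1 b c : V) : ℂ) = ((S.1 a c : V) : ℂ)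
      rw [← AddMemClass.coe_add, S.2.1 a b c],
    fun γ hγ a b => congrArg Subtype.val (S.2.2 γ hγ a b)⟩ : symbols ℂ (GammaH K ⊤))
  have hφ' : mapCoeff V.subtype φ' = formPeriod f + mapCoeff (starRingEnd ℂ) (formPeriod g) := by
    rw [← hS, ← hfg]
    exact AddMonoidHom.ext fun _ => rfl
  have hkill : heckeAct ℤ V K ⊤ p P φ' = 0 := by
    refine mapCoeff_inj (f := V.subtype) Subtype.coe_injective ?_
    rw [mapCoeff_heckeActInt, hφ', map_add, ← mapCoeff_heckeActInt, ← formPeriod_formAct,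
      ← formPeriod_formAct, hP]
    simp
  have h2 := congrArg (mapCoeff r) hkill
  have hz' : mapCoeff r φ' = (t i₀ - ((p i₀ : k) + 1)) • z := by
    rw [map_sub, map_nsmul, mapCoeff_heckeT, hφ, hz, sub_smul, ← Nat.cast_smul_eq_nsmul k,
      Nat.cast_succ]
  rw [mapCoeff_heckeActInt, hz', map_zero, heckeAct_eigen hz] at h2
  exact ((mul_eq_zero.mp ((smul_eq_zero.mp h2).resolve_right hz0))).resolve_right
    (sub_ne_zero.mpr hd)

/-- The Hecke ring has no torsion. -/
theorem eq_zero_of_natCast_mul {n : ℕ} (hn : n ≠ 0) {H : Subgroup (ZMod K)ˣ} [NegMem H]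
    {T : (Fermat.JAC.XH.heckeGens K H).R} (h : (n : (Fermat.JAC.XH.heckeGens K H).R) * T = 0) :
    T = 0 := by
  obtain ⟨P, rfl⟩ := Fermat.JAC.XH.ringEval_surjective K H T
  rw [← map_natCast (Fermat.JAC.XH.ringEval K H), ← map_mul,
    Fermat.JAC.XH.ringEval_eq_zero_iff] at h
  refine (Fermat.JAC.XH.ringEval_eq_zero_iff K H P).mpr (LinearMap.ext fun f => ?_)
  have h1 := LinearMap.congr_fun h f
  rw [map_mul, map_natCast, Module.End.mul_apply, Module.End.natCast_apply,
    ← Nat.cast_smul_eq_nsmul ℂ] at h1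
  exact (smul_eq_zero.mp h1).resolve_left (Nat.cast_ne_zero.mpr hn)

/-- A point of a finite `ℤ_l`-algebra without `l`-torsion through a maximal ideal. -/
theorem exists_dvr_point_of_maximal {l : ℕ} [hl : Fact l.Prime] {D : Type} [CommRing D]
    [Algebra ℤ_[l] D] [Module.Finite ℤ_[l] D] (hp0 : ∀ y : D, ((l : ℕ) : D) * y = 0 → y = 0)
    (Mx : Ideal D)
    [hMmax : Mx.IsMaximal] :
    ∃ (O : Type) (_ : CommRing O) (_ : IsDomain O) (_ : IsDiscreteValuationRing O)
      (_ : IsAdicComplete (IsLocalRing.maximalIdeal O) O)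
      (_ : Finite (IsLocalRing.ResidueField O)) (_ : CharZero O),
      ∃ F : D →+* O, Mx ≤ (IsLocalRing.maximalIdeal O).comap F := by
  have : Finite (IsLocalRing.ResidueField ℤ_[l]) :=
    Finite.of_equiv _ (PadicInt.residueField (p := l)).toEquiv.symm
  -- a minimal prime P ≤ Mx avoids l, so ℤ_[l] embeds in D ⧸ P
  obtain ⟨P, hPmin, hPle⟩ := Ideal.exists_minimalPrimes_le (J := Mx) (I := ⊥) bot_le
  have hPprime : P.IsPrime := hPmin.1.1
  have hpP : ((l : ℕ) : D) ∉ P := fun h =>
    Set.disjoint_left.mp (Ideal.disjoint_nonZeroDivisors_of_mem_minimalPrimes hPmin) h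
      (by rw [SetLike.mem_coe, mem_nonZeroDivisors_iff_right]; exact fun y hy =>
            hp0 y (mul_comm y _ ▸ hy))
  have hinjDB : Function.Injective (algebraMap ℤ_[l] (D ⧸ P)) := by
    rw [injective_iff_map_eq_zero]
    intro x hx
    by_contra hx0
    rw [PadicInt.unitCoeff_spec hx0, map_mul, map_pow, map_natCast, mul_eq_zero] at hx
    rcases hx with hx | hx
    · exact ((PadicInt.unitCoeff hx0).isUnit.map (algebraMap ℤ_[l] (D ⧸ P))).ne_zero hx
    · exact hpP (Ideal.Quotient.eq_zero_iff_mem.mp (by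
        rw [map_natCast]; exact eq_zero_of_pow_eq_zero hx))
  have : FaithfulSMul ℤ_[l] (D ⧸ P) := (faithfulSMul_iff_algebraMap_injective _ _).mpr hinjDB
  have : Module.Finite ℤ_[l] (D ⧸ P) :=
    Module.Finite.of_surjective (Ideal.Quotient.mkₐ ℤ_[l] P).toLinearMap
      Ideal.Quotient.mk_surjective
  have : Algebra.IsIntegral ℤ_[l] (D ⧸ P) := Algebra.IsIntegral.of_finite _ _
  have : Algebra.IsAlgebraic ℤ_[l] (D ⧸ P) := Algebra.IsIntegral.isAlgebraic
  have : FaithfulSMul ℤ_[l] (AlgebraicClosure (FractionRing ℤ_[l])) :=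
    (faithfulSMul_iff_algebraMap_injective _ _).mpr (by
      rw [IsScalarTower.algebraMap_eq ℤ_[l] (FractionRing ℤ_[l])]
      exact (algebraMap (FractionRing ℤ_[l]) _).injective.comp (IsFractionRing.injective _ _))
  -- map D ⧸ P to a complete DVR O, finite over ℤ_[l]
  obtain ⟨@⟨O, h1, h2, h3, h4, h5, h6, h7, h8, h9, hinjO⟩, f, j, hj, -⟩ :=
    GR.exists_dvr_of_algHom (D ⧸ P)
      (IsAlgClosed.lift (R := ℤ_[l]) (S := D ⧸ P) (M := AlgebraicClosure (FractionRing ℤ_[l])))
  have : IsLocalRing (D ⧸ P) := GR.isLocalRing_of_finite_domain (O := ℤ_[l]) (D ⧸ P)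
  let F : D →+* O := f.toRingHom.comp (Ideal.Quotient.mk P)
  -- f is integral, so the maximal ideal pulls back to a maximal ideal, above Mx
  have hker : Mx ≤ (IsLocalRing.maximalIdeal O).comap F := by
    have hfint : f.toRingHom.IsIntegral := fun y => by
      obtain ⟨Q, hQ, hQ0⟩ := (Algebra.IsIntegral.of_finite ℤ_[l] O).isIntegral y
      exact ⟨Q.map (algebraMap ℤ_[l] (D ⧸ P)), hQ.map _, by
        rw [Polynomial.eval₂_map, f.toRingHom_eq_coe, f.comp_algebraMap]; exact hQ0⟩
    have h1 : ((IsLocalRing.maximalIdeal O).comap f.toRingHom).IsMaximal :=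
      Ideal.isMaximal_comap_of_isIntegral_of_isMaximal' f.toRingHom hfint _
    rw [show (IsLocalRing.maximalIdeal O).comap F =
      ((IsLocalRing.maximalIdeal O).comap f.toRingHom).comap (Ideal.Quotient.mk P) from
        (Ideal.comap_comap _ _).symm, IsLocalRing.eq_maximalIdeal h1]
    intro y hy
    refine (IsLocalRing.mem_maximalIdeal _).mpr fun hu => ?_
    obtain ⟨z, hz⟩ := hu.exists_right_inv
    obtain ⟨z, rfl⟩ := Ideal.Quotient.mk_surjective z
    rw [← map_mul, ← map_one (Ideal.Quotient.mk P), Ideal.Quotient.eq] at hz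
    exact hMmax.ne_top ((Ideal.eq_top_iff_one _).mpr (by
      simpa using sub_mem (Mx.mul_mem_right z hy) (hPle hz)))
  exact ⟨O, h1, h2, h3, h4, h5, h6, F, hker⟩

/-- A prime of an integral algebra containing a number that generates a maximal ideal of the
base is maximal. -/
theorem isMaximal_of_natCast_mem {B D : Type*} [CommRing B] [CommRing D] [Algebra B D]
    [Algebra.IsIntegral B D] {l : ℕ} (hl : (Ideal.span {(l : B)}).IsMaximal) (P : Ideal D)
    [P.IsPrime] (h : (l : D) ∈ P) : P.IsMaximal := by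
  refine Ideal.isMaximal_of_isIntegral_of_isMaximal_comap (R := B) P ?_
  have hle : Ideal.span {(l : B)} ≤ P.comap (algebraMap B D) := by
    rw [Ideal.span_le, Set.singleton_subset_iff, SetLike.mem_coe, Ideal.mem_comap, map_natCast]
    exact h
  rw [← hl.eq_of_le (Ideal.comap_ne_top _ (Ideal.IsPrime.ne_top inferInstance)) hle]
  exact hl

/-- A point of a finite free `ℤ`-algebra reducing to given values. -/
theorem exists_dvr_point_congruent {l : ℕ} [hl : Fact l.Prime] {R : Type} [CommRing R]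
    [Module.Finite ℤ R] [Module.Free ℤ R]
    {k : Type} [Field k] [IsAlgClosed k] [CharP k l] (T' : σ → R) (t : σ → k)
    (ht : ∀ P : MvPolynomial σ ℤ, MvPolynomial.eval₂Hom (Int.castRingHom R) T' P = 0 →
      MvPolynomial.eval₂Hom (Int.castRingHom k) t P = 0) :
    ∃ (O : Type) (_ : CommRing O) (_ : IsDomain O) (_ : IsDiscreteValuationRing O)
      (_ : IsAdicComplete (IsLocalRing.maximalIdeal O) O)
      (_ : Finite (IsLocalRing.ResidueField O)) (_ : CharZero O),
      (l : O) ∈ IsLocalRing.maximalIdeal O ∧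
      ∃ (F : R →+* O) (ι : IsLocalRing.ResidueField O →+* k),
        ∀ i, ι (IsLocalRing.residue O (F (T' i))) = t i := by
  let e : MvPolynomial σ ℤ →+* R := MvPolynomial.eval₂Hom (Int.castRingHom R) T'
  let θ := MvPolynomial.eval₂Hom (Int.castRingHom k) t
  let S := e.range
  have hθ : RingHom.ker e.rangeRestrict ≤ RingHom.ker θ := fun P hP => ht P
    (congrArg Subtype.val (RingHom.mem_ker.mp hP))
  let θ' : S →+* k := e.rangeRestrict.liftOfSurjective e.rangeRestrict_surjective ⟨θ, hθ⟩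
  have hθ' : ∀ P, θ' (e.rangeRestrict P) = θ P := fun P =>
    RingHom.liftOfRightInverse_comp_apply _ _ _ ⟨θ, hθ⟩ P
  have : Algebra.IsIntegral S R := Algebra.IsIntegral.tower_top (R := ℤ)
  have : Algebra.IsIntegral ℤ R := Algebra.IsIntegral.of_finite _ _
  have : Algebra.IsIntegral ℤ S := ⟨fun y =>
    (isIntegral_algHom_iff (S.subtype.toIntAlgHom) Subtype.val_injective).mp
      (Algebra.IsIntegral.isIntegral (y : R))⟩
  have : (RingHom.ker θ').IsPrime := RingHom.ker_isPrime θ'
  have hpθ : ((l : ℕ) : S) ∈ RingHom.ker θ' := by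
    rw [RingHom.mem_ker, map_natCast]
    exact CharP.cast_eq_zero k l
  have hmax : (RingHom.ker θ').IsMaximal :=
    isMaximal_of_natCast_mem (B := ℤ)
      (PrincipalIdealRing.isMaximal_of_irreducible
        (Nat.prime_iff_prime_int.mp hl.out).irreducible) _ hpθ
  obtain ⟨q, -, hqp, hq⟩ := Ideal.exists_ideal_over_prime_of_isIntegral (RingHom.ker θ')
    (⊥ : Ideal R) (fun a ha => by
      rw [Ideal.mem_comap, Submodule.mem_bot] at ha
      rw [show a = 0 from Subtype.ext ha]
      exact zero_mem _)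
  have := hqp
  have hqker : ∀ y : S, θ' y = 0 → (y : R) ∈ q := fun y hy => by
    have h1 : y ∈ RingHom.ker θ' := hy
    rw [← hq] at h1
    exact h1
  have hpq : ((l : ℕ) : R) ∈ q := by
    have h := hqker _ hpθ
    simpa using h
  have : CharP (R ⧸ q) l := by
    refine (CharP.charP_iff_prime_eq_zero hl.out).mpr ?_
    rw [← map_natCast (Ideal.Quotient.mk q), Ideal.Quotient.eq_zero_iff_mem]
    exact hpq
  -- a point through it
  let D := ℤ_[l] ⊗[ℤ] R
  let zmap : ℤ_[l] →+* R ⧸ q := (ZMod.castHom dvd_rfl (R ⧸ q)).comp PadicInt.toZMod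
  let : Algebra ℤ_[l] (R ⧸ q) := zmap.toAlgebra
  let Φ : D →ₐ[ℤ_[l]] R ⧸ q := Algebra.TensorProduct.lift (Algebra.ofId _ _)
    { Ideal.Quotient.mk q with commutes' := fun n => by simp } fun _ _ => Commute.all _ _
  set Mx : Ideal D := RingHom.ker Φ
  have : Mx.IsPrime := RingHom.ker_isPrime Φ
  have : Module.Finite ℤ_[l] D := Module.Finite.base_change ℤ ℤ_[l] R
  have : Algebra.IsIntegral ℤ_[l] D := Algebra.IsIntegral.of_finite _ _
  have hMmax : Mx.IsMaximal := isMaximal_of_natCast_mem
    (PadicInt.maximalIdeal_eq_span_p (p := l) ▸ IsLocalRing.maximalIdeal.isMaximal ℤ_[l]) Mx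
    (by rw [RingHom.mem_ker, map_natCast]; exact CharP.cast_eq_zero _ l)
  have hp0 : ∀ y : D, ((l : ℕ) : D) * y = 0 → y = 0 := fun y hy => by
    rw [← nsmul_eq_mul, ← Nat.cast_smul_eq_nsmul ℤ_[l]] at hy
    exact (smul_eq_zero.mp hy).resolve_left (Nat.cast_ne_zero.mpr hl.out.ne_zero)
  obtain ⟨O, h1, h2, h3, h4, h5, h6, F, hker⟩ := exists_dvr_point_of_maximal (D := D) hp0 Mx
  let inc : R →+* D := Algebra.TensorProduct.includeRight.toRingHom
  have hmem : ∀ a ∈ q, IsLocalRing.residue O (F (inc a)) = 0 := fun a ha => by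
    rw [IsLocalRing.residue_eq_zero_iff]
    have hm : inc a ∈ Mx := by
      rw [RingHom.mem_ker]
      change Φ ((1 : ℤ_[l]) ⊗ₜ[ℤ] _) = 0
      rw [Algebra.TensorProduct.lift_tmul, map_one, one_mul]
      exact Ideal.Quotient.eq_zero_iff_mem.mpr ha
    exact hker hm
  have hpO : (l : O) ∈ IsLocalRing.maximalIdeal O := by
    have h := hmem _ hpq
    rw [map_natCast, map_natCast] at h
    rwa [IsLocalRing.residue_eq_zero_iff] at h
  -- the embedding of the residue field
  let χ : S →+* IsLocalRing.ResidueField O :=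
    ((IsLocalRing.residue O).comp (F.comp inc)).comp S.subtype
  let : Field (S ⧸ RingHom.ker θ') := Ideal.Quotient.field _
  let χ' : S ⧸ RingHom.ker θ' →+* IsLocalRing.ResidueField O :=
    Ideal.Quotient.lift _ χ fun y hy => hmem _ (hqker y hy)
  let : Algebra (S ⧸ RingHom.ker θ') (IsLocalRing.ResidueField O) := χ'.toAlgebra
  let : Algebra (S ⧸ RingHom.ker θ') k :=
    (Ideal.Quotient.lift (RingHom.ker θ') θ' fun y hy => hy).toAlgebra
  have : Module.Finite (S ⧸ RingHom.ker θ') (IsLocalRing.ResidueField O) := Module.Finite.of_finite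
  have : Algebra.IsAlgebraic (S ⧸ RingHom.ker θ') (IsLocalRing.ResidueField O) :=
    Algebra.IsAlgebraic.of_finite _ _
  let ι : IsLocalRing.ResidueField O →ₐ[S ⧸ RingHom.ker θ'] k := IsAlgClosed.lift
  refine ⟨O, h1, h2, h3, h4, h5, h6, hpO, F.comp inc, ι.toRingHom, fun i => ?_⟩
  have h := ι.commutes (Ideal.Quotient.mk _ (e.rangeRestrict (X i)))
  have e1 : θ' (e.rangeRestrict (X i)) = t i := by rw [hθ']; exact eval₂Hom_X' _ _ _
  have e2 : ((e.rangeRestrict (X i) : S) : R) = T' i := eval₂Hom_X' _ _ _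
  change ι (χ (e.rangeRestrict (X i))) = θ' (e.rangeRestrict (X i)) at h
  rw [e1] at h
  rw [← h]
  exact congrArg (fun y : R => ι (IsLocalRing.residue O (F (inc y)))) e2.symm

/-- A finite `ℤ`-algebra without torsion is free. -/
theorem free_int_of_natCast_mul {R : Type} [CommRing R] [Module.Finite ℤ R]
    (h : ∀ n : ℕ, n ≠ 0 → ∀ x : R, (n : R) * x = 0 → x = 0) : Module.Free ℤ R := by
  have : Module.IsTorsionFree ℤ R := by
    refine ⟨fun n hn a b hab => ?_⟩
    have h0 : (n.natAbs : R) * (a - b) = 0 := by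
      have hab' : n • a = n • b := hab
      rcases Int.natAbs_eq n with h | h <;> rw [h] at hab' <;>
        simp only [neg_smul, neg_inj, natCast_zsmul, nsmul_eq_mul] at hab' <;>
        rw [mul_sub, hab', sub_self]
    exact sub_eq_zero.mp (h _ (Int.natAbs_ne_zero.mpr hn.ne_zero) _ h0)
  exact Module.free_of_finite_type_torsion_free'

/-- Renaming the variables and evaluating is evaluating at the renamed values. -/
theorem eval₂Hom_rename {τ R : Type} [CommRing R] (g : σ → τ) (ev : MvPolynomial τ ℤ →+* R)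
    (P : MvPolynomial σ ℤ) :
    MvPolynomial.eval₂Hom (Int.castRingHom R) (fun i => ev (X (g i))) P = ev (rename g P) := by
  induction P using MvPolynomial.induction_on with
  | C n => rw [eval₂Hom_C, rename_C, eq_intCast, eq_intCast, map_intCast]
  | add P Q hP hQ => simp only [map_add, hP, hQ]
  | mul_X P i hP => rw [map_mul, map_mul, map_mul, hP, rename_X, eval₂Hom_X']

/-- **An eigen system congruent to given values.** -/
theorem exists_point_congruent {k : Type} [Field k] [CharP k 3] (t : σ → ℤ)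
    (ht : ∀ P : MvPolynomial σ ℤ, formAct K ⊤ (rename (labelOf K p) P) = 0 →
      MvPolynomial.eval₂Hom (Int.castRingHom k) (fun i => (t i : k)) P = 0) :
    ∃ (O : Type) (_ : CommRing O) (_ : IsDomain O) (_ : IsDiscreteValuationRing O)
      (_ : IsAdicComplete (IsLocalRing.maximalIdeal O) O)
      (_ : Finite (IsLocalRing.ResidueField O)) (_ : CharZero O),
      (3 : O) ∈ IsLocalRing.maximalIdeal O ∧
      ∃ x : MvPolynomial (Nat.Primes ⊕ (ZMod K)ˣ) ℤ →+* O, GR.RT.IsPoint K ⊤ x ∧
        ∀ i, IsLocalRing.residue O (GR.RT.tVal x (p i)) = (t i : IsLocalRing.ResidueField O) := by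
  let ev := Fermat.JAC.XH.ringEval K (⊤ : Subgroup (ZMod K)ˣ)
  have := free_int_of_natCast_mul (R := (Fermat.JAC.XH.heckeGens K (⊤ : Subgroup (ZMod K)ˣ)).R)
    fun _ hn _ h => eq_zero_of_natCast_mul hn h
  have : CharP (AlgebraicClosure k) 3 :=
    charP_of_injective_algebraMap (algebraMap k (AlgebraicClosure k)).injective 3
  -- a point with the given values in an algebraic closure of `k`
  obtain ⟨O, h1, h2, h3, h4, h5, h6, h3O, F, ι, hF⟩ := exists_dvr_point_congruent (l := 3)
    (R := (Fermat.JAC.XH.heckeGens K (⊤ : Subgroup (ZMod K)ˣ)).R)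
    (fun i => ev (X (labelOf K p i))) (fun i => (t i : AlgebraicClosure k))
    fun P hP => by
      have h := ht P ((Fermat.JAC.XH.ringEval_eq_zero_iff K ⊤ _).mp
        ((eval₂Hom_rename (labelOf K p) ev P).symm.trans hP))
      have h' := congrArg (algebraMap k (AlgebraicClosure k)) h
      rw [map_zero, MvPolynomial.map_eval₂Hom,
        RingHom.eq_intCast' ((algebraMap k (AlgebraicClosure k)).comp (Int.castRingHom k))] at h'
      simpa using h'
  refine ⟨O, h1, h2, h3, h4, h5, h6, by exact_mod_cast h3O, F.comp (Fermat.JAC.XH.ringEval K ⊤),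
    GR.RT.isPoint_of_factor K ⊤ _, fun i => ?_⟩
  rw [GR.RT.tVal, dif_pos (Fact.out : (p i).Prime)]
  exact ι.injective ((hF i).trans (map_intCast ι (t i)).symm)

end Fermat.RM
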