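import Fermat.Agent.RM.Three
import Fermat.Agent.RM.Lift
import Fermat.Agent.GR.RT.ModularPoint
import Fermat.Agent.SW.SS3
import Fermat.Agent.GR.RT.CurveTargets
import Fermat.Agent.SW.IrrThree
import Mathlib.NumberTheory.LSeries.PrimesInAP
import Mathlib.RingTheory.Valuation.LocalSubring

/-!
# Residual modularity at three for supersingular reduction

`supersingularBase` gives `SupersingularBase` from the weight one data and the inputs on the
representations of eigen systems. The steps, one file each: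
* weight one times Eisenstein gives an eigen map on the Weil module modulo three at `Γ(27 E₁ r E₂)`
  (`Eigen`), so an eigen class fixed by the upper triangular elements (`Fixed`);
* it descends to `Γ₀(3 E₁ r E₂)` (`Descend`) and lifts to an eigen system (`Lift`): together
  `exists_congruent_point`;
* its residual representation is that of the curve up to a twist (`Residual`), and flatness takes
  the twist and three out of the level (`Three`).
-/

set_option autoImplicit false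

noncomputable section

namespace Fermat.RM

open scoped MatrixGroups
open Matrix IsLocalRing Fermat.GR.RT Fermat.HM Fermat.MC.Lvl

local notation "ℚbar" => AlgebraicClosure ℚ
local notation "Γℚ" => (AlgebraicClosure ℚ ≃ₐ[ℚ] AlgebraicClosure ℚ)
local notation "M23" => Matrix (Fin 2) (Fin 2) (ZMod 3)
local notation "GL23" => GL (Fin 2) (ZMod 3)

/-- The elements of `GL₂(𝔽₃)` have order dividing six or eight. -/
theorem pow_six_or_eight : ∀ a b c d : ZMod 3, a * d - b * c ≠ 0 →
    (!![a, b; c, d] : M23) ^ 6 = 1 ∨ (!![a, b; c, d] : M23) ^ 8 = 1 := by decide +kernel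

/-- An element of `GL₂(𝔽₃)` killed only by multiples of eight has order eight. -/
theorem orderOf_eq_eight {g : GL23} (h : ∀ n : ℕ, g ^ n = 1 → 8 ∣ n) : orderOf g = 8 := by
  have hd : (g : M23).det ≠ 0 := ((Matrix.isUnit_iff_isUnit_det _).mp g.isUnit).ne_zero
  rw [Matrix.det_fin_two] at hd
  have h1 := pow_six_or_eight _ _ _ _ hd
  rw [← Matrix.eta_fin_two (g : M23)] at h1
  refine Nat.dvd_antisymm (orderOf_dvd_iff_pow_eq_one.mpr ?_) (h _ (pow_orderOf_eq_one g))
  rcases h1 with h6 | h8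
  · exact absurd (h 6 (Units.ext (by rw [Units.val_pow_eq_pow_val, h6, Units.val_one])))
      (by norm_num)
  · exact Units.ext (by rw [Units.val_pow_eq_pow_val, h8, Units.val_one])

/-- A place of `ℂ` over `3`. -/
theorem exists_place_three : ∃ V : ValuationSubring ℂ, (3 : ℂ) ∈ V.nonunits := by
  let A : Subring ℂ := (Int.castRingHom ℂ).range
  have hI : Ideal.span {(3 : A)} ≠ ⊤ := by
    rw [Ne, Ideal.span_singleton_eq_top]
    rintro ⟨u, hu⟩
    obtain ⟨n, hn⟩ := (u⁻¹ : Aˣ).val.2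
    have h1 : ((u : A) : ℂ) * (((u⁻¹ : Aˣ) : A) : ℂ) = 1 := by
      rw [← Subring.coe_mul, ← Units.val_mul, mul_inv_cancel]; rfl
    rw [hu, ← hn, show ((3 : A) : ℂ) = 3 from rfl, eq_intCast] at h1
    have h3 : (3 : ℤ) * n = 1 := by exact_mod_cast h1
    omega
  obtain ⟨V, -, hV⟩ := Ideal.image_subset_nonunits_valuationSubring _ hI
  exact ⟨V, hV ⟨3, Ideal.mem_span_singleton_self _, rfl⟩⟩

/-- Two is a unit modulo three. -/
theorem isUnit_two_three : IsUnit (2 : ZMod 3) := ⟨⟨2, 2, by decide, by decide⟩, rfl⟩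

variable [Fact (Nat.Prime 3)]

/-- The torsion representation has the shape used by the weight one input. -/
theorem rhoData_tRep {W : WeierstrassCurve ℤ} (hW : W.Δ ≠ 0) (hss : W.IsSemistableModel)
    (hgood : ¬ (3 : ℤ) ∣ W.Δ) (hb2 : (3 : ℤ) ∣ W.b₂) :
    LT.RhoData (SW.Tors.tRep (p := 3) W hW) := by
  have hirr := SW.irreducible_three_of_supersingular W hgood hb2
  refine ⟨?_, SW.Tors.surjective_tRep_three hW hss hirr, fun σ => Units.ext ?_, ?_, fun A hA => ?_⟩
  · refine continuous_of_continuousAt_one _ ?_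
    rw [ContinuousAt, map_one, nhds_discrete GL23, Filter.tendsto_pure]
    exact (SW.Tors.isOpen_ker_tRep hW).mem_nhds (map_one _)
  · rw [Matrix.GeneralLinearGroup.val_det_apply, SW.Tors.det_tRep hW σ,
      WeierstrassCurve.modThreeCyclotomicChar_apply]
    rfl
  · intro q hq hq3 A hA σ hσ
    rw [sq]
    exact SW.Tors.unipotent_tRep hW hss (by norm_num) hq hq3 hA hσ
  · obtain ⟨ι, hι, h8⟩ := SW.exists_inertia_order_eight (A := A) (W := W) ⟨Nat.prime_three, hA⟩
      hgood hb2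
    refine ⟨ι, hι, orderOf_eq_eight fun n hn => ?_⟩
    have := (Fermat.FR.finrank_torsion W (p := 3) hW).2
    set b := SW.Tors.tbasis (p := 3) W hW
    have hP : b 0 ≠ 0 := b.ne_zero 0
    refine h8 n (b 0) hP ?_
    exact (SW.Tors.tRep_eq_one hW).mp (by rw [map_pow, hn]) (b 0)

omit [Fact (Nat.Prime 3)] in
/-- One modulo `n` is one modulo its divisors. -/
theorem cast_eq_one_of_dvd {m n a : ℕ} (h : m ∣ n) (ha : (a : ZMod n) = 1) : (a : ZMod m) = 1 := by
  have h1 := congrArg (ZMod.castHom h (ZMod m)) ha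
  rwa [map_natCast, map_one] at h1

/-- **An eigen system at `Γ₀(3 M)` congruent to the lifted traces at the primes of `Idx`.** -/
theorem exists_congruent_point {ρ : Γℚ →* GL23} (hρ : IsSemistableResidual 3 ρ)
    (D : WeightOneData ρ) {r : ℕ} (hr : r.Prime) (hr3 : r % 3 = 2)
    (hrE : ¬ r ∣ D.E₁ * D.E₂) [NeZero (D.E₁ * r * D.E₂)]
    [NeZero (27 * (D.E₁ * r) * D.E₂)] :
    ∃ (O : Type) (_ : CommRing O) (_ : IsDomain O) (_ : IsDiscreteValuationRing O)
      (_ : IsAdicComplete (maximalIdeal O) O) (_ : Finite (ResidueField O)) (_ : CharZero O),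
      (3 : O) ∈ maximalIdeal O ∧
      ∃ x : MvPolynomial (Nat.Primes ⊕ (ZMod (3 * (D.E₁ * r * D.E₂)))ˣ) ℤ →+* O,
        IsPoint (3 * (D.E₁ * r * D.E₂)) ⊤ x ∧
        ∀ i : Idx ρ (27 * (D.E₁ * r) * D.E₂),
          residue O (tVal x i.prime) = (i.tr : ResidueField O) := by
  have hne : D.E₁ ≠ 0 ∧ D.E₂ ≠ 0 := mul_ne_zero_iff.mp D.squarefree.ne_zero
  have : NeZero D.E₁ := ⟨hne.1⟩
  have : NeZero D.E₂ := ⟨hne.2⟩
  have : NeZero (D.E₁ * r) := ⟨mul_ne_zero hne.1 hr.ne_zero⟩
  have h31 : ¬ 3 ∣ D.E₁ := fun h => D.not_three (h.mul_right _)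
  have h32 : ¬ 3 ∣ D.E₂ := fun h => D.not_three (h.mul_left _)
  have h3r : ¬ 3 ∣ r := fun h => by omega
  have hE : Nat.Coprime 27 (D.E₁ * r) := by
    rw [show 27 = 3 ^ 3 by norm_num]
    exact Nat.Coprime.pow_left _ (Nat.prime_three.coprime_iff_not_dvd.mpr fun h =>
      (Nat.prime_three.dvd_mul.mp h).elim h31 h3r)
  have hcop : Nat.Coprime (27 * (D.E₁ * r)) D.E₂ := by
    refine Nat.Coprime.mul_left ?_
      (Nat.Coprime.mul_left (Nat.coprime_of_squarefree_mul D.squarefree)
      (hr.coprime_iff_not_dvd.mpr fun h => hrE (h.mul_left _)))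
    rw [show 27 = 3 ^ 3 by norm_num]
    exact Nat.Coprime.pow_left _ (Nat.prime_three.coprime_iff_not_dvd.mpr h32)
  have hmono : topLevel (D.E₁ * r) ≤ topLevel D.E₁ := topLevel_mono (dvd_mul_right _ _)
  let W : topLevel (D.E₁ * r) →* Module.End ℂ (QR D.E₂ → ℂ) :=
    D.weil.comp (Subgroup.inclusion hmono)
  -- the module at the ramified primes, at the auxiliary level
  have hW : IsWeil W D.cst D.sgn :=
    { coprime := hcop
      not_three := h32
      squarefree := Squarefree.squarefree_of_dvd (dvd_mul_left _ _) D.squarefree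
      one := fun γ hγ => D.weil_one _ hγ
      weil_T := fun γ b hγ => D.weil_T _ b hγ
      weil_diag := fun γ t u hγ => D.weil_diag _ t u hγ
      sgn_pow := D.sgn_pow
      weil_S := fun γ hγ => D.weil_S _ hγ }
  obtain ⟨V, h3V⟩ := exists_place_three
  have := charP_residue h3V
  obtain ⟨i₀, hi₀⟩ := exists_idx_tr_zero (N := 27 * (D.E₁ * r) * D.E₂) hρ
  have hl : ∀ i : Idx ρ (27 * (D.E₁ * r) * D.E₂),
      (i.prime : ZMod (27 * (D.E₁ * r) * D.E₂)) = 1 := fun i => i.cast_prime
  have ht0 : ((i₀.tr : ℤ) : ResidueField V) = 0 := by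
    rw [← map_intCast (ZMod.castHom (dvd_refl 3) (ResidueField V)), hi₀, map_zero]
  have h2 := isUnit_two_residue h3V
  have hd : ((i₀.tr : ℤ) : ResidueField V) ≠ (i₀.prime : ResidueField V) + 1 := by
    rw [ht0, natCast_prime_eq_one ⟨9 * (D.E₁ * r) * D.E₂, by ring⟩ (hl i₀), one_add_one_eq_two]
    exact h2.ne_zero.symm
  -- an eigen class fixed by the upper triangular elements, descended to `Γ₀`
  obtain ⟨x, hx0, hfix, heig⟩ := exists_fixed_eigen hW (dvd_mul_right _ _) hE D.theta hl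
    (fun i => i.tr) (fun γ φ => D.theta_equivariant _ φ) D.chr D.chr_cube D.theta_chr
    D.theta_ne_zero (fun φ i n => D.hecke i.prime i.2.1
      (cast_eq_one_of_dvd ⟨r, by ring⟩ (hl i)) i.place i.liesOverPrime i.frob i.isFrobeniusAt
        i.inQ8 φ n)
    h3V ht0
  have hneat : IsNeat (3 * (D.E₁ * r * D.E₂)) :=
    Or.inl ⟨r, hr, hr3, ((dvd_mul_left r D.E₁).mul_right D.E₂).mul_left 3⟩
  obtain ⟨z, hz0, hz⟩ := hasEigen_Gamma0 h2 hE hcop hneat hl _ hd hx0 hfix heig
  have htop : ∃ z : Homs (ResidueField V) (GammaH (3 * (D.E₁ * r * D.E₂)) (⊤ : Subgroup _)),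
      z ≠ 0 ∧ ∀ i : Idx ρ (27 * (D.E₁ * r) * D.E₂),
        heckeT _ (3 * (D.E₁ * r * D.E₂)) ⊤ i.prime z = (i.tr : ResidueField V) • z := by
    have key : ∀ (hΔ : CongruenceSubgroup.Gamma (27 * (D.E₁ * r) * D.E₂) ≤
        GammaH (3 * (D.E₁ * r * D.E₂)) (⊤ : Subgroup _)),
        HasEigen hΔ hl (fun i => (i.tr : ResidueField V)) := by
      rw [GammaH_top]
      exact fun _ => ⟨z, hz0, hz⟩
    obtain ⟨z', hz0', hz'⟩ := key (by
      rw [GammaH_top]; exact (Gamma_le_Gamma0 _).trans (Gamma0_le_of_dvd ⟨9, by ring⟩))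
    exact ⟨z', hz0', fun i => (op_stdOp_eq_heckeT _ ⟨9, by ring⟩ (hl i) z').symm.trans (hz' i)⟩
  -- lift its eigenvalues
  obtain ⟨z', hz0', hz'⟩ := htop
  exact exists_point_congruent (fun i : Idx ρ (27 * (D.E₁ * r) * D.E₂) => i.tr) fun P hP =>
    eval₂Hom_eq_zero_of_formAct h3V hneat (residue_surjective (R := V))
      (fun i => cast_eq_one_of_dvd ⟨9, by ring⟩ (hl i)) hd hz0' hz' P hP

/-- **Residual modularity at three for supersingular reduction.** -/
theorem supersingularBase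
    (hW1 : ∀ (K L : Type) [Field K] [NumberField K] [Field L] [NumberField L] [Algebra K L],
      WeightOneDataStatement K L)
    (hAtt : AttachInput 3) (hNew : NewInput 3) (hOrd : OrdInput 3) (hFlat : FlatInput 3) :
    SupersingularBase := by
  intro W hW hss hgood hb2
  set ρ := SW.Tors.tRep (p := 3) W hW
  have hρd : LT.RhoData ρ := rhoData_tRep hW hss hgood hb2
  have hρ : IsSemistableResidual 3 ρ :=
    SW.Tors.isSemistableResidual_tRep hW hss (by norm_num) hρd.surjective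
  obtain ⟨K, L, _, _, _, hF⟩ := exists_fieldData hρ.isOpen_ker
  obtain ⟨D⟩ := hW1 K L ρ L.val.toRingHom hρd hF
  -- an auxiliary prime
  obtain ⟨r, hrgt, hr, hrm⟩ := Nat.forall_exists_prime_gt_and_eq_mod (q := 3) (a := 2)
    isUnit_two_three (D.E₁ * D.E₂)
  have hne : D.E₁ * D.E₂ ≠ 0 := D.squarefree.ne_zero
  have hrE : ¬ r ∣ D.E₁ * D.E₂ := fun h =>
    absurd (Nat.le_of_dvd (Nat.pos_of_ne_zero hne) h) (not_le.mpr hrgt)
  have hr3 : r % 3 = 2 := by
    rw [← ZMod.val_natCast 3 r, hrm]; rfl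
  set M := D.E₁ * r * D.E₂
  have hM : Squarefree M := by
    rw [show M = D.E₁ * D.E₂ * r by ring]
    exact (Nat.squarefree_mul (Nat.Coprime.symm (hr.coprime_iff_not_dvd.mpr hrE))).mpr
      ⟨D.squarefree, hr.prime.squarefree⟩
  have : NeZero M := ⟨hM.ne_zero⟩
  have : NeZero (27 * (D.E₁ * r) * D.E₂) :=
    ⟨by rw [mul_assoc]; exact mul_ne_zero (by norm_num) hM.ne_zero⟩
  have h3M : ¬ 3 ∣ M := fun h => by
    rw [show M = D.E₁ * D.E₂ * r by ring] at h
    exact (Nat.prime_three.dvd_mul.mp h).elim D.not_three fun h => by omega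
  -- the eigen system, with residual representation `ρ` and three out of the level
  obtain ⟨O, _, _, _, _, _, _, h3O, x, hx, htr⟩ := exists_congruent_point hρ D hr hr3 hrE
  have : CharP (ResidueField O) 3 := (CharP.charP_iff_prime_eq_zero Nat.prime_three).mpr (by
    rw [← map_natCast (residue O), residue_eq_zero_iff]
    exact_mod_cast h3O)
  set c := ZMod.castHom (dvd_refl 3) (ResidueField O)
  obtain ⟨y, hy, rep, hrep, P, hP⟩ := exists_point_residual hAtt hNew hOrd hFlat hW hgood hρ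
    hρd.supersingular (M := M) hM h3M (N := 27 * (D.E₁ * r) * D.E₂) (fun ℓ _ h => h.trans
      ⟨9, by ring⟩) h3O c hx htr
  -- compare traces of Frobenius
  refine ⟨M, hM, h3M, modularOf_of_point hy (by exact_mod_cast h3O) c
    fun ℓ hℓ hℓM hℓ3 _ A hA φ hφ => ?_⟩
  have hℓM3 : ¬ ℓ ∣ M * 3 := fun h => (hℓ.dvd_mul.mp h).elim hℓM fun h =>
    hℓ3 ((Nat.prime_dvd_prime_iff_eq hℓ Nat.prime_three).mp h)
  have h1 := (hrep.frobenius ℓ hℓ hℓM3 A hA φ hφ).1
  rw [eVal_eq_one rfl hy (hℓ.coprime_iff_not_dvd.mpr hℓM), mul_one] at h1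
  rw [← h1, ← trace_redRep, ← (trace_det_conjHom P (redRep rep) φ).1, hP φ]
  exact (AddMonoidHom.map_trace c.toAddMonoidHom _).symm

end Fermat.RM
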