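import Fermat.Agent.RM.Pair
import Fermat.Agent.HM.Eisenstein
import Fermat.Agent.HM.Operators

/-!
# The operators `T ℓ`, `ℓ ≡ 1 (mod N)`, at the levels containing `Γ(N)`

The representatives congruent to `1` modulo `N` make `T ℓ` a nice operator for every pair of such
levels; these operators commute.
-/

set_option autoImplicit false

noncomputable section

namespace Fermat.RM

open scoped MatrixGroups
open CongruenceSubgroup ModularGroup Matrix Fermat.HM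

variable {N ℓ : ℕ} [hℓ : Fact ℓ.Prime]

/-- An integral decomposition read off from a rational one. -/
theorem intDecomp_of_heckeGL {g h : SL(2, ℤ)} {i k : Option (Fin ℓ)}
    (e : heckeGL ℓ (N : ℤ) i * gq g = gq h * heckeGL ℓ (N : ℤ) k) :
    heckeRep ℓ N i * (g : Matrix (Fin 2) (Fin 2) ℤ)
      = (h : Matrix (Fin 2) (Fin 2) ℤ) * heckeRep ℓ N k := by
  refine Matrix.map_injective Int.cast_injective (α := ℤ) (β := ℚ) ?_
  have h1 := congrArg Units.val e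
  rwa [Units.val_mul, Units.val_mul, coe_gq, coe_gq, heckeGL, heckeGL, coe_intMat, coe_intMat,
    ← Matrix.map_mul_intCast, ← Matrix.map_mul_intCast] at h1

/-- The representatives have positive determinant. -/
theorem det_heckeGL_pos (i : Option (Fin ℓ)) :
    0 < (heckeGL ℓ (N : ℤ) i : Matrix (Fin 2) (Fin 2) ℚ).det := by
  rw [heckeGL, coe_intMat,
    show (heckeRep ℓ (N : ℤ) i).map (fun x : ℤ => (x : ℚ)) = (Int.castRingHom ℚ).mapMatrix
      (heckeRep ℓ N i) from rfl, ← RingHom.map_det, det_heckeRep]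
  simpa using hℓ.out.pos

variable {Γ Top : Subgroup SL(2, ℤ)}

/-- The representatives of `T ℓ` at a level containing `Γ(N)`. -/
def stdReps (hT : Gamma N ≤ Top) (hl : (ℓ : ZMod N) = 1) : Reps Top Top (Option (Fin ℓ)) where
  B := heckeGL ℓ (N : ℤ)
  det_B := det_heckeGL_pos
  rperm γ hγ i := by
    obtain ⟨k, h, e⟩ := exists_decomp hl γ i
    exact ⟨k, h, by simpa using mul_mem (hT (mul_inv_mem_Gamma hl e)) hγ, heckeGL_mul e⟩
  uniqB i k d _ e := by
    refine eq_of_mul_heckeRep hl (h := d)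
      (Matrix.map_injective Int.cast_injective (α := ℤ) (β := ℚ) ?_)
    have h1 := congrArg Units.val e
    rwa [Units.val_mul, coe_gq, heckeGL, heckeGL, coe_intMat, coe_intMat,
      ← Matrix.map_mul_intCast] at h1

/-- `T ℓ` at a pair of levels containing `Γ(N)`. -/
@[reducible] def stdOp (hΓ : Gamma N ≤ Γ) (hle : Γ ≤ Top) (hl : (ℓ : ZMod N) = 1) :
    NiceOp Γ Top where
  ι := Option (Fin ℓ)
  P := stdReps (hΓ.trans hle) hl
  nice γ i := hΓ (mul_inv_mem_Gamma hl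
    (intDecomp_of_heckeGL ((stdReps (hΓ.trans hle) hl).mul_gq γ i)))

/-- `T ℓ` has `ℓ + 1` representatives. -/
theorem card_stdOp (hΓ : Gamma N ≤ Γ) (hle : Γ ≤ Top) (hl : (ℓ : ZMod N) = 1) :
    Fintype.card (stdOp hΓ hle hl).ι = ℓ + 1 := by
  simp [Fintype.card_option]

/-! ## Commutation -/

variable {ℓ' : ℕ} [hℓ' : Fact ℓ'.Prime]

/-- The products of representatives of two operators lie in distinct cosets. -/
theorem uniq_heckeRep_mul (hne : ℓ ≠ ℓ') (hl : (ℓ : ZMod N) = 1) (hl' : (ℓ' : ZMod N) = 1)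
    {i k : Option (Fin ℓ)} {j m : Option (Fin ℓ')} {d : SL(2, ℤ)}
    (e : (d : Matrix (Fin 2) (Fin 2) ℤ) * (heckeRep ℓ N i * heckeRep ℓ' N j)
      = heckeRep ℓ N k * heckeRep ℓ' N m) : i = k ∧ j = m := by
  set B := heckeRep ℓ N i with hB
  set B' := heckeRep ℓ' N j with hB'
  set C := heckeRep ℓ N k with hC
  set C' := heckeRep ℓ' N m with hC'
  clear_value B B' C C'
  -- With `X = C' * adj B'`, `ℓ'` divides all entries of `X`, being prime to `ℓ`.
  obtain ⟨X, hX⟩ : ∃ X, X = C' * B'.adjugate := ⟨_, rfl⟩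
  have h1 : (ℓ' : ℤ) • ((d : Matrix (Fin 2) (Fin 2) ℤ) * B) = C * X := by
    rw [hX, ← Matrix.mul_assoc C, ← e, Matrix.mul_assoc _ _ B'.adjugate, Matrix.mul_assoc B,
      Matrix.mul_adjugate, hB', det_heckeRep, Matrix.mul_smul, Matrix.mul_smul, Matrix.mul_one]
  have h2 : (ℓ : ℤ) • X = (ℓ' : ℤ) • (C.adjugate * ((d : Matrix (Fin 2) (Fin 2) ℤ) * B)) := by
    rw [← Matrix.mul_smul, h1, ← Matrix.mul_assoc, Matrix.adjugate_mul, hC, det_heckeRep,
      Matrix.smul_mul, Matrix.one_mul]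
  have hdvd : ∀ a b, (ℓ' : ℤ) ∣ X a b := fun a b => by
    have h3 : (ℓ' : ℤ) ∣ (ℓ : ℤ) * X a b :=
      ⟨(C.adjugate * ((d : Matrix (Fin 2) (Fin 2) ℤ) * B)) a b, by
        simpa using congrFun (congrFun h2 a) b⟩
    refine (Int.Prime.dvd_mul' hℓ'.out h3).resolve_left fun h4 => hne ?_
    exact ((Nat.prime_dvd_prime_iff_eq hℓ'.out hℓ.out).mp (by exact_mod_cast h4)).symm
  choose Y hY using hdvd
  have hXY : X = (ℓ' : ℤ) • Matrix.of Y := Matrix.ext fun a b => by simpa using hY a b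
  have hl0 : (ℓ' : ℤ) ≠ 0 := by exact_mod_cast hℓ'.out.ne_zero
  have hinj := smul_right_injective (Matrix (Fin 2) (Fin 2) ℤ) hl0
  have hYB : Matrix.of Y * B' = C' := hinj (by
    change (ℓ' : ℤ) • _ = (ℓ' : ℤ) • _
    rw [← Matrix.smul_mul, ← hXY, hX, Matrix.mul_assoc, Matrix.adjugate_mul, hB', det_heckeRep,
      Matrix.mul_smul, Matrix.mul_one])
  have hdet : (Matrix.of Y).det = 1 := by
    have := congrArg Matrix.det hYB
    rw [Matrix.det_mul, hB', hC', det_heckeRep, det_heckeRep] at this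
    exact (mul_eq_right₀ hl0).mp this
  -- So `B'` and `C'` differ by an element of `SL(2, ℤ)`: `j = m`.
  have hjm : j = m := eq_of_mul_heckeRep hl' (h := ⟨Matrix.of Y, hdet⟩)
    (by rw [← hB', ← hC']; exact hYB)
  refine ⟨?_, hjm⟩
  have hY1 : Matrix.of Y = 1 := by
    have h5 : Matrix.of Y * B' = 1 * B' := by rw [hYB, Matrix.one_mul, hC', hB', hjm]
    have h6 := congrArg (fun A => A * B'.adjugate) h5
    simp only [Matrix.mul_assoc, Matrix.mul_adjugate, hB', det_heckeRep, Matrix.mul_smul,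
      Matrix.mul_one] at h6
    exact hinj h6
  -- Cancelling them leaves `d B = C`, so `i = k`.
  have h7 : (d : Matrix (Fin 2) (Fin 2) ℤ) * B = C := hinj (by
    change (ℓ' : ℤ) • _ = (ℓ' : ℤ) • _
    rw [h1, hXY, hY1, Matrix.mul_smul, Matrix.mul_one])
  subst hB hC
  exact eq_of_mul_heckeRep hl h7

omit hℓ hℓ' in
/-- The translations by multiples of `N` lie in `Γ(N)`. -/
theorem translate_mem_Gamma (t : ℤ) : (T ^ ((N : ℤ) * t)) ∈ Gamma N := by
  rw [Gamma_mem, coe_T_zpow]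
  simp

/-- The products of representatives in the two orders agree up to `Γ(N)`. -/
theorem exists_swap (hne : ℓ ≠ ℓ') (i : Option (Fin ℓ)) (j : Option (Fin ℓ')) :
    ∃ (a : Option (Fin ℓ')) (b : Option (Fin ℓ)), ∃ d ∈ Gamma N,
      heckeRep ℓ N i * heckeRep ℓ' N j
        = (d : Matrix (Fin 2) (Fin 2) ℤ) * (heckeRep ℓ' N a * heckeRep ℓ N b) := by
  have hl0 : (0 : ℤ) < ℓ := by exact_mod_cast hℓ.out.pos
  have hl0' : (0 : ℤ) < ℓ' := by exact_mod_cast hℓ'.out.pos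
  rcases i with _ | i <;> rcases j with _ | j
  -- (∞, ∞): the two diagonal matrices commute
  · refine ⟨none, none, 1, one_mem _, ?_⟩
    ext a b
    fin_cases a <;> fin_cases b <;> simp [heckeRep, Matrix.mul_apply, Fin.sum_univ_two, mul_comm]
  -- (∞, j): move the translation across, reducing modulo ℓ'
  · set x : ℤ := (ℓ : ℤ) * (j : ℕ)
    obtain ⟨a, ha⟩ : ∃ a : Fin ℓ', ((a : ℕ) : ℤ) = x % ℓ' :=
      ⟨⟨(x % ℓ').toNat, by have := Int.emod_lt_of_pos x hl0'; omega⟩,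
        by simp [Int.emod_nonneg x hl0'.ne']⟩
    refine ⟨some a, none, _, translate_mem_Gamma (x / ℓ'), ?_⟩
    ext u v
    fin_cases u <;> fin_cases v <;>
      simp [heckeRep, Matrix.mul_apply, Fin.sum_univ_two, coe_T_zpow]
    rw [ha]
    linear_combination -(N : ℤ) * Int.emod_add_mul_ediv x ℓ'
  -- (i, ∞): the same modulo ℓ, with a Bezout relation for ℓ and ℓ'
  · have hco : Int.gcd (ℓ' : ℤ) (ℓ : ℤ) = 1 := by
      simpa [Int.gcd_natCast_natCast] using ((Nat.coprime_primes hℓ'.out hℓ.out).mpr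
        hne.symm).gcd_eq_one
    have hbez := Int.gcd_eq_gcd_ab (ℓ' : ℤ) ℓ
    rw [hco, Nat.cast_one] at hbez
    set u := Int.gcdA (ℓ' : ℤ) ℓ
    set v := Int.gcdB (ℓ' : ℤ) ℓ
    set x : ℤ := u * (i : ℕ)
    obtain ⟨b, hb⟩ : ∃ b : Fin ℓ, ((b : ℕ) : ℤ) = x % ℓ :=
      ⟨⟨(x % ℓ).toNat, by have := Int.emod_lt_of_pos x hl0; omega⟩,
        by simp [Int.emod_nonneg x hl0.ne']⟩
    refine ⟨none, some b, _, translate_mem_Gamma ((ℓ' : ℤ) * (x / ℓ) + v * (i : ℕ)), ?_⟩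
    ext a c
    fin_cases a <;> fin_cases c <;>
      simp [heckeRep, Matrix.mul_apply, Fin.sum_univ_two, coe_T_zpow]
    rw [hb]
    linear_combination (N : ℤ) * ((i : ℕ) : ℤ) * hbez - (N : ℤ) * (ℓ' : ℤ) *
      Int.emod_add_mul_ediv x ℓ
  -- (i, j): write j + i ℓ' as a ℓ + b
  · set x : ℤ := (j : ℕ) + (i : ℕ) * (ℓ' : ℤ)
    have hx0 : 0 ≤ x := by positivity
    have hx1 : x < (ℓ' : ℤ) * ℓ := by
      have h1 : ((j : ℕ) : ℤ) < ℓ' := by exact_mod_cast j.2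
      have h2 : ((i : ℕ) : ℤ) + 1 ≤ ℓ := by exact_mod_cast i.2
      nlinarith
    obtain ⟨b, hb⟩ : ∃ b : Fin ℓ, ((b : ℕ) : ℤ) = x % ℓ :=
      ⟨⟨(x % ℓ).toNat, by have := Int.emod_lt_of_pos x hl0; omega⟩,
        by simp [Int.emod_nonneg x hl0.ne']⟩
    obtain ⟨a, ha⟩ : ∃ a : Fin ℓ', ((a : ℕ) : ℤ) = x / ℓ :=
      ⟨⟨(x / ℓ).toNat, by
          have h1 := Int.ediv_lt_of_lt_mul hl0 hx1
          have h2 : 0 ≤ x / ℓ := Int.ediv_nonneg hx0 hl0.le
          omega⟩,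
        by simp [Int.ediv_nonneg hx0 hl0.le]⟩
    refine ⟨some a, some b, 1, one_mem _, ?_⟩
    ext u v
    fin_cases u <;> fin_cases v <;> simp [heckeRep, Matrix.mul_apply, Fin.sum_univ_two]
    · rw [ha, hb]
      linear_combination -(N : ℤ) * Int.emod_add_mul_ediv x ℓ
    · ring

omit hℓ hℓ' in
/-- A product of rational representatives is the product of the integral ones. -/
theorem heckeGL_mul_heckeGL [Fact ℓ.Prime] [Fact ℓ'.Prime] (i : Option (Fin ℓ))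
    (j : Option (Fin ℓ')) :
    ((heckeGL ℓ (N : ℤ) i * heckeGL ℓ' (N : ℤ) j : GL (Fin 2) ℚ) : Matrix (Fin 2) (Fin 2) ℚ)
      = (heckeRep ℓ N i * heckeRep ℓ' N j).map (fun x : ℤ => (x : ℚ)) := by
  rw [Units.val_mul, heckeGL, heckeGL, coe_intMat, coe_intMat, Matrix.map_mul_intCast]

variable {Δ : Subgroup SL(2, ℤ)} {R : Type*} [CommRing R]

/-- The operators commute. -/
theorem op_comm (hΓ : Gamma N ≤ Γ) (hle : Γ ≤ Top) (hl : (ℓ : ZMod N) = 1) (hl' : (ℓ' : ZMod N) = 1)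
    (hΓΔ : Γ ≤ Δ) (hΔ : Δ ≤ Top) (φ : Homs R Δ) :
    (stdOp hΓ hle hl).op hΓΔ hΔ ((stdOp hΓ hle hl').op hΓΔ hΔ φ)
      = (stdOp hΓ hle hl').op hΓΔ hΔ ((stdOp hΓ hle hl).op hΓΔ hΔ φ) := by
  obtain rfl | hne := eq_or_ne ℓ ℓ'
  · rfl
  set P := (stdOp hΓ hle hl).restrict hΓΔ hΔ
  set Q := (stdOp hΓ hle hl').restrict hΓΔ hΔ
  have hu : ∀ {p q : ℕ} [Fact p.Prime] [Fact q.Prime], p ≠ q → (p : ZMod N) = 1 →
      (q : ZMod N) = 1 → ∀ (i k : Option (Fin p) × Option (Fin q)), ∀ d ∈ Δ,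
      gq d * (heckeGL p (N : ℤ) i.1 * heckeGL q (N : ℤ) i.2)
        = heckeGL p (N : ℤ) k.1 * heckeGL q (N : ℤ) k.2 → i = k := by
    intro p q _ _ hpq hp hq i k d _ e
    have h := congrArg Units.val e
    rw [Units.val_mul, heckeGL_mul_heckeGL, heckeGL_mul_heckeGL, coe_gq,
      ← Matrix.map_mul_intCast] at h
    obtain ⟨h1, h2⟩ := uniq_heckeRep_mul hpq hp hq
      (Matrix.map_injective Int.cast_injective (α := ℤ) (β := ℚ) h)
    exact Prod.ext h1 h2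
  have h1 := Reps.homMap_comp P Q (hu hne hl hl') φ
  have h2 := Reps.homMap_comp Q P (hu hne.symm hl' hl) φ
  refine h2.symm.trans (Eq.trans ?_ h1)
  refine Reps.homMap_congr _ _ (fun i => ?_)
    (by simp only [Fintype.card_prod]; exact (Nat.mul_comm _ _).le) φ
  obtain ⟨a, b, d, hd, e⟩ := exists_swap (N := N) hne.symm i.1 i.2
  refine ⟨(a, b), d, hΓΔ (hΓ hd), Units.ext ?_⟩
  refine Eq.trans (heckeGL_mul_heckeGL i.1 i.2) ?_
  rw [Units.val_mul, coe_gq]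
  change _ = _ * ((heckeGL ℓ (N : ℤ) a * heckeGL ℓ' (N : ℤ) b : GL (Fin 2) ℚ) :
    Matrix (Fin 2) (Fin 2) ℚ)
  rw [heckeGL_mul_heckeGL, ← Matrix.map_mul_intCast, e]

/-! ## The algebra of operators -/

variable {σ : Type} {p : σ → ℕ} [hp : ∀ i, Fact (p i).Prime]

/-- The action of the polynomial algebra in the operators. -/
def opAlg (R : Type*) [CommRing R] (hΓ : Gamma N ≤ Γ) (hle : Γ ≤ Top)
    (hl : ∀ i, (p i : ZMod N) = 1) (hΓΔ : Γ ≤ Δ) (hΔ : Δ ≤ Top) :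
    MvPolynomial σ R →ₐ[R] Module.End R (Homs R Δ) :=
  commAeval (A := Module.End R (Homs R Δ)) (O := R)
    (fun i => (stdOp hΓ hle (hl i)).op hΓΔ hΔ)
    fun i j => LinearMap.ext fun φ => op_comm hΓ hle (hl i) (hl j) hΓΔ hΔ φ

/-- A variable acts as its operator. -/
theorem opAlg_X (hΓ : Gamma N ≤ Γ) (hle : Γ ≤ Top) (hl : ∀ i, (p i : ZMod N) = 1) (hΓΔ : Γ ≤ Δ)
    (hΔ : Δ ≤ Top) (i : σ) :
    opAlg R hΓ hle hl hΓΔ hΔ (MvPolynomial.X i) = (stdOp hΓ hle (hl i)).op hΓΔ hΔ := by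
  rw [opAlg, commAeval_X]

/-- Polynomials in the operators commute with conjugation. -/
theorem opAlg_act (h : IsNormalPair Γ Top) (hΓ : Gamma N ≤ Γ) (hl : ∀ i, (p i : ZMod N) = 1)
    (g : Top) (a : MvPolynomial σ R) (φ : Homs R Γ) :
    opAlg R hΓ h.le hl le_rfl h.le a (h.act g φ) = h.act g (opAlg R hΓ h.le hl le_rfl h.le a φ) :=
  (intertwine_of_X (ρ := opAlg R hΓ h.le hl le_rfl h.le) (ρ' := opAlg R hΓ h.le hl le_rfl h.le)
    (h.act g) (fun i x => by simp only [opAlg_X]; exact ((stdOp hΓ h.le (hl i)).op_act h g x).symm)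
    a φ).symm

/-- Operators commute with restriction. -/
theorem op_res (hΓ : Gamma N ≤ Γ) (hle : Γ ≤ Top) (hl : (ℓ : ZMod N) = 1) (hΓΔ : Γ ≤ Δ)
    (hΔ : Δ ≤ Top) (φ : Homs R Δ) :
    IsNormalPair.res hΓΔ ((stdOp hΓ hle hl).op hΓΔ hΔ φ)
      = (stdOp hΓ hle hl).op le_rfl hle (IsNormalPair.res hΓΔ φ) := by
  refine AddMonoidHom.ext fun γ => ?_
  obtain ⟨γ, rfl⟩ := Additive.ofMul.surjective γ
  rw [IsNormalPair.res_apply, NiceOp.op_apply, NiceOp.op_apply]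
  exact Finset.sum_congr rfl fun i _ => rfl

end Fermat.RM
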