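import Fermat.Agent.RM.Eisen
import Fermat.Agent.RM.Ops
import Fermat.Agent.HM.Forms
import Fermat.Agent.MF.Primitive

/-!
# From weight one to weight two: multiplication by the eta quotient, and `T ℓ` on `q`-series

The product is `wt2`, and `coeff_stdOp` computes `T ℓ` on series.
-/

set_option autoImplicit false

noncomputable section

namespace Fermat.RM

open scoped MatrixGroups ModularForm Real Manifold Topology
open UpperHalfPlane hiding I
open Complex Filter Function CongruenceSubgroup ModularGroup Fermat.HM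

local notation "𝕢" => Periodic.qParam

variable {E₁ E₁' E₂ : ℕ}

/-- The lower level shrinks as `E₁` grows by divisibility. -/
theorem lowLevel_mono (h : E₁ ∣ E₁') : lowLevel E₁' E₂ ≤ lowLevel E₁ E₂ := fun _ hg =>
  ⟨⟨hg.1.1, Gamma0_le_of_dvd h hg.1.2⟩, hg.2⟩

/-- The top level shrinks as `E₁` grows by divisibility. -/
theorem topLevel_mono (h : E₁ ∣ E₁') : topLevel E₁' ≤ topLevel E₁ := fun _ hg =>
  ⟨hg.1, Gamma0_le_of_dvd h hg.2⟩

/-- On `Γ₁(27)` multiplication by `b` carries the weight one slash to the weight two one. -/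
theorem mul_bFun_slash {f : ℍ → ℂ} {γ : SL(2, ℤ)} (hγ : γ ∈ Gamma1 27) :
    (f * bFun) ∣[(2 : ℤ)] γ = (f ∣[(1 : ℤ)] γ) * bFun := by
  rw [show (2 : ℤ) = 1 + 1 by norm_num, ModularForm.mul_slash_SL2, bFun_slash_of_mem hγ]

/-- The same for the elements with `-γ` in `Γ₁(27)`. -/
theorem mul_bFun_slash_neg {f : ℍ → ℂ} {γ : SL(2, ℤ)} (hγ : -γ ∈ Gamma1 27) :
    (f * bFun) ∣[(2 : ℤ)] γ = (f ∣[(1 : ℤ)] (-γ)) * bFun := by
  have hγ' := bFun_slash_of_mem hγ
  rw [weight_one_slash_neg] at hγ'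
  rw [show (2 : ℤ) = 1 + 1 by norm_num, ModularForm.mul_slash_SL2, weight_one_slash_neg,
    neg_eq_iff_eq_neg.mp hγ', mul_neg,
    neg_mul]

/-- The product of a form vanishing at the cusps with `b` vanishes at the cusps. -/
theorem isZeroAt_mul_bFun {f : ℍ → ℂ} {c : OnePoint ℝ}
    (h : ∀ γ : SL(2, ℤ), IsZeroAtImInfty (f ∣[(1 : ℤ)] γ)) (hc : IsCusp c 𝒮ℒ) :
    c.IsZeroAt (f * bFun) 2 := by
  rw [OnePoint.isZeroAt_iff_forall_SL2Z hc]
  intro γ _
  rw [show (2 : ℤ) = 1 + 1 by norm_num, ModularForm.mul_slash_SL2]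
  have h1 : (fun τ : ℍ => (bFun ∣[(1 : ℤ)] γ) τ) =O[atImInfty] fun _ : ℍ => (1 : ℝ) :=
    isBounded_bFun_slash γ
  have h2 : Tendsto (f ∣[(1 : ℤ)] γ) atImInfty (𝓝 0) := h γ
  have := ((Asymptotics.isLittleO_one_iff ℝ).mpr h2).mul_isBigO h1
  simp only [mul_one] at this
  exact (Asymptotics.isLittleO_one_iff ℝ).mp this

variable [NeZero E₁'] [NeZero E₂]

/-- **The product with the weight one form congruent to one.** -/
def wt2 (hdvd : E₁ ∣ E₁') :
    CuspForm ((lowLevel E₁ E₂).map (Matrix.SpecialLinearGroup.mapGL ℝ)) 1 →ₗ[ℂ]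
      CuspForm (pm (lowLevel E₁' E₂)) 2 where
  toFun f :=
    { toFun := ⇑f * bFun
      slash_action_eq' := fun A hA => by
        obtain ⟨γ, hγ, rfl⟩ := hA
        change (⇑f * bFun) ∣[(2 : ℤ)] γ = _
        rcases hγ with h | h
        · rw [mul_bFun_slash h.1.1, HM.slash_of_mem _ (lowLevel_mono hdvd h)]
        · rw [mul_bFun_slash_neg h.1.1, HM.slash_of_mem _ (lowLevel_mono hdvd h)]
      holo' := (CuspFormClass.holo f).mul mdifferentiable_bFun
      zero_at_cusps' := fun {c} hc => by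
        have := finiteIndex_lowLevel (E₁ := E₁') (E₂ := E₂)
        have : NeZero E₁ := ⟨fun h => NeZero.ne E₁' (Nat.eq_zero_of_zero_dvd (h ▸ hdvd))⟩
        have := finiteIndex_lowLevel (E₁ := E₁) (E₂ := E₂)
        rw [Subgroup.IsArithmetic.isCusp_iff_isCusp_SL2Z] at hc
        exact isZeroAt_mul_bFun (fun γ => CuspFormClass.zero_at_infty_slash f γ) hc }
  map_add' f g := DFunLike.coe_injective (by
    change (⇑(f + g)) * bFun = ⇑f * bFun + ⇑g * bFun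
    rw [FunLike.coe_add, add_mul])
  map_smul' a f := DFunLike.coe_injective (by
    change (⇑(a • f)) * bFun = a • (⇑f * bFun)
    rw [show ⇑(a • f) = a • ⇑f from rfl, smul_mul_assoc])

/-- The product as a function. -/
theorem coe_wt2 (hdvd : E₁ ∣ E₁')
    (f : CuspForm ((lowLevel E₁ E₂).map (Matrix.SpecialLinearGroup.mapGL ℝ)) 1) :
    ⇑(wt2 hdvd f) = ⇑f * bFun := rfl

omit [NeZero E₁'] [NeZero E₂] in
/-- The translation by `E₂` is in the lower level. -/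
theorem T_pow_mem_lowLevel : T ^ E₂ ∈ lowLevel E₁ E₂ :=
  ⟨by simpa using T_zpow_mem_topLevel (E₁ := E₁) (E₂ : ℤ),
    by simpa using ModularGroup_T_pow_mem_Gamma E₂ E₂ dvd_rfl⟩

omit [NeZero E₁'] [NeZero E₂] in
/-- A function fixed by the translation by `M` has period `M`. -/
theorem periodic_of_slash_T {f : ℍ → ℂ} {k : ℤ} {M : ℕ} (h : f ∣[k] (T ^ M) = f) :
    Function.Periodic (f ∘ ofComplex) ((M : ℝ) : ℂ) :=
  Fermat.MF.periodic_comp_ofComplex fun z => by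
    have h' := congrFun h z
    rw [ModularForm.SL_slash_apply, Fermat.MF.T_pow_smul] at h'
    have hden : denom (((T ^ M : SL(2, ℤ))) : GL (Fin 2) ℝ) z = 1 := by
      have e : ((T ^ M : SL(2, ℤ)) : Matrix (Fin 2) (Fin 2) ℤ) = !![1, (M : ℤ); 0, 1] := by
        rw [← zpow_natCast, ModularGroup.coe_T_zpow]
      rw [denom]
      simp [e, -map_pow]
    rw [hden] at h'
    simpa using h'

omit [NeZero E₁'] in
/-- A weight one form of the lower level has an analytic cusp function. -/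
theorem analyticAt_cuspFunction_lowLevel [NeZero E₁]
    (f : CuspForm ((lowLevel E₁ E₂).map (Matrix.SpecialLinearGroup.mapGL ℝ)) 1) :
    AnalyticAt ℂ (cuspFunction (E₂ : ℝ) ⇑f) 0 := by
  have := finiteIndex_lowLevel (E₁ := E₁) (E₂ := E₂)
  exact analyticAt_cuspFunction_zero (Nat.cast_pos.mpr (NeZero.pos E₂))
    (periodic_of_slash_T (HM.slash_of_mem _ T_pow_mem_lowLevel)) (CuspFormClass.holo f)
    (IsZeroAtImInfty.isBoundedAtImInfty (by simpa using CuspFormClass.zero_at_infty_slash f 1))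

/-- The series of the product. -/
theorem qExpansion_wt2 [NeZero E₁] (hdvd : E₁ ∣ E₁')
    (f : CuspForm ((lowLevel E₁ E₂).map (Matrix.SpecialLinearGroup.mapGL ℝ)) 1) :
    qExpansion (E₂ : ℝ) ⇑(wt2 hdvd f) =
      qExpansion (E₂ : ℝ) ⇑f * PowerSeries.map (Int.castRingHom ℂ) (etaInt E₂) := by
  rw [coe_wt2, qExpansion_mul (analyticAt_cuspFunction_lowLevel f)
    (analyticAt_cuspFunction_bFun (NeZero.pos E₂)), qExpansion_bFun (NeZero.pos E₂)]

/-! ## The operator on series -/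

omit [NeZero E₁'] [NeZero E₂] in
/-- The sum over the translates keeps only the exponents divisible by `ℓ`, multiplied by `ℓ`. -/
theorem sum_qParam_shift {ℓ : ℕ} [hℓ : Fact ℓ.Prime] {E N : ℕ} (hE : 0 < E) {c : ℕ}
    (hN : N = c * E) (hc : ¬ ℓ ∣ c) (z : ℂ) (m : ℕ) :
    ∑ j : Fin ℓ, 𝕢 (E : ℝ) ((z + (N : ℂ) * (j : ℕ)) / ℓ) ^ m =
      if ℓ ∣ m then (ℓ : ℂ) * 𝕢 (E : ℝ) z ^ (m / ℓ) else 0 := by
  have hℓ0 : (ℓ : ℂ) ≠ 0 := Nat.cast_ne_zero.mpr hℓ.out.ne_zero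
  have hE0 : (E : ℂ) ≠ 0 := Nat.cast_ne_zero.mpr hE.ne'
  have hterm : ∀ j : Fin ℓ, 𝕢 (E : ℝ) ((z + (N : ℂ) * (j : ℕ)) / ℓ) ^ m =
      𝕢 (E : ℝ) (z / ℓ) ^ m * (cexp (2 * π * I * ((c * m : ℕ) : ℂ) / ℓ)) ^ (j : ℕ) := fun j => by
    simp only [Periodic.qParam, ← Complex.exp_nat_mul, ← Complex.exp_add, hN]
    congr 1
    push_cast
    field_simp
  rw [Finset.sum_congr rfl fun j _ => hterm j, ← Finset.mul_sum,
    Fin.sum_univ_eq_sum_range (fun j => cexp (2 * π * I * ((c * m : ℕ) : ℂ) / ℓ) ^ j) ℓ]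
  split_ifs with hm
  · obtain ⟨m', rfl⟩ := hm
    have h1 : cexp (2 * π * I * ((c * (ℓ * m') : ℕ) : ℂ) / ℓ) = 1 := by
      rw [show 2 * (π : ℂ) * I * ((c * (ℓ * m') : ℕ) : ℂ) / ℓ = ((c * m' : ℕ) : ℂ) * (2 * π * I) by
        push_cast; field_simp]
      exact Complex.exp_nat_mul_two_pi_mul_I _
    rw [h1, Finset.sum_congr rfl fun j _ => one_pow j, Finset.sum_const, Finset.card_range,
      nsmul_eq_mul, mul_one, mul_comm, Nat.mul_div_cancel_left _ hℓ.out.pos, pow_mul, qParam_pow]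
    congr 3
    field_simp
  · have hcop : (c * m).Coprime ℓ := (hℓ.out.coprime_iff_not_dvd.mpr fun h =>
      ((Nat.Prime.dvd_mul hℓ.out).mp h).elim hc hm).symm
    have hprim := Complex.isPrimitiveRoot_exp_of_coprime (c * m) ℓ hℓ.out.ne_zero hcop
    rw [show 2 * (π : ℂ) * I * ((c * m : ℕ) : ℂ) / ℓ = 2 * π * I * (((c * m : ℕ) : ℂ) / ℓ) by ring,
      hprim.geom_sum_eq_zero hℓ.out.one_lt, mul_zero]

variable {Γ Top : Subgroup SL(2, ℤ)}

omit [NeZero E₁'] [NeZero E₂] in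
/-- Slashing in weight two by a representative of `T_ℓ` is a scalar times evaluation at the
translated point. -/
theorem slash_heckeGL {ℓ N : ℕ} [hℓ : Fact ℓ.Prime] (f : ℍ → ℂ) (i : Option (Fin ℓ)) (τ : ℍ) :
    ∃ τ' : ℍ, (τ' : ℂ) = (i.elim ((ℓ : ℂ) * τ) fun j => ((τ : ℂ) + (N : ℂ) * (j : ℕ)) / ℓ) ∧
      (f ∣[(2 : ℤ)] toReal (heckeGL ℓ (N : ℤ) i)) τ
        = (i.elim (ℓ : ℂ) fun _ => (ℓ : ℂ)⁻¹) * f τ' := by
  refine ⟨toReal (heckeGL ℓ (N : ℤ) i) • τ, ?_, ?_⟩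
  · have hd : 0 < ((toReal (heckeGL ℓ (N : ℤ) i)).det : ℝ) := by
      rw [Matrix.GeneralLinearGroup.val_det_apply, formMap.det_toReal]
      exact_mod_cast det_heckeGL_pos i
    rw [UpperHalfPlane.coe_smul_of_det_pos hd]
    rcases i with _ | j <;>
      simp [num, denom, toReal_apply, heckeGL, coe_intMat, heckeRep]
  · have hdet : ((toReal (heckeGL ℓ (N : ℤ) i)).det : ℝ) = ℓ := by
      rw [Matrix.GeneralLinearGroup.val_det_apply, formMap.det_toReal, heckeGL, coe_intMat,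
        show (heckeRep ℓ (N : ℤ) i).map (fun x : ℤ => (x : ℚ))
          = (Int.castRingHom ℚ).mapMatrix (heckeRep ℓ N i) from rfl, ← RingHom.map_det,
          det_heckeRep]
      simp
    have hpos : 0 < ((toReal (heckeGL ℓ (N : ℤ) i)).det : ℝ) := by
      rw [hdet]; exact_mod_cast hℓ.out.pos
    have hσ : UpperHalfPlane.σ (toReal (heckeGL ℓ (N : ℤ) i)) = ContinuousAlgEquiv.refl ℝ ℂ := by
      rw [UpperHalfPlane.σ, if_pos hpos]
    rw [ModularForm.slash_apply, hσ, hdet, abs_of_nonneg (Nat.cast_nonneg ℓ)]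
    have hℓ0 : (ℓ : ℂ) ≠ 0 := Nat.cast_ne_zero.mpr hℓ.out.ne_zero
    rcases i with _ | j <;>
      simp [denom, toReal_apply, heckeGL, coe_intMat, heckeRep, mul_comm]
    field_simp

omit [NeZero E₁'] [NeZero E₂] in
/-- **`T ℓ` on series.** At `ℓ ≡ 1` modulo the level the coefficients are
`a (ℓ n) + ℓ a (n / ℓ)`. -/
theorem coeff_stdOp [Γ.FiniteIndex] {ℓ N E : ℕ} [hℓ : Fact ℓ.Prime]
    (hΓ : CongruenceSubgroup.Gamma N ≤ Γ) (hle : Γ ≤ Top) (hl : (ℓ : ZMod N) = 1) (hE : 0 < E)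
    {c : ℕ} (hN : N = c * E) (hc : ¬ ℓ ∣ c)
    (hT : T ^ E ∈ Γ) (f : CuspForm Γ 2) (n : ℕ) :
    (qExpansion (E : ℝ) ⇑(formMap ((stdOp hΓ hle hl).restrict le_rfl hle) f)).coeff n =
      (qExpansion (E : ℝ) ⇑f).coeff (ℓ * n) +
        (ℓ : ℂ) * (if ℓ ∣ n then (qExpansion (E : ℝ) ⇑f).coeff (n / ℓ) else 0) := by
  have hE' : (0 : ℝ) < E := Nat.cast_pos.mpr hE
  have hℓ0 : (ℓ : ℂ) ≠ 0 := Nat.cast_ne_zero.mpr hℓ.out.ne_zero
  have hper : ∀ g : CuspForm Γ 2, Function.Periodic (⇑g ∘ ofComplex) ((E : ℝ) : ℂ) := fun g =>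
    periodic_of_slash_T (slash_of_mem g hT)
  have hbdd : ∀ g : CuspForm Γ 2, IsBoundedAtImInfty ⇑g := fun g =>
    IsZeroAtImInfty.isBoundedAtImInfty (by simpa using CuspFormClass.zero_at_infty_slash g 1)
  set g := formMap ((stdOp hΓ hle hl).restrict le_rfl hle) f
  set a := fun m => (qExpansion (E : ℝ) ⇑f).coeff m
  have hf : ∀ τ : ℍ, HasSum (fun m => a m • 𝕢 (E : ℝ) τ ^ m) (f τ) :=
    fun τ => hasSum_qExpansion hE' (hper f) (CuspFormClass.holo f) (hbdd f) τ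
  refine (UpperHalfPlane.qExpansion_coeff_unique g hE' (analyticAt_cuspFunction_zero hE' (hper g)
    (CuspFormClass.holo g) (hbdd g)) (c := fun n => a (ℓ * n) + (ℓ : ℂ) *
      if ℓ ∣ n then a (n / ℓ) else 0) (fun τ => ?_) n).symm
  have hinj : Function.Injective fun m : ℕ => ℓ * m := fun x y h =>
    Nat.eq_of_mul_eq_mul_left hℓ.out.pos h
  -- the translations
  have h1 : HasSum (fun n => a (ℓ * n) • 𝕢 (E : ℝ) τ ^ n)
      (∑ j : Fin ℓ, (⇑f ∣[(2 : ℤ)] toReal (heckeGL ℓ (N : ℤ) (some j))) τ) := by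
    choose τ' hτ' hval using fun j : Fin ℓ => slash_heckeGL (N := N) ⇑f (some j) τ
    simp only [Option.elim_some] at hτ' hval
    simp only [hval]
    have h := hasSum_sum (s := (Finset.univ : Finset (Fin ℓ)))
      fun j _ => (hf (τ' j)).mul_left (ℓ : ℂ)⁻¹
    have hs : ∀ m, ∑ j : Fin ℓ, (ℓ : ℂ)⁻¹ * (a m • 𝕢 (E : ℝ) (τ' j) ^ m) =
        if ℓ ∣ m then a m • 𝕢 (E : ℝ) τ ^ (m / ℓ) else 0 := fun m => by
      simp only [hτ', smul_eq_mul, ← Finset.mul_sum, sum_qParam_shift hE hN hc (τ : ℂ) m]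
      split_ifs
      · field_simp
      · simp
    simp only [hs] at h
    refine ((hinj.hasSum_iff (fun m hm => ?_)).mpr h).congr_fun fun n => ?_
    · rw [if_neg fun ⟨k, hk⟩ => hm ⟨k, hk.symm⟩]
    · simp [Function.comp, Nat.mul_div_cancel_left _ hℓ.out.pos]
  -- the diagonal matrix
  have h2 : HasSum (fun n => ((ℓ : ℂ) * if ℓ ∣ n then a (n / ℓ) else 0) • 𝕢 (E : ℝ) τ ^ n)
      ((⇑f ∣[(2 : ℤ)] toReal (heckeGL ℓ (N : ℤ) none)) τ) := by
    obtain ⟨τ', hτ', hval⟩ := slash_heckeGL (ℓ := ℓ) (N := N) ⇑f none τ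
    simp only [Option.elim_none] at hτ' hval
    rw [hval]
    have h := (hf τ').mul_left (ℓ : ℂ)
    refine (hinj.hasSum_iff (fun m hm => ?_)).mp (h.congr_fun fun n => ?_)
    · rw [if_neg fun ⟨k, hk⟩ => hm ⟨k, hk.symm⟩, mul_zero, zero_smul]
    · simp only [Function.comp, dvd_mul_right, if_true, Nat.mul_div_cancel_left _ hℓ.out.pos,
        smul_eq_mul, hτ', pow_mul, ← qParam_pow]
      ring
  have h3 := h1.add h2
  convert h3.congr_fun (fun n => add_smul _ _ _) using 1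
  rw [show g = formMap ((stdOp hΓ hle hl).restrict le_rfl hle) f from rfl, coe_formMap,
    Finset.sum_apply]
  change ∑ i : Option (Fin ℓ), (⇑f ∣[(2 : ℤ)] toReal (heckeGL ℓ (N : ℤ) i)) τ = _
  rw [Fintype.sum_option, add_comm]

end Fermat.RM
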