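import Fermat.Agent.RM.Residual
import Fermat.Agent.RM.Fundamental

/-!
# The level and the twist at three

An eigen system at `Γ₀(3 M)` with residual representation a twist of `ρ` is old at `3`, since
inertia at `3` has no eigenvalue one (`isOldAt_three`); at `Γ₀(M)` flatness removes the twist
(`not_twist_of_flat`). The result `exists_point_residual` is the last step of `Main`.
-/

set_option autoImplicit false

noncomputable section

namespace Fermat.RM

open IsLocalRing Matrix
open Fermat.GR Fermat.GR.RT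

local notation "ℚbar" => AlgebraicClosure ℚ
local notation "Γℚ" => (AlgebraicClosure ℚ ≃ₐ[ℚ] AlgebraicClosure ℚ)
local notation "M2" R => Matrix (Fin 2) (Fin 2) R
local notation "M23" => Matrix (Fin 2) (Fin 2) (ZMod 3)
local notation "GL23" => GL (Fin 2) (ZMod 3)

/-- Units modulo three square to one. -/
theorem units_sq_three : ∀ a : ZMod 3, a ≠ 0 → a * a = 1 := by decide

variable [Fact (Nat.Prime 3)] {ρ : Γℚ →* GL23}

omit [Fact (Nat.Prime 3)] in
/-- Unipotent inertia of an eigen system of squarefree level away from three. -/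
theorem unipotent_inertia (hNew : NewInput 3) {K : ℕ} [NeZero K] (hK : Squarefree K)
    {O : Type} [CommRing O] [IsDomain O] [IsDiscreteValuationRing O]
    [IsAdicComplete (maximalIdeal O) O] [Finite (ResidueField O)] [CharZero O]
    (h3O : (3 : O) ∈ maximalIdeal O) {x : MvPolynomial (Nat.Primes ⊕ (ZMod K)ˣ) ℤ →+* O}
    (hx : IsPoint K ⊤ x) {r : Γℚ →* M2 O} (hr : IsAttached 3 x r) :
    ∀ ℓ : ℕ, ℓ.Prime → ℓ ≠ 3 → ∀ A : ValuationSubring ℚbar, A.LiesOverPrime ℓ →
      ∀ σ ∈ A.inertiaSubgroupIn ℚ, (r σ - 1) * (r σ - 1) = 0 := by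
  intro ℓ hℓ hℓ3 A hA σ hσ
  by_cases hdvd : ℓ ∣ K
  · obtain ⟨K', hK'⟩ := hdvd
    have hnd : ¬ ℓ ∣ K' := fun h => hℓ.one_lt.ne' (Nat.isUnit_iff.mp (hK ℓ (by
      rw [hK']; exact Nat.mul_dvd_mul_left ℓ h)))
    exact (hNew K ⊤ (Subgroup.mem_top _) ℓ hℓ hℓ3 K' (by rw [hK', mul_comm]) hnd
      (fun u _ => Subgroup.mem_top u) O (by exact_mod_cast h3O) x hx r hr A hA).1 σ hσ
  · rw [hr.unramified ℓ hℓ (fun h => (hℓ.dvd_mul.mp h).elim hdvd fun h3 =>
      hℓ3 ((Nat.prime_dvd_prime_iff_eq hℓ Nat.prime_three).mp h3)) A hA σ hσ, sub_self, mul_zero]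

omit [Fact (Nat.Prime 3)] in
/-- Conjugation keeps the trace and the determinant. -/
theorem trace_det_conjHom {k : Type} [CommRing k] (P : (M2 k)ˣ) (f : Γℚ →* M2 k) (σ : Γℚ) :
    (conjHom P f σ).trace = (f σ).trace ∧ (conjHom P f σ).det = (f σ).det :=
  ⟨Matrix.trace_units_conj P (f σ), Matrix.det_units_conj P (f σ)⟩

/-- If `ρ` is surjective and a conjugate of the reduction is `ρ` up to scalars, the reduction
spans all matrices. -/
theorem span_redRep_eq_top (hs : Function.Surjective ρ) {O : Type} [CommRing O] [IsLocalRing O]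
    (c : ZMod 3 →+* ResidueField O) {r : Γℚ →* M2 O}
    {P : (M2 (ResidueField O))ˣ} {s : Γℚ → ResidueField O}
    (hP : ∀ σ, (ρ σ : M23).map c = s σ • conjHom P (redRep r) σ) :
    Submodule.span (ResidueField O) (Set.range fun σ => (r σ).map (residue O)) = ⊤ := by
  rw [eq_top_iff]
  set k := ResidueField O
  set S := Submodule.span k (Set.range fun σ => (r σ).map (residue O))
  intro M _
  have h : ∀ N : M2 k, (↑P⁻¹ : M2 k) * N * (P : M2 k) ∈ S := by
    intro N
    have hN : N ∈ Submodule.span k (Set.range fun σ => (ρ σ : M23).map c) :=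
      GR.RT.span_range_map_eq_top hs c ▸ Submodule.mem_top
    induction hN using Submodule.span_induction with
    | mem N hN =>
      obtain ⟨σ, rfl⟩ := hN
      dsimp only
      rw [hP σ, mul_smul_comm, smul_mul_assoc]
      refine S.smul_mem _ ?_
      change (↑P⁻¹ : M2 k) * ((P : M2 k) * redRep r σ * (↑P⁻¹ : M2 k)) * (P : M2 k) ∈ S
      simp only [mul_assoc, P.inv_mul, mul_one]
      rw [← mul_assoc, P.inv_mul, one_mul]
      exact Submodule.subset_span ⟨σ, rfl⟩
    | zero => simp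
    | add N N' _ _ h h' => rw [mul_add, add_mul]; exact add_mem h h'
    | smul s N _ h => rw [mul_smul_comm, smul_mul_assoc]; exact S.smul_mem s h
  have := h ((P : M2 k) * M * (↑P⁻¹ : M2 k))
  simpa only [mul_assoc, P.inv_mul, mul_one, ← mul_assoc (↑P⁻¹ : M2 k), one_mul] using this

/-- **An eigen system at `3 K'` with residual representation `ρ` or its twist is old at `3`**, if
inertia at `3` has an element of order eight: ordinarity would give it the eigenvalue one. -/
theorem isOldAt_three (hOrd : OrdInput 3) {K K' : ℕ} [NeZero K] (hK : K' * 3 = K) (h3 : ¬ 3 ∣ K')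
    {O : Type} [CommRing O] [IsDomain O] [IsDiscreteValuationRing O]
    [IsAdicComplete (maximalIdeal O) O] [Finite (ResidueField O)] [CharZero O]
    (h3O : (3 : O) ∈ maximalIdeal O) (c : ZMod 3 →+* ResidueField O) (hs : Function.Surjective ρ)
    (hsup : ∀ A : ValuationSubring ℚbar, A.LiesOverPrime 3 →
      ∃ σ ∈ A.inertiaSubgroupIn ℚ, orderOf (ρ σ) = 8)
    {x : MvPolynomial (Nat.Primes ⊕ (ZMod K)ˣ) ℤ →+* O} (hx : IsPoint K ⊤ x) {r : Γℚ →* M2 O}
    (hr : IsAttached 3 x r) {P : (M2 (ResidueField O))ˣ}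
    (hP : (∀ σ, conjHom P (redRep r) σ = (ρ σ : M23).map c) ∨
      ∀ σ, conjHom P (redRep r) σ = c (ρ σ : M23).det • (ρ σ : M23).map c) :
    IsOldAt K ⊤ x 3 := by
  by_contra hold
  have hspan : Submodule.span (ResidueField O)
      (Set.range fun σ => (r σ).map (residue O)) = ⊤ := by
    rcases hP with hP | hP
    · exact span_redRep_eq_top hs c (P := P) (s := fun _ => 1) fun σ => by rw [hP σ, one_smul]
    · exact span_redRep_eq_top hs c (P := P) (s := fun σ => c (ρ σ : M23).det) fun σ => by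
        rw [hP σ, smul_smul, ← map_mul,
          units_sq_three _ ((Matrix.isUnit_iff_isUnit_det _).mp (ρ σ).isUnit).ne_zero, map_one,
          one_smul]
  obtain ⟨A, hA⟩ := Fermat.CFT.exists_place Nat.prime_three
  obtain ⟨σ, hσ, h8⟩ := hsup A hA
  obtain ⟨ht, hd⟩ := trace_det_of_orderOf_eight h8
  -- if new at `3`, inertia is upper triangular with corner `1`, so `trace = 1 + det`
  obtain ⟨Q, h10, h11, -⟩ := hOrd K ⊤ (Subgroup.mem_top _) (by norm_num) K' hK h3
    (fun u _ => Subgroup.mem_top u) O (by exact_mod_cast h3O) x hx hold r hr hspan A hA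
  set a := (Q : M2 O) * r σ * (↑Q⁻¹ : M2 O) with ha
  have h0 : a.trace = 1 + a.det := by
    have a10 : a 1 0 = 0 := h10 σ (Fermat.FLAT.inertia_le_decomposition A hσ)
    have a11 : a 1 1 = 1 := h11 σ hσ
    rw [Matrix.trace_fin_two, Matrix.det_fin_two, a10, a11]
    ring
  rw [ha, Matrix.trace_units_conj, Matrix.det_units_conj] at h0
  have h1 := congrArg (residue O) h0
  rw [map_add, map_one, ← trace_redRep, ← det_redRep, ← (trace_det_conjHom P (redRep r) σ).1,
    ← (trace_det_conjHom P (redRep r) σ).2] at h1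
  have htr : ((ρ σ : M23).map c).trace = c (ρ σ : M23).trace :=
    (AddMonoidHom.map_trace c.toAddMonoidHom _).symm
  have hdt : ((ρ σ : M23).map c).det = c (ρ σ : M23).det := (RingHom.map_det c _).symm
  refine ht (c.injective ?_)
  rw [map_zero]
  rcases hP with hP | hP <;> rw [hP σ] at h1
  · rw [htr, hdt, hd, map_neg, map_one, add_neg_cancel] at h1
    exact h1
  · rw [Matrix.trace_smul, Matrix.det_smul, htr, hdt, hd, map_neg, map_one, smul_eq_mul,
      Fintype.card_fin] at h1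
    linear_combination -h1

/-- **At a level prime to `3` the residual representation is not the twist of the torsion of a
curve with good reduction at `3`**: both would be flat, giving the tame ratio of `σ` both signs. -/
theorem not_twist_of_flat (hFlat : FlatInput 3) {W : WeierstrassCurve ℤ} (hW : W.Δ ≠ 0)
    (hgood : ¬ (3 : ℤ) ∣ W.Δ) (hs : Function.Surjective (SW.Tors.tRep (p := 3) W hW))
    (hsup : ∀ A : ValuationSubring ℚbar, A.LiesOverPrime 3 →
      ∃ σ ∈ A.inertiaSubgroupIn ℚ, orderOf (SW.Tors.tRep (p := 3) W hW σ) = 8)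
    {M : ℕ} [NeZero M] (h3 : ¬ 3 ∣ M)
    {O : Type} [CommRing O] [IsDomain O] [IsDiscreteValuationRing O]
    [IsAdicComplete (maximalIdeal O) O] [Finite (ResidueField O)] [CharZero O]
    (h3O : (3 : O) ∈ maximalIdeal O) (c : ZMod 3 →+* ResidueField O)
    {y : MvPolynomial (Nat.Primes ⊕ (ZMod M)ˣ) ℤ →+* O} (hy : IsPoint M ⊤ y) {r : Γℚ →* M2 O}
    (hr : IsAttached 3 y r) {P : (M2 (ResidueField O))ˣ}
    (hP : ∀ σ, conjHom P (redRep r) σ = c (SW.Tors.tRep (p := 3) W hW σ : M23).det •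
      (SW.Tors.tRep (p := 3) W hW σ : M23).map c) : False := by
  classical
  set ρ := SW.Tors.tRep (p := 3) W hW
  set k := ResidueField O
  have hsq : ∀ σ, (ρ σ : M23).det * (ρ σ : M23).det = 1 := fun σ =>
    units_sq_three _ ((Matrix.isUnit_iff_isUnit_det _).mp (ρ σ).isUnit).ne_zero
  have hspan := span_redRep_eq_top hs c (r := r) (P := P) (s := fun σ => c (ρ σ : M23).det)
    fun σ => by rw [hP σ, smul_smul, ← map_mul, hsq, map_one, one_smul]
  have hflat := hFlat M ⊤ (Subgroup.mem_top _) h3 (by norm_num) O (by exact_mod_cast h3O) y hy r hr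
    hspan
  obtain ⟨A, hA⟩ := Fermat.CFT.exists_place Nat.prime_three
  have h : Fermat.EC.Val.IsPlace A 3 := ⟨Nat.prime_three, hA⟩
  obtain ⟨σ, hσ, h8⟩ := hsup A hA
  obtain ⟨ht, hd⟩ := trace_det_of_orderOf_eight h8
  obtain ⟨π, hπ⟩ := Fermat.FLAT.exists_pi 3 (3 ^ 2 - 1) (by norm_num)
  -- the model of the reduction
  set V := repOf r hr.cont
  have : Finite (O ⧸ maximalIdeal O) := (inferInstanceAs (Finite (ResidueField O)))
  have : Finite (V.V ⧸ (maximalIdeal O • (⊤ : Submodule O V.V))) := by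
    have : Module.Finite (O ⧸ maximalIdeal O) (V.V ⧸ (maximalIdeal O • (⊤ : Submodule O V.V))) :=
      Module.Finite.of_restrictScalars_finite O (O ⧸ maximalIdeal O) _
    exact Module.finite_of_finite (O ⧸ maximalIdeal O)
  obtain ⟨G⟩ := Fermat.FLAT.nonempty_model_of_isFlatAt V hflat (maximalIdeal O) (P := A) h
    (H := ⊤) le_top
  let red₂ : (Fin 2 → O) →ₗ[O] (Fin 2 → k) := (Algebra.linearMap O k).compLeft (Fin 2)
  have hker : maximalIdeal O • (⊤ : Submodule O V.V) ≤ LinearMap.ker red₂ := by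
    refine Submodule.smul_le.mpr fun a ha v _ => funext fun i => ?_
    change residue O (a * (show Fin 2 → O from v) i) = 0
    rw [map_mul, (residue_eq_zero_iff a).mpr ha, zero_mul]
  let pr : (V.V ⧸ (maximalIdeal O • (⊤ : Submodule O V.V))) →+ (Fin 2 → k) :=
    ((maximalIdeal O • (⊤ : Submodule O V.V)).liftQ red₂ hker).toAddMonoidHom
  have hpr : Function.Surjective pr := fun v => by
    choose w hw using fun i => residue_surjective (v i)
    exact ⟨Submodule.Quotient.mk (show V.V from w), funext hw⟩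
  let g' : Γℚ → AddMonoid.End (Fin 2 → k) := fun τ => (Matrix.mulVecLin (redRep r τ)).toAddMonoidHom
  have hg : ∀ τ ∈ (⊤ : Subgroup Γℚ), ∀ v, pr (Fermat.FLAT.levelHom V (maximalIdeal O) τ v) =
      g' τ (pr v) := by
    intro τ _ v
    obtain ⟨v, rfl⟩ := Submodule.Quotient.mk_surjective _ v
    funext i
    exact RingHom.map_mulVec (residue O) (r τ) (show Fin 2 → O from v) i
  let G' := G.quot h pr hpr hg
  have : CharP k 3 := charP_of_injective_ringHom c.injective 3
  -- `j`, the `𝔽₃`-structure, carries the twist `R` to the action on the model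
  let j : (Fin 2 → ZMod 3) →+ (Fin 2 → k) :=
    (Matrix.mulVecLin (↑P⁻¹ : M2 k)).toAddMonoidHom.comp (c.toAddMonoidHom.compLeft (Fin 2))
  have hj : ∀ v, j v = (↑P⁻¹ : M2 k) *ᵥ (c ∘ v) := fun v => rfl
  have hjinj : Function.Injective j := fun u v huv => by
    rw [hj, hj] at huv
    have h1 := congrArg ((P : M2 k) *ᵥ ·) huv
    simp only [Matrix.mulVec_mulVec, P.mul_inv, Matrix.one_mulVec] at h1
    exact funext fun i => c.injective (congrFun h1 i)
  let R : Γℚ → M23 := fun τ => (ρ τ : M23).det • (ρ τ : M23)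
  have hR : ∀ τ ∈ A.inertiaSubgroupIn ℚ, ∀ v, g' τ (j v) = j (R τ *ᵥ v) := by
    intro τ _ v
    change redRep r τ *ᵥ j v = j (R τ *ᵥ v)
    rw [hj, hj, show c ∘ (R τ *ᵥ v) = (R τ).map c *ᵥ (c ∘ v) from
      funext fun i => RingHom.map_mulVec c (R τ) v i, Matrix.mulVec_mulVec, Matrix.mulVec_mulVec]
    congr 1
    rw [show (R τ).map c = conjHom P (redRep r) τ by
      rw [hP τ]; exact Matrix.ext fun i j => map_mul c _ _]
    change _ = (↑P⁻¹ : M2 k) * ((P : M2 k) * redRep r τ * (↑P⁻¹ : M2 k))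
    rw [← mul_assoc, ← mul_assoc, P.inv_mul, one_mul]
  have hRt : (R σ).trace = -(ρ σ : M23).trace := by
    change ((ρ σ : M23).det • (ρ σ : M23)).trace = _
    rw [Matrix.trace_smul, hd, smul_eq_mul, neg_one_mul]
  have hRd : (R σ).det = -1 := by
    change ((ρ σ : M23).det • (ρ σ : M23)).det = _
    rw [Matrix.det_smul, hd, Fintype.card_fin]
    ring
  have e1 := tame_relation h hπ G' (fun v => funext fun i => by
    rw [Pi.smul_apply, nsmul_eq_mul, CharP.cast_eq_zero k 3, zero_mul, Pi.zero_apply]) j hjinj R hR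
    hσ (by rw [hRt]; exact neg_ne_zero.mpr ht) hRd
  rw [hRt] at e1
  exact false_of_both_signs h ht (tame_relation_curve hW hgood h hπ hσ ht hd) e1

/-- **An eigen system at `Γ₀(M)` with residual representation the torsion of the curve**, from one
at `Γ₀(3 M)` with the eigenvalues of the lift. -/
theorem exists_point_residual (hAtt : AttachInput 3) (hNew : NewInput 3) (hOrd : OrdInput 3)
    (hFlat : FlatInput 3) {W : WeierstrassCurve ℤ} (hW : W.Δ ≠ 0) (hgood : ¬ (3 : ℤ) ∣ W.Δ)
    (hρ : IsSemistableResidual 3 (SW.Tors.tRep (p := 3) W hW))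
    (hsup : ∀ A : ValuationSubring ℚbar, A.LiesOverPrime 3 →
      ∃ σ ∈ A.inertiaSubgroupIn ℚ, orderOf (SW.Tors.tRep (p := 3) W hW σ) = 8)
    {M : ℕ} [NeZero M] (hM : Squarefree M) (h3 : ¬ 3 ∣ M) {N : ℕ} [NeZero N]
    (hbad : ∀ ℓ : ℕ, ℓ.Prime → ℓ ∣ 3 * M → ℓ ∣ N)
    {O : Type} [CommRing O] [IsDomain O] [IsDiscreteValuationRing O]
    [IsAdicComplete (maximalIdeal O) O] [Finite (ResidueField O)] [CharZero O]
    (h3O : (3 : O) ∈ maximalIdeal O) (c : ZMod 3 →+* ResidueField O)
    {x : MvPolynomial (Nat.Primes ⊕ (ZMod (3 * M))ˣ) ℤ →+* O} (hx : IsPoint (3 * M) ⊤ x)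
    (htr : ∀ i : Idx (SW.Tors.tRep (p := 3) W hW) N,
      residue O (tVal x i.prime) = (i.tr : ResidueField O)) :
    ∃ y : MvPolynomial (Nat.Primes ⊕ (ZMod M)ˣ) ℤ →+* O, IsPoint M ⊤ y ∧
      ∃ r : Γℚ →* M2 O, IsAttached 3 y r ∧ ∃ P : (M2 (ResidueField O))ˣ,
        ∀ σ, conjHom P (redRep r) σ = (SW.Tors.tRep (p := 3) W hW σ : M23).map c := by
  set ρ := SW.Tors.tRep (p := 3) W hW
  have h3M : Squarefree (3 * M) :=
    (Nat.squarefree_mul (Nat.prime_three.coprime_iff_not_dvd.mpr h3)).mpr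
      ⟨Nat.prime_three.prime.squarefree, hM⟩
  have hdiv : ∀ ℓ : ℕ, ℓ.Prime → ∀ K : ℕ, (K = 3 * M ∨ K = M) → ℓ ∣ K * 3 → ℓ ∣ N := by
    intro ℓ hℓ K hK h
    refine hbad ℓ hℓ ?_
    rcases hℓ.dvd_mul.mp h with h | h
    · rcases hK with rfl | rfl
      · exact h
      · exact dvd_mul_of_dvd_right h 3
    · exact dvd_mul_of_dvd_left h M
  -- at level `3 M`: the representation is `ρ` up to the twist, hence the system is old at `3`
  obtain ⟨r, hr⟩ := hAtt (3 * M) ⊤ (Subgroup.mem_top _) O (by exact_mod_cast h3O) x hx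
  obtain ⟨P, hP⟩ := exists_twist hρ c (fun ℓ hℓ h => hdiv ℓ hℓ _ (Or.inl rfl) h) hx hr htr
    (unipotent_inertia hNew h3M h3O hx hr)
  obtain ⟨K', hne, hdvd, hK', y, hy, hty, -⟩ :=
    isOldAt_three hOrd (mul_comm M 3) h3 h3O c hρ.surjective hsup hx hr hP
  obtain rfl : K' = M := by omega
  have := hne
  rw [Subgroup.map_top_of_surjective _ (ZMod.unitsMap_surjective hdvd)] at hy
  obtain ⟨r', hr'⟩ := hAtt K' ⊤ (Subgroup.mem_top _) O (by exact_mod_cast h3O) y hy
  have htr' : ∀ i : Idx ρ N, residue O (tVal y i.prime) = (i.tr : ResidueField O) := fun i => by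
    rw [hty i.prime i.2.1 fun e => ?_]
    · exact htr i
    · have h1 := i.cast_prime
      have h3N : 3 ∣ N := hbad 3 Nat.prime_three (dvd_mul_right 3 _)
      have h2 := congrArg (ZMod.castHom h3N (ZMod 3)) h1
      rw [e, map_natCast, map_one, ZMod.natCast_self] at h2
      exact zero_ne_one h2
  -- at level `M` flatness removes the twist
  obtain ⟨P', hP'⟩ := exists_twist hρ c (fun ℓ hℓ h => hdiv ℓ hℓ _ (Or.inr rfl) h) hy hr' htr'
    (unipotent_inertia hNew hM h3O hy hr')
  rcases hP' with hP' | hP'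
  · exact ⟨y, hy, r', hr', P', hP'⟩
  · exact (not_twist_of_flat hFlat hW hgood hρ.surjective hsup h3 h3O c hy hr' hP').elim

end Fermat.RM
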